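import Fermat.Agent.Subspace.NumberFieldPlaces
import Mathlib.NumberTheory.NumberField.ProductFormula
import Mathlib.NumberTheory.NumberField.Units.Basic
import Mathlib.RingTheory.DedekindDomain.FiniteAdeleRing
import Mathlib.RingTheory.DedekindDomain.SInteger

/-!
# The unit equation in several variables over a number field

In a vanishing sum of `S`-units, one of them one, the forms omitting the largest term at each
place have product the inverse of the height, so the subspace theorem leaves finitely many linear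
relations; induction on the number of terms gives finiteness (Evertse; van der Poorten and
Schlickewei).
-/

set_option autoImplicit false
set_option linter.style.haveILetI false

noncomputable section

namespace FA.Subspace

open Finset Matrix NumberField IsDedekindDomain WithZero

variable {K : Type*} [Field K] [NumberField K]

/-- An `S`-unit times one of finitely many nonzero factors. -/
def IsUnitUpTo (S : Finset (HeightOneSpectrum (𝓞 K))) (A : Finset K) (z : K) : Prop :=
  ∃ a ∈ A, a ≠ 0 ∧ ∃ u ∈ (S : Set (HeightOneSpectrum (𝓞 K))).unit K, z = a * (u : K)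

open scoped Classical in
/-- The products of two finite sets. -/
def scaleBy (B A : Finset K) : Finset K := (B ×ˢ A).image fun p => p.1 * p.2

open scoped Classical in
/-- The quotients of a finite set. -/
def ratios (A : Finset K) : Finset K := (A ×ˢ A).image fun p => p.1 / p.2

variable {S : Finset (HeightOneSpectrum (𝓞 K))}

theorem IsUnitUpTo.ne_zero {A : Finset K} {z : K} : IsUnitUpTo S A z → z ≠ 0 := by
  rintro ⟨a, -, ha, u, -, rfl⟩
  exact mul_ne_zero ha u.ne_zero

theorem IsUnitUpTo.scale {B A : Finset K} {b z : K} (h : IsUnitUpTo S A z) (hb : b ∈ B)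
    (hb0 : b ≠ 0) : IsUnitUpTo S (scaleBy B A) (b * z) := by
  classical
  obtain ⟨a, ha, ha0, u, hu, rfl⟩ := h
  exact ⟨b * a, mem_image.2 ⟨(b, a), mem_product.2 ⟨hb, ha⟩, rfl⟩, mul_ne_zero hb0 ha0, u, hu,
    (mul_assoc _ _ _).symm⟩

theorem IsUnitUpTo.div {A : Finset K} {y z : K} (hy : IsUnitUpTo S A y) (hz : IsUnitUpTo S A z) :
    IsUnitUpTo S (ratios A) (y / z) := by
  classical
  obtain ⟨a, ha, ha0, u, hu, rfl⟩ := hy
  obtain ⟨b, hb, hb0, v, hv, rfl⟩ := hz
  exact ⟨a / b, mem_image.2 ⟨(a, b), mem_product.2 ⟨ha, hb⟩, rfl⟩, div_ne_zero ha0 hb0,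
    u / v, div_mem hu hv, by rw [Units.val_div_eq_div_val, mul_div_mul_comm]⟩

theorem adicAbv_eq_one_iff (v : HeightOneSpectrum (𝓞 K)) (x : K) :
    HeightOneSpectrum.adicAbv K v x = 1 ↔ v.valuation K x = 1 := by
  rw [NumberField.HeightOneSpectrum.adicAbv_def, NNReal.coe_eq_one]
  have h := (WithZeroMulInt.toNNReal_strictMono
    (NumberField.HeightOneSpectrum.one_lt_absNorm_nnreal v)).injective.eq_iff (a := v.valuation K x)
    (b := 1)
  rwa [map_one] at h

theorem mem_unit_iff {x : Kˣ} : x ∈ (S : Set (HeightOneSpectrum (𝓞 K))).unit K ↔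
    ∀ v ∉ S, HeightOneSpectrum.adicAbv K v (x : K) = 1 := by
  simp only [adicAbv_eq_one_iff]
  exact Iff.rfl

theorem exists_coe_eq_of_adicAbv_le_one {x : K}
    (h : ∀ v : HeightOneSpectrum (𝓞 K), HeightOneSpectrum.adicAbv K v x ≤ 1) :
    ∃ y : 𝓞 K, (y : K) = x := by
  refine HeightOneSpectrum.mem_integers_of_valuation_le_one K x fun v => ?_
  have h1 := h v
  rw [NumberField.HeightOneSpectrum.adicAbv_def, ← NNReal.coe_one, NNReal.coe_le_coe,
    ← map_one (WithZeroMulInt.toNNReal
      (NumberField.HeightOneSpectrum.absNorm_ne_zero v))] at h1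
  exact (WithZeroMulInt.toNNReal_strictMono
    (NumberField.HeightOneSpectrum.one_lt_absNorm_nnreal v)).le_iff_le.1 h1

/-- A unit of the integers is an `S`-unit. -/
theorem map_units_mem_unit (u : (𝓞 K)ˣ) :
    Units.map (algebraMap (𝓞 K) K) u ∈ (S : Set (HeightOneSpectrum (𝓞 K))).unit K :=
  mem_unit_iff.2 fun v _ => by
    rw [← FinitePlace.norm_embedding]
    exact (FinitePlace.norm_eq_one_iff_notMem K v (u : 𝓞 K)).2 fun h =>
      v.isPrime.ne_top (Ideal.eq_top_of_isUnit_mem _ h u.isUnit)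

theorem IsUnitUpTo.of_unit {A : Finset K} {a z : K} (ha : a ∈ A) (ha0 : a ≠ 0) (u : (𝓞 K)ˣ)
    (h : z = a * (u : K)) : IsUnitUpTo S A z :=
  ⟨a, ha, ha0, _, map_units_mem_unit u, h.trans (by rw [Units.coe_map]; rfl)⟩

/-- **The product formula for an `S`-unit.** -/
theorem prod_abv_unit {x : Kˣ} (hx : x ∈ (S : Set (HeightOneSpectrum (𝓞 K))).unit K) :
    (∏ φ : K →+* ℂ, ‖φ (x : K)‖) * ∏ v ∈ S, HeightOneSpectrum.adicAbv K v (x : K) = 1 := by
  have h1 : ∏ᶠ w : FinitePlace K, w (x : K) =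
      ∏ v ∈ S, HeightOneSpectrum.adicAbv K v (x : K) := by
    rw [← finprod_comp_equiv (FinitePlace.equivHeightOneSpectrum (K := K)).symm]
    simp only [FinitePlace.equivHeightOneSpectrum_symm_apply, FinitePlace.norm_embedding]
    exact finprod_eq_prod_of_mulSupport_subset _ fun v hv => mem_coe.2
      (by_contra fun hn => hv (mem_unit_iff.1 hx v hn))
  rw [← h1, prod_norm_embeddings, ← Rat.cast_abs, ← InfinitePlace.prod_eq_abs_norm]
  exact prod_abs_eq_one x.ne_zero

theorem prod_norm_unit (u : (𝓞 K)ˣ) : ∏ φ : K →+* ℂ, ‖φ (u : K)‖ = 1 := by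
  have h := prod_abv_unit (map_units_mem_unit (S := ∅) u)
  rwa [prod_empty, mul_one] at h

/-- The rows omitting one index are independent. -/
theorem det_omit_ne_zero {F : Type*} [Field F] {m : ℕ} (c : Fin (m + 1) → F) (hc : ∀ a, c a ≠ 0)
    (k : Fin (m + 1 + 1)) :
    (Matrix.of fun j => (Fin.lastCases c (fun a => Pi.single a 1) :
      Fin (m + 1 + 1) → Fin (m + 1) → F) (k.succAbove j)).det ≠ 0 := fun h0 => by
  obtain ⟨y, hy, hy0⟩ := exists_mulVec_eq_zero_iff.2 h0
  set row : Fin (m + 1 + 1) → Fin (m + 1) → F := Fin.lastCases c fun a => Pi.single a 1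
  have hrow : ∀ i, i ≠ k → ∑ a, row i a * y a = 0 := fun i hi => by
    obtain ⟨j, rfl⟩ := Fin.exists_succAbove_eq hi
    exact congrFun hy0 j
  have hza : ∀ a : Fin (m + 1), a.castSucc ≠ k → y a = 0 := fun a ha => by
    simpa [row, Pi.single_apply] using hrow _ ha
  refine hy (funext fun a => ?_)
  by_contra hne
  have hk : a.castSucc = k := by_contra fun h => hne (hza a h)
  have h := hrow (Fin.last (m + 1)) (hk ▸ (Fin.castSucc_lt_last a).ne')
  rw [sum_eq_single a (fun b _ hb => by
    rw [hza b fun e => hb (Fin.castSucc_injective _ (e.trans hk.symm)), mul_zero])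
    (fun h => absurd (mem_univ a) h)] at h
  simp only [row, Fin.lastCases_last, mul_eq_zero, hc, false_or] at h
  exact hne h

/-- All primes above the rational primes below those of `S`. -/
theorem exists_closure (S : Finset (HeightOneSpectrum (𝓞 K))) :
    ∃ T, S ⊆ T ∧ ∀ v ∈ T, ∀ w : HeightOneSpectrum (𝓞 K),
      (Ideal.absNorm v.asIdeal : 𝓞 K) ∈ w.asIdeal → w ∈ T := by
  classical
  choose p hp hmem using exists_prime_below (K := K)
  have hfin : {w : HeightOneSpectrum (𝓞 K) | ∃ v ∈ S, (p v : 𝓞 K) ∈ w.asIdeal}.Finite :=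
    (S.finite_toSet.biUnion fun v _ => (Ideal.finite_factors (I := Ideal.span {(p v : 𝓞 K)})
      fun h => Nat.cast_ne_zero.2 (hp v).ne_zero (Ideal.span_singleton_eq_bot.1 h)).subset
        fun w (hw : (p v : 𝓞 K) ∈ w.asIdeal) => Ideal.dvd_span_singleton.2 hw).subset
      fun w ⟨v, hv, hw⟩ => Set.mem_biUnion hv hw
  refine ⟨hfin.toFinset, fun v hv => hfin.mem_toFinset.2 ⟨v, hv, hmem v⟩, fun v hv w hw => ?_⟩
  obtain ⟨v₀, hv₀, hpv⟩ := hfin.mem_toFinset.1 hv
  haveI := v.isMaximal
  obtain ⟨q, f, -, hqv, hq, hN⟩ := Ideal.exists_prime_and_absNorm_eq_pow v.asIdeal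
  rw [hN, Nat.cast_pow] at hw
  exact hfin.mem_toFinset.2 ⟨v₀, hv₀,
    prime_below_unique v hq (hp v₀) hqv hpv ▸ w.isPrime.mem_of_pow_mem _ hw⟩

/-- **Finitely many relations** for vanishing sums of `S`-units with given factors. -/
theorem exists_relations_units (S : Finset (HeightOneSpectrum (𝓞 K))) {N : ℕ} (hN : 2 ≤ N)
    {f : Fin (N + 1) → K} (hf : ∀ i, f i ≠ 0) :
    ∃ W : Finset (Fin (N + 1) → K), (∀ w ∈ W, w ≠ 0 ∧ w (Fin.last N) = 0) ∧
      ∀ u : Fin (N + 1) → Kˣ, (∀ i, u i ∈ (S : Set (HeightOneSpectrum (𝓞 K))).unit K) →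
        ∑ i, f i * (u i : K) = 0 → ∃ w ∈ W, ∑ i, w i * (u i : K) = 0 := by
  classical
  obtain ⟨m, rfl⟩ : ∃ m, N = m + 1 := ⟨N - 1, by omega⟩
  obtain ⟨T, hST, hT⟩ := exists_closure S
  set c : Fin (m + 1) → K := fun a => -(f a.castSucc / f (Fin.last (m + 1)))
  have hc : ∀ a, c a ≠ 0 := fun a => neg_ne_zero.2 (div_ne_zero (hf _) (hf _))
  set row : Fin (m + 1 + 1) → Fin (m + 1) → K := Fin.lastCases c fun a => Pi.single a 1
  set R : Fin (m + 1 + 1) → Matrix (Fin (m + 1)) (Fin (m + 1)) K :=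
    fun i => Matrix.of fun j => row (i.succAbove j)
  choose V hV hVx using fun (κ : ((K →+* ℂ) ⊕ T) → Fin (m + 1 + 1)) =>
    finite_subspaces_numberField_places (K := K) (n := m) (by omega)
      (fun φ => (R (κ (.inl φ))).map φ)
      (fun φ => by
        rw [← RingHom.mapMatrix_apply, ← RingHom.map_det]
        exact (map_ne_zero φ).2 (det_omit_ne_zero c hc _))
      (fun φ i k => (Algebra.IsAlgebraic.isAlgebraic (R := ℚ) _).algHom φ.toRatAlgHom) T
      (fun v => if h : v ∈ T then R (κ (.inr ⟨v, h⟩)) else 1)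
      (fun v h => by rw [dif_pos h]; exact det_omit_ne_zero c hc _)
      (δ := 1 / 2) (by norm_num)
  -- the points of small size
  choose orth horth0 horth using fun ξ : Fin (m + 1) → 𝓞 K =>
    exists_orth_field (n := m) (by omega) fun a => (ξ a : K)
  set β := univ.biUnion V ∪ (finite_house_le (K := K) (m + 1) 1).toFinset.image orth
  have hβ0 : ∀ b ∈ β, b ≠ 0 := fun b hb => by
    rcases mem_union.1 hb with h | h
    · obtain ⟨κ, -, hκ⟩ := mem_biUnion.1 h
      exact hV κ b hκ
    · obtain ⟨ξ, -, rfl⟩ := mem_image.1 h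
      exact horth0 ξ
  refine ⟨β.image fun b => (Fin.snoc b (0 : K) : Fin (m + 1 + 1) → K), fun w hw => ?_,
    fun u hu hsum => ?_⟩
  · obtain ⟨b, hb, rfl⟩ := mem_image.1 hw
    refine ⟨fun e => hβ0 b hb (funext fun a => ?_), by simp⟩
    simpa using congrFun e a.castSucc
  -- the first unit one, the denominators cleared by a natural number
  set v : Fin (m + 1 + 1) → K := fun i => (u i : K) / u 0
  have hv0 : ∀ i, v i ≠ 0 := fun i => div_ne_zero (u i).ne_zero (u 0).ne_zero
  have hvT : ∀ i, ∀ w ∉ T, HeightOneSpectrum.adicAbv K w (v i) = 1 := fun i w hw => by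
    rw [map_div₀, mem_unit_iff.1 (hu i) w fun h => hw (hST h),
      mem_unit_iff.1 (hu 0) w fun h => hw (hST h), div_one]
  choose κ _ hκ using fun w : T => exists_max_image univ
    (fun i => HeightOneSpectrum.adicAbv K w.1 (v i)) univ_nonempty
  choose κ' _ hκ' using fun φ : K →+* ℂ => exists_max_image univ (fun i => ‖φ (v i)‖) univ_nonempty
  set M : T → ℝ := fun w => HeightOneSpectrum.adicAbv K w.1 (v (κ w))
  have hM1 : ∀ w, 1 ≤ M w := fun w => by
    have h : HeightOneSpectrum.adicAbv K w.1 (v 0) = 1 := by simp [v]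
    exact h ▸ hκ w 0 (mem_univ _)
  have hexp : ∀ w : T, ∃ e : ℕ, M w = (Ideal.absNorm w.1.asIdeal : ℝ) ^ e := fun w => by
    have h1 := hM1 w
    have hval : w.1.valuation K (v (κ w)) ≠ 0 := (w.1.valuation K).ne_zero_iff.2 (hv0 _)
    obtain ⟨a, ha⟩ : ∃ a : ℤ, w.1.valuation K (v (κ w)) = exp a := ⟨_, (exp_log hval).symm⟩
    have hN : (1 : ℝ) < Ideal.absNorm w.1.asIdeal := by
      exact_mod_cast NumberField.HeightOneSpectrum.one_lt_absNorm w.1
    simp only [M, NumberField.HeightOneSpectrum.adicAbv_def, ha, toNNReal_exp, NNReal.coe_zpow,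
      NNReal.coe_natCast] at h1 ⊢
    lift a to ℕ using (one_le_zpow_iff_right₀ hN).1 h1
    exact ⟨a, zpow_natCast _ a⟩
  choose e he using hexp
  set D : ℕ := ∏ w, Ideal.absNorm w.1.asIdeal ^ e w with hD
  have hDM : (D : ℝ) = ∏ w, M w := by
    rw [hD, Nat.cast_prod]
    exact prod_congr rfl fun w _ => by rw [he w, Nat.cast_pow]
  have hD0 : (D : K) ≠ 0 := Nat.cast_ne_zero.2 (prod_ne_zero_iff.2 fun w _ => pow_ne_zero _ fun h =>
    w.1.ne_bot (Ideal.absNorm_eq_zero_iff.1 h))
  have hD1 : ∀ w ∉ T, HeightOneSpectrum.adicAbv K w (D : K) = 1 := fun w hw => by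
    rw [hD, Nat.cast_prod, map_prod]
    refine prod_eq_one fun v' _ => ?_
    rw [Nat.cast_pow, map_pow, ← FinitePlace.norm_embedding, ← map_natCast (algebraMap (𝓞 K) K),
      (FinitePlace.norm_eq_one_iff_notMem K w _).2 fun h => hw (hT v'.1 v'.2 w h), one_pow]
  have hDle : ∀ w : T, HeightOneSpectrum.adicAbv K w.1 (D : K) ≤ (M w)⁻¹ := fun w => by
    rw [hD, Nat.cast_prod, map_prod, ← mul_prod_erase _ _ (mem_univ w), he w]
    refine (mul_le_of_le_one_right (AbsoluteValue.nonneg _ _) (prod_le_one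
      (fun _ _ => AbsoluteValue.nonneg _ _) fun w' _ =>
        HeightOneSpectrum.adicAbv_natCast_le_one _ _ _)).trans ?_
    rw [Nat.cast_pow, map_pow, ← inv_pow]
    refine pow_le_pow_left₀ (AbsoluteValue.nonneg _ _) ?_ _
    simpa using adicAbv_le_of_mem w.1 (k := 1) (y := (Ideal.absNorm w.1.asIdeal : 𝓞 K))
      (by rw [pow_one]; exact Ideal.absNorm_mem _)
  have hint : ∀ i, ∃ y : 𝓞 K, (y : K) = D * v i := fun i =>
    exists_coe_eq_of_adicAbv_le_one fun w => by
      rw [map_mul]
      by_cases hw : w ∈ T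
      · refine (mul_le_mul (hDle ⟨w, hw⟩) (hκ ⟨w, hw⟩ i (mem_univ i)) (AbsoluteValue.nonneg _ _)
          (inv_nonneg.2 (zero_le_one.trans (hM1 _)))).trans_eq ?_
        exact inv_mul_cancel₀ (zero_lt_one.trans_le (hM1 ⟨w, hw⟩)).ne'
      · rw [hD1 w hw, hvT i w hw, one_mul]
  choose y hy using hint
  set ξ : Fin (m + 1) → 𝓞 K := fun a => y a.castSucc
  suffices h : ∃ b ∈ β, ∑ a, b a * (ξ a : K) = 0 by
    obtain ⟨b, hb, hb0⟩ := h
    refine ⟨_, mem_image_of_mem _ hb, (mul_eq_zero.1 (?_ : (D / u 0 : K) * _ = 0)).resolve_left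
      (div_ne_zero hD0 (u 0).ne_zero)⟩
    rw [mul_sum, Fin.sum_univ_castSucc]
    simp only [Fin.snoc_castSucc, Fin.snoc_last, zero_mul, mul_zero, add_zero]
    rw [← hb0]
    refine sum_congr rfl fun a _ => ?_
    simp only [ξ, hy, v]
    ring
  rcases le_or_gt (house ξ) 1 with h1 | h1
  · exact ⟨_, mem_union_right _ (mem_image_of_mem _ ((finite_house_le _ _).mem_toFinset.2 h1)),
      horth ξ⟩
  set κs : ((K →+* ℂ) ⊕ T) → Fin (m + 1 + 1) := Sum.elim κ' κ
  obtain ⟨b, hb, hb0⟩ := hVx κs ξ (fun h => h1.not_ge (by simp [h, house])) (by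
    have hrow : ∀ i, ∑ a, row i a * (ξ a : K) = (D : K) * v i := fun i => by
      induction i using Fin.lastCases with
      | last =>
        have h0 : ∑ i, f i * ((D : K) * v i) = 0 := by
          rw [show ∑ i, f i * ((D : K) * v i) = D / u 0 * ∑ i, f i * (u i : K) by
            rw [mul_sum]
            exact sum_congr rfl fun i _ => by simp only [v]; ring, hsum, mul_zero]
        rw [Fin.sum_univ_castSucc, add_eq_zero_iff_eq_neg] at h0
        simp only [row, c, Fin.lastCases_last, ξ, hy, neg_mul, sum_neg_distrib,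
          div_mul_eq_mul_div, ← sum_div]
        rw [h0, neg_div, neg_neg, mul_div_cancel_left₀ _ (hf _)]
      | cast a => simp [row, Pi.single_apply, ξ, hy]
    set A : (K →+* ℂ) → Fin (m + 1 + 1) → ℝ := fun φ i => ‖φ ((D : K) * v i)‖
    set B : HeightOneSpectrum (𝓞 K) → Fin (m + 1 + 1) → ℝ :=
      fun w i => HeightOneSpectrum.adicAbv K w ((D : K) * v i)
    have hA : ∀ φ j, ‖∑ a, ((R (κs (.inl φ))).map φ) j a * φ (ξ a : K)‖ =
        A φ ((κ' φ).succAbove j) := fun φ j => by
      simp only [Matrix.map_apply, ← map_mul, ← map_sum, R, Matrix.of_apply, hrow]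
      rfl
    have hB : ∀ w (hw : w ∈ T) j, HeightOneSpectrum.adicAbv K w (∑ a,
        (if h : w ∈ T then R (κs (.inr ⟨w, h⟩)) else 1) j a * (ξ a : K)) =
        B w ((κ ⟨w, hw⟩).succAbove j) := fun w hw j => by
      simp only [dif_pos hw, R, Matrix.of_apply, hrow]
      rfl
    have hall : ∀ i, (∏ φ, A φ i) * ∏ w : T, B w.1 i = 1 := fun i => by
      rw [prod_coe_sort T fun w => B w i]
      exact prod_abv_unit (x := Units.mk0 _ (mul_ne_zero hD0 (hv0 i)))
        (mem_unit_iff.2 fun w hw => by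
          rw [Units.val_mk0, map_mul, hD1 w hw, hvT i w hw, one_mul])
    simp only [hA]
    rw [← prod_coe_sort T, prod_congr rfl fun (w : T) _ => prod_congr rfl fun j _ => hB w.1 w.2 j]
    set MI := ∏ φ : K →+* ℂ, ‖φ (v (κ' φ))‖
    have hsplit : ((∏ φ, ∏ j, A φ ((κ' φ).succAbove j)) *
        ∏ w : T, ∏ j, B w.1 ((κ w).succAbove j)) * ((∏ φ, A φ (κ' φ)) * ∏ w : T, B w.1 (κ w)) =
        1 := by
      rw [mul_mul_mul_comm, ← prod_mul_distrib, ← prod_mul_distrib,
        prod_congr rfl fun φ _ => (mul_comm _ _).trans (Fin.prod_univ_succAbove (A φ) (κ' φ)).symm,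
        prod_congr rfl fun (w : T) _ => (mul_comm _ _).trans
          (Fin.prod_univ_succAbove (B w.1) (κ w)).symm, prod_comm,
        prod_comm (f := fun (w : T) i => B w.1 i), ← prod_mul_distrib]
      exact prod_eq_one fun i _ => hall i
    have hDu : (∏ φ : K →+* ℂ, ‖φ (D : K)‖) *
        ∏ w : T, HeightOneSpectrum.adicAbv K w.1 (D : K) = 1 := by
      rw [prod_coe_sort T fun w => HeightOneSpectrum.adicAbv K w (D : K)]
      exact prod_abv_unit (x := Units.mk0 _ hD0) (mem_unit_iff.2 hD1)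
    have hheight : ((∏ φ, A φ (κ' φ)) * ∏ w : T, B w.1 (κ w)) = MI * D := by
      simp only [A, B, map_mul, norm_mul, prod_mul_distrib]
      rw [mul_mul_mul_comm, hDu, one_mul, hDM]
    have hMI : ∀ φ : K →+* ℂ, 1 ≤ ‖φ (v (κ' φ))‖ := fun φ => by
      exact le_of_eq_of_le (by simp [v]) (hκ' φ 0 (mem_univ _))
    have hHle : house ξ ≤ MI * D := (pi_norm_le_iff_of_nonneg (mul_nonneg
      (prod_nonneg fun φ _ => norm_nonneg _) (Nat.cast_nonneg _))).2 fun p => by
      simp only [ξ, hy, map_mul, map_natCast, norm_mul, Complex.norm_natCast]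
      rw [mul_comm]
      refine mul_le_mul_of_nonneg_right ((hκ' p.1 _ (mem_univ _)).trans ?_) (Nat.cast_nonneg _)
      exact (le_mul_of_one_le_right (norm_nonneg _) (one_le_prod fun φ _ => hMI φ)).trans
        (mul_prod_erase univ (fun φ => ‖φ (v (κ' φ))‖) (mem_univ p.1)).le
    rw [eq_one_div_of_mul_eq_one_left hsplit, hheight, Real.rpow_neg (by linarith), one_div]
    refine inv_strictAnti₀ (Real.rpow_pos_of_pos (by linarith) _) (lt_of_lt_of_le ?_ hHle)
    conv_rhs => rw [← Real.rpow_one (house ξ)]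
    exact Real.rpow_lt_rpow_of_exponent_lt h1 (by norm_num))
  exact ⟨b, mem_union_left _ (mem_biUnion.2 ⟨κs, mem_univ κs, hb⟩), hb0⟩

/-- The relations for vanishing sums. -/
theorem exists_relationsNF (S : Finset (HeightOneSpectrum (𝓞 K))) {ι : Type*} [Fintype ι]
    (h3 : 3 ≤ Fintype.card ι)
    (A : Finset K) :
    ∃ W : Finset (ι → K), (∀ w ∈ W, w ≠ 0 ∧ ∃ i, w i = 0) ∧
      ∀ z : ι → K, (∀ i, IsUnitUpTo S A (z i)) → ∑ i, z i = 0 → ∃ w ∈ W, ∑ i, w i * z i = 0 := by
  classical
  obtain ⟨N, hN⟩ : ∃ N, Fintype.card ι = N + 1 := ⟨Fintype.card ι - 1, by omega⟩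
  set σ : ι ≃ Fin (N + 1) := Fintype.equivFinOfCardEq hN
  set C := Fintype.piFinset fun _ : Fin (N + 1) => A.filter (· ≠ 0)
  choose W hW hWu using fun f : C => exists_relations_units S (N := N) (by omega) (f := f.1)
    fun i => (mem_filter.1 (Fintype.mem_piFinset.1 f.2 i)).2
  refine ⟨univ.biUnion fun f => (W f).image fun w => fun i => w (σ i) / f.1 (σ i),
    fun w hw => ?_, fun z hz hsum => ?_⟩
  · obtain ⟨f, -, hw⟩ := mem_biUnion.1 hw
    obtain ⟨w', hw', rfl⟩ := mem_image.1 hw
    have hf0 : ∀ i, f.1 i ≠ 0 := fun i => (mem_filter.1 (Fintype.mem_piFinset.1 f.2 i)).2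
    refine ⟨fun e => (hW f w' hw').1 (funext fun i => ?_), σ.symm (Fin.last N),
      by simp [(hW f w' hw').2]⟩
    simpa [hf0 i] using congrFun e (σ.symm i)
  choose a ha ha0 u huS hu using fun i => hz (σ.symm i)
  set f : C := ⟨a, Fintype.mem_piFinset.2 fun i => mem_filter.2 ⟨ha i, ha0 i⟩⟩
  obtain ⟨w, hw, hwu⟩ := hWu f u huS (by
    rw [← hsum, ← Equiv.sum_comp σ.symm]
    exact sum_congr rfl fun i _ => (hu i).symm)
  refine ⟨_, mem_biUnion.2 ⟨f, mem_univ f, mem_image_of_mem _ hw⟩, ?_⟩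
  rw [← hwu, ← Equiv.sum_comp σ.symm]
  refine sum_congr rfl fun i _ => ?_
  show w (σ (σ.symm i)) / a (σ (σ.symm i)) * z (σ.symm i) = w i * (u i : K)
  rw [Equiv.apply_symm_apply, hu i]
  field_simp [ha0 i]

/-- Vanishing sums of units up to finitely many factors, none of whose proper part
vanishes, with the term `i₀` one. -/
def unitSumsNF (S : Finset (HeightOneSpectrum (𝓞 K))) (A : Finset K) {ι : Type*} [Fintype ι]
    (i₀ : ι) : Set (ι → K) :=
  {z | (∀ i, IsUnitUpTo S A (z i)) ∧ ∑ i, z i = 0 ∧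
    (∀ T : Finset ι, T.Nonempty → ∑ i ∈ T, z i = 0 → T = univ) ∧ z i₀ = 1}

/-- **The unit equation in several variables.** -/
theorem finite_unitSumsNF (S : Finset (HeightOneSpectrum (𝓞 K))) (c : ℕ) :
    ∀ (A : Finset K) {ι : Type} [Fintype ι],
    Fintype.card ι = c → ∀ i₀ : ι, (unitSumsNF S A i₀).Finite := by
  classical
  induction c using Nat.strong_induction_on with
  | _ c ih =>
    intro A ι _ hc i₀
    rcases le_or_gt c 2 with h2 | h3
    · refine (Set.Finite.pi fun _ : ι => (Set.toFinite ({1, -1} : Set K))).subset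
        fun z hz i _ => ?_
      obtain ⟨hu, hsum, -, h1⟩ := hz
      by_cases hi : i = i₀
      · simp [hi, h1]
      · rw [← add_sum_erase _ _ (mem_univ i₀), h1,
          show univ.erase i₀ = {i} from (eq_of_subset_of_card_le
            (singleton_subset_iff.2 (mem_erase.2 ⟨hi, mem_univ i⟩)) (by
              rw [card_erase_of_mem (mem_univ i₀), card_univ, card_singleton]; omega)).symm,
          sum_singleton] at hsum
        exact Or.inr (by
          rw [Set.mem_singleton_iff]
          exact (neg_eq_of_add_eq_zero_right hsum).symm)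
    obtain ⟨W, hW, hWz⟩ := exists_relationsNF S (ι := ι) (by omega) A
    suffices h : ∀ w ∈ W, ∀ J ⊆ univ.filter (fun i => w i ≠ 0), J.Nonempty →
        ({z | z ∈ unitSumsNF S A i₀ ∧ ∑ i ∈ J, w i * z i = 0 ∧
          ∀ T ⊆ J, T.Nonempty → ∑ i ∈ T, w i * z i = 0 → T = J} : Set (ι → K)).Finite by
      refine (W.finite_toSet.biUnion fun w hw =>
        ((univ.filter fun i => w i ≠ 0).powerset.filter Finset.Nonempty).finite_toSet.biUnion
          fun J hJ => h w hw J (mem_powerset.1 (mem_filter.1 hJ).1) (mem_filter.1 hJ).2).subset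
        fun z hz => ?_
      obtain ⟨w, hw, hwz⟩ := hWz z hz.1 hz.2.1
      set Js := (univ.filter fun i => w i ≠ 0).powerset.filter
        fun J => J.Nonempty ∧ ∑ i ∈ J, w i * z i = 0
      obtain ⟨J, hJ, hmin⟩ := exists_min_image Js card ⟨univ.filter fun i => w i ≠ 0,
        mem_filter.2 ⟨mem_powerset.2 Subset.rfl, by
          obtain ⟨i, hi⟩ := Function.ne_iff.1 (hW w hw).1
          exact ⟨⟨i, mem_filter.2 ⟨mem_univ i, hi⟩⟩, by
            refine (sum_filter_of_ne (p := fun i => w i ≠ 0) fun i _ hne e => hne ?_).trans hwz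
            rw [e, zero_mul]⟩⟩⟩
      obtain ⟨hJsub, hJne, hJ0⟩ := mem_filter.1 hJ
      simp only [Set.mem_iUnion, exists_prop]
      refine ⟨w, hw, J, mem_filter.2 ⟨hJsub, hJne⟩, hz, hJ0, fun T hT hTne hT0 => ?_⟩
      exact eq_of_subset_of_card_le hT (hmin T (mem_filter.2
        ⟨mem_powerset.2 (hT.trans (mem_powerset.1 hJsub)), hTne, hT0⟩))
    intro w hw J hJ hJne
    obtain ⟨j₀, hj₀⟩ := hJne
    have hwJ : ∀ i ∈ J, w i ≠ 0 := fun i hi => (mem_filter.1 (hJ hi)).2
    obtain ⟨i₁, hi₁⟩ := (hW w hw).2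
    have hJi₁ : i₁ ∉ J := fun h => hwJ i₁ h hi₁
    have hJc : J.card < c := hc ▸ card_lt_card
      (ssubset_univ_iff.2 fun e => hJi₁ (e ▸ mem_univ i₁))
    set S₁ := scaleBy (univ.image w) A
    have hA := ih J.card hJc (ratios S₁) (ι := J) (Fintype.card_coe J) ⟨j₀, hj₀⟩
    -- the ratios within `J`
    set ratio : (J → K) → ι → K := fun u i =>
      if h : i ∈ J then u ⟨i, h⟩ * w j₀ / w i else 0
    set Ar := hA.toFinset.image ratio
    set Kf := insert j₀ Jᶜ with hK_def
    have hKcard : Kf.card = c - J.card + 1 := by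
      rw [hK_def, card_insert_of_notMem (by simp [hj₀]), card_compl, hc]
    suffices h : ∀ r ∈ Ar, ({z | z ∈ unitSumsNF S A i₀ ∧ (∀ i ∈ J, z i = r i * z j₀) ∧
        2 ≤ J.card} : Set (ι → K)).Finite by
      refine (Ar.finite_toSet.biUnion h).subset fun z hz => ?_
      obtain ⟨hz, hJ0, hJmin⟩ := hz
      have hne : ∀ i ∈ J, w i * z i ≠ 0 := fun i hi =>
        mul_ne_zero (hwJ i hi) (hz.1 i).ne_zero
      have h2 : 2 ≤ J.card := by
        by_contra hlt
        obtain ⟨j, rfl⟩ := card_eq_one.1 (show J.card = 1 by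
          have := card_pos.2 ⟨j₀, hj₀⟩; omega)
        exact hne j (mem_singleton_self j) (by simpa using hJ0)
      set u : J → K := fun i => w i * z i / (w j₀ * z j₀)
      have hu : u ∈ unitSumsNF S (ratios S₁) (⟨j₀, hj₀⟩ : J) := by
        have hunit : ∀ i ∈ J, IsUnitUpTo S S₁ (w i * z i) := fun i hi =>
          (hz.1 i).scale (mem_image_of_mem w (mem_univ i)) (hwJ i hi)
        refine ⟨fun i => (hunit i i.2).div (hunit j₀ hj₀), ?_, fun T hT hT0 => ?_,
          div_self (hne j₀ hj₀)⟩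
        · simp only [u, ← sum_div]
          rw [sum_coe_sort J fun i => w i * z i, hJ0, zero_div]
        · simp only [u, ← sum_div, div_eq_zero_iff, hne j₀ hj₀, or_false] at hT0
          have h := hJmin (T.map (Function.Embedding.subtype _)) (fun i hi => by
            obtain ⟨a, -, rfl⟩ := mem_map.1 hi
            exact a.2) hT.map (by rw [sum_map]; exact hT0)
          exact eq_univ_of_card _ (by
            rw [← card_map (Function.Embedding.subtype _), h, Fintype.card_coe])
      simp only [Set.mem_iUnion, exists_prop]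
      refine ⟨ratio u, mem_image_of_mem _ (hA.mem_toFinset.2 hu), hz, fun i hi => ?_, h2⟩
      simp only [ratio, u, dif_pos hi]
      have := (hz.1 j₀).ne_zero
      have := hwJ j₀ hj₀
      have := hwJ i hi
      field_simp
    intro r _
    rcases lt_or_ge J.card 2 with hlt | hge
    · exact Set.Finite.subset (Set.finite_empty) fun z hz => absurd hz.2.2 (not_le.2 hlt)
    set R := ∑ i ∈ J, r i
    set S₂ := scaleBy {1, R} A
    have hjK : j₀ ∈ Kf := mem_insert_self _ _
    have hB := ih Kf.card (by rw [hKcard]; have := card_le_univ J; omega) (ratios S₂) (ι := Kf)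
      (Fintype.card_coe Kf) ⟨j₀, hjK⟩
    set F : (Kf → K) → ι → K := fun v =>
      let y : ι → K := fun i => if h : i ∈ J then r i * v ⟨j₀, hjK⟩ / R
        else v ⟨i, mem_insert_of_mem (mem_compl.2 h)⟩
      fun i => y i / y i₀
    refine (hB.image F).subset fun z hz => ?_
    obtain ⟨⟨hunit, hsum, hnd, h1⟩, hr, -⟩ := hz
    have hz0 : z j₀ ≠ 0 := (hunit j₀).ne_zero
    have hsumJ : ∑ i ∈ J, z i = R * z j₀ := by
      rw [sum_mul]
      exact sum_congr rfl hr
    have hR : R ≠ 0 := fun e => hJi₁ (by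
      rw [hnd J ⟨j₀, hj₀⟩ (by rw [hsumJ, e, zero_mul])]
      exact mem_univ i₁)
    set y : ι → K := fun i => if i = j₀ then R * z j₀ else z i with hy
    have hy0 : ∀ i ∈ Kf, IsUnitUpTo S S₂ (y i) := fun i _ => by
      simp only [hy]
      split_ifs
      · exact (hunit j₀).scale (mem_insert_of_mem (mem_singleton_self R)) hR
      · simpa using (hunit i).scale (mem_insert_self (1 : K) {R}) one_ne_zero
    have hysum : ∀ T ⊆ Jᶜ, ∑ i ∈ T, y i = ∑ i ∈ T, z i := fun T hT =>
      sum_congr rfl fun i hi => if_neg fun (e : i = j₀) => mem_compl.1 (hT hi) (e ▸ hj₀)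
    have hfull : ∀ T ⊆ Kf, j₀ ∈ T → ∑ i ∈ T, y i = ∑ i ∈ J ∪ T.erase j₀, z i := fun T hT hj => by
      have hsub : T.erase j₀ ⊆ Jᶜ := fun i hi =>
        (mem_insert.1 (hT (mem_of_mem_erase hi))).resolve_left (ne_of_mem_erase hi)
      rw [sum_union (disjoint_left.2 fun i hi hi' => mem_compl.1 (hsub hi') hi),
        ← add_sum_erase _ _ hj, hysum _ hsub, hsumJ]
      simp [hy]
    have hKerase : Kf.erase j₀ = Jᶜ := erase_insert (by simp [hj₀])
    set v : Kf → K := fun i => y i / y j₀
    have hv : v ∈ unitSumsNF S (ratios S₂) (⟨j₀, hjK⟩ : Kf) := by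
      refine ⟨fun i => (hy0 i i.2).div (hy0 j₀ hjK), ?_, fun T hT hT0 => ?_,
        div_self (hy0 j₀ hjK).ne_zero⟩
      · simp only [v, ← sum_div]
        rw [sum_coe_sort Kf y, hfull Kf Subset.rfl hjK, hKerase, union_compl, hsum, zero_div]
      · simp only [v, ← sum_div, div_eq_zero_iff, (hy0 j₀ hjK).ne_zero, or_false] at hT0
        set T' := T.map (Function.Embedding.subtype (· ∈ Kf)) with hT'
        have hT0' : ∑ i ∈ T', y i = 0 := by rw [hT', sum_map]; exact hT0
        have hTK : T' ⊆ Kf := fun i hi => by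
          obtain ⟨a, -, rfl⟩ := mem_map.1 hi
          exact a.2
        by_cases hj : j₀ ∈ T'
        · rw [hfull T' hTK hj] at hT0'
          have h := hnd _ ⟨j₀, mem_union_left _ hj₀⟩ hT0'
          refine eq_univ_of_forall fun a => ?_
          have ha := h ▸ mem_univ (a : ι)
          rw [← mem_map' (Function.Embedding.subtype (· ∈ Kf))]
          rcases mem_union.1 ha with ha | ha
          · rcases mem_insert.1 a.2 with e | e
            · show (a : ι) ∈ T'
              rw [e]; exact hj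
            · exact absurd ha (mem_compl.1 e)
          · exact mem_of_mem_erase ha
        · have hsub : T' ⊆ Jᶜ := fun i hi =>
            (mem_insert.1 (hTK hi)).resolve_left fun e => hj (e ▸ hi)
          rw [hysum T' hsub] at hT0'
          have h := hnd T' (hT.map) hT0'
          exact absurd (hsub (h ▸ mem_univ j₀)) (by simp [hj₀])
    refine ⟨v, hv, funext fun i => ?_⟩
    have hyi : ∀ i, (if h : i ∈ J then r i * v ⟨j₀, hjK⟩ / R
        else v ⟨i, mem_insert_of_mem (mem_compl.2 h)⟩) = z i / (R * z j₀) := fun i => by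
      have hyj : y j₀ = R * z j₀ := if_pos rfl
      split_ifs with h
      · simp only [v, div_self (hy0 j₀ hjK).ne_zero, hr i h]
        field_simp
      · simp only [v, hyj]
        rw [show y i = z i from if_neg fun (e : i = j₀) => h (e ▸ hj₀)]
    simp only [F, hyi]
    rw [div_div_div_cancel_right₀ (mul_ne_zero hR hz0), h1, div_one]

/-- **The `S`-unit equation over a number field**: finitely many nondegenerate solutions. -/
theorem finite_sUnit_equation (S : Finset (HeightOneSpectrum (𝓞 K))) {n : ℕ} (a : Fin n → K)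
    (ha : ∀ i, a i ≠ 0) :
    {u : Fin n → Kˣ | (∀ i, u i ∈ (S : Set (HeightOneSpectrum (𝓞 K))).unit K) ∧
      ∑ i, a i * (u i : K) = 1 ∧
      ∀ T : Finset (Fin n), T.Nonempty → ∑ i ∈ T, a i * (u i : K) ≠ 0}.Finite := by
  classical
  set A : Finset K := insert 1 (univ.image fun i => -a i)
  set g : (Fin n → Kˣ) → Fin (n + 1) → K := fun u => Fin.cons 1 fun i => -(a i * (u i : K))
  have hg : Function.Injective g := fun u u' h => funext fun i =>
    Units.ext (mul_left_cancel₀ (ha i) (neg_injective (congrFun h i.succ)))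
  refine ((finite_unitSumsNF S (n + 1) A (ι := Fin (n + 1)) (Fintype.card_fin _) 0).preimage
    hg.injOn).subset fun u hu => ?_
  obtain ⟨huS, hsum, hnd⟩ := hu
  refine ⟨fun i => ?_, ?_, fun T hT hT0 => ?_, rfl⟩
  · induction i using Fin.cases with
    | zero => exact ⟨1, mem_insert_self _ _, one_ne_zero, 1, one_mem _, by simp [g]⟩
    | succ i =>
      exact ⟨-a i, mem_insert_of_mem (mem_image_of_mem _ (mem_univ i)), neg_ne_zero.2 (ha i),
        u i, huS i, by simp [g]⟩
  · simp [g, Fin.sum_univ_succ, sum_neg_distrib, hsum]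
  · set T' := univ.filter fun i : Fin n => Fin.succ i ∈ T
    have hsum' : ∑ i ∈ T, g u i =
        (if (0 : Fin (n + 1)) ∈ T then 1 else 0) - ∑ i ∈ T', a i * (u i : K) := by
      rw [← univ_inter T, ← sum_ite_mem, Fin.sum_univ_succ]
      simp only [g, univ_inter, Fin.cons_zero, Fin.cons_succ, T', sum_filter, sub_eq_add_neg,
        ← sum_neg_distrib]
      congr 1
      exact sum_congr rfl fun i _ => by split_ifs <;> simp
    rw [hsum'] at hT0
    by_cases h0 : (0 : Fin (n + 1)) ∈ T
    · rw [if_pos h0, sub_eq_zero] at hT0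
      have hcompl : ∑ i ∈ T'ᶜ, a i * (u i : K) = 0 := by
        have h := sum_add_sum_compl T' fun i => a i * (u i : K)
        rw [hsum, ← hT0] at h
        exact add_eq_left.1 h
      have hemp : T'ᶜ = ∅ := not_nonempty_iff_eq_empty.1 fun h => hnd _ h hcompl
      refine eq_univ_of_forall fun i => ?_
      induction i using Fin.cases with
      | zero => exact h0
      | succ i =>
        by_contra hi
        exact eq_empty_iff_forall_notMem.1 hemp i (mem_compl.2 fun h => hi (mem_filter.1 h).2)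
    · rw [if_neg h0, zero_sub, neg_eq_zero] at hT0
      obtain ⟨i, hi⟩ := hT
      induction i using Fin.cases with
      | zero => exact absurd hi h0
      | succ i => exact absurd hT0 (hnd T' ⟨i, mem_filter.2 ⟨mem_univ i, hi⟩⟩)

/-- **The unit equation over a number field**: finitely many nondegenerate solutions. -/
theorem finite_unit_equationNF {n : ℕ} (a : Fin n → K) (ha : ∀ i, a i ≠ 0) :
    {u : Fin n → (𝓞 K)ˣ | ∑ i, a i * (u i : K) = 1 ∧
      ∀ T : Finset (Fin n), T.Nonempty → ∑ i ∈ T, a i * (u i : K) ≠ 0}.Finite := by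
  refine ((finite_sUnit_equation ∅ a ha).preimage (f := fun (u : Fin n → (𝓞 K)ˣ) i =>
    Units.map (algebraMap (𝓞 K) K) (u i)) (Set.injOn_of_injective fun u u' h => funext fun i =>
      Units.coe_injective K (congrArg Units.val (congrFun h i)))).subset
    fun u hu => ⟨fun i => map_units_mem_unit (u i), hu.1, hu.2⟩

/-- A finitely generated group of nonzero elements consists of `S`-units for a finite `S`. -/
theorem exists_le_unit {Γ : Subgroup Kˣ} (hΓ : Γ.FG) :
    ∃ S : Finset (HeightOneSpectrum (𝓞 K)), Γ ≤ (S : Set (HeightOneSpectrum (𝓞 K))).unit K := by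
  classical
  obtain ⟨G, rfl⟩ := hΓ
  set s : K → Finset (HeightOneSpectrum (𝓞 K)) := fun x =>
    (HeightOneSpectrum.Support.finite (𝓞 K) x).toFinset
  refine ⟨G.biUnion fun x => s (x : K) ∪ s ((x⁻¹ : Kˣ) : K), (Subgroup.closure_le _).2
    fun x hx v hv => ?_⟩
  simp only [mem_coe, mem_biUnion, not_exists, not_and, mem_union, not_or, s,
    Set.Finite.mem_toFinset, HeightOneSpectrum.Support, Set.mem_ofPred_eq, not_lt] at hv
  obtain ⟨h1, h2⟩ := hv x hx
  rw [Units.val_inv_eq_inv_val, map_inv₀, inv_le_one₀ (zero_lt_iff.2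
    ((v.valuation K).ne_zero_iff.2 x.ne_zero))] at h2
  exact le_antisymm h1 h2

/-- **The equation in a finitely generated group**: finitely many nondegenerate solutions. -/
theorem finite_group_equation {Γ : Subgroup Kˣ} (hΓ : Γ.FG) {n : ℕ} (a : Fin n → K)
    (ha : ∀ i, a i ≠ 0) :
    {u : Fin n → Kˣ | (∀ i, u i ∈ Γ) ∧ ∑ i, a i * (u i : K) = 1 ∧
      ∀ T : Finset (Fin n), T.Nonempty → ∑ i ∈ T, a i * (u i : K) ≠ 0}.Finite := by
  obtain ⟨S, hS⟩ := exists_le_unit hΓ
  exact (finite_sUnit_equation S a ha).subset fun u hu => ⟨fun i => hS (hu.1 i), hu.2⟩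

end FA.Subspace

end
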