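import Fermat.Agent.Subspace.ExponentialSums
import Mathlib.Analysis.SpecialFunctions.Exp
import Mathlib.Analysis.SpecialFunctions.Pow.Asymptotics
import Mathlib.FieldTheory.IntermediateField.Adjoin.Basic

/-!
# Growth and repeated values of exponential polynomials

An exponential polynomial `u n = ∑ P i (n) * α i ^ n` with algebraic data, no quotient of two
`α i` a root of unity, is eventually at least `max |α i| ^ n * e ^ (-ε n)` in absolute value. If
some `|α i| > 1`, equal values `u m = u n` have `n - m = o (m)`, so their difference is a sum of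
`m`th powers with small coefficients, which must all vanish: there are finitely many such pairs.
-/

set_option autoImplicit false
set_option linter.style.haveILetI false

noncomputable section

namespace FA.Subspace

open Finset NumberField IsDedekindDomain Filter Topology Polynomial

theorem eventually_eval_le (P : ℂ[X]) {η : ℝ} (hη : 0 < η) :
    ∀ᶠ n : ℕ in atTop, ‖P.eval (n : ℂ)‖ ≤ Real.exp (η * n) := by
  set C := 1 + ∑ j ∈ range (P.natDegree + 1), ‖P.coeff j‖
  have hC : 0 < C := by positivity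
  filter_upwards [tendsto_natCast_atTop_atTop.eventually
      ((isLittleO_pow_exp_pos_mul_atTop P.natDegree hη).bound (inv_pos.2 hC)),
    eventually_ge_atTop 1] with n hn h1
  have hn1 : (1 : ℝ) ≤ n := Nat.one_le_cast.2 h1
  rw [Real.norm_of_nonneg (by positivity), Real.norm_of_nonneg (Real.exp_pos _).le,
    inv_mul_eq_div, le_div_iff₀' hC] at hn
  refine le_trans ?_ hn
  rw [eval_eq_sum_range]
  refine (norm_sum_le _ _).trans ((sum_le_sum (g := fun j => ‖P.coeff j‖ * (n : ℝ) ^ P.natDegree)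
    fun j hj => ?_).trans ?_)
  · rw [norm_mul, norm_pow, Complex.norm_natCast]
    exact mul_le_mul_of_nonneg_left
      (pow_le_pow_right₀ hn1 (Nat.lt_succ_iff.1 (Finset.mem_range.1 hj))) (norm_nonneg _)
  · rw [← sum_mul]
    exact mul_le_mul_of_nonneg_right (le_add_of_nonneg_left zero_le_one) (by positivity)

/-- A polynomial hardly decreases. -/
theorem eventually_eval_lt {P : ℂ[X]} (hP : P ≠ 0) {A : ℝ} (hA : 1 < A) :
    ∀ᶠ m : ℕ in atTop, ∀ n, m ≤ n → ‖P.eval (m : ℂ)‖ < A * ‖P.eval (n : ℂ)‖ := by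
  set E := P.eraseLead
  set D := P.natDegree
  set L := ‖P.leadingCoeff‖
  have hL : 0 < L := norm_pos_iff.2 (leadingCoeff_ne_zero.2 hP)
  set C := ∑ j ∈ range D, ‖E.coeff j‖
  have hE : ∀ n : ℕ, 1 ≤ n → ‖E.eval (n : ℂ)‖ * n ≤ C * (n : ℝ) ^ D := fun n hn => by
    rcases eraseLead_natDegree_lt_or_eraseLead_eq_zero P with h | h
    · rw [eval_eq_sum_range' h, sum_mul]
      refine (mul_le_mul_of_nonneg_right (norm_sum_le _ _) (Nat.cast_nonneg n)).trans ?_
      rw [sum_mul]
      refine sum_le_sum fun j hj => ?_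
      rw [norm_mul, norm_pow, Complex.norm_natCast, mul_assoc, ← pow_succ]
      exact mul_le_mul_of_nonneg_left
        (pow_le_pow_right₀ (Nat.one_le_cast.2 hn) (Finset.mem_range.1 hj)) (norm_nonneg _)
    · simp only [E, h, eval_zero, norm_zero, zero_mul]
      positivity
  have hP' : ∀ n : ℕ, P.eval (n : ℂ) = E.eval (n : ℂ) + P.leadingCoeff * (n : ℂ) ^ D := fun n => by
    conv_lhs => rw [← eraseLead_add_C_mul_X_pow P]
    simp only [eval_add, eval_mul, eval_C, eval_pow, eval_X, E, D]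
  filter_upwards [tendsto_natCast_atTop_atTop.eventually_gt_atTop (C * (A + 1) / (L * (A - 1))),
    eventually_ge_atTop 1] with m hm hm1 n hmn
  have hm0 : (0 : ℝ) < m := Nat.cast_pos.2 hm1
  rw [div_lt_iff₀ (mul_pos hL (sub_pos.2 hA))] at hm
  have hn1 : 1 ≤ n := hm1.trans hmn
  have hnorm : ∀ k : ℕ, ‖P.leadingCoeff * (k : ℂ) ^ D‖ = L * (k : ℝ) ^ D := fun k => by
    rw [norm_mul, norm_pow, Complex.norm_natCast]
  have hup : ‖P.eval (m : ℂ)‖ ≤ (L + C / m) * (m : ℝ) ^ D := by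
    rw [hP', add_mul, add_comm (L * _)]
    refine (norm_add_le _ _).trans (add_le_add ?_ (hnorm m).le)
    rw [div_mul_eq_mul_div, le_div_iff₀ hm0]
    exact hE m hm1
  have hlow : (L - C / m) * (n : ℝ) ^ D ≤ ‖P.eval (n : ℂ)‖ := by
    rw [hP', sub_mul, ← hnorm, sub_le_iff_le_add]
    have h := norm_sub_le (E.eval (n : ℂ) + P.leadingCoeff * (n : ℂ) ^ D) (E.eval (n : ℂ))
    rw [add_sub_cancel_left] at h
    refine h.trans (add_le_add le_rfl ?_)
    rw [div_mul_eq_mul_div, le_div_iff₀ hm0]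
    exact le_trans (mul_le_mul_of_nonneg_left (Nat.cast_le.2 hmn) (norm_nonneg _)) (hE n hn1)
  have hC : 0 ≤ C := sum_nonneg fun _ _ => norm_nonneg _
  have hcmp : L + C / m < A * (L - C / m) := by
    rw [← sub_pos, show A * (L - C / m) - (L + C / m) =
      (m * (L * (A - 1)) - C * (A + 1)) / m by field_simp; ring]
    exact div_pos (sub_pos.2 hm) hm0
  have hge : 0 ≤ A * (L - C / m) :=
    (add_nonneg hL.le (div_nonneg hC hm0.le)).trans hcmp.le
  calc ‖P.eval (m : ℂ)‖ ≤ (L + C / m) * (m : ℝ) ^ D := hup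
    _ < A * (L - C / m) * (m : ℝ) ^ D := mul_lt_mul_of_pos_right hcmp (pow_pos hm0 D)
    _ ≤ A * (L - C / m) * (n : ℝ) ^ D :=
      mul_le_mul_of_nonneg_left (pow_le_pow_left₀ hm0.le (Nat.cast_le.2 hmn) D) hge
    _ ≤ A * ‖P.eval (n : ℂ)‖ := by
      rw [mul_assoc]
      exact mul_le_mul_of_nonneg_left hlow (by linarith)

variable {ι : Type*} [Fintype ι]

/-- **The data in a number field**, scaled to be integral. -/
theorem exists_integral_model (α : ι → ℂ) (halg : ∀ i, IsAlgebraic ℚ (α i)) (P : ι → ℂ[X])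
    (hPalg : ∀ i j, IsAlgebraic ℚ ((P i).coeff j)) :
    ∃ (K : IntermediateField ℚ ℂ) (_ : NumberField K) (a : ι → 𝓞 K) (Q : ι → (𝓞 K)[X]) (b : 𝓞 K),
      b ≠ 0 ∧ (∀ i, ((a i : K) : ℂ) = ((b : K) : ℂ) * α i) ∧
      ∀ i (z : ℕ), ((((Q i).eval (z : 𝓞 K) : 𝓞 K) : K) : ℂ) =
        ((b : K) : ℂ) * (P i).eval (z : ℂ) := by
  classical
  set G : Finset ℂ := univ.image α ∪ univ.biUnion fun i => (P i).support.image (P i).coeff
  set K := IntermediateField.adjoin ℚ (G : Set ℂ)
  haveI : FiniteDimensional ℚ K := IntermediateField.finiteDimensional_adjoin fun x hx => by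
    rcases Finset.mem_union.1 hx with h | h
    · obtain ⟨i, -, rfl⟩ := Finset.mem_image.1 h
      exact (halg i).isIntegral
    · obtain ⟨i, -, hx⟩ := mem_biUnion.1 h
      obtain ⟨j, -, rfl⟩ := Finset.mem_image.1 hx
      exact (hPalg i j).isIntegral
  haveI : NumberField K := { to_charZero := inferInstance, to_finiteDimensional := inferInstance }
  have hmem : ∀ x ∈ G, x ∈ K := fun x hx => IntermediateField.subset_adjoin ℚ (G : Set ℂ) hx
  obtain ⟨b, hb⟩ := IsLocalization.exist_integer_multiples_of_finite (nonZeroDivisors (𝓞 K))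
    (S := K) fun x : G => (⟨x.1, hmem _ x.2⟩ : K)
  choose y hy using hb
  have hy' : ∀ x : G, ((y x : K) : ℂ) = (((b : 𝓞 K) : K) : ℂ) * (x : ℂ) := fun x => by
    rw [show (y x : K) = ((b : 𝓞 K) : K) * ⟨x.1, hmem _ x.2⟩ from
      (hy x).trans (Algebra.smul_def _ _)]
    rfl
  set lift : ℂ → 𝓞 K := fun x => if h : x ∈ G then y ⟨x, h⟩ else 0
  refine ⟨K, inferInstance, fun i => lift (α i),
    fun i => ∑ j ∈ (P i).support, monomial j (lift ((P i).coeff j)), b,
    nonZeroDivisors.coe_ne_zero b, fun i => ?_, fun i z => ?_⟩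
  · have h : α i ∈ G := Finset.mem_union_left _ (mem_image_of_mem α (mem_univ i))
    simp only [lift, dif_pos h]
    exact hy' _
  · rw [eval_eq_sum (p := P i), Polynomial.sum_def, mul_sum, eval_finsetSum]
    simp only [eval_monomial, map_sum, map_mul, map_pow, map_natCast,
      AddSubmonoidClass.coe_finsetSum, MulMemClass.coe_mul, SubmonoidClass.coe_pow,
      SubringClass.coe_natCast]
    refine sum_congr rfl fun j hj => ?_
    have h : (P i).coeff j ∈ G := Finset.mem_union_right _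
      (mem_biUnion.2 ⟨i, mem_univ i, mem_image_of_mem _ hj⟩)
    simp only [lift, dif_pos h, hy', mul_assoc]

/-- A finite set of primes outside of which nonzero integers are units. -/
theorem exists_primes_unit {K : Type*} [Field K] [NumberField K] (a : ι → 𝓞 K)
    (ha : ∀ i, a i ≠ 0) : ∃ S : Finset (HeightOneSpectrum (𝓞 K)),
      ∀ i, ∀ v ∉ S, HeightOneSpectrum.adicAbv K v (a i : K) = 1 := by
  classical
  have h0 : (∏ i, a i) ≠ 0 := prod_ne_zero_iff.2 fun i _ => ha i
  refine ⟨(Ideal.finite_factors (I := Ideal.span {∏ i, a i})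
    fun h => h0 (Ideal.span_singleton_eq_bot.1 h)).toFinset, fun i v hv => ?_⟩
  rw [← FinitePlace.norm_embedding]
  refine (FinitePlace.norm_eq_one_iff_notMem K v (a i)).2 fun h => hv ?_
  rw [Set.Finite.mem_toFinset, Set.mem_ofPred_eq, Ideal.dvd_span_singleton]
  exact Ideal.mem_of_dvd _ (dvd_prod_of_mem a (mem_univ i)) h

/-- The embeddings of a number field in `ℂ`: bound of a polynomial. -/
theorem eventually_small_eval {K : Type*} [Field K] [NumberField K] (Q : ι → (𝓞 K)[X]) {η : ℝ}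
    (hη : 0 < η) :
    ∀ᶠ n : ℕ in atTop, ∀ i (φ : K →+* ℂ),
      ‖φ (((Q i).eval (n : 𝓞 K) : 𝓞 K) : K)‖ ≤ Real.exp (η * n) := by
  refine eventually_all.2 fun i => eventually_all.2 fun φ => ?_
  filter_upwards [eventually_eval_le ((Q i).map (φ.comp (algebraMap (𝓞 K) K))) hη] with n hn
  rwa [Polynomial.eval_natCast_map, RingHom.comp_apply] at hn

/-- **The growth of a nondegenerate exponential polynomial.** -/
theorem eventually_norm_lower (α : ι → ℂ) (h0 : ∀ i, α i ≠ 0) (halg : ∀ i, IsAlgebraic ℚ (α i))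
    (hnd : ∀ i j, i ≠ j → ∀ m : ℕ, 0 < m → α i ^ m ≠ α j ^ m) (P : ι → ℂ[X]) (hP : ∀ i, P i ≠ 0)
    (hPalg : ∀ i j, IsAlgebraic ℚ ((P i).coeff j)) {ε : ℝ} (hε : 0 < ε) :
    ∀ᶠ n : ℕ in atTop, ∀ i, ‖α i‖ ^ n * Real.exp (-(ε * n)) ≤
      ‖∑ j, (P j).eval (n : ℂ) * α j ^ n‖ := by
  classical
  obtain ⟨K, _, a, Q, b, hb, ha, hQ⟩ := exists_integral_model α halg P hPalg
  rcases isEmpty_or_nonempty ι with hι | hι
  · exact Eventually.of_forall fun n i => isEmptyElim i
  have hb' : ((b : K) : ℂ) ≠ 0 := by simpa using hb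
  have ha0 : ∀ i, a i ≠ 0 := fun i h => mul_ne_zero hb' (h0 i) (by rw [← ha i, h]; simp)
  have hnd' : ∀ i j, i ≠ j → ∀ m, 0 < m → a i ^ m ≠ a j ^ m := fun i j hij m hm h => by
    have h1 := congrArg (fun x : 𝓞 K => ((x : K) : ℂ)) h
    simp only [map_pow, SubmonoidClass.coe_pow, ha, mul_pow] at h1
    exact hnd i j hij m hm (mul_left_cancel₀ (pow_ne_zero m hb') h1)
  obtain ⟨S, hS⟩ := exists_primes_unit a ha0
  obtain ⟨η, hη, hev⟩ := ((eventually_mem_nhdsWithin).and (eventually_lower_bound ha0 hS hnd' univ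
    univ_nonempty (.inl (algebraMap K ℂ)) (ε / 2) (half_pos hε))).exists
  replace hη : 0 < η := hη
  have hroots : ∀ᶠ n : ℕ in atTop, ∀ i, (P i).eval (n : ℂ) ≠ 0 := eventually_all.2 fun i => by
    rw [← Nat.cofinite_eq_atTop]
    exact ((Polynomial.finite_setOf_isRoot (hP i)).preimage
      Nat.cast_injective.injOn).compl_mem_cofinite
  filter_upwards [hev, eventually_small_eval Q hη, hroots,
    eventually_le_exp ‖((b : K) : ℂ)‖ (half_pos hε)] with n hn hsmall hne hbn i
  have hc : SmallCoeffs univ η n fun i => (Q i).eval (n : 𝓞 K) := fun i _ =>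
    ⟨fun h => mul_ne_zero hb' (hne i) (by dsimp only at h; rw [← hQ i n, h]; simp), hsmall i⟩
  have h := hn _ hc i (mem_univ i)
  simp only [placeAbv_inl] at h
  rw [show (algebraMap K ℂ) (a i : K) = _ from ha i, show (algebraMap K ℂ) (∑ j,
      (((Q j).eval (n : 𝓞 K) : 𝓞 K) : K) * (a j : K) ^ n) =
      ((b : K) : ℂ) ^ n * ((b : K) : ℂ) * ∑ j, (P j).eval (n : ℂ) * α j ^ n by
    rw [mul_sum, map_sum]
    refine sum_congr rfl fun j _ => ?_
    rw [map_mul, map_pow, show (algebraMap K ℂ) (a j : K) = _ from ha j,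
      show (algebraMap K ℂ) (((Q j).eval (n : 𝓞 K) : 𝓞 K) : K) = _ from hQ j n, mul_pow]
    ring, norm_mul, norm_mul, norm_mul, norm_pow, mul_pow, mul_assoc, mul_assoc] at h
  have h1 := le_of_mul_le_mul_left h (pow_pos (norm_pos_iff.2 hb') n)
  refine le_of_mul_le_mul_left ?_ (Real.exp_pos (ε / 2 * n))
  refine le_trans (le_of_eq ?_) (h1.trans (mul_le_mul_of_nonneg_right hbn (norm_nonneg _)))
  rw [mul_left_comm, ← Real.exp_add]
  ring_nf

/-- **Unbounded growth**, if some `|α i| > 1`. -/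
theorem tendsto_norm_atTop (α : ι → ℂ) (h0 : ∀ i, α i ≠ 0) (halg : ∀ i, IsAlgebraic ℚ (α i))
    (hnd : ∀ i j, i ≠ j → ∀ m : ℕ, 0 < m → α i ^ m ≠ α j ^ m) (P : ι → ℂ[X]) (hP : ∀ i, P i ≠ 0)
    (hPalg : ∀ i j, IsAlgebraic ℚ ((P i).coeff j)) (hbig : ∃ i, 1 < ‖α i‖) :
    Tendsto (fun n : ℕ => ‖∑ j, (P j).eval (n : ℂ) * α j ^ n‖) atTop atTop := by
  obtain ⟨i, hi⟩ := hbig
  have hl : 0 < Real.log ‖α i‖ := Real.log_pos hi
  refine tendsto_atTop_mono' _ ((eventually_norm_lower α h0 halg hnd P hP hPalg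
    (half_pos hl)).mono fun n hn => (le_of_eq ?_).trans (hn i))
    (Real.tendsto_exp_atTop.comp (tendsto_natCast_atTop_atTop.const_mul_atTop (half_pos hl)))
  nth_rw 2 [← Real.exp_log (show 0 < ‖α i‖ by linarith)]
  rw [Function.comp_apply, ← Real.exp_nat_mul, ← Real.exp_add]
  ring_nf

/-- **Finitely many repetitions**, if some `|α i| > 1`. -/
theorem finite_repetitions (α : ι → ℂ) (h0 : ∀ i, α i ≠ 0) (halg : ∀ i, IsAlgebraic ℚ (α i))
    (hnd : ∀ i j, i ≠ j → ∀ m : ℕ, 0 < m → α i ^ m ≠ α j ^ m) (P : ι → ℂ[X]) (hP : ∀ i, P i ≠ 0)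
    (hPalg : ∀ i j, IsAlgebraic ℚ ((P i).coeff j)) (hbig : ∃ i, 1 < ‖α i‖) :
    {p : ℕ × ℕ | p.1 < p.2 ∧ ∑ j, (P j).eval (p.1 : ℂ) * α j ^ p.1 =
      ∑ j, (P j).eval (p.2 : ℂ) * α j ^ p.2}.Finite := by
  classical
  set u : ℕ → ℂ := fun n => ∑ j, (P j).eval (n : ℂ) * α j ^ n
  obtain ⟨i₁, hi₁⟩ := hbig
  obtain ⟨i₀, -, hmax⟩ := exists_max_image univ (fun i => ‖α i‖) ⟨i₁, mem_univ i₁⟩
  set A := ‖α i₀‖
  have hA : 1 < A := hi₁.trans_le (hmax i₁ (mem_univ i₁))
  have hlA : 0 < Real.log A := Real.log_pos hA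
  obtain ⟨K, _, a, Q, b, hb, ha, hQ⟩ := exists_integral_model α halg P hPalg
  have hb' : ((b : K) : ℂ) ≠ 0 := by simpa using hb
  have ha0 : ∀ i, a i ≠ 0 := fun i h => mul_ne_zero hb' (h0 i) (by rw [← ha i, h]; simp)
  have hnd' : ∀ i j, i ≠ j → ∀ m, 0 < m → a i ^ m ≠ a j ^ m := fun i j hij m hm h => by
    have h1 := congrArg (fun x : 𝓞 K => ((x : K) : ℂ)) h
    simp only [map_pow, SubmonoidClass.coe_pow, ha, mul_pow] at h1
    exact hnd i j hij m hm (mul_left_cancel₀ (pow_ne_zero m hb') h1)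
  obtain ⟨S, hS⟩ := exists_primes_unit a ha0
  set w : (K →+* ℂ) ⊕ S := .inl (algebraMap K ℂ)
  obtain ⟨η, hη, hev⟩ := ((eventually_mem_nhdsWithin).and ((eventually_all_finset
    ((univ : Finset ι).powerset.filter Finset.Nonempty)).2 fun J hJ =>
      eventually_lower_bound ha0 hS hnd' J (mem_filter.1 hJ).2 w 1 one_pos)).exists
  replace hη : 0 < η := hη
  -- the size of the numbers
  set M := 1 + (∑ φ : K →+* ℂ, ‖φ (b : K)‖) + ∑ i, ∑ φ : K →+* ℂ, ‖φ (a i : K)‖
  have hM1 : 1 ≤ M := le_add_of_le_of_nonneg (le_add_of_nonneg_right (by positivity))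
    (by positivity)
  set γ := min 1 (η / (4 * (Real.log M + 1)))
  have hlM : 0 ≤ Real.log M := Real.log_nonneg hM1
  have hγ : 0 < γ := lt_min one_pos (by positivity)
  set ε := min (Real.log A / 2) (Real.log A * γ / 6)
  have hε : 0 < ε := lt_min (half_pos hlA) (by positivity)
  obtain ⟨N₁, hN⟩ := eventually_atTop.1 ((eventually_norm_lower α h0 halg hnd P hP hPalg hε).and
    (((eventually_all.2 fun i : ι => eventually_eval_le (P i) hε).and
      (eventually_le_exp (Fintype.card ι : ℝ) hε)).and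
    ((eventually_small_eval Q (show 0 < η / 8 by positivity)).and
      (((eventually_all_finset _).2 hev).and ((eventually_eval_lt (hP i₀) hA).and
        (eventually_le_exp 2 (show 0 < η / 4 by positivity)))))))
  set N := max N₁ 1
  -- the small first indices
  have hfin : ∀ m, {n | u m = u n}.Finite := fun m => by
    obtain ⟨n₀, hn₀⟩ := eventually_atTop.1 ((tendsto_norm_atTop α h0 halg hnd P hP hPalg
      ⟨i₁, hi₁⟩).eventually_gt_atTop ‖u m‖)
    exact (Set.finite_lt_nat n₀).subset fun n (hn : u m = u n) => Set.mem_ofPred_eq ▸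
      lt_of_not_ge fun h => (hn₀ n h).ne (congrArg norm hn)
  refine ((Set.finite_lt_nat N).biUnion fun m _ => (hfin m).image fun n => (m, n)).subset
    fun ⟨m, n⟩ ⟨hmn, heq⟩ => ?_
  dsimp only at hmn heq
  simp only [Set.mem_iUnion, Set.mem_image, exists_prop]
  refine ⟨m, ?_, n, heq, rfl⟩
  show m < N
  by_contra! hm
  obtain ⟨-, ⟨hup, hcard⟩, hQm, hlow, hlt, h2m⟩ := hN m ((le_max_left _ _).trans hm)
  obtain ⟨hgrow, -, hQn, -⟩ := hN n (((le_max_left _ _).trans hm).trans hmn.le)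
  -- the difference of the indices is small
  obtain ⟨d, rfl⟩ : ∃ d, n = m + d := ⟨n - m, by omega⟩
  have hd : 1 ≤ d := by omega
  have hdm : (d : ℝ) ≤ γ * m := by
    have hum : ‖u m‖ ≤ A ^ m * (Real.exp (ε * m) * Real.exp (ε * m)) := by
      refine (norm_sum_le _ _).trans ((sum_le_sum (g := fun _ => Real.exp (ε * m) * A ^ m)
        fun j _ => ?_).trans ?_)
      · rw [norm_mul, norm_pow]
        exact mul_le_mul (hup j) (pow_le_pow_left₀ (norm_nonneg _) (hmax j (mem_univ j)) m)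
          (by positivity) (Real.exp_pos _).le
      · rw [sum_const, card_univ, nsmul_eq_mul]
        refine (mul_le_mul_of_nonneg_right hcard (by positivity)).trans_eq ?_
        ring
    have h1 : A ^ (m + d) * Real.exp (-(ε * (m + d : ℕ))) ≤
        A ^ m * (Real.exp (ε * m) * Real.exp (ε * m)) :=
      (hgrow i₀).trans ((congrArg norm heq.symm).le.trans hum)
    have h2 := Real.log_le_log (by positivity) h1
    rw [← Real.exp_add, Real.log_mul (by positivity) (Real.exp_pos _).ne',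
      Real.log_mul (by positivity) (Real.exp_pos _).ne', Real.log_exp, Real.log_exp,
      Real.log_pow, Real.log_pow] at h2
    push_cast at h2
    have h3 : ε * d ≤ Real.log A / 2 * d :=
      mul_le_mul_of_nonneg_right (min_le_left _ _) (Nat.cast_nonneg d)
    have h4 : ε * m ≤ Real.log A * γ / 6 * m :=
      mul_le_mul_of_nonneg_right (min_le_right _ _) (Nat.cast_nonneg m)
    refine le_of_mul_le_mul_left ?_ hlA
    linarith
  -- the coefficients of the difference
  set c : ι → 𝓞 K := fun i => (Q i).eval ((m + d : ℕ) : 𝓞 K) * a i ^ d -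
    (Q i).eval (m : 𝓞 K) * b ^ d
  have hc : ∀ i (φ : K →+* ℂ), ‖φ (c i : K)‖ ≤ Real.exp (η * m) := fun i φ => by
    have hMd : ∀ x : 𝓞 K, ‖φ (x : K)‖ ≤ M → ‖φ ((x ^ d : 𝓞 K) : K)‖ ≤
        Real.exp (η / 4 * m) := fun x hx => by
      rw [show ((x ^ d : 𝓞 K) : K) = (x : K) ^ d from map_pow (algebraMap (𝓞 K) K) x d, map_pow,
        norm_pow]
      refine (pow_le_pow_left₀ (norm_nonneg _) hx d).trans ?_
      rw [← Real.exp_log (zero_lt_one.trans_le hM1), ← Real.exp_nat_mul, Real.exp_le_exp]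
      refine (mul_le_mul_of_nonneg_right hdm hlM).trans ?_
      have h : γ * (4 * (Real.log M + 1)) ≤ η :=
        (le_div_iff₀ (by positivity)).1 (min_le_right _ _)
      linarith [mul_le_mul_of_nonneg_right h (Nat.cast_nonneg (α := ℝ) m),
        mul_nonneg hγ.le (Nat.cast_nonneg (α := ℝ) m)]
    have ha' : ‖φ (a i : K)‖ ≤ M :=
      ((single_le_sum (f := fun φ : K →+* ℂ => ‖φ (a i : K)‖) (fun _ _ => norm_nonneg _)
        (mem_univ φ)).trans (single_le_sum (f := fun i => ∑ φ : K →+* ℂ, ‖φ (a i : K)‖)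
          (fun _ _ => by positivity) (mem_univ i))).trans
        (le_add_of_nonneg_left (by positivity))
    have hb'' : ‖φ (b : K)‖ ≤ M :=
      ((single_le_sum (f := fun φ : K →+* ℂ => ‖φ (b : K)‖) (fun _ _ => norm_nonneg _)
        (mem_univ φ)).trans (le_add_of_nonneg_left zero_le_one)).trans
        (le_add_of_nonneg_right (by positivity))
    have hn : η / 8 * ((m + d : ℕ) : ℝ) ≤ η / 4 * m := by
      push_cast
      have h := hdm.trans (mul_le_of_le_one_left (Nat.cast_nonneg m) (min_le_left _ _))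
      linarith [mul_le_mul_of_nonneg_left h (show (0 : ℝ) ≤ η / 8 by positivity)]
    have hm' : η / 8 * (m : ℝ) ≤ η / 4 * m := by
      linarith [mul_nonneg hη.le (Nat.cast_nonneg (α := ℝ) m)]
    simp only [c, map_sub, map_mul]
    refine (norm_sub_le _ _).trans ?_
    rw [norm_mul, norm_mul]
    refine (add_le_add (mul_le_mul ((hQn i φ).trans (Real.exp_le_exp.2 hn)) (hMd _ ha')
      (norm_nonneg _) (Real.exp_pos _).le) (mul_le_mul ((hQm i φ).trans (Real.exp_le_exp.2 hm'))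
      (hMd _ hb'') (norm_nonneg _) (Real.exp_pos _).le)).trans ?_
    rw [← two_mul, ← Real.exp_add]
    refine (mul_le_mul_of_nonneg_right h2m (Real.exp_pos _).le).trans ?_
    rw [← Real.exp_add, Real.exp_le_exp]
    linarith [mul_nonneg hη.le (Nat.cast_nonneg (α := ℝ) m)]
  have hsum : ∑ i, (c i : K) * (a i : K) ^ m = 0 := by
    refine (algebraMap K ℂ).injective ?_
    rw [map_zero, map_sum]
    have hterm : ∀ i, algebraMap K ℂ ((c i : K) * (a i : K) ^ m) = ((b : K) : ℂ) ^ (m + d) *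
        ((b : K) : ℂ) * ((P i).eval ((m + d : ℕ) : ℂ) * α i ^ (m + d) -
          (P i).eval (m : ℂ) * α i ^ m) := fun i => by
      simp only [c, map_mul, map_sub, map_pow]
      rw [show (algebraMap K ℂ) (a i : K) = _ from ha i,
        show (algebraMap K ℂ) (((Q i).eval (m : 𝓞 K) : 𝓞 K) : K) = _ from hQ i m,
        show (algebraMap K ℂ) (((Q i).eval ((m + d : ℕ) : 𝓞 K) : 𝓞 K) : K) = _ from hQ i (m + d),
        show (algebraMap K ℂ) (b : K) = ((b : K) : ℂ) from rfl, mul_pow, mul_pow, pow_add, pow_add]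
      ring
    simp only [hterm]
    rw [← mul_sum, sum_sub_distrib, ← heq, sub_self, mul_zero]
  -- all of them vanish
  set J := univ.filter fun i => c i ≠ 0
  have hJ : J = ∅ := not_nonempty_iff_eq_empty.1 fun hJne => by
    obtain ⟨i, hi⟩ := hJne
    have h := hlow J (mem_filter.2 ⟨mem_powerset.2 (subset_univ _), ⟨i, hi⟩⟩) c
      (fun j hj => ⟨(mem_filter.1 hj).2, hc j⟩) i hi
    rw [sum_filter_of_ne (p := fun i => c i ≠ 0) fun j _ hne e => hne (by rw [e]; simp), hsum,
      map_zero] at h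
    exact h.not_gt (mul_pos (pow_pos (AbsoluteValue.pos _
      (RingOfIntegers.coe_ne_zero_iff.2 (ha0 i))) m) (Real.exp_pos _))
  have hi0 : c i₀ = 0 := by
    by_contra h
    exact eq_empty_iff_forall_notMem.1 hJ i₀ (mem_filter.2 ⟨mem_univ _, h⟩)
  have h1 : (P i₀).eval ((m + d : ℕ) : ℂ) * α i₀ ^ d = (P i₀).eval (m : ℂ) := by
    have h := congrArg (fun x : 𝓞 K => algebraMap K ℂ (x : K)) hi0
    simp only [c, map_sub, map_mul, map_pow, map_zero, sub_eq_zero] at h
    rw [show (algebraMap K ℂ) (a i₀ : K) = _ from ha i₀,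
      show (algebraMap K ℂ) (((Q i₀).eval (m : 𝓞 K) : 𝓞 K) : K) = _ from hQ i₀ m,
      show (algebraMap K ℂ) (((Q i₀).eval ((m + d : ℕ) : 𝓞 K) : 𝓞 K) : K) = _ from hQ i₀ (m + d),
      show (algebraMap K ℂ) (b : K) = ((b : K) : ℂ) from rfl, mul_pow] at h
    refine mul_left_cancel₀ (mul_ne_zero hb' (pow_ne_zero d hb')) ?_
    linear_combination h
  refine (hlt (m + d) (Nat.le_add_right m d)).not_ge ?_
  rw [← h1, norm_mul, norm_pow, mul_comm]
  exact mul_le_mul_of_nonneg_left (le_self_pow₀ hA.le (by omega)) (norm_nonneg _)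

end FA.Subspace

end
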