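import Fermat.Agent.Subspace.Parametric
import Mathlib.Analysis.Complex.Basic
import Mathlib.LinearAlgebra.Dual.Lemmas

/-!
# Schmidt's subspace theorem

For independent linear forms `L i` with algebraic coefficients, real or complex, and `δ > 0` the
integer points `x` with `∏ i |L i x| < ‖x‖ ^ (-δ)` lie in finitely many proper rational subspaces.
Likewise at finitely many places, each with unimodular forms with algebraic coefficients; for
arbitrary forms at primes see `Fermat.Agent.Subspace.Padic`.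
-/

set_option autoImplicit false
set_option linter.style.haveILetI false

noncomputable section

namespace FA.Subspace

open Finset Matrix FA.Perfect

variable {n : ℕ}

/-- Every point lies on a rational hyperplane. -/
theorem exists_orth (hn : 1 ≤ n) (x : Fin (n + 1) → ℤ) :
    ∃ v : Fin (n + 1) → ℤ, v ≠ 0 ∧ v ⬝ᵥ x = 0 := by
  by_cases h : x 0 = 0
  · exact ⟨Pi.single 0 1, fun e => by simpa using congrFun e 0, by simp [h]⟩
  · set j : Fin (n + 1) := ⟨1, by omega⟩
    have hj : j ≠ 0 := by simp [j, Fin.ext_iff]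
    refine ⟨Pi.single 0 (x j) - Pi.single j (x 0), fun e => h ?_, ?_⟩
    · simpa [Pi.single_eq_of_ne hj] using congrFun e j
    · simp [sub_dotProduct, mul_comm]

/-- The rational zeros of a form lie on a rational hyperplane. -/
theorem exists_normal_zero {F : Type*} [Field F] [CharZero F] {a : Fin (n + 1) → F}
    (ha : a ≠ 0) :
    ∃ v : Fin (n + 1) → ℤ, v ≠ 0 ∧
      ∀ x : Fin (n + 1) → ℤ, ∑ k, a k * (x k : F) = 0 → v ⬝ᵥ x = 0 := by
  classical
  obtain ⟨k, hk⟩ := Function.ne_iff.1 ha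
  let f : (Fin (n + 1) → ℚ) →ₗ[ℚ] F := ∑ k, (LinearMap.proj k).smulRight (a k)
  have hf : ∀ y, f y = ∑ k, a k * (y k : F) := fun y => by
    simp [f, LinearMap.sum_apply, Rat.smul_def, mul_comm]
  have htop : LinearMap.ker f < ⊤ := lt_top_iff_ne_top.2 fun h => hk (by
    have h1 : f (Pi.single k 1) = 0 := LinearMap.mem_ker.1 (h ▸ Submodule.mem_top)
    rw [hf, sum_eq_single k (fun b _ hb => by simp [hb]) (fun h => absurd (mem_univ k) h)] at h1
    simpa using h1)
  obtain ⟨φ, hφ0, hφ⟩ := Submodule.exists_le_ker_of_lt_top _ htop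
  set q := fun k => φ (Pi.single k 1)
  set D := ∏ k, (q k).den
  have hdvd : ∀ k, ∃ z : ℤ, (z : ℚ) = D * q k := fun k => by
    obtain ⟨t, ht⟩ : (q k).den ∣ D := dvd_prod_of_mem (fun k => (q k).den) (mem_univ k)
    refine ⟨t * (q k).num, ?_⟩
    rw [ht]
    push_cast
    linear_combination (-(t : ℚ)) * (q k).mul_den_eq_num
  choose v hv using hdvd
  refine ⟨v, fun h => hφ0 ?_, fun x hx => ?_⟩
  · refine LinearMap.pi_ext' fun k => LinearMap.ext_ring ?_
    have h1 := hv k
    rw [show v k = 0 from congrFun h k, Int.cast_zero] at h1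
    simpa [q] using (mul_eq_zero.1 h1.symm).resolve_left
      (Nat.cast_ne_zero.2 (prod_pos fun k _ => Rat.den_pos (q k)).ne')
  · have h1 : φ (fun k => (x k : ℚ)) = 0 :=
      LinearMap.mem_ker.1 (hφ (LinearMap.mem_ker.2 ((hf _).trans (by simpa using hx))))
    rw [φ.pi_apply_eq_sum_univ] at h1
    have h2 : ((v ⬝ᵥ x : ℤ) : ℚ) = D * ∑ k, (x k : ℚ) * q k := by
      simp only [dotProduct, Int.cast_sum, Int.cast_mul, hv, mul_sum]
      exact sum_congr rfl fun k _ => by ring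
    have h3 : ∑ k, (x k : ℚ) * q k = 0 := by
      refine Eq.trans (sum_congr rfl fun k _ => ?_) h1
      rw [smul_eq_mul]
      congr 1
      show φ (Pi.single k 1) = _
      congr 1
      funext j
      simp [Pi.single_apply, eq_comm]
    rw [h3, mul_zero] at h2
    exact_mod_cast h2

/-- **The subspace theorem with finitely many places.** The points at which the forms at the
`l`-th base are divisible by its powers `e l i`, and the product of the forms at infinity is less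
than the product of these powers times `‖x‖ ^ (-δ)`, lie in finitely many rational subspaces. -/
theorem finite_subspaces_local (hn : 1 ≤ n) {s : ℕ} (Pl : LocalPlaces s (n + 1))
    (L : Matrix (Fin (n + 1)) (Fin (n + 1)) ℝ) (hL : L.det ≠ 0)
    (halg : ∀ i j, IsAlgebraic ℚ (L i j)) {δ : ℝ} (hδ : 0 < δ) :
    ∃ V : Finset (Fin (n + 1) → ℤ), (∀ v ∈ V, v ≠ 0) ∧
      ∀ x : Fin (n + 1) → ℤ, x ≠ 0 → ∀ e, Pl.Divides e x →
        ∏ i, |∑ k, L i k * (x k : ℝ)| < Pl.vol e * ‖castVec x‖ ^ (-δ) →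
          ∃ v ∈ V, v ⬝ᵥ x = 0 := by
  classical
  -- the points on which a form vanishes
  have hrow : ∀ i, L i ≠ 0 := fun i h => hL (det_eq_zero_of_row_eq_zero i fun j => congrFun h j)
  choose v₀ hv₀ hv₀' using fun i => exists_normal_zero (hrow i)
  have hF : ∀ l, CharZero (FractionRing (Pl.ring l)) := fun l =>
    charZero_of_injective_algebraMap (IsFractionRing.injective (Pl.ring l) _)
  have hrowU : ∀ p : Fin s × Fin (n + 1),
      (fun k => algebraMap (Pl.ring p.1) (FractionRing (Pl.ring p.1)) (Pl.mat p.1 p.2 k)) ≠ 0 :=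
    fun p h => (Pl.isUnit_det p.1).ne_zero (det_eq_zero_of_row_eq_zero p.2 fun k =>
      (map_eq_zero_iff _ (IsFractionRing.injective (Pl.ring p.1) _)).1 (congrFun h k))
  choose v₂ hv₂ hv₂' using fun p => exists_normal_zero (hrowU p)
  choose Cn Dn hCn1 hCn using fun p : Fin s × Fin (n + 1) =>
    exists_norm_bound (fun k => Pl.mat p.1 p.2 k) fun k => Pl.isAlgebraic p.1 p.2 k
  -- the points with exponents in the grid
  set Dm : ℕ := ∑ p, Dn p
  set D := 2 * (n : ℝ) + δ + 2 + Dm with hD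
  obtain ⟨T, hT, hcover⟩ := exists_grid_places n s D hδ
  choose V Q₀ hV using fun t : T => finite_parametric_local Pl L hL halg t.1.1 t.1.2.1
    (hT _ t.2).1 (hT _ t.2).2.1 (hT _ t.2).2.2
  set CL := 1 + ∑ i, ∑ k, |L i k| with hCL
  have hCn0 : ∀ p, 0 ≤ Cn p := fun p => zero_le_one.trans (hCn1 p)
  set CU := 1 + ∑ p : Fin s × Fin (n + 1), Cn p with hCU
  set X₀ := max (max (CL + 1) CU) (1 + ∑ t, |Q₀ t|) with hX₀
  -- the small points
  set N₀ := ⌈X₀⌉
  set box := Fintype.piFinset fun _ : Fin (n + 1) => Finset.Icc (-N₀) N₀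
  choose v₁ hv₁ hv₁' using exists_orth hn
  refine ⟨((univ.image v₀ ∪ univ.image v₂) ∪ (box.image v₁) ∪ univ.biUnion V).filter
    (fun v => v ≠ 0), fun v hv => (mem_filter.1 hv).2, fun x hx0 ex hxd hx => ?_⟩
  simp only [mem_filter, mem_union]
  by_cases hzero : ∃ i, ∑ k, L i k * (x k : ℝ) = 0
  · obtain ⟨i, hi⟩ := hzero
    exact ⟨v₀ i, ⟨Or.inl (Or.inl (Or.inl (mem_image_of_mem v₀ (mem_univ i)))), hv₀ i⟩,
      hv₀' i x hi⟩
  by_cases hzeroU : ∃ p : Fin s × Fin (n + 1), (Pl.mat p.1 *ᵥ intVec _ x) p.2 = 0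
  · obtain ⟨p, hp⟩ := hzeroU
    refine ⟨v₂ p, ⟨Or.inl (Or.inl (Or.inr (mem_image_of_mem v₂ (mem_univ p)))), hv₂ p⟩,
      hv₂' p x ?_⟩
    rw [← map_zero (algebraMap (Pl.ring p.1) (FractionRing (Pl.ring p.1))), ← hp]
    simp [intVec, mulVec, dotProduct]
  set X := ‖castVec x‖ with hX
  have hxk : ∀ k, |(x k : ℝ)| ≤ X := fun k => by
    simpa [castVec] using norm_le_pi_norm (castVec x) k
  by_cases hsmall : X < X₀
  · refine ⟨v₁ x, ⟨Or.inl (Or.inr (mem_image_of_mem v₁ (Fintype.mem_piFinset.2 fun k => ?_))),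
      hv₁ x⟩, hv₁' x⟩
    have h1 : |(x k : ℝ)| ≤ (N₀ : ℤ) := ((hxk k).trans hsmall.le).trans (Int.le_ceil X₀)
    rw [Finset.mem_Icc, ← abs_le]
    exact_mod_cast h1
  rw [not_lt] at hsmall
  push Not at hzero hzeroU
  have hCL1 : 1 ≤ CL := le_add_of_nonneg_right (by positivity)
  have hXC : CL + 1 ≤ X := ((le_max_left _ _).trans (le_max_left _ _)).trans hsmall
  have hXU : CU ≤ X := ((le_max_right _ _).trans (le_max_left _ _)).trans hsmall
  have hX0 : 0 < X := by linarith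
  have hlogX : 0 < Real.log X := Real.log_pos (by linarith)
  set a := fun i => Real.log |∑ k, L i k * (x k : ℝ)| / Real.log X with ha
  have ha2 : ∀ i, a i ≤ 2 := fun i => by
    simp only [ha]
    rw [div_le_iff₀ hlogX]
    have h1 : |∑ k, L i k * (x k : ℝ)| ≤ CL * X := by
      refine (abs_sum_le_sum_abs _ _).trans ((sum_le_sum (g := fun k => |L i k| * X)
        fun k _ => ?_).trans ?_)
      · rw [abs_mul]
        exact mul_le_mul_of_nonneg_left (hxk k) (abs_nonneg _)
      · rw [← sum_mul]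
        refine mul_le_mul_of_nonneg_right (le_trans ?_ (le_add_of_nonneg_left zero_le_one)) hX0.le
        exact single_le_sum (f := fun i => ∑ k, |L i k|)
          (fun _ _ => sum_nonneg fun _ _ => abs_nonneg _) (mem_univ i)
    refine (Real.log_le_log (abs_pos.2 (hzero i))
      (h1.trans (mul_le_mul_of_nonneg_right (show CL ≤ X by linarith) hX0.le))).trans_eq ?_
    rw [Real.log_mul hX0.ne' hX0.ne']
    ring
  set f := fun l i => (ex l i : ℝ) * Real.log (Pl.base l) / Real.log X with hf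
  have hf2 : ∀ l i, 0 ≤ f l i ∧ f l i ≤ Dm + 1 := fun l i => by
    refine ⟨div_nonneg (mul_nonneg (Nat.cast_nonneg _) (Pl.log_base_pos l).le) hlogX.le, ?_⟩
    simp only [hf]
    rw [div_le_iff₀ hlogX, ← Real.log_pow, ← Nat.cast_add_one, ← Real.log_pow]
    refine Real.log_le_log (pow_pos (Nat.cast_pos.2 (Pl.base_pos l)) _) ?_
    have hne : ∑ k, (x k : Pl.ring l) * Pl.mat l i k ≠ 0 := by
      convert hzeroU (l, i) using 1
      simp [intVec, mulVec, dotProduct, mul_comm]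
    obtain ⟨z, hz0, hzle, hzdvd⟩ := hCn (l, i) x X (by linarith) hxk hne
    have h := Int.le_of_dvd (abs_pos.2 hz0) ((dvd_abs _ _).2 (Pl.dvd_int l _ _
      ((hxd l i).trans (dvd_trans (dvd_of_eq (by simp [intVec, mulVec, dotProduct, mul_comm]))
        hzdvd))))
    refine le_trans (show ((Pl.base l : ℝ) ^ ex l i) ≤ |(z : ℝ)| by exact_mod_cast h) ?_
    refine hzle.trans ?_
    rw [pow_succ']
    exact mul_le_mul ((single_le_sum (fun p _ => hCn0 p) (mem_univ (l, i))).trans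
      ((le_add_of_nonneg_left zero_le_one).trans hXU)) (pow_le_pow_right₀ (by linarith)
      (single_le_sum (f := Dn) (fun _ _ => Nat.zero_le _) (mem_univ (l, i)))) (by positivity)
      hX0.le
  set F := ∑ l, ∑ i, f l i with hF
  have hF0 : 0 ≤ F := sum_nonneg fun l _ => sum_nonneg fun i _ => (hf2 l i).1
  have hasum : ∑ i, a i ≤ F - δ := by
    simp only [ha, hF, hf, ← sum_div, ← Pl.log_vol]
    rw [div_sub' hlogX.ne', div_le_div_iff_of_pos_right hlogX,
      ← Real.log_prod fun i _ => abs_ne_zero.2 (hzero i)]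
    refine (Real.log_le_log (prod_pos fun i _ => abs_pos.2 (hzero i)) hx.le).trans_eq ?_
    rw [Real.log_mul (Nat.cast_ne_zero.2 (Pl.vol_pos ex).ne') (Real.rpow_pos_of_pos hX0 _).ne',
      Real.log_rpow hX0]
    ring
  set b := fun i => max (a i) (-D) with hb
  have hn0 : (0 : ℝ) ≤ n := Nat.cast_nonneg n
  have hbsum : ∑ i, b i ≤ F - δ := by
    by_cases hclip : ∃ i, a i < -D
    · obtain ⟨i, hi⟩ := hclip
      rw [← add_sum_erase _ _ (mem_univ i)]
      have h1 : b i = -D := max_eq_right hi.le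
      have h2 : ∑ j ∈ univ.erase i, b j ≤ n * 2 :=
        (sum_le_card_nsmul _ _ 2 fun j _ => max_le (ha2 j) (by linarith)).trans_eq (by simp)
      linarith
    · push Not at hclip
      refine (le_of_eq (sum_congr rfl fun i _ => max_eq_left (hclip i))).trans hasum
  obtain ⟨t, ht, hte, htf⟩ := hcover b f (fun i => abs_le.2 ⟨le_max_right _ _,
    max_le (by linarith [ha2 i]) (by linarith)⟩) (fun l i => ⟨(hf2 l i).1, by
      linarith [(hf2 l i).2]⟩) hbsum
  have h1 : |Q₀ ⟨t, ht⟩| ≤ ∑ t, |Q₀ t| :=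
    single_le_sum (f := fun t => |Q₀ t|) (fun _ _ => abs_nonneg _) (mem_univ _)
  obtain ⟨v, hv, hv0, hvx⟩ := hV ⟨t, ht⟩ X
    (by linarith [le_abs_self (Q₀ ⟨t, ht⟩), (le_max_right _ _).trans hsmall]) x hx0 (fun i => by
      refine le_trans ?_ (Real.rpow_le_rpow_of_exponent_le (show 1 ≤ X by linarith)
        ((le_max_left (a i) (-D)).trans (hte i)))
      simp only [ha]
      rw [Real.rpow_def_of_pos hX0, mul_div_cancel₀ _ hlogX.ne',
        Real.exp_log (abs_pos.2 (hzero i))])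
      (LocalPlaces.Divides.mono (P := Pl) hxd fun l i => Pl.minExp_le (by
        have h := htf l i
        simp only [hf] at h
        rw [le_div_iff₀ hlogX] at h
        exact h))
  exact ⟨v, ⟨Or.inr (mem_biUnion.2 ⟨_, mem_univ _, hv⟩), hv0⟩, hvx⟩

/-- **The subspace theorem with integer forms at finitely many places.** -/
theorem finite_subspaces_places (hn : 1 ≤ n) {s : ℕ} (Pl : Places s (n + 1))
    (L : Matrix (Fin (n + 1)) (Fin (n + 1)) ℝ) (hL : L.det ≠ 0)
    (halg : ∀ i j, IsAlgebraic ℚ (L i j)) {δ : ℝ} (hδ : 0 < δ) :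
    ∃ V : Finset (Fin (n + 1) → ℤ), (∀ v ∈ V, v ≠ 0) ∧
      ∀ x : Fin (n + 1) → ℤ, x ≠ 0 → ∀ e, Pl.Divides e x →
        ∏ i, |∑ k, L i k * (x k : ℝ)| < Pl.vol e * ‖castVec x‖ ^ (-δ) →
          ∃ v ∈ V, v ⬝ᵥ x = 0 :=
  finite_subspaces_local hn Pl.toLocal L hL halg hδ

/-- **The subspace theorem of Schmidt.** -/
theorem finite_subspaces (hn : 1 ≤ n) (L : Matrix (Fin (n + 1)) (Fin (n + 1)) ℝ) (hL : L.det ≠ 0)
    (halg : ∀ i j, IsAlgebraic ℚ (L i j)) {δ : ℝ} (hδ : 0 < δ) :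
    ∃ V : Finset (Fin (n + 1) → ℤ), (∀ v ∈ V, v ≠ 0) ∧ ∀ x : Fin (n + 1) → ℤ, x ≠ 0 →
      ∏ i, |∑ k, L i k * (x k : ℝ)| < ‖castVec x‖ ^ (-δ) → ∃ v ∈ V, v ⬝ᵥ x = 0 := by
  obtain ⟨V, hV, h⟩ := finite_subspaces_places hn (Places.none (n + 1)) L hL halg hδ
  exact ⟨V, hV, fun x hx0 hx => h x hx0 (fun l => l.elim0) (fun l => l.elim0)
    (by simpa [Places.vol] using hx)⟩

theorem isAlgebraic_re {z : ℂ} (hz : IsAlgebraic ℚ z) : IsAlgebraic ℚ z.re := by
  have hc : IsAlgebraic ℚ ((starRingEnd ℂ) z) :=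
    hz.algHom (Complex.conjAe.toAlgHom.restrictScalars ℚ)
  have h2 : IsAlgebraic ℚ ((2 : ℂ)⁻¹) := by
    simpa using isAlgebraic_algebraMap (A := ℂ) ((2 : ℚ)⁻¹)
  have h : IsAlgebraic ℚ ((z.re : ℂ)) := by
    rw [show (z.re : ℂ) = 2⁻¹ * (z + (starRingEnd ℂ) z) by
      rw [Complex.add_conj]; push_cast; ring]
    exact h2.mul (hz.add hc)
  exact (isAlgebraic_algHom_iff (IsScalarTower.toAlgHom ℚ ℝ ℂ) Complex.ofReal_injective).1 h

theorem isAlgebraic_im {z : ℂ} (hz : IsAlgebraic ℚ z) : IsAlgebraic ℚ z.im := by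
  have hI : IsAlgebraic ℚ Complex.I := ⟨Polynomial.X ^ 2 + 1,
    fun h => by simpa [Polynomial.coeff_one] using congrArg (Polynomial.coeff · 2) h, by simp⟩
  have h := (isAlgebraic_re (hz.mul hI)).neg
  simpa [Complex.mul_re] using h

/-- Real or imaginary parts of the rows, still independent. -/
theorem exists_re_im {N : ℕ} (L : Matrix (Fin N) (Fin N) ℂ) (hL : L.det ≠ 0) :
    ∃ M : Matrix (Fin N) (Fin N) ℝ, M.det ≠ 0 ∧
      ∀ i, (M i = fun k => (L i k).re) ∨ M i = fun k => (L i k).im := by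
  classical
  suffices h : ∀ S : Finset (Fin N), ∃ L' : Matrix (Fin N) (Fin N) ℂ,
      L'.det ≠ 0 ∧ (∀ i ∉ S, L' i = L i) ∧ ∀ i ∈ S,
        (L' i = fun k => ((L i k).re : ℂ)) ∨ L' i = fun k => ((L i k).im : ℂ) by
    obtain ⟨L', hdet, -, hrow⟩ := h univ
    set M : Matrix (Fin N) (Fin N) ℝ := Matrix.of fun i k => (L' i k).re with hM
    have hMmap : M.map (fun r : ℝ => (r : ℂ)) = L' := by
      ext i k
      rcases hrow i (mem_univ i) with h | h <;> simp [hM, h]
    refine ⟨M, fun e => hdet (by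
      rw [← hMmap, show (M.map fun r : ℝ => (r : ℂ)) = Complex.ofRealHom.mapMatrix M from rfl,
        ← RingHom.map_det, e, map_zero]), fun i => ?_⟩
    rcases hrow i (mem_univ i) with h | h
    · exact Or.inl (funext fun k => by simp [hM, h])
    · exact Or.inr (funext fun k => by simp [hM, h])
  intro S
  induction S using Finset.induction with
  | empty => exact ⟨L, hL, fun _ _ => rfl, by simp⟩
  | insert i S hi ih =>
    obtain ⟨L', hdet, hout, hin⟩ := ih
    set re := fun k => ((L i k).re : ℂ)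
    set im := fun k => ((L i k).im : ℂ)
    have hsplit : L'.det = (L'.updateRow i re).det + Complex.I * (L'.updateRow i im).det := by
      rw [← det_updateRow_smul, ← det_updateRow_add, show re + Complex.I • im = L' i from
        funext fun k => by simp [re, im, hout i hi, mul_comm Complex.I, Complex.re_add_im],
        updateRow_eq_self]
    obtain ⟨r, hr, hdet'⟩ : ∃ r, (r = re ∨ r = im) ∧ (L'.updateRow i r).det ≠ 0 := by
      by_contra! h
      exact hdet (by rw [hsplit, h re (Or.inl rfl), h im (Or.inr rfl)]; simp)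
    refine ⟨L'.updateRow i r, hdet', fun j hj => ?_, fun j hj => ?_⟩
    · rw [mem_insert, not_or] at hj
      exact (updateRow_ne hj.1).trans (hout j hj.2)
    · rcases eq_or_ne j i with rfl | hji
      · rw [updateRow_self]
        exact hr
      · rw [updateRow_ne hji]
        exact hin j ((mem_insert.1 hj).resolve_left hji)

/-- **The subspace theorem with complex algebraic coefficients and finitely many places.** -/
theorem finite_subspaces_complex_local (hn : 1 ≤ n) {s : ℕ} (Pl : LocalPlaces s (n + 1))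
    (L : Matrix (Fin (n + 1)) (Fin (n + 1)) ℂ)
    (hL : L.det ≠ 0) (halg : ∀ i j, IsAlgebraic ℚ (L i j)) {δ : ℝ} (hδ : 0 < δ) :
    ∃ V : Finset (Fin (n + 1) → ℤ), (∀ v ∈ V, v ≠ 0) ∧
      ∀ x : Fin (n + 1) → ℤ, x ≠ 0 → ∀ e, Pl.Divides e x →
        ∏ i, ‖∑ k, L i k * (x k : ℂ)‖ < Pl.vol e * ‖castVec x‖ ^ (-δ) →
          ∃ v ∈ V, v ⬝ᵥ x = 0 := by
  obtain ⟨M, hM, hMrow⟩ := exists_re_im L hL
  obtain ⟨V, hV, hVx⟩ := finite_subspaces_local hn Pl M hM (fun i k => by
    rcases hMrow i with h | h <;> rw [h]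
    · exact isAlgebraic_re (halg i k)
    · exact isAlgebraic_im (halg i k)) hδ
  refine ⟨V, hV, fun x hx0 ex hxd hx => hVx x hx0 ex hxd (lt_of_le_of_lt
    (prod_le_prod (fun i _ => abs_nonneg _) fun i _ => ?_) hx)⟩
  rcases hMrow i with h | h <;> rw [h]
  · refine le_of_eq_of_le (congrArg abs ?_) (Complex.abs_re_le_norm _)
    simp [Complex.re_sum]
  · refine le_of_eq_of_le (congrArg abs ?_) (Complex.abs_im_le_norm _)
    simp [Complex.im_sum]

/-- **The subspace theorem with complex algebraic coefficients and integer forms at finitely many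
places.** -/
theorem finite_subspaces_complex_places (hn : 1 ≤ n) {s : ℕ} (Pl : Places s (n + 1))
    (L : Matrix (Fin (n + 1)) (Fin (n + 1)) ℂ)
    (hL : L.det ≠ 0) (halg : ∀ i j, IsAlgebraic ℚ (L i j)) {δ : ℝ} (hδ : 0 < δ) :
    ∃ V : Finset (Fin (n + 1) → ℤ), (∀ v ∈ V, v ≠ 0) ∧
      ∀ x : Fin (n + 1) → ℤ, x ≠ 0 → ∀ e, Pl.Divides e x →
        ∏ i, ‖∑ k, L i k * (x k : ℂ)‖ < Pl.vol e * ‖castVec x‖ ^ (-δ) →
          ∃ v ∈ V, v ⬝ᵥ x = 0 :=
  finite_subspaces_complex_local hn Pl.toLocal L hL halg hδ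

/-- **The subspace theorem with complex algebraic coefficients.** -/
theorem finite_subspaces_complex (hn : 1 ≤ n) (L : Matrix (Fin (n + 1)) (Fin (n + 1)) ℂ)
    (hL : L.det ≠ 0) (halg : ∀ i j, IsAlgebraic ℚ (L i j)) {δ : ℝ} (hδ : 0 < δ) :
    ∃ V : Finset (Fin (n + 1) → ℤ), (∀ v ∈ V, v ≠ 0) ∧ ∀ x : Fin (n + 1) → ℤ, x ≠ 0 →
      ∏ i, ‖∑ k, L i k * (x k : ℂ)‖ < ‖castVec x‖ ^ (-δ) → ∃ v ∈ V, v ⬝ᵥ x = 0 := by
  obtain ⟨V, hV, h⟩ := finite_subspaces_complex_places hn (Places.none (n + 1)) L hL halg hδ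
  exact ⟨V, hV, fun x hx0 hx => h x hx0 (fun l => l.elim0) (fun l => l.elim0)
    (by simpa [Places.vol] using hx)⟩

end FA.Subspace

end
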