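import Fermat.Agent.Subspace.Echelon
import Fermat.Agent.Subspace.Main
import Mathlib.Data.Fin.Tuple.Sort
import Mathlib.NumberTheory.Padics.RingHoms

/-!
# Schlickewei's subspace theorem over the rationals

At finitely many primes `p` the forms may be any independent forms with algebraic coefficients in
`ℚ_p`. For each order of the sizes of the forms a triangular change of the rows makes them
unimodular over `ℤ_p` and enlarges their product at most by a constant factor.
-/

set_option autoImplicit false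
set_option linter.style.haveILetI false

noncomputable section

namespace FA.Subspace

open Finset Matrix FA.Perfect

/-- Places at distinct primes with unimodular forms over the `p`-adic integers. -/
def LocalPlaces.ofPadic {s N : ℕ} (p : Fin s → ℕ) [hp : ∀ l, Fact (p l).Prime]
    (hinj : Function.Injective p) (V : ∀ l, Matrix (Fin N) (Fin N) ℤ_[p l])
    (hV : ∀ l, IsUnit (V l).det) (halg : ∀ l i j, IsAlgebraic ℤ (V l i j)) : LocalPlaces s N where
  base := p
  two_le l := (hp l).out.two_le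
  coprime l l' h := (Nat.coprime_primes (hp l).out (hp l').out).2 (hinj.ne h)
  ring l := ℤ_[p l]
  dvd_int l k z h := (PadicInt.pow_p_dvd_int_iff k z).1 h
  exists_int l k r := ⟨(r.appr k : ℤ), Ideal.mem_span_singleton.1 (by
    simpa using PadicInt.appr_spec k r)⟩
  mat := V
  isUnit_det := hV
  isAlgebraic := halg

/-- The unit disc of `ℚ_p`. -/
def padicBall (p : ℕ) [Fact p.Prime] : ValuationSubring ℚ_[p] :=
  { PadicInt.subring p with
    mem_or_inv_mem' := fun x => by
      rcases le_total ‖x‖ 1 with h | h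
      · exact Or.inl h
      · refine Or.inr ?_
        show ‖x⁻¹‖ ≤ 1
        rw [norm_inv]
        exact inv_le_one_of_one_le₀ h }

/-- Unimodular forms with algebraic coefficients, controlled by the given ones in their order. -/
theorem exists_echelon_padic {p : ℕ} [Fact p.Prime] {N : ℕ} (U : Matrix (Fin N) (Fin N) ℚ_[p])
    (hU : U.det ≠ 0) (halg : ∀ i j, IsAlgebraic ℚ (U i j)) :
    ∃ (V : Matrix (Fin N) (Fin N) ℤ_[p]) (C : ℝ), IsUnit V.det ∧
      (∀ i j, IsAlgebraic ℤ (V i j)) ∧ 1 ≤ C ∧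
      ∀ x : Fin N → ℤ, Monotone (fun i => ‖(U *ᵥ intVec _ x) i‖) →
        ∀ i, ‖(V *ᵥ intVec _ x) i‖ ≤ C * ‖(U *ᵥ intVec _ x) i‖ := by
  classical
  set A := algebraicClosure ℚ ℚ_[p]
  set U' : Matrix (Fin N) (Fin N) A :=
    Matrix.of fun i j => ⟨U i j, mem_algebraicClosure_iff.2 (halg i j)⟩
  have hU' : U'.map (algebraMap A ℚ_[p]) = U := rfl
  obtain ⟨V', T, hV', hT, hVT⟩ := exists_echelon ((padicBall p).comap (algebraMap A ℚ_[p])) U'
    fun h => hU (by rw [← hU', ← RingHom.mapMatrix_apply, ← RingHom.map_det, h, map_zero])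
  let φ : ((padicBall p).comap (algebraMap A ℚ_[p])) →+* ℤ_[p] :=
    { toFun := fun a => ⟨algebraMap A ℚ_[p] (a : A), a.2⟩
      map_one' := rfl
      map_mul' := fun _ _ => rfl
      map_zero' := rfl
      map_add' := fun _ _ => rfl }
  set V := V'.map φ
  set S := T.map (algebraMap A ℚ_[p]) with hS
  have hVS : V.map PadicInt.Coe.ringHom = S * U := by
    rw [hS, ← hU', ← Matrix.map_mul, ← hVT]
    rfl
  refine ⟨V, 1 + ∑ i, ∑ j, ‖S i j‖, ?_, fun i j => ?_, le_add_of_nonneg_right (by positivity),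
    fun x hmono i => ?_⟩
  · rw [show V = φ.mapMatrix V' from rfl, ← RingHom.map_det]
    exact hV'.map φ
  · exact (isAlgebraic_algebraMap_iff (IsFractionRing.injective ℤ_[p] ℚ_[p])).1
      ((IsFractionRing.isAlgebraic_iff ℤ ℚ ℚ_[p]).2 (mem_algebraicClosure_iff.1
        (V' i j : A).2))
  · have h : ((V *ᵥ intVec _ x) i : ℚ_[p]) = (S *ᵥ (U *ᵥ intVec _ x)) i := by
      rw [mulVec_mulVec, ← hVS]
      simp [mulVec, dotProduct, intVec]
    rw [PadicInt.norm_def, h]
    simp only [mulVec, dotProduct]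
    refine (norm_sum_le _ _).trans ((sum_le_sum (g := fun j =>
      ‖S i j‖ * ‖∑ k, U i k * intVec _ x k‖) fun j _ => ?_).trans ?_)
    · rw [norm_mul]
      rcases lt_or_ge i j with hij | hij
      · simp [hS, hT i j hij]
      · exact mul_le_mul_of_nonneg_left (hmono hij) (norm_nonneg _)
    · rw [← sum_mul]
      exact mul_le_mul_of_nonneg_right ((single_le_sum (f := fun i => ∑ j, ‖S i j‖)
        (fun _ _ => sum_nonneg fun _ _ => norm_nonneg _) (mem_univ i)).trans
        (le_add_of_nonneg_left zero_le_one)) (norm_nonneg _)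

/-- The subspace theorem with unimodular `p`-adic forms, the sizes measured by the `p`-adic
absolute values. -/
theorem finite_subspaces_padic_unimodular {n : ℕ} (hn : 1 ≤ n) {s : ℕ} (p : Fin s → ℕ)
    [hp : ∀ l, Fact (p l).Prime] (hinj : Function.Injective p)
    (V : ∀ l, Matrix (Fin (n + 1)) (Fin (n + 1)) ℤ_[p l]) (hV : ∀ l, IsUnit (V l).det)
    (halgV : ∀ l i j, IsAlgebraic ℤ (V l i j)) (L : Matrix (Fin (n + 1)) (Fin (n + 1)) ℂ)
    (hL : L.det ≠ 0) (halg : ∀ i j, IsAlgebraic ℚ (L i j)) {δ : ℝ} (hδ : 0 < δ) :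
    ∃ W : Finset (Fin (n + 1) → ℤ), (∀ v ∈ W, v ≠ 0) ∧ ∀ x : Fin (n + 1) → ℤ, x ≠ 0 →
      (∏ i, ‖∑ k, L i k * (x k : ℂ)‖) * ∏ l, ∏ i, ‖(V l *ᵥ intVec _ x) i‖ <
          ‖castVec x‖ ^ (-δ) →
        ∃ v ∈ W, v ⬝ᵥ x = 0 := by
  classical
  set Pl := LocalPlaces.ofPadic p hinj V hV halgV
  obtain ⟨W, hW, h⟩ := finite_subspaces_complex_local hn Pl L hL halg hδ
  refine ⟨W, hW, fun x hx0 hx => ?_⟩
  have hX : 0 < ‖castVec x‖ ^ (-δ) := Real.rpow_pos_of_pos
    (norm_pos_iff.2 fun e => hx0 (funext fun k => by simpa [castVec] using congrFun e k)) _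
  have hb : ∀ l, (0 : ℝ) < p l := fun l => Nat.cast_pos.2 (hp l).out.pos
  by_cases hzero : ∃ l i, (V l *ᵥ intVec _ x) i = 0
  · obtain ⟨l, i, hli⟩ := hzero
    obtain ⟨m, hm⟩ := pow_unbounded_of_one_lt ((∏ i, ‖∑ k, L i k * (x k : ℂ)‖) /
      ‖castVec x‖ ^ (-δ)) (show (1 : ℝ) < p l by exact_mod_cast (hp l).out.one_lt)
    rw [div_lt_iff₀ hX] at hm
    refine h x hx0 (fun l' i' => if l' = l ∧ i' = i then m else 0) (fun l' i' => ?_)
      (hm.trans_le (mul_le_mul_of_nonneg_right ?_ hX.le))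
    · dsimp only
      split_ifs with h'
      · obtain ⟨rfl, rfl⟩ := h'
        rw [show (Pl.mat l' *ᵥ intVec (Pl.ring l') x) i' = 0 from hli]
        exact dvd_zero _
      · rw [pow_zero]
        exact one_dvd _
    · simp only [LocalPlaces.vol, Nat.cast_prod, Nat.cast_pow]
      rw [← mul_prod_erase univ _ (mem_univ l), prod_eq_one fun l' hl' => by
        simp [ne_of_mem_erase hl'], mul_one]
      simp [Pl, LocalPlaces.ofPadic]
  · push Not at hzero
    refine h x hx0 (fun l i => ((V l *ᵥ intVec _ x) i).valuation) (fun l i => ?_) ?_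
    · show ((p l : ℕ) : ℤ_[p l]) ^ ((V l *ᵥ intVec _ x) i).valuation ∣ (V l *ᵥ intVec _ x) i
      exact Ideal.mem_span_singleton.1 ((PadicInt.norm_le_pow_iff_mem_span_pow _ _).1
        (PadicInt.norm_eq_zpow_neg_valuation (hzero l i)).le)
    · have hN : (∏ l, ∏ i, ‖(V l *ᵥ intVec _ x) i‖) =
          ((Pl.vol fun l i => ((V l *ᵥ intVec _ x) i).valuation : ℕ) : ℝ)⁻¹ := by
        simp only [LocalPlaces.vol, Nat.cast_prod, Nat.cast_pow, ← prod_inv_distrib,
          ← prod_pow_eq_pow_sum]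
        refine prod_congr rfl fun l _ => prod_congr rfl fun i _ => ?_
        rw [PadicInt.norm_eq_zpow_neg_valuation (hzero l i), _root_.zpow_neg, zpow_natCast]
        rfl
      rw [hN, ← div_eq_mul_inv, div_lt_iff₀ (Nat.cast_pos.2 (Pl.vol_pos _))] at hx
      rwa [mul_comm] at hx

/-- **The subspace theorem of Schlickewei over the rationals.** At infinity and at finitely many
primes independent forms with algebraic coefficients. -/
theorem finite_subspaces_padic_algebraic {n : ℕ} (hn : 1 ≤ n) {s : ℕ} (p : Fin s → ℕ)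
    [hp : ∀ l, Fact (p l).Prime] (hinj : Function.Injective p)
    (U : ∀ l, Matrix (Fin (n + 1)) (Fin (n + 1)) ℚ_[p l]) (hU : ∀ l, (U l).det ≠ 0)
    (halgU : ∀ l i j, IsAlgebraic ℚ (U l i j)) (L : Matrix (Fin (n + 1)) (Fin (n + 1)) ℂ)
    (hL : L.det ≠ 0) (halg : ∀ i j, IsAlgebraic ℚ (L i j)) {δ : ℝ} (hδ : 0 < δ) :
    ∃ W : Finset (Fin (n + 1) → ℤ), (∀ v ∈ W, v ≠ 0) ∧ ∀ x : Fin (n + 1) → ℤ, x ≠ 0 →
      (∏ i, ‖∑ k, L i k * (x k : ℂ)‖) * ∏ l, ∏ i, ‖∑ k, U l i k * (x k : ℚ_[p l])‖ <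
          ‖castVec x‖ ^ (-δ) →
        ∃ v ∈ W, v ⬝ᵥ x = 0 := by
  classical
  choose V C hV hValg hC hVle using fun (l : Fin s) (π : Equiv.Perm (Fin (n + 1))) =>
    exists_echelon_padic ((U l).submatrix π id) (by
      rw [det_permute]
      exact mul_ne_zero (by rcases Int.units_eq_one_or (Equiv.Perm.sign π) with h | h <;> simp [h])
        (hU l)) fun i j => halgU l _ _
  choose W hW hWx using fun κ : Fin s → Equiv.Perm (Fin (n + 1)) =>
    finite_subspaces_padic_unimodular hn p hinj (fun l => V l (κ l)) (fun l => hV l (κ l))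
      (fun l => hValg l (κ l)) L hL halg (half_pos hδ)
  have hC0 : ∀ l π, 0 ≤ C l π := fun l π => zero_le_one.trans (hC l π)
  set CC := ∏ l, ∏ π, C l π ^ (n + 1)
  have hCC : 1 ≤ CC := one_le_prod fun l _ => one_le_prod fun π _ => one_le_pow₀ (hC l π)
  -- the small points
  set X₀ := max 1 (CC ^ (2 / δ))
  set N₀ := ⌈X₀⌉
  set box := Fintype.piFinset fun _ : Fin (n + 1) => Finset.Icc (-N₀) N₀
  choose v₁ hv₁ hv₁' using exists_orth hn
  refine ⟨box.image v₁ ∪ univ.biUnion W, fun v hv => ?_, fun x hx0 hx => ?_⟩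
  · rcases mem_union.1 hv with h | h
    · obtain ⟨y, -, rfl⟩ := mem_image.1 h
      exact hv₁ y
    · obtain ⟨κ, -, hκ⟩ := mem_biUnion.1 h
      exact hW κ v hκ
  set X := ‖castVec x‖
  by_cases hsmall : X < X₀
  · refine ⟨v₁ x, mem_union_left _ (mem_image_of_mem v₁ (Fintype.mem_piFinset.2 fun k => ?_)),
      hv₁' x⟩
    have h1 : |(x k : ℝ)| ≤ (N₀ : ℤ) :=
      ((norm_le_pi_norm (castVec x) k).trans hsmall.le).trans (Int.le_ceil X₀)
    rw [Finset.mem_Icc, ← abs_le]
    exact_mod_cast h1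
  rw [not_lt] at hsmall
  have hX1 : 1 ≤ X := (le_max_left _ _).trans hsmall
  set y : ∀ l, Fin (n + 1) → ℝ := fun l i => ‖∑ k, U l i k * (x k : ℚ_[p l])‖
  set κ : Fin s → Equiv.Perm (Fin (n + 1)) := fun l => Tuple.sort (y l)
  have hle : ∀ l, ∏ i, ‖(V l (κ l) *ᵥ intVec _ x) i‖ ≤ C l (κ l) ^ (n + 1) * ∏ i, y l i :=
    fun l => by
      rw [← Equiv.prod_comp (κ l) (y l), ← Fin.prod_const (n + 1) (C l (κ l)), ← prod_mul_distrib]
      exact prod_le_prod (fun i _ => norm_nonneg _) fun i _ =>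
        hVle l (κ l) x (Tuple.monotone_sort (y l)) i
  obtain ⟨v, hv, hvx⟩ := hWx κ x hx0 (by
    refine (mul_le_mul_of_nonneg_left (prod_le_prod (fun l _ =>
      prod_nonneg fun i _ => norm_nonneg _) fun l _ => hle l)
      (prod_nonneg fun i _ => norm_nonneg _)).trans_lt ?_
    rw [prod_mul_distrib, mul_left_comm]
    have hCl : (∏ l, C l (κ l) ^ (n + 1)) ≤ CC := prod_le_prod
      (fun l _ => pow_nonneg (hC0 l _) _) fun l _ => by
        rw [← mul_prod_erase univ (fun π => C l π ^ (n + 1)) (mem_univ (κ l))]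
        exact le_mul_of_one_le_right (pow_nonneg (hC0 l _) _)
          (one_le_prod fun π _ => one_le_pow₀ (hC l π))
    refine (mul_le_mul_of_nonneg_right hCl (by positivity)).trans_lt ?_
    refine (mul_lt_mul_of_pos_left hx (by linarith)).trans_le ?_
    have h1 : CC ≤ X ^ (δ / 2) := by
      have h := Real.rpow_le_rpow (by positivity) ((le_max_right _ _).trans hsmall)
        (half_pos hδ).le
      rwa [← Real.rpow_mul (by linarith), show 2 / δ * (δ / 2) = 1 by field_simp,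
        Real.rpow_one] at h
    refine (mul_le_mul_of_nonneg_right h1 (by positivity)).trans_eq ?_
    rw [show ‖castVec x‖ = X from rfl, ← Real.rpow_add (by linarith)]
    ring_nf)
  exact ⟨v, mem_union_right _ (mem_biUnion.2 ⟨κ, mem_univ κ, hv⟩), hvx⟩

/-- **The subspace theorem of Schlickewei with integer forms at the primes.** At infinity the forms
have algebraic coefficients, at finitely many primes integer coefficients and unit determinant. -/
theorem finite_subspaces_padic {n : ℕ} (hn : 1 ≤ n) {s : ℕ} (p : Fin s → ℕ)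
    (hp : ∀ l, (p l).Prime) (hinj : Function.Injective p)
    (U : Fin s → Matrix (Fin (n + 1)) (Fin (n + 1)) ℤ)
    (hU : ∀ l, IsUnit (U l).det) (L : Matrix (Fin (n + 1)) (Fin (n + 1)) ℂ) (hL : L.det ≠ 0)
    (halg : ∀ i j, IsAlgebraic ℚ (L i j)) {δ : ℝ} (hδ : 0 < δ) :
    ∃ V : Finset (Fin (n + 1) → ℤ), (∀ v ∈ V, v ≠ 0) ∧ ∀ x : Fin (n + 1) → ℤ, x ≠ 0 →
      (∏ i, ‖∑ k, L i k * (x k : ℂ)‖) *
          ∏ l, ∏ i, (padicNorm (p l) (((U l *ᵥ x) i : ℤ) : ℚ) : ℝ) < ‖castVec x‖ ^ (-δ) →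
        ∃ v ∈ V, v ⬝ᵥ x = 0 := by
  haveI : ∀ l, Fact (p l).Prime := fun l => ⟨hp l⟩
  obtain ⟨W, hW, h⟩ := finite_subspaces_padic_unimodular hn p hinj
    (fun l => (U l).map (Int.castRingHom ℤ_[p l]))
    (fun l => by rw [← RingHom.mapMatrix_apply, ← RingHom.map_det]; exact (hU l).map _)
    (fun l i j => by simpa using isAlgebraic_algebraMap (A := ℤ_[p l]) (U l i j)) L hL halg hδ
  refine ⟨W, hW, fun x hx0 hx => h x hx0 (lt_of_eq_of_lt ?_ hx)⟩
  refine congrArg _ (prod_congr rfl fun l _ => prod_congr rfl fun i _ => ?_)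
  rw [← Padic.eq_padicNorm, PadicInt.norm_def]
  congr 1
  simp [mulVec, dotProduct, intVec]

end FA.Subspace

end
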