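import Fermat.Agent.Subspace.Main
import Mathlib.LinearAlgebra.Matrix.Block

/-!
# Simultaneous approximation and small values of linear forms

Schmidt's theorems deduced from the subspace theorem: algebraic numbers `α i` independent with `1`
over `ℚ` have finitely many `q` with `q ^ (1 + ε) * ∏ i ‖q α i‖ < 1`, and a linear form with
independent algebraic coefficients in `n + 1` variables has finitely many integer points `x` with
`|β · x| * ‖x‖ ^ (n + ε) < 1`.
-/

set_option autoImplicit false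
set_option linter.style.haveILetI false

noncomputable section

namespace FA.Subspace

open Finset Matrix FA.Perfect

variable {n : ℕ}

/-- **Schmidt's theorem on simultaneous approximation.** -/
theorem finite_simultaneous (hn : 1 ≤ n) (α : Fin n → ℝ) (halg : ∀ i, IsAlgebraic ℚ (α i))
    (hind : LinearIndependent ℚ (Fin.cons 1 α : Fin (n + 1) → ℝ)) {ε : ℝ} (hε : 0 < ε) :
    {q : ℕ | 0 < q ∧
      ∃ p : Fin n → ℤ, (q : ℝ) ^ (1 + ε) * ∏ i, |(q : ℝ) * α i - p i| < 1}.Finite := by
  classical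
  set L : Matrix (Fin (n + 1)) (Fin (n + 1)) ℝ := Matrix.of
    (Fin.cons (Pi.single 0 1) fun i => α i • Pi.single 0 1 - Pi.single i.succ 1 :
      Fin (n + 1) → Fin (n + 1) → ℝ)
  have hL : L.det ≠ 0 := by
    have hT : L.BlockTriangular OrderDual.toDual := by
      intro a b hab
      have hlt : a < b := hab
      obtain ⟨b', rfl⟩ := Fin.exists_succ_eq.2 (Fin.ne_zero_of_lt hlt)
      rcases Fin.eq_zero_or_eq_succ a with rfl | ⟨a', rfl⟩
      · simp [L]
      · simp [L, (Fin.succ_lt_succ_iff.1 hlt).ne']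
    rw [det_of_isLowerTriangular L hT, Fin.prod_univ_succ]
    simp [L]
  have hLalg : ∀ i j, IsAlgebraic ℚ (L i j) := fun i j => by
    have hs : ∀ a b : Fin (n + 1), IsAlgebraic ℚ ((Pi.single a 1 : Fin (n + 1) → ℝ) b) :=
      fun a b => by
      rcases eq_or_ne b a with rfl | h
      · simpa using (isAlgebraic_one : IsAlgebraic ℚ (1 : ℝ))
      · simpa [h] using (isAlgebraic_zero : IsAlgebraic ℚ (0 : ℝ))
    rcases Fin.eq_zero_or_eq_succ i with rfl | ⟨i', rfl⟩
    · simpa [L] using hs 0 j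
    · simpa [L] using ((halg i').mul (hs 0 j)).sub (hs i'.succ j)
  obtain ⟨V, hV, hVx⟩ := finite_subspaces hn L hL hLalg (half_pos hε)
  set A := 1 + ∑ i, |α i| with hA
  set den := fun v : Fin (n + 1) → ℤ => |(v 0 : ℝ) + ∑ i, (v i.succ : ℝ) * α i|
  set num := fun v : Fin (n + 1) → ℤ => ∑ i : Fin n, |(v i.succ : ℝ)|
  refine (Set.finite_le_nat ⌈max (A + 1) (∑ v ∈ V, num v / den v)⌉₊).subset ?_
  rintro q ⟨hq, p', hp'⟩
  show q ≤ _
  by_contra hbig
  have hbig' : max (A + 1) (∑ v ∈ V, num v / den v) < (q : ℝ) :=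
    (Nat.le_ceil _).trans_lt (Nat.cast_lt.2 (not_le.1 hbig))
  have hqA : A + 1 < (q : ℝ) := (le_max_left _ _).trans_lt hbig'
  set p : Fin n → ℤ := fun i => round ((q : ℝ) * α i) with hp_def
  have hp : (q : ℝ) ^ (1 + ε) * ∏ i, |(q : ℝ) * α i - p i| < 1 :=
    lt_of_le_of_lt (mul_le_mul_of_nonneg_left (prod_le_prod (fun i _ => abs_nonneg _)
      fun i _ => round_le ((q : ℝ) * α i) (p' i)) (by positivity)) hp'
  set x : Fin (n + 1) → ℤ := Fin.cons (q : ℤ) p with hx
  have hx0 : x ≠ 0 := fun h => by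
    have := congrFun h 0
    simp [x] at this
    omega
  have hA1 : 1 ≤ A := le_add_of_nonneg_right (sum_nonneg fun i _ => abs_nonneg _)
  have hq0 : (0 : ℝ) < q := by linarith
  have herr : ∀ i, |(q : ℝ) * α i - p i| ≤ 1 / 2 := fun i => abs_sub_round _
  have hX : ‖castVec x‖ ≤ (q : ℝ) * A := by
    refine (pi_norm_le_iff_of_nonneg (by positivity)).2 fun k => ?_
    rcases Fin.eq_zero_or_eq_succ k with rfl | ⟨i, rfl⟩
    · simpa [castVec, x] using le_mul_of_one_le_right hq0.le hA1
    · simp only [castVec, x, Fin.cons_succ, Real.norm_eq_abs]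
      have h1 : |(p i : ℝ)| ≤ |(q : ℝ) * α i| + 1 / 2 := by
        have h := abs_sub_abs_le_abs_sub (p i : ℝ) ((q : ℝ) * α i)
        rw [abs_sub_comm (p i : ℝ)] at h
        linarith [herr i]
      have h2 : |α i| ≤ ∑ i, |α i| :=
        single_le_sum (f := fun i => |α i|) (fun _ _ => abs_nonneg _) (mem_univ i)
      rw [abs_mul, Nat.abs_cast] at h1
      have := mul_le_mul_of_nonneg_left h2 hq0.le
      rw [hA]
      linarith
  have hXpos : 0 < ‖castVec x‖ := norm_pos_iff.2 fun h => hx0 (funext fun k => by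
    simpa [castVec] using congrFun h k)
  have hprod : ∏ i, |∑ k, L i k * (x k : ℝ)| = (q : ℝ) * ∏ i, |(q : ℝ) * α i - p i| := by
    rw [Fin.prod_univ_succ]
    congr 1
    · simp [L, x, Pi.single_apply]
    · refine prod_congr rfl fun i _ => congrArg abs ?_
      simp [L, x, sub_mul, sum_sub_distrib, Pi.single_apply, mul_comm (α i)]
  obtain ⟨v, hv, hvx⟩ := hVx x hx0 (by
    rw [hprod]
    have h1 : ((q : ℝ) * ∏ i, |(q : ℝ) * α i - p i|) * (q : ℝ) ^ ε < 1 := by
      refine lt_of_le_of_lt (le_of_eq ?_) hp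
      rw [Real.rpow_add hq0, Real.rpow_one]
      ring
    have h2 : (q : ℝ) ^ (-ε) ≤ ‖castVec x‖ ^ (-(ε / 2)) := by
      refine le_trans ?_ (Real.rpow_le_rpow_of_nonpos hXpos hX (by linarith))
      rw [Real.mul_rpow hq0.le (by linarith)]
      calc (q : ℝ) ^ (-ε) = (q : ℝ) ^ (-(ε / 2)) * (q : ℝ) ^ (-(ε / 2)) := by
            rw [← Real.rpow_add hq0]; ring_nf
        _ ≤ (q : ℝ) ^ (-(ε / 2)) * A ^ (-(ε / 2)) := mul_le_mul_of_nonneg_left
            (Real.rpow_le_rpow_of_nonpos (by linarith) (by linarith) (by linarith))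
            (by positivity)
    refine lt_of_lt_of_le ?_ h2
    rw [Real.rpow_neg hq0.le, ← one_div, lt_div_iff₀ (by positivity)]
    exact h1)
  have hden : 0 < den v := abs_pos.2 fun h => hV v hv (funext fun i => by
    have h1 := Fintype.linearIndependent_iff.1 hind (fun k => (v k : ℚ)) ?_ i
    · exact_mod_cast h1
    · rw [Fin.sum_univ_succ]
      simpa [Rat.smul_def] using h)
  have hvx' : (v 0 : ℝ) * q + ∑ i, (v i.succ : ℝ) * p i = 0 := by
    have h := congrArg (fun z : ℤ => (z : ℝ)) hvx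
    simpa [dotProduct, Fin.sum_univ_succ, x] using h
  have hkey : (q : ℝ) * den v ≤ num v := by
    have e : (q : ℝ) * ((v 0 : ℝ) + ∑ i, (v i.succ : ℝ) * α i) =
        ∑ i, (v i.succ : ℝ) * ((q : ℝ) * α i - p i) := by
      simp only [mul_sub, sum_sub_distrib, mul_add, mul_sum, mul_left_comm (q : ℝ)]
      linarith
    simp only [den, num]
    rw [← Nat.abs_cast q, ← abs_mul, e]
    refine (abs_sum_le_sum_abs _ _).trans (sum_le_sum fun i _ => ?_)
    rw [abs_mul]
    exact mul_le_of_le_one_right (abs_nonneg _) ((herr i).trans (by norm_num))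
  have h1 : num v / den v ≤ ∑ v ∈ V, num v / den v :=
    single_le_sum (f := fun v => num v / den v)
      (fun v _ => div_nonneg (sum_nonneg fun _ _ => abs_nonneg _) (abs_nonneg _)) hv
  have h2 : (q : ℝ) ≤ num v / den v := (le_div_iff₀ hden).2 hkey
  linarith [le_max_right (A + 1) (∑ v ∈ V, num v / den v)]

theorem finite_norm_le {m : ℕ} (B : ℝ) : {x : Fin m → ℤ | ‖castVec x‖ ≤ B}.Finite := by
  refine ((Fintype.piFinset fun _ : Fin m => Finset.Icc (-⌈B⌉) ⌈B⌉).finite_toSet).subset
    fun x hx => ?_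
  rw [Finset.mem_coe, Fintype.mem_piFinset]
  intro k
  have h : |(x k : ℝ)| ≤ ((⌈B⌉ : ℤ) : ℝ) := by
    refine le_trans ?_ ((hx : ‖castVec x‖ ≤ B).trans (Int.le_ceil B))
    simpa [castVec] using norm_le_pi_norm (castVec x) k
  rw [Finset.mem_Icc, ← abs_le]
  exact_mod_cast h

/-- **Schmidt's theorem on a linear form.** -/
theorem finite_linear_form : ∀ (n : ℕ) (β : Fin (n + 1) → ℝ), (∀ k, IsAlgebraic ℚ (β k)) →
    LinearIndependent ℚ β → ∀ {ε : ℝ}, 0 < ε →
    {x : Fin (n + 1) → ℤ | x ≠ 0 ∧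
      |∑ k, β k * (x k : ℝ)| * ‖castVec x‖ ^ ((n : ℝ) + ε) < 1}.Finite := by
  intro n
  induction n with
  | zero =>
    intro β _ hind ε hε
    have hβ : 0 < |β 0| := abs_pos.2 (hind.ne_zero 0)
    refine (finite_norm_le (1 + 1 / |β 0|)).subset fun x hx => ?_
    obtain ⟨-, hlt⟩ := hx
    show ‖castVec x‖ ≤ 1 + 1 / |β 0|
    by_contra hbig
    rw [not_le] at hbig
    have h1 : (1 : ℝ) ≤ ‖castVec x‖ := by linarith [one_div_pos.2 hβ]
    have h2 : ‖castVec x‖ ≤ |(x 0 : ℝ)| :=
      (pi_norm_le_iff_of_nonneg (abs_nonneg _)).2 fun k => by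
        rw [Fin.fin_one_eq_zero k]; simp [castVec]
    have h3 : 1 ≤ ‖castVec x‖ ^ (((0 : ℕ) : ℝ) + ε) :=
      Real.one_le_rpow h1 (by rw [Nat.cast_zero]; linarith)
    have h5 := le_mul_of_one_le_right (abs_nonneg (∑ k : Fin 1, β k * (x k : ℝ))) h3
    rw [Fin.sum_univ_one, abs_mul] at h5 hlt
    have h4 : |β 0| * (1 / |β 0|) = 1 := by field_simp
    have h6 : |β 0| * (1 / |β 0|) < |β 0| * |(x 0 : ℝ)| :=
      mul_lt_mul_of_pos_left (by linarith) hβ
    linarith
  | succ n ih =>
    intro β halg hind ε hε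
    classical
    set L : Matrix (Fin (n + 1 + 1)) (Fin (n + 1 + 1)) ℝ := Matrix.of
      (Fin.cons β fun k => Pi.single k.succ 1 : Fin (n + 1 + 1) → Fin (n + 1 + 1) → ℝ)
    have hL : L.det ≠ 0 := by
      have hT : L.BlockTriangular id := by
        intro a b hab
        obtain ⟨a', rfl⟩ := Fin.exists_succ_eq.2 (Fin.ne_zero_of_lt hab)
        simp [L, (show b ≠ a'.succ from hab.ne)]
      rw [det_of_isUpperTriangular hT, Fin.prod_univ_succ]
      simpa [L] using hind.ne_zero 0
    have hLalg : ∀ i j, IsAlgebraic ℚ (L i j) := fun i j => by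
      rcases Fin.eq_zero_or_eq_succ i with rfl | ⟨i', rfl⟩
      · simpa [L] using halg j
      · rcases eq_or_ne j i'.succ with rfl | h
        · simpa [L] using (isAlgebraic_one : IsAlgebraic ℚ (1 : ℝ))
        · simpa [L, h] using (isAlgebraic_zero : IsAlgebraic ℚ (0 : ℝ))
    obtain ⟨V, hV, hVx⟩ := finite_subspaces (Nat.le_add_left 1 n) L hL hLalg hε
    set β' : (Fin (n + 1 + 1) → ℤ) → Fin (n + 1 + 1) → Fin (n + 1) → ℝ :=
      fun v j k => β (j.succAbove k) - β j * (v (j.succAbove k) : ℝ) / (v j : ℝ) with hβ'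
    set sel := fun v : {v // v ∈ V} => (Function.ne_iff.1 (hV v.1 v.2)).choose
    have hsel : ∀ v : {v // v ∈ V}, v.1 (sel v) ≠ 0 := fun v =>
      (Function.ne_iff.1 (hV v.1 v.2)).choose_spec
    have hfin : ∀ v : {v // v ∈ V}, {x : Fin (n + 1 + 1) → ℤ | v.1 ⬝ᵥ x = 0 ∧ x ≠ 0 ∧
        |∑ k, β k * (x k : ℝ)| * ‖castVec x‖ ^ (((n + 1 : ℕ) : ℝ) + ε) < 1}.Finite := by
      intro v
      set j := sel v
      have hj : ((v.1 j : ℤ) : ℝ) ≠ 0 := Int.cast_ne_zero.2 (hsel v)
      have halg' : ∀ k, IsAlgebraic ℚ (β' v.1 j k) := fun k => by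
        have hr : IsAlgebraic ℚ ((v.1 (j.succAbove k) : ℝ) / (v.1 j : ℝ)) := by
          simpa using isAlgebraic_algebraMap (A := ℝ) ((v.1 (j.succAbove k) : ℚ) / (v.1 j : ℚ))
        simpa [hβ', mul_div_assoc] using (halg (j.succAbove k)).sub ((halg j).mul hr)
      have hind' : LinearIndependent ℚ (β' v.1 j) := by
        rw [Fintype.linearIndependent_iff]
        intro a ha k
        set b : Fin (n + 1 + 1) → ℚ := Fin.insertNth j
          (-∑ k, a k * (v.1 (j.succAbove k) : ℚ) / (v.1 j : ℚ)) a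
        have h := Fintype.linearIndependent_iff.1 hind b ?_ (j.succAbove k)
        · simpa [b] using h
        · rw [Fin.sum_univ_succAbove _ j, ← ha]
          simp only [b, Fin.insertNth_apply_same, Fin.insertNth_apply_succAbove, hβ', Rat.smul_def]
          push_cast
          simp only [neg_mul, sum_mul, mul_sub, sum_sub_distrib]
          rw [neg_add_eq_sub]
          congr 1
          exact sum_congr rfl fun k _ => by ring
      refine Set.Finite.of_finite_image (f := fun x : Fin (n + 1 + 1) → ℤ => x ∘ j.succAbove)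
        ((ih (β' v.1 j) halg' hind' hε).subset ?_) ?_
      · rintro _ ⟨x, ⟨hvx, hx0, hlt⟩, rfl⟩
        have hvR : (v.1 j : ℝ) * x j =
            -∑ k, (v.1 (j.succAbove k) : ℝ) * x (j.succAbove k) := by
          have h := congrArg (fun z : ℤ => (z : ℝ)) hvx
          simp only [dotProduct, Fin.sum_univ_succAbove _ j, Int.cast_add, Int.cast_sum,
            Int.cast_mul, Int.cast_zero] at h
          linarith
        have hne : x ∘ j.succAbove ≠ 0 := fun h => hx0 (funext fun k => by
          have h' : ∀ k, x (j.succAbove k) = 0 := fun k => congrFun h k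
          rcases eq_or_ne k j with rfl | hk
          · simp [h'] at hvR
            exact hvR.resolve_left (hsel v)
          · obtain ⟨k', rfl⟩ := Fin.exists_succAbove_eq hk
            exact h' k')
        have hsum : ∑ k, β' v.1 j k * ((x ∘ j.succAbove) k : ℝ) = ∑ k, β k * (x k : ℝ) := by
          rw [Fin.sum_univ_succAbove _ j]
          simp only [hβ', Function.comp_apply, sub_mul, sum_sub_distrib]
          have h : β j * (x j : ℝ) = -∑ k, β j * (v.1 (j.succAbove k) : ℝ) / (v.1 j : ℝ) *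
              (x (j.succAbove k) : ℝ) := by
            rw [eq_comm, ← sub_eq_zero]
            have e : ∑ k, β j * (v.1 (j.succAbove k) : ℝ) / (v.1 j : ℝ) *
                (x (j.succAbove k) : ℝ) = β j / (v.1 j : ℝ) *
                  ∑ k, (v.1 (j.succAbove k) : ℝ) * x (j.succAbove k) := by
              rw [mul_sum]
              exact sum_congr rfl fun k _ => by ring
            rw [e, ← neg_eq_iff_eq_neg.2 hvR]
            field_simp
            ring
          rw [h]
          ring
        have h1 : 1 ≤ ‖castVec (x ∘ j.succAbove)‖ := by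
          obtain ⟨k, hk⟩ := Function.ne_iff.1 hne
          refine le_trans ?_ (norm_le_pi_norm (castVec (x ∘ j.succAbove)) k)
          simp only [castVec, Real.norm_eq_abs]
          exact_mod_cast Int.one_le_abs hk
        have h2 : ‖castVec (x ∘ j.succAbove)‖ ≤ ‖castVec x‖ :=
          (pi_norm_le_iff_of_nonneg (norm_nonneg _)).2
            fun k => norm_le_pi_norm (castVec x) (j.succAbove k)
        refine ⟨hne, lt_of_le_of_lt ?_ hlt⟩
        rw [hsum]
        refine mul_le_mul_of_nonneg_left ?_ (abs_nonneg _)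
        refine (Real.rpow_le_rpow (norm_nonneg _) h2 (by positivity)).trans
          (Real.rpow_le_rpow_of_exponent_le (h1.trans h2) ?_)
        push_cast
        linarith
      · intro x hx y hy e
        have hxy : ∀ k, x (j.succAbove k) = y (j.succAbove k) := fun k => congrFun e k
        have h1 := hx.1.trans hy.1.symm
        simp only [dotProduct, Fin.sum_univ_succAbove _ j, hxy, add_left_inj] at h1
        funext k
        rcases eq_or_ne k j with rfl | hk
        · exact mul_left_cancel₀ (hsel v) h1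
        · obtain ⟨k', rfl⟩ := Fin.exists_succAbove_eq hk
          exact hxy k'
    refine (Set.finite_iUnion hfin).subset fun x hx => ?_
    have hX : 0 < ‖castVec x‖ := norm_pos_iff.2 fun h => hx.1 (funext fun k => by
      simpa [castVec] using congrFun h k)
    obtain ⟨v, hv, hvx⟩ := hVx x hx.1 (by
      rw [Fin.prod_univ_succ]
      have h0 : ∑ k, L 0 k * (x k : ℝ) = ∑ k, β k * (x k : ℝ) := by simp [L]
      have h1 : ∏ i : Fin (n + 1), |∑ k, L i.succ k * (x k : ℝ)| ≤
          ‖castVec x‖ ^ ((n + 1 : ℕ) : ℝ) := by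
        rw [Real.rpow_natCast]
        refine (prod_le_prod (fun i _ => abs_nonneg _) fun i _ => ?_).trans_eq
          (by simp : ∏ _i : Fin (n + 1), ‖castVec x‖ = ‖castVec x‖ ^ (n + 1))
        simpa [L, Pi.single_apply, castVec] using norm_le_pi_norm (castVec x) i.succ
      rw [h0]
      refine lt_of_le_of_lt (mul_le_mul_of_nonneg_left h1 (abs_nonneg _)) ?_
      rw [Real.rpow_neg hX.le, ← one_div, lt_div_iff₀ (Real.rpow_pos_of_pos hX _), mul_assoc,
        ← Real.rpow_add hX]
      exact hx.2)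
    exact Set.mem_iUnion.2 ⟨⟨v, hv⟩, hvx, hx⟩

/-- **Small values of polynomials of bounded degree at an algebraic number.** -/
theorem finite_small_poly_values {α : ℝ} (hα : IsAlgebraic ℚ α) {d : ℕ}
    (hd : d < (minpoly ℚ α).natDegree) {ε : ℝ} (hε : 0 < ε) :
    {a : Fin (d + 1) → ℤ | a ≠ 0 ∧
      |∑ k, (a k : ℝ) * α ^ (k : ℕ)| * ‖castVec a‖ ^ ((d : ℝ) + ε) < 1}.Finite := by
  have h := finite_linear_form d (fun k => α ^ (k : ℕ)) (fun k => hα.pow _)
    ((linearIndependent_pow α).comp (Fin.castLE (Nat.succ_le_of_lt hd))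
      (Fin.castLE_injective _)) hε
  simpa only [mul_comm] using h

end FA.Subspace

end
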