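import Fermat.Agent.Subspace.ExponentialGrowth

/-!
# The greatest prime factor of a recurrence sequence

With the forms replacing at every place the largest term by the sum, the subspace theorem makes
the product of the absolute values of a sum of powers with small coefficients at the places of a
finite set at least the power of the height of the roots: the relations it leaves are vanishing
sums, which do not occur. So the part of an integer recurrence sequence prime to a finite set of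
primes grows exponentially (Evertse; van der Poorten and Schlickewei).
-/

set_option autoImplicit false
set_option linter.style.haveILetI false

noncomputable section

namespace FA.Subspace

open Finset NumberField IsDedekindDomain Filter Topology Polynomial

variable {K : Type*} [Field K] [NumberField K] {S : Finset (HeightOneSpectrum (𝓞 K))}
  {ι : Type*} {α : ι → 𝓞 K}

/-- **The product over all the places** of a sum of powers with small coefficients. -/
theorem eventually_product_bound (hα : ∀ i, α i ≠ 0)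
    (hαS : ∀ i, ∀ v ∉ S, HeightOneSpectrum.adicAbv K v (α i : K) = 1)
    (hnd : ∀ i j, i ≠ j → ∀ m, 0 < m → α i ^ m ≠ α j ^ m) {J : Finset ι} (hJ : 2 ≤ J.card)
    {j : (K →+* ℂ) ⊕ S → ι} (hj : ∀ w, j w ∈ J) {ε : ℝ} (hε : 0 < ε) :
    ∀ᶠ η in 𝓝[>] (0 : ℝ), ∀ᶠ n : ℕ in atTop, ∀ c : ι → 𝓞 K, SmallCoeffs J η n c →
      (∏ w, placeAbv S w (α (j w) : K) ^ n) * Real.exp (-(ε * n)) ≤
        ∏ w, placeAbv S w (∑ i ∈ J, (c i : K) * (α i : K) ^ n) := by
  classical
  obtain ⟨W, hW, hrel⟩ := exists_relations_powers hα hαS hJ univ hj hε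
  obtain ⟨φ⟩ : Nonempty (K →+* ℂ) := inferInstance
  have hvanish : ∀ β ∈ W, ∀ᶠ η in 𝓝[>] (0 : ℝ), ∀ᶠ n : ℕ in atTop, ∀ c : ι → 𝓞 K,
      SmallCoeffs J η n c → ∑ i ∈ J, β i * (c i * α i ^ n) ≠ 0 := by
    intro β hβ
    set J' := J.filter fun i => β i ≠ 0
    have hJ' : J'.Nonempty := by
      obtain ⟨i, hi, hi0⟩ := hW β hβ
      exact ⟨i, mem_filter.2 ⟨hi, hi0⟩⟩
    have htwo : Tendsto (fun η : ℝ => 2 * η) (𝓝[>] 0) (𝓝[>] 0) :=
      tendsto_nhdsWithin_of_tendsto_nhds_of_eventually_within _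
        (((continuous_const.mul continuous_id).tendsto' (0 : ℝ) 0 (mul_zero 2)).mono_left
          nhdsWithin_le_nhds)
        (eventually_nhdsWithin_of_forall fun x (hx : 0 < x) => mul_pos two_pos hx)
    filter_upwards [htwo.eventually (eventually_lower_bound hα hαS hnd J' hJ' (.inl φ) 1 one_pos),
      self_mem_nhdsWithin] with η hev hη
    replace hη : 0 < η := hη
    filter_upwards [hev, eventually_le_exp (∑ i ∈ J, ∑ ψ : K →+* ℂ, ‖ψ (β i : K)‖) hη]
      with n hn hB c hc h0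
    obtain ⟨i, hi⟩ := hJ'
    have h := hn (fun l => β l * c l) (fun l hl => ?_) i hi
    · have h1 : ∑ l ∈ J', ((β l * c l : 𝓞 K) : K) * (α l : K) ^ n = 0 := by
        rw [← map_zero (algebraMap (𝓞 K) K), ← h0, map_sum, sum_filter]
        refine sum_congr rfl fun l _ => ?_
        split_ifs with h
        · simp only [map_mul, map_pow, mul_assoc]
        · rw [not_not.1 h, zero_mul, map_zero]
      rw [h1, map_zero] at h
      exact h.not_gt (mul_pos (pow_pos (AbsoluteValue.pos _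
        (RingOfIntegers.coe_ne_zero_iff.2 (hα i))) n) (Real.exp_pos _))
    · obtain ⟨hlJ, hl0⟩ := mem_filter.1 hl
      refine ⟨mul_ne_zero hl0 (hc l hlJ).1, fun ψ => ?_⟩
      rw [show (((β l * c l : 𝓞 K)) : K) = (β l : K) * (c l : K) from
        map_mul (algebraMap (𝓞 K) K) _ _, map_mul, norm_mul,
        show 2 * η * (n : ℝ) = η * n + η * n by ring, Real.exp_add]
      exact mul_le_mul (((single_le_sum (f := fun ψ : K →+* ℂ => ‖ψ (β l : K)‖)
        (fun _ _ => norm_nonneg _) (mem_univ ψ)).trans (single_le_sum (f := fun i =>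
          ∑ ψ : K →+* ℂ, ‖ψ (β i : K)‖) (fun _ _ => by positivity) hlJ)).trans hB)
        ((hc l hlJ).2 ψ) (norm_nonneg _) (Real.exp_pos _).le
  filter_upwards [hrel, (eventually_all_finset W).2 hvanish] with η h1 h2
  filter_upwards [h1, (eventually_all_finset W).2 h2] with n hn1 hn2 c hc
  by_contra! hlt
  obtain ⟨β, hβ, h0⟩ := hn1 c hc hlt
  exact hn2 β hβ c hc h0

/-- The height of the roots exceeds one. -/
theorem one_lt_prod_max [Fintype ι] (hα : ∀ i, α i ≠ 0)
    (hαS : ∀ i, ∀ v ∉ S, HeightOneSpectrum.adicAbv K v (α i : K) = 1)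
    (hnd : ∀ i j, i ≠ j → ∀ m, 0 < m → α i ^ m ≠ α j ^ m) (h2 : 2 ≤ Fintype.card ι)
    {j : (K →+* ℂ) ⊕ S → ι} (hj : ∀ w i, placeAbv S w (α i : K) ≤ placeAbv S w (α (j w) : K)) :
    1 < ∏ w, placeAbv S w (α (j w) : K) := by
  obtain ⟨i, l, hil⟩ := Fintype.exists_pair_of_one_lt_card (α := ι) (by omega)
  have hpos : ∀ w k, 0 < placeAbv S w (α k : K) := fun w k =>
    AbsoluteValue.pos _ (RingOfIntegers.coe_ne_zero_iff.2 (hα k))
  obtain ⟨w, k, hwk⟩ : ∃ w k, placeAbv S w (α k : K) < placeAbv S w (α (j w) : K) := by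
    by_contra! h
    obtain ⟨m, hm, hpow⟩ := exists_pow_eq_of_placeAbv_eq (S := S) (hα i) (hα l) (hαS i) (hαS l)
      fun w => (le_antisymm (hj w i) (h w i)).trans (le_antisymm (h w l) (hj w l))
    exact hnd i l hil m hm hpow
  rw [← prod_placeAbv (RingOfIntegers.coe_ne_zero_iff.2 (hα k)) (hαS k)]
  exact prod_lt_prod (fun w _ => hpos w k) (fun w _ => hj w k) ⟨w, mem_univ w, hwk⟩

/-- **Exponential polynomials in a number field**: the product over the places of `S` and the
infinite ones is at least the power of the height of the roots. -/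
theorem eventually_height_bound [Fintype ι] (hα : ∀ i, α i ≠ 0)
    (hαS : ∀ i, ∀ v ∉ S, HeightOneSpectrum.adicAbv K v (α i : K) = 1)
    (hnd : ∀ i j, i ≠ j → ∀ m, 0 < m → α i ^ m ≠ α j ^ m) (h2 : 2 ≤ Fintype.card ι)
    (P : ι → (𝓞 K)[X]) (hP : ∀ i, P i ≠ 0) :
    ∃ H : ℝ, 1 < H ∧ (∀ j : (K →+* ℂ) ⊕ S → ι, ∏ w, placeAbv S w (α (j w) : K) ≤ H) ∧
      ∀ ε : ℝ, 0 < ε → ∀ᶠ n : ℕ in atTop, H ^ n * Real.exp (-(ε * n)) ≤
        ∏ w, placeAbv S w (((∑ i, (P i).eval (n : 𝓞 K) * α i ^ n : 𝓞 K) : K)) := by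
  classical
  haveI : Nonempty ι := Fintype.card_pos_iff.1 (by omega)
  choose j hj using fun w => Finite.exists_max fun i => placeAbv S w (α i : K)
  refine ⟨_, one_lt_prod_max hα hαS hnd h2 hj, fun j' => prod_le_prod
    (fun w _ => AbsoluteValue.nonneg _ _) fun w _ => hj w (j' w), fun ε hε => ?_⟩
  obtain ⟨η, hη, hev⟩ := ((eventually_mem_nhdsWithin).and (eventually_product_bound hα hαS hnd
    (J := univ) (by rwa [card_univ]) (j := j) (fun w => mem_univ _) hε)).exists
  replace hη : 0 < η := hη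
  have hroots : ∀ᶠ n : ℕ in atTop, ∀ i, (P i).eval (n : 𝓞 K) ≠ 0 := eventually_all.2 fun i => by
    rw [← Nat.cofinite_eq_atTop]
    exact ((Polynomial.finite_setOf_isRoot (hP i)).preimage
      Nat.cast_injective.injOn).compl_mem_cofinite
  filter_upwards [hev, eventually_small_eval P hη, hroots] with n hn hsmall hne
  have h := hn (fun i => (P i).eval (n : 𝓞 K)) fun i _ => ⟨hne i, hsmall i⟩
  rw [prod_pow] at h
  simpa only [map_sum, map_mul, map_pow] using h

/-- **The part prime to given primes** of an integer exponential polynomial. -/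
theorem exists_free_part_bound [Fintype ι] (α : ι → ℂ) (h0 : ∀ i, α i ≠ 0)
    (halg : ∀ i, IsAlgebraic ℚ (α i)) (hnd : ∀ i j, i ≠ j → ∀ m : ℕ, 0 < m → α i ^ m ≠ α j ^ m)
    (P : ι → ℂ[X]) (hP : ∀ i, P i ≠ 0) (hPalg : ∀ i j, IsAlgebraic ℚ ((P i).coeff j))
    (h2 : 2 ≤ Fintype.card ι) {u : ℕ → ℤ}
    (hu : ∀ᶠ n : ℕ in atTop, (u n : ℂ) = ∑ i, (P i).eval (n : ℂ) * α i ^ n) (T : Finset ℕ) :
    ∃ c : ℝ, 0 < c ∧ ∀ᶠ n : ℕ in atTop, ∀ s t : ℤ, u n = s * t →
      s.natAbs.primeFactors ⊆ T → Real.exp (c * n) ≤ |(t : ℝ)| := by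
  classical
  obtain ⟨K, _, a, Q, b, hb, ha, hQ⟩ := exists_integral_model α halg P hPalg
  have hb' : ((b : K) : ℂ) ≠ 0 := by simpa using hb
  have ha0 : ∀ i, a i ≠ 0 := fun i h => mul_ne_zero hb' (h0 i) (by rw [← ha i, h]; simp)
  have hnd' : ∀ i j, i ≠ j → ∀ m, 0 < m → a i ^ m ≠ a j ^ m := fun i j hij m hm h => by
    have h1 := congrArg (fun x : 𝓞 K => ((x : K) : ℂ)) h
    simp only [map_pow, SubmonoidClass.coe_pow, ha, mul_pow] at h1
    exact hnd i j hij m hm (mul_left_cancel₀ (pow_ne_zero m hb') h1)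
  have hQ0 : ∀ i, Q i ≠ 0 := fun i h => hP i (Polynomial.eq_zero_of_infinite_isRoot _
    ((Set.infinite_range_of_injective (Nat.cast_injective (R := ℂ))).mono ?_))
  swap
  · rintro _ ⟨z, rfl⟩
    have h1 := hQ i z
    rw [h, eval_zero] at h1
    simp only [map_zero, ZeroMemClass.coe_zero] at h1
    rw [eq_comm, mul_eq_zero] at h1
    exact h1.resolve_left hb'
  -- the primes
  set fam : Option ι ⊕ T.filter (· ≠ 0) → 𝓞 K :=
    Sum.elim (fun o => o.elim b a) fun q => (q.1 : 𝓞 K)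
  obtain ⟨S, hS⟩ := exists_primes_unit fam fun x => by
    rcases x with (_ | i) | q
    · exact hb
    · exact ha0 i
    · exact Nat.cast_ne_zero.2 (mem_filter.1 q.2).2
  have haS : ∀ i, ∀ v ∉ S, HeightOneSpectrum.adicAbv K v (a i : K) = 1 :=
    fun i => hS (.inl (some i))
  obtain ⟨H, hH, -, hbound⟩ := eventually_height_bound ha0 haS hnd' h2 Q hQ0
  have hlH : 0 < Real.log H := Real.log_pos hH
  set d := Module.finrank ℚ K
  have hd : 0 < (d : ℝ) := Nat.cast_pos.2 Module.finrank_pos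
  refine ⟨Real.log H / (2 * d), by positivity, ?_⟩
  filter_upwards [hbound (Real.log H / 2) (half_pos hlH), hu] with n hn hun s t hst hs
  have hval : ((∑ i, (Q i).eval (n : 𝓞 K) * a i ^ n : 𝓞 K) : K) =
      (b : K) ^ (n + 1) * ((s : K) * (t : K)) := by
    refine (algebraMap K ℂ).injective ?_
    rw [map_mul, map_mul, map_pow, map_intCast, map_intCast]
    simp only [map_sum]
    rw [show (algebraMap K ℂ) (b : K) = ((b : K) : ℂ) from rfl, ← Int.cast_mul, ← hst, hun, mul_sum]
    refine sum_congr rfl fun i _ => ?_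
    simp only [map_mul, map_pow]
    rw [show (algebraMap K ℂ) (a i : K) = _ from ha i,
      show (algebraMap K ℂ) (((Q i).eval (n : 𝓞 K) : 𝓞 K) : K) = _ from hQ i n]
    ring
  have hpos : 0 < H ^ n * Real.exp (-(Real.log H / 2 * n)) :=
    mul_pos (pow_pos (zero_lt_one.trans hH) n) (Real.exp_pos _)
  rw [hval] at hn
  have hst0 : (s : K) * (t : K) ≠ 0 := fun h => by
    rw [h, mul_zero] at hn
    obtain ⟨w⟩ : Nonempty ((K →+* ℂ) ⊕ S) := inferInstance
    exact hn.not_gt (by rwa [prod_eq_zero (mem_univ w) (map_zero _)])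
  have hsunit : ∀ v ∉ S, HeightOneSpectrum.adicAbv K v (s : K) = 1 := fun v hv => by
    rw [← FinitePlace.norm_embedding, ← map_intCast (algebraMap (𝓞 K) K)]
    refine (FinitePlace.norm_eq_one_iff_notMem K v _).2 fun hmem => ?_
    have hmem' : ((s.natAbs : ℕ) : 𝓞 K) ∈ v.asIdeal := by
      rcases Int.natAbs_eq s with h | h
      · rw [h, Int.cast_natCast] at hmem
        exact hmem
      · rw [h, Int.cast_neg, neg_mem_iff, Int.cast_natCast] at hmem
        exact hmem
    have hs0 : s.natAbs ≠ 0 := Int.natAbs_ne_zero.2 fun h => hst0 (by rw [h]; simp)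
    rw [← Nat.prod_primeFactorsList hs0, Nat.cast_list_prod] at hmem'
    obtain ⟨q, hq, hqv⟩ : ∃ q ∈ s.natAbs.primeFactorsList, (q : 𝓞 K) ∈ v.asIdeal := by
      revert hmem'
      induction s.natAbs.primeFactorsList with
      | nil =>
        exact fun h => absurd ((Ideal.eq_top_iff_one _).2 (by simpa using h)) v.isPrime.ne_top
      | cons x l ih =>
        intro h
        rw [List.map_cons, List.prod_cons] at h
        rcases v.isPrime.mem_or_mem h with h | h
        · exact ⟨x, List.mem_cons_self, h⟩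
        · obtain ⟨q, hq, hqv⟩ := ih h
          exact ⟨q, List.mem_cons_of_mem _ hq, hqv⟩
    have hqT : q ∈ T.filter (· ≠ 0) := mem_filter.2
      ⟨hs (Nat.mem_primeFactors_iff_mem_primeFactorsList.2 hq),
        (Nat.prime_of_mem_primeFactorsList hq).ne_zero⟩
    have h1 := hS (.inr ⟨q, hqT⟩) v hv
    rw [← FinitePlace.norm_embedding] at h1
    exact (FinitePlace.norm_eq_one_iff_notMem K v _).1 h1 hqv
  simp only [map_mul, map_pow, prod_mul_distrib, prod_pow] at hn
  rw [prod_placeAbv (RingOfIntegers.coe_ne_zero_iff.2 hb) (hS (.inl none)), one_pow, one_mul,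
    prod_placeAbv (left_ne_zero_of_mul hst0) hsunit, one_mul] at hn
  have ht : ∏ w, placeAbv S w (t : K) ≤ |(t : ℝ)| ^ d := by
    rw [Fintype.prod_sum_type]
    refine (mul_le_of_le_one_right (prod_nonneg fun _ _ => AbsoluteValue.nonneg _ _)
      (prod_le_one (fun _ _ => AbsoluteValue.nonneg _ _) fun v _ =>
        HeightOneSpectrum.adicAbv_intCast_le_one _ _ _)).trans_eq ?_
    simp only [placeAbv_inl, map_intCast, Complex.norm_intCast, prod_const, card_univ,
      NumberField.Embeddings.card, d]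
  refine (pow_le_pow_iff_left₀ (Real.exp_pos _).le (abs_nonneg _) Module.finrank_pos.ne').1
    ((le_of_eq ?_).trans (hn.trans ht))
  rw [← Real.exp_nat_mul]
  nth_rw 2 [← Real.exp_log (zero_lt_one.trans hH)]
  rw [← Real.exp_nat_mul, ← Real.exp_add]
  congr 1
  change (d : ℝ) * _ = _
  field_simp
  ring

/-- **The greatest prime factor** of an integer exponential polynomial tends to infinity. -/
theorem eventually_exists_prime_factor [Fintype ι] (α : ι → ℂ) (h0 : ∀ i, α i ≠ 0)
    (halg : ∀ i, IsAlgebraic ℚ (α i)) (hnd : ∀ i j, i ≠ j → ∀ m : ℕ, 0 < m → α i ^ m ≠ α j ^ m)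
    (P : ι → ℂ[X]) (hP : ∀ i, P i ≠ 0) (hPalg : ∀ i j, IsAlgebraic ℚ ((P i).coeff j))
    (h2 : 2 ≤ Fintype.card ι) {u : ℕ → ℤ}
    (hu : ∀ᶠ n : ℕ in atTop, (u n : ℂ) = ∑ i, (P i).eval (n : ℂ) * α i ^ n) (N : ℕ) :
    ∀ᶠ n : ℕ in atTop, u n ≠ 0 ∧ ∃ p, N < p ∧ p.Prime ∧ (p : ℤ) ∣ u n := by
  obtain ⟨c, hc, hev⟩ := exists_free_part_bound α h0 halg hnd P hP hPalg h2 hu (range (N + 1))
  filter_upwards [hev, eventually_gt_atTop 0] with n hn hn0
  have h1 : 1 < Real.exp (c * n) := Real.one_lt_exp_iff.2 (by positivity)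
  refine ⟨fun h => ?_, ?_⟩
  · exact absurd (hn 0 1 (by simp [h]) (by simp)) (by simpa using h1)
  by_contra! h
  refine absurd (hn (u n) 1 (mul_one _).symm fun p hp => ?_) (by simpa using h1)
  obtain ⟨hpp, hdvd, -⟩ := Nat.mem_primeFactors.1 hp
  rw [Finset.mem_range, Nat.lt_succ_iff]
  by_contra! hlt
  exact h p hlt hpp (Int.natCast_dvd.2 hdvd)

end FA.Subspace

end
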