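import Fermat.Agent.Subspace.Setup
import Mathlib.Algebra.Algebra.Rat
import Mathlib.Data.Real.Basic
import Mathlib.LinearAlgebra.ExteriorPower.Basis
import Mathlib.RingTheory.Algebraic.Integral
import Mathlib.RingTheory.IntegralClosure.IsIntegralClosure.Basic

/-!
# The compounds of a matrix

The minors of order `p` of a matrix form the matrix of its exterior power in the basis of the
products of the standard vectors; so they are invertible with it and take the coordinates of a
product of vectors to those of the product of their images.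
-/

set_option autoImplicit false

noncomputable section

namespace FA.Subspace

open Finset Matrix

variable {N p C : ℕ}

/-- The coordinates of the exterior product of `p` vectors. -/
def wedge {R : Type*} [CommRing R] (e : Fin C ≃ (Fin p ↪o Fin N)) (u : Fin p → Fin N → R) :
    Fin C → R :=
  fun σ => (Matrix.of fun i j => u i (e σ j)).det

/-- The matrix of the minors of order `p`. -/
def compound {R : Type*} [CommRing R] (e : Fin C ≃ (Fin p ↪o Fin N))
    (L : Matrix (Fin N) (Fin N) R) : Matrix (Fin C) (Fin C) R :=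
  Matrix.of fun σ τ => wedge e (fun i k => L k (e τ i)) σ

theorem map_wedge {R S : Type*} [CommRing R] [CommRing S] (f : R →+* S)
    (e : Fin C ≃ (Fin p ↪o Fin N)) (u : Fin p → Fin N → R) (σ : Fin C) :
    f (wedge e u σ) = wedge e (fun i k => f (u i k)) σ := by
  rw [wedge, wedge, RingHom.map_det]
  rfl

section Ring

variable {R : Type*} [CommRing R]

/-- The exterior power in coordinates. -/
def coordEquiv (e : Fin C ≃ (Fin p ↪o Fin N)) : (⋀[R]^p (Fin N → R)) ≃ₗ[R] (Fin C → R) :=
  (((Pi.basisFun R (Fin N)).exteriorPower p).reindex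
    (Set.powersetCard.ofFinEmbEquiv.symm.trans e.symm)).equivFun

theorem coordEquiv_ιMulti (e : Fin C ≃ (Fin p ↪o Fin N)) (u : Fin p → Fin N → R) :
    coordEquiv e (exteriorPower.ιMulti R p u) = wedge e u := by
  funext σ
  rw [coordEquiv, Module.Basis.equivFun_apply, Module.Basis.repr_reindex_apply,
    exteriorPower.basis_repr_apply, exteriorPower.ιMultiDual_apply_ιMulti]
  simp [wedge]

theorem wedge_stdVec (e : Fin C ≃ (Fin p ↪o Fin N)) (τ : Fin C) :
    wedge e (fun i => Pi.single (e τ i) (1 : R)) = Pi.single τ 1 := by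
  classical
  rw [← coordEquiv_ιMulti]
  have h : exteriorPower.ιMulti R p (fun i => Pi.single (e τ i) (1 : R)) =
      ((Pi.basisFun R (Fin N)).exteriorPower p).reindex
        (Set.powersetCard.ofFinEmbEquiv.symm.trans e.symm) τ := by
    simp [exteriorPower.ιMulti_family, Function.comp_def]
  rw [h, coordEquiv]
  funext σ
  rw [Module.Basis.equivFun_self]
  simp [Pi.single_apply, eq_comm]

theorem compound_mulVec_wedge (e : Fin C ≃ (Fin p ↪o Fin N)) (L : Matrix (Fin N) (Fin N) R)
    (u : Fin p → Fin N → R) :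
    compound e L *ᵥ wedge e u = wedge e fun i => L *ᵥ u i := by
  classical
  set T : (Fin C → R) →ₗ[R] (Fin C → R) := (coordEquiv e).toLinearMap ∘ₗ
    exteriorPower.map p L.mulVecLin ∘ₗ (coordEquiv e).symm.toLinearMap
  have hT : ∀ u, T (wedge e u) = wedge e fun i => L *ᵥ u i := fun u => by
    simp only [T, LinearMap.comp_apply, LinearEquiv.coe_coe]
    rw [← coordEquiv_ιMulti e u, LinearEquiv.symm_apply_apply, exteriorPower.map_apply_ιMulti,
      coordEquiv_ιMulti]
    rfl
  have hM : LinearMap.toMatrix' T = compound e L := by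
    ext σ τ
    rw [LinearMap.toMatrix'_apply, ← wedge_stdVec, hT]
    simp [compound]
    rfl
  rw [← hM, LinearMap.toMatrix'_mulVec, hT]

theorem compound_mul (e : Fin C ≃ (Fin p ↪o Fin N)) (A B : Matrix (Fin N) (Fin N) R) :
    compound e (A * B) = compound e A * compound e B := by
  classical
  refine Matrix.ext_of_mulVec_single fun τ => ?_
  rw [← wedge_stdVec e τ, ← mulVec_mulVec, compound_mulVec_wedge, compound_mulVec_wedge,
    compound_mulVec_wedge]
  congr 1
  funext i
  rw [mulVec_mulVec]

theorem compound_one (e : Fin C ≃ (Fin p ↪o Fin N)) :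
    compound e (1 : Matrix (Fin N) (Fin N) R) = 1 := by
  classical
  refine Matrix.ext_of_mulVec_single fun τ => ?_
  rw [← wedge_stdVec e τ, compound_mulVec_wedge, one_mulVec]
  simp only [one_mulVec]

theorem isUnit_det_compound (e : Fin C ≃ (Fin p ↪o Fin N)) {L : Matrix (Fin N) (Fin N) R}
    (hL : IsUnit L.det) : IsUnit (compound e L).det := by
  refine IsUnit.of_mul_eq_one (compound e L⁻¹).det ?_
  rw [← det_mul, ← compound_mul, mul_nonsing_inv _ hL, compound_one, det_one]

theorem isAlgebraic_int_compound [IsDomain R] (e : Fin C ≃ (Fin p ↪o Fin N))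
    {L : Matrix (Fin N) (Fin N) R} (hL : ∀ i j, IsAlgebraic ℤ (L i j)) (σ τ : Fin C) :
    IsAlgebraic ℤ (compound e L σ τ) :=
  isAlgebraic_det fun _ _ => hL _ _

end Ring

theorem det_compound_ne_zero (e : Fin C ≃ (Fin p ↪o Fin N)) {L : Matrix (Fin N) (Fin N) ℝ}
    (hL : L.det ≠ 0) : (compound e L).det ≠ 0 :=
  (isUnit_det_compound e (isUnit_iff_ne_zero.2 hL)).ne_zero

theorem isAlgebraic_compound (e : Fin C ≃ (Fin p ↪o Fin N)) {L : Matrix (Fin N) (Fin N) ℝ}
    (hL : ∀ i j, IsAlgebraic ℚ (L i j)) (σ τ : Fin C) : IsAlgebraic ℚ (compound e L σ τ) :=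
  (IsIntegral.det fun _ _ => (hL _ _).isIntegral).isAlgebraic

theorem wedge_linearIndependent (e : Fin C ≃ (Fin p ↪o Fin N)) {w : Fin N → Fin N → ℝ}
    (hw : LinearIndependent ℝ w) :
    LinearIndependent ℝ fun τ => wedge e fun i => w (e τ i) := by
  have h := ((exteriorPower.ιMulti_family_linearIndependent_field (n := p) hw).comp
    (fun τ => Set.powersetCard.ofFinEmbEquiv (e τ))
    (Set.powersetCard.ofFinEmbEquiv.injective.comp e.injective)).map'
    (coordEquiv e).toLinearMap (coordEquiv e).ker
  have e' : (fun τ => wedge e fun i => w (e τ i)) = ⇑(coordEquiv e).toLinearMap ∘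
      exteriorPower.ιMulti_family ℝ p w ∘ fun τ => Set.powersetCard.ofFinEmbEquiv (e τ) := by
    funext τ
    simp [exteriorPower.ιMulti_family, coordEquiv_ιMulti, Function.comp_def]
  rw [e']
  exact h

/-- The linearity in one of the vectors. -/
theorem sum_mul_dot_wedge (e : Fin C ≃ (Fin p ↪o Fin N)) (v : Fin C → ℝ)
    (u : Fin p → Fin N → ℝ) (i₀ : Fin p) (x : Fin N → ℝ) :
    ∑ l, x l * (v ⬝ᵥ wedge e (Function.update u i₀ (Pi.single l 1))) =
      v ⬝ᵥ wedge e (Function.update u i₀ x) := by
  classical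
  set F : (Fin N → ℝ) →ₗ[ℝ] ℝ :=
    (dotProductBilin ℝ ℝ v) ∘ₗ (coordEquiv e).toLinearMap ∘ₗ
      (exteriorPower.ιMulti ℝ p).toMultilinearMap.toLinearMap u i₀
  have hF : ∀ y, F y = v ⬝ᵥ wedge e (Function.update u i₀ y) := fun y => by
    simp [F, coordEquiv_ιMulti]
  rw [← hF, F.pi_apply_eq_sum_univ]
  refine sum_congr rfl fun l _ => ?_
  rw [smul_eq_mul, hF]
  congr 4
  funext j
  simp [Pi.single_apply, eq_comm]

/-- A form vanishing on all products of basis vectors but one vanishes on every product with a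
factor outside the span of the vectors of that one. -/
theorem dot_wedge_eq_zero (e : Fin C ≃ (Fin p ↪o Fin N)) {w : Fin N → Fin N → ℝ}
    (hw : LinearIndependent ℝ w) {v : Fin C → ℝ} (τ₀ : Fin C)
    (hv : ∀ τ, τ ≠ τ₀ → v ⬝ᵥ wedge e (fun i => w (e τ i)) = 0) {u : Fin p → Fin N → ℝ}
    (i₀ : Fin p) (hu : u i₀ ∈ Submodule.span ℝ (w '' {l | ∀ j, e τ₀ j ≠ l})) :
    v ⬝ᵥ wedge e u = 0 := by
  classical
  cases N with
  | zero => exact ((e τ₀) i₀).elim0
  | succ N =>
    set bw := basisOfLinearIndependentOfCardEqFinrank hw (by simp)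
    have hbw : ⇑bw = w := coe_basisOfLinearIndependentOfCardEqFinrank _ _
    set B := (bw.exteriorPower p).reindex (Set.powersetCard.ofFinEmbEquiv.symm.trans e.symm)
    have hB : ∀ τ, coordEquiv e (B τ) = wedge e fun i => w (e τ i) := fun τ => by
      simp [B, exteriorPower.ιMulti_family, coordEquiv_ιMulti,
        Function.comp_def, hbw]
    rw [← coordEquiv_ιMulti, ← B.sum_repr (exteriorPower.ιMulti ℝ p u), map_sum, dotProduct_sum]
    refine sum_eq_zero fun τ _ => ?_
    rw [map_smul, dotProduct_smul, hB]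
    by_cases h : τ = τ₀
    · subst h
      have h0 : B.repr (exteriorPower.ιMulti ℝ p u) τ = 0 := by
        simp only [B, Module.Basis.repr_reindex_apply, exteriorPower.basis_repr_apply,
          exteriorPower.ιMultiDual_apply_ιMulti]
        refine det_eq_zero_of_row_eq_zero i₀ fun j => ?_
        rw [← hbw, bw.mem_span_image] at hu
        by_contra hne
        have h1 := hu (Finsupp.mem_support_iff.2 hne) j
        simp at h1
      rw [h0, zero_smul]
    · rw [hv τ h, smul_zero]

/-- Every index lies in equally many products. -/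
theorem exists_multiplicity (e : Fin C ≃ (Fin p ↪o Fin N)) :
    ∃ m : ℕ, ∀ f : Fin N → ℝ, ∏ τ, ∏ i, f (e τ i) = (∏ l, f l) ^ m := by
  classical
  cases p with
  | zero => exact ⟨0, fun f => by simp⟩
  | succ p =>
    refine ⟨(N - 1).choose p, fun f => ?_⟩
    have h1 : ∏ τ, ∏ i, f (e τ i) =
        ∏ s ∈ (univ : Finset (Fin N)).powersetCard (p + 1), ∏ l ∈ s, f l := by
      rw [prod_subtype (p := fun s => s ∈ Set.powersetCard (Fin N) (p + 1)) _
        (fun s => by simp [Set.powersetCard.mem_iff]) fun s => ∏ l ∈ s, f l]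
      refine Fintype.prod_equiv (e.trans Set.powersetCard.ofFinEmbEquiv) _ _ fun τ => ?_
      simp [Set.powersetCard.ofFinEmbEquiv_apply, Set.powersetCard.val_ofFinEmb]
    rw [h1, ← prod_pow]
    have h2 : ∀ s : Finset (Fin N), ∏ l ∈ s, f l = ∏ l, if l ∈ s then f l else 1 := fun s => by
      rw [prod_ite_mem, univ_inter]
    simp only [h2]
    rw [prod_comm]
    refine prod_congr rfl fun l _ => ?_
    rw [← prod_filter, prod_const]
    congr 1
    have h3 := card_filter_powersetCard_subset {l} (univ : Finset (Fin N)) (p + 1)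
    simp only [singleton_subset_iff, subset_univ, card_singleton, card_univ,
      Fintype.card_fin] at h3
    simpa using h3

end FA.Subspace

end
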