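import Fermat.Agent.Subspace.Applications
import Mathlib.Algebra.Polynomial.Roots

/-!
# Approximation by algebraic numbers of bounded degree

Schmidt's answer to the question of Wirsing: an algebraic `α` of degree more than `d` has finitely
many approximations `β` that are zeros of integer polynomials `P` of degree at most `d` with
`|α - β| * ‖P‖ ^ (d + 1 + ε) < 1`.
-/

set_option autoImplicit false
set_option linter.style.haveILetI false

noncomputable section

namespace FA.Subspace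

open Finset FA.Perfect

theorem norm_pow_sub_pow_le {a b : ℂ} {A : ℝ} (hA : 1 ≤ A) (ha : ‖a‖ ≤ A) (hb : ‖b‖ ≤ A) (k : ℕ) :
    ‖a ^ k - b ^ k‖ ≤ k * A ^ k * ‖a - b‖ := by
  induction k with
  | zero => simp
  | succ k ih =>
    have e : a ^ (k + 1) - b ^ (k + 1) = a * (a ^ k - b ^ k) + (a - b) * b ^ k := by ring
    rw [e]
    refine (norm_add_le _ _).trans ?_
    rw [norm_mul, norm_mul, norm_pow]
    have h1 := mul_le_mul ha ih (norm_nonneg _) (by linarith)
    have h2 := mul_le_mul_of_nonneg_left ((pow_le_pow_left₀ (norm_nonneg _) hb k).trans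
      (pow_le_pow_right₀ hA (Nat.le_succ k))) (norm_nonneg (a - b))
    push_cast
    rw [pow_succ] at h2 ⊢
    linarith

/-- **Schmidt's theorem on approximation by algebraic numbers.** -/
theorem finite_algebraic_approximations {α : ℝ} (hα : IsAlgebraic ℚ α) {d : ℕ}
    (hd : d < (minpoly ℚ α).natDegree) {ε : ℝ} (hε : 0 < ε) :
    {β : ℂ | ∃ a : Fin (d + 1) → ℤ, a ≠ 0 ∧ ∑ k, (a k : ℂ) * β ^ (k : ℕ) = 0 ∧
      ‖(α : ℂ) - β‖ * ‖castVec a‖ ^ ((d : ℝ) + 1 + ε) < 1}.Finite := by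
  classical
  set A := |α| + 1 with hA
  set C := 1 + ∑ k : Fin (d + 1), ((k : ℕ) : ℝ) * A ^ (k : ℕ) with hC
  have hA1 : 1 ≤ A := le_add_of_nonneg_left (abs_nonneg α)
  have hC1 : 1 ≤ C := le_add_of_nonneg_right (by positivity)
  refine ((((finite_small_poly_values hα hd (half_pos hε)).union
    (finite_norm_le (C ^ (2 / ε)))).subset
    (show {a : Fin (d + 1) → ℤ | a ≠ 0 ∧ ∃ β : ℂ, ∑ k, (a k : ℂ) * β ^ (k : ℕ) = 0 ∧
      ‖(α : ℂ) - β‖ * ‖castVec a‖ ^ ((d : ℝ) + 1 + ε) < 1} ⊆ _ from ?_)).biUnion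
    (t := fun a => {β : ℂ | a ≠ 0 ∧ ∑ k, (a k : ℂ) * β ^ (k : ℕ) = 0}) fun a _ => ?_).subset
    fun β hβ => ?_
  · rintro a ⟨ha, β, hroot, hlt⟩
    set X := ‖castVec a‖
    obtain ⟨i, hi⟩ := Function.ne_iff.1 ha
    have hX1 : 1 ≤ X := le_trans (show (1 : ℝ) ≤ |(a i : ℝ)| by exact_mod_cast Int.one_le_abs hi)
      (by simpa [castVec] using norm_le_pi_norm (castVec a) i)
    have hX0 : 0 < X := zero_lt_one.trans_le hX1
    by_cases hbig : X ≤ C ^ (2 / ε)
    · exact Or.inr hbig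
    refine Or.inl ⟨ha, ?_⟩
    have hCX : C < X ^ (ε / 2) := by
      have h := Real.rpow_lt_rpow (by positivity) (not_le.1 hbig) (half_pos hε)
      rwa [← Real.rpow_mul (by linarith), show 2 / ε * (ε / 2) = 1 by field_simp,
        Real.rpow_one] at h
    have hdiff : ‖(α : ℂ) - β‖ ≤ 1 :=
      le_trans (le_mul_of_one_le_right (norm_nonneg _)
        (Real.one_le_rpow hX1 (by positivity))) hlt.le
    have hαA : ‖(α : ℂ)‖ ≤ A := by rw [Complex.norm_real, Real.norm_eq_abs]; linarith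
    have hβA : ‖β‖ ≤ A := by
      have h := norm_le_norm_add_norm_sub' β (α : ℂ)
      rw [Complex.norm_real, Real.norm_eq_abs, norm_sub_rev] at h
      linarith
    have hP : |∑ k, (a k : ℝ) * α ^ (k : ℕ)| ≤ C * X * ‖(α : ℂ) - β‖ := by
      have e : ((∑ k, (a k : ℝ) * α ^ (k : ℕ) : ℝ) : ℂ) =
          ∑ k, (a k : ℂ) * ((α : ℂ) ^ (k : ℕ) - β ^ (k : ℕ)) := by
        simp only [mul_sub, sum_sub_distrib, hroot, sub_zero]
        push_cast
        rfl
      rw [← Real.norm_eq_abs, ← Complex.norm_real, e]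
      refine (norm_sum_le _ _).trans ((sum_le_sum (g := fun k : Fin (d + 1) =>
        ((k : ℕ) : ℝ) * A ^ (k : ℕ) * (X * ‖(α : ℂ) - β‖)) fun k _ => ?_).trans ?_)
      · rw [norm_mul, Complex.norm_intCast]
        refine (mul_le_mul (by simpa [castVec] using norm_le_pi_norm (castVec a) k)
          (norm_pow_sub_pow_le hA1 hαA hβA k) (norm_nonneg _) hX0.le).trans_eq ?_
        ring
      · rw [← sum_mul, mul_assoc C]
        exact mul_le_mul_of_nonneg_right (le_add_of_nonneg_left zero_le_one) (by positivity)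
    refine lt_of_le_of_lt (mul_le_mul_of_nonneg_right hP (by positivity)) ?_
    calc C * X * ‖(α : ℂ) - β‖ * X ^ ((d : ℝ) + ε / 2)
        ≤ X ^ (ε / 2) * X * ‖(α : ℂ) - β‖ * X ^ ((d : ℝ) + ε / 2) := by gcongr
      _ = ‖(α : ℂ) - β‖ * X ^ ((d : ℝ) + 1 + ε) := by
          rw [show (d : ℝ) + 1 + ε = ε / 2 + 1 + ((d : ℝ) + ε / 2) by ring,
            Real.rpow_add hX0 (ε / 2 + 1), Real.rpow_add hX0 (ε / 2) 1, Real.rpow_one]
          ring
      _ < 1 := hlt
  · by_cases ha : a = 0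
    · simp [ha]
    set p : Polynomial ℂ := ∑ k : Fin (d + 1), Polynomial.C (a k : ℂ) * Polynomial.X ^ (k : ℕ)
    have hp : p ≠ 0 := fun e => ha (funext fun k => by
      have h := congrArg (fun q => Polynomial.coeff q (k : ℕ)) e
      simpa [p, Polynomial.coeff_X_pow, Fin.val_inj] using h)
    refine (Polynomial.finite_setOfPred_isRoot hp).subset fun β hβ => ?_
    show Polynomial.IsRoot p β
    simpa [Polynomial.IsRoot, p, Polynomial.eval_finsetSum] using hβ.2
  · obtain ⟨a, ha, hroot, hlt⟩ := hβ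
    exact Set.mem_biUnion ⟨ha, β, hroot, hlt⟩ ⟨ha, hroot⟩

end FA.Subspace

end
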