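import Fermat.Agent.Roth.Auxiliary

/-!
# The auxiliary polynomial of Schmidt's method

An integer polynomial in `m` blocks of `n + 1` variables, homogeneous in each block, with small
coefficients, which after a substitution with algebraic coefficients only contains monomials in
which every index of the variables has about the same share of the weight. By Chebyshev's
inequality the other monomials are few, and Siegel's lemma gives the polynomial.
-/

set_option autoImplicit false

noncomputable section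

namespace FA.Subspace

open MvPolynomial Finset FA.Roth Matrix
open scoped Matrix.Norms.Elementwise

section MultiHom

variable {σ τ R : Type*} [Fintype τ] [CommSemiring R]

/-- Homogeneous of degree `r h` in the `h`-th block of variables. -/
def MultiHom (r : σ → ℕ) (P : MvPolynomial (σ × τ) R) : Prop :=
  ∀ s, coeff s P ≠ 0 → ∀ h, ∑ k, s (h, k) = r h

theorem MultiHom.sum {ι : Type*} {r : σ → ℕ} {t : Finset ι} {f : ι → MvPolynomial (σ × τ) R}
    (h : ∀ i ∈ t, MultiHom r (f i)) : MultiHom r (∑ i ∈ t, f i) := fun s hs => by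
  rw [coeff_sum] at hs
  obtain ⟨i, hi, hne⟩ := exists_ne_zero_of_sum_ne_zero hs
  exact h i hi s hne

theorem MultiHom.C_mul {r : σ → ℕ} {P : MvPolynomial (σ × τ) R} (hP : MultiHom r P) (c : R) :
    MultiHom r (C c * P) := fun s hs => hP s fun e => hs (by rw [coeff_C_mul, e, mul_zero])

theorem MultiHom.one : MultiHom (0 : σ → ℕ) (1 : MvPolynomial (σ × τ) R) := by
  classical
  intro s hs h
  rw [coeff_one] at hs
  split_ifs at hs with h0
  · simp [← h0]
  · exact absurd rfl hs

theorem MultiHom.mul {r r' : σ → ℕ} {P Q : MvPolynomial (σ × τ) R} (hP : MultiHom r P)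
    (hQ : MultiHom r' Q) : MultiHom (r + r') (P * Q) := by
  classical
  intro s hs h
  rw [coeff_mul] at hs
  obtain ⟨⟨a, b⟩, hab, hne⟩ := exists_ne_zero_of_sum_ne_zero hs
  rw [mem_antidiagonal] at hab
  simp only [← hab, Finsupp.add_apply, sum_add_distrib, Pi.add_apply,
    hP a (left_ne_zero_of_mul hne) h, hQ b (right_ne_zero_of_mul hne) h]

theorem MultiHom.pow {r : σ → ℕ} {P : MvPolynomial (σ × τ) R} (hP : MultiHom r P) (k : ℕ) :
    MultiHom (k • r) (P ^ k) := by
  induction k with
  | zero => simpa using MultiHom.one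
  | succ k ih => rw [succ_nsmul, pow_succ]; exact ih.mul hP

theorem MultiHom.prod {ι : Type*} {r : ι → σ → ℕ} {t : Finset ι}
    {f : ι → MvPolynomial (σ × τ) R} (h : ∀ i ∈ t, MultiHom (r i) (f i)) :
    MultiHom (∑ i ∈ t, r i) (∏ i ∈ t, f i) := by
  classical
  induction t using Finset.induction with
  | empty => simpa using MultiHom.one
  | insert a t ha ih =>
    rw [sum_insert ha, prod_insert ha]
    exact (h a (mem_insert_self a t)).mul (ih fun i hi => h i (mem_insert_of_mem hi))

theorem MultiHom.le {r : σ → ℕ} {P : MvPolynomial (σ × τ) R} (hP : MultiHom r P)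
    {s : σ × τ →₀ ℕ} (hs : coeff s P ≠ 0) (p : σ × τ) : s p ≤ r p.1 :=
  (hP s hs p.1).symm ▸ single_le_sum (f := fun k => s (p.1, k)) (fun _ _ => Nat.zero_le _)
    (mem_univ p.2)

theorem multiHom_sum_C_mul_X [DecidableEq σ] {ρ : Type*} [Fintype ρ] (h : σ) (f : ρ → R) :
    MultiHom (Pi.single h 1) (∑ i, C (f i) * X (h, i) : MvPolynomial (σ × ρ) R) := by
  classical
  refine MultiHom.sum fun i _ => MultiHom.C_mul (fun t ht h' => ?_) _
  rw [coeff_X] at ht
  split_ifs at ht with e
  · subst e
    rcases eq_or_ne h' h with rfl | hne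
    · simp [Finsupp.single_apply]
    · simp [Finsupp.single_apply, hne, Ne.symm hne]
  · exact absurd rfl ht

/-- Products of powers of forms that are linear in one block. -/
theorem multiHom_prod_pow [Fintype σ] [DecidableEq σ] {ρ : Type*} [Fintype ρ]
    {f : σ × ρ → MvPolynomial (σ × τ) R} (hf : ∀ p, MultiHom (Pi.single p.1 1) (f p))
    (s : σ × ρ →₀ ℕ) : MultiHom (fun h => ∑ k, s (h, k)) (∏ p, f p ^ s p) := by
  have h := MultiHom.prod (t := univ) fun p _ => (hf p).pow (s p)
  convert h using 1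
  funext h'
  rw [Finset.sum_apply, Fintype.sum_prod_type]
  simp only [Pi.smul_apply, smul_eq_mul]
  rw [sum_eq_single h' (fun b _ hb => by simp [Pi.single_eq_of_ne (Ne.symm hb)])
    (fun h => absurd (mem_univ h') h)]
  simp

/-- The total degree in the sense of blocks. -/
theorem MultiHom.sum_eq [Fintype σ] {r : σ → ℕ} {P : MvPolynomial (σ × τ) R} (hP : MultiHom r P)
    {s : σ × τ →₀ ℕ} (hs : coeff s P ≠ 0) : ∑ p, s p = ∑ h, r h := by
  rw [Fintype.sum_prod_type]
  exact sum_congr rfl fun h _ => hP s hs h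

end MultiHom

section Forms

variable {n m : ℕ}

/-- The linear forms `∑ i, A k i • y (h, i)` in the blocks of variables. -/
def linForm {R : Type*} [CommRing R] (A : Matrix (Fin (n + 1)) (Fin (n + 1)) R)
    (p : Fin m × Fin (n + 1)) : MvPolynomial (Fin m × Fin (n + 1)) R :=
  ∑ i, C (A p.2 i) * X (p.1, i)

theorem multiHom_aeval_linForm {R : Type*} [CommRing R]
    (A : Matrix (Fin (n + 1)) (Fin (n + 1)) R) {r : Fin m → ℕ}
    {P : MvPolynomial (Fin m × Fin (n + 1)) ℤ} (hP : MultiHom r P) :
    MultiHom r (aeval (linForm A) P) := by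
  classical
  rw [aeval_def, eval₂_eq']
  refine MultiHom.sum fun s hs => ?_
  rw [show (algebraMap ℤ (MvPolynomial (Fin m × Fin (n + 1)) R)) (coeff s P) =
    C ((coeff s P : ℤ) : R) by simp]
  refine MultiHom.C_mul ?_ _
  rw [← funext (hP s (mem_support_iff.1 hs))]
  exact multiHom_prod_pow (fun p => multiHom_sum_C_mul_X p.1 _) s

/-- The substitution with coefficients polynomials in a further variable. -/
def polyForm (a : Fin (n + 1) → Fin (n + 1) → Polynomial ℤ) (p : Fin m × Fin (n + 1)) :
    MvPolynomial (Option (Fin m × Fin (n + 1))) ℤ :=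
  ∑ i, ∑ e ∈ range ((a p.2 i).natDegree + 1),
    monomial (Finsupp.single none e + Finsupp.single (some (p.1, i)) 1) ((a p.2 i).coeff e)

theorem aeval_polyForm {R : Type*} [CommRing R]
    (a : Fin (n + 1) → Fin (n + 1) → Polynomial ℤ) (α : R)
    (p : Fin m × Fin (n + 1)) :
    aeval (fun o => o.elim (C α) X) (polyForm a p) =
      linForm (Matrix.of fun k i => Polynomial.aeval α (a k i)) p := by
  rw [polyForm, linForm, map_sum]
  refine sum_congr rfl fun i _ => ?_
  rw [map_sum, Matrix.of_apply, Polynomial.aeval_eq_sum_range, map_sum, sum_mul]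
  refine sum_congr rfl fun e _ => ?_
  rw [aeval_monomial, Finsupp.prod_add_index' (by simp) (fun _ _ _ => pow_add _ _ _),
    Finsupp.prod_single_index (by simp), Finsupp.prod_single_index (by simp)]
  simp [zsmul_eq_mul, mul_assoc]

end Forms

section Count

variable {m n : ℕ}

/-- The exponents of degree `r` in `n + 1` variables. -/
abbrev BlockExp (n r : ℕ) := {c : Fin (n + 1) → Fin (r + 1) // ∑ i, (c i : ℕ) = r}

theorem sum_blockExp {r : ℕ} (hr : 0 < r) (i : Fin (n + 1)) :
    ∑ c : BlockExp n r, ((c.1 i : ℕ) / (r : ℝ) - 1 / (n + 1)) = 0 := by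
  have hsym : ∀ j, ∑ c : BlockExp n r, ((c.1 j : ℕ) : ℝ) =
      ∑ c : BlockExp n r, ((c.1 i : ℕ) : ℝ) := fun j => by
    let e : BlockExp n r → BlockExp n r := fun c => ⟨c.1 ∘ Equiv.swap i j,
      (Equiv.sum_comp (Equiv.swap i j) fun k => ((c.1 k : ℕ))).trans c.2⟩
    have he : Function.Involutive e := fun c => Subtype.ext (funext fun k => by simp [e])
    exact Fintype.sum_equiv he.toPerm _ _ fun c => by simp [e]
  have h2 : ((n : ℝ) + 1) * ∑ c : BlockExp n r, ((c.1 i : ℕ) : ℝ) =
      (Fintype.card (BlockExp n r) : ℝ) * r := by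
    calc ((n : ℝ) + 1) * ∑ c : BlockExp n r, ((c.1 i : ℕ) : ℝ)
        = ∑ j, ∑ c : BlockExp n r, ((c.1 j : ℕ) : ℝ) := by simp [hsym]
      _ = ∑ c : BlockExp n r, (r : ℝ) := by
          rw [sum_comm]
          exact sum_congr rfl fun c _ => by exact_mod_cast c.2
      _ = _ := by simp
  rw [sum_sub_distrib, ← sum_div, sum_const, card_univ, nsmul_eq_mul]
  have hr' : (0 : ℝ) < r := by exact_mod_cast hr
  field_simp
  linarith

/-- Few tuples of exponents have an unequal share of the weight (Chebyshev). -/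
theorem card_bad_le {r : Fin m → ℕ} (hr : ∀ h, 0 < r h) (i : Fin (n + 1)) {ε : ℝ} (hε : 0 < ε) :
    (Fintype.card {j : ∀ h, BlockExp n (r h) //
        ε * m ≤ |∑ h, (((j h).1 i : ℕ) : ℝ) / r h - m / (n + 1)|} : ℝ) * (ε ^ 2 * m) ≤
      Fintype.card (∀ h, BlockExp n (r h)) := by
  classical
  set f : ∀ h, BlockExp n (r h) → ℝ := fun h c => ((c.1 i : ℕ) : ℝ) / r h - 1 / (n + 1) with hf
  have hsum : ∀ j : ∀ h, BlockExp n (r h),
      ∑ h, (((j h).1 i : ℕ) : ℝ) / r h - m / (n + 1) = ∑ h, f h (j h) := fun j => by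
    simp [hf, sum_sub_distrib, div_eq_mul_inv]
  have hf1 : ∀ h c, |f h c| ≤ 1 := fun h c => by
    have h0 : (0 : ℝ) ≤ ((c.1 i : ℕ) : ℝ) / r h := by positivity
    have h1 : ((c.1 i : ℕ) : ℝ) / r h ≤ 1 := by
      rw [div_le_one (by exact_mod_cast hr h)]
      exact_mod_cast Nat.lt_succ_iff.1 (c.1 i).isLt
    have h2 : (0 : ℝ) ≤ 1 / ((n : ℝ) + 1) := by positivity
    have h3 : 1 / ((n : ℝ) + 1) ≤ 1 := by
      rw [div_le_one (by positivity)]
      linarith [(Nat.cast_nonneg n : (0 : ℝ) ≤ n)]
    rw [abs_le]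
    exact ⟨by simp only [hf]; linarith, by simp only [hf]; linarith⟩
  have hcross : ∀ h h', h ≠ h' → ∑ j : ∀ h, BlockExp n (r h), f h (j h) * f h' (j h') = 0 := by
    intro h h' hne
    set F : ∀ k, BlockExp n (r k) → ℝ := fun k c =>
      (if k = h then f k c else 1) * (if k = h' then f k c else 1) with hF
    have e : ∀ j : ∀ h, BlockExp n (r h), f h (j h) * f h' (j h') = ∏ k, F k (j k) := fun j => by
      simp only [hF, prod_mul_distrib, prod_ite_eq', mem_univ, if_true]
    rw [sum_congr rfl fun j _ => e j, ← Fintype.prod_sum F]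
    refine prod_eq_zero (mem_univ h) ?_
    simp only [hF, hne, if_true, if_false, mul_one]
    exact sum_blockExp (hr h) i
  have hvar : ∑ j : ∀ h, BlockExp n (r h), (∑ h, f h (j h)) ^ 2 ≤
      m * Fintype.card (∀ h, BlockExp n (r h)) := by
    calc ∑ j : ∀ h, BlockExp n (r h), (∑ h, f h (j h)) ^ 2
        = ∑ h, ∑ h', ∑ j : ∀ h, BlockExp n (r h), f h (j h) * f h' (j h') := by
          simp only [sq, sum_mul_sum]
          rw [sum_comm]
          exact sum_congr rfl fun h _ => sum_comm
      _ = ∑ h, ∑ j : ∀ h, BlockExp n (r h), f h (j h) * f h (j h) :=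
          sum_congr rfl fun h _ => sum_eq_single h (fun h' _ hne => hcross h h' (Ne.symm hne))
            (fun e => absurd (mem_univ h) e)
      _ ≤ ∑ h : Fin m, ∑ j : ∀ h, BlockExp n (r h), (1 : ℝ) :=
          sum_le_sum fun h _ => sum_le_sum fun j _ => by
            nlinarith [abs_mul_abs_self (f h (j h)), hf1 h (j h), abs_nonneg (f h (j h))]
      _ = _ := by simp
  rcases Nat.eq_zero_or_pos m with rfl | hm
  · simp
  have hm' : (0 : ℝ) < m := by exact_mod_cast hm
  have hlow : (Fintype.card {j : ∀ h, BlockExp n (r h) //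
      ε * m ≤ |∑ h, (((j h).1 i : ℕ) : ℝ) / r h - m / (n + 1)|} : ℝ) * (ε * m) ^ 2 ≤
      ∑ j : ∀ h, BlockExp n (r h), (∑ h, f h (j h)) ^ 2 := by
    rw [Fintype.card_subtype, ← nsmul_eq_mul]
    refine (card_nsmul_le_sum _ _ _ fun j hj => ?_).trans
      (sum_le_sum_of_subset_of_nonneg (subset_univ _) fun _ _ _ => sq_nonneg _)
    have h := (mem_filter.1 hj).2
    rw [hsum] at h
    rw [← sq_abs (∑ h, f h (j h))]
    exact pow_le_pow_left₀ (by positivity) h 2
  have h := hlow.trans hvar
  refine le_of_mul_le_mul_right ?_ hm'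
  nlinarith

end Count

/-- **The auxiliary polynomial**, balanced after finitely many substitutions with coefficients
polynomials in algebraic integers. -/
theorem exists_auxiliary {n m : ℕ} (hn : 1 ≤ n) {ι : Type} [Fintype ι] (μ : ι → Polynomial ℤ)
    (hmon : ∀ l, (μ l).Monic) (hD : ∀ l, 0 < (μ l).natDegree)
    (a : ι → Fin (n + 1) → Fin (n + 1) → Polynomial ℤ) {ε : ℝ} (hε : 0 < ε)
    (hm2 : 2 ≤ m) (hm : 4 * ((∑ l, (μ l).natDegree : ℕ) : ℝ) * (n + 1) ≤ ε ^ 2 * m) :
    ∃ C : ℝ, 1 ≤ C ∧ ∀ r : Fin m → ℕ, (∀ h, 0 < r h) →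
      ∃ P : MvPolynomial (Fin m × Fin (n + 1)) ℤ, P ≠ 0 ∧ MultiHom r P ∧
        len P ≤ C ^ (∑ h, r h) ∧
        ∀ j i, ε * m ≤ |∑ h, (j (h, i) : ℝ) / r h - m / (n + 1)| →
          ∀ l (R : Type) [CommRing R] (α : R), Polynomial.aeval α (μ l) = 0 →
            coeff j (aeval (linForm (Matrix.of fun k i => Polynomial.aeval α (a l k i))) P) =
              0 := by
  classical
  choose c c₀ hc₀ hpow hc using fun l => Thue.exists_power_coeff (hmon l) rfl (hD l)
  set D := fun l => (μ l).natDegree with hDdef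
  set e₀ := fun l => univ.sup fun p : Fin (n + 1) × Fin (n + 1) => (a l p.1 p.2).natDegree
  set B : ι → ℝ := fun l =>
    1 + ∑ k, ∑ i, ∑ e ∈ range ((a l k i).natDegree + 1), |((a l k i).coeff e : ℝ)|
  have hB1 : ∀ l, 1 ≤ B l := fun l => le_add_of_nonneg_right
    (sum_nonneg fun _ _ => sum_nonneg fun _ _ => sum_nonneg fun _ _ => abs_nonneg _)
  have hcB : ∀ l, 1 ≤ c₀ l ^ e₀ l * B l := fun l =>
    one_le_mul_of_one_le_of_one_le (one_le_pow₀ (hc₀ l)) (hB1 l)
  set W := 1 + ∑ l, c₀ l ^ e₀ l * B l with hW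
  have hW1 : 1 ≤ W := le_add_of_nonneg_right (sum_nonneg fun l _ => zero_le_one.trans (hcB l))
  have hWl : ∀ l, c₀ l ^ e₀ l * B l ≤ W := fun l =>
    (single_le_sum (f := fun l => c₀ l ^ e₀ l * B l) (fun l _ => zero_le_one.trans (hcB l))
      (mem_univ l)).trans (le_add_of_nonneg_left zero_le_one)
  have h21 : (1 : ℝ) ≤ 2 ^ (n + 1) := one_le_pow₀ one_le_two
  refine ⟨2 ^ (n + 1) * (2 ^ (n + 1) * W),
    one_le_mul_of_one_le_of_one_le h21 (one_le_mul_of_one_le_of_one_le h21 hW1), fun r hr => ?_⟩
  set S := ∑ h, r h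
  let T := ∀ h, BlockExp n (r h)
  let toF : T → (Fin m × Fin (n + 1) →₀ ℕ) := fun t =>
    Finsupp.equivFunOnFinite.symm fun p => ((t p.1).1 p.2 : ℕ)
  have htoF : Function.Injective toF := fun s t h => funext fun k => Subtype.ext (funext fun i =>
    Fin.ext (by simpa [toF] using DFunLike.congr_fun h (k, i)))
  have htoFsum : ∀ (t : T) h, ∑ k, toF t (h, k) = r h := fun t h => by simp [toF, (t h).2]
  let Bad := {j : T // ∃ i, ε * m ≤ |∑ h, (((j h).1 i : ℕ) : ℝ) / r h - m / (n + 1)|}
  let Mon : ι → (Fin m × Fin (n + 1) →₀ ℕ) → MvPolynomial (Option (Fin m × Fin (n + 1))) ℤ :=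
    fun l s => ∏ p, polyForm (a l) p ^ s p
  let Mat : Matrix ((Bad × (Σ l, Fin (D l))) ⊕ Unit) T ℤ := fun row t => match row with
    | Sum.inl (j, ⟨l, i⟩) => ∑ q ∈ (Mon l (toF t)).support.filter (fun q => q.some = toF j.1),
        coeff q (Mon l (toF t)) * c l (q none) i
    | Sum.inr _ => 0
  -- the number of equations
  have hN : (Fintype.card T : ℝ) ≤ (2 ^ (n + 1)) ^ S := by
    simp only [T, Fintype.card_pi]
    rw [← prod_pow_eq_pow_sum]
    push_cast
    refine prod_le_prod (fun h _ => by positivity) fun h _ => ?_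
    have h1 : Fintype.card (BlockExp n (r h)) ≤ (r h + 1) ^ (n + 1) :=
      (Fintype.card_subtype_le _).trans (by simp)
    rw [← pow_mul, mul_comm, pow_mul]
    refine le_trans (Nat.cast_le.2 h1) ?_
    push_cast
    exact pow_le_pow_left₀ (by positivity)
      (by exact_mod_cast Nat.lt_two_pow_self (n := r h)) _
  have hN4 : 4 ≤ Fintype.card T := by
    simp only [T, Fintype.card_pi]
    refine le_trans ?_ (prod_le_prod' (f := fun _ : Fin m => 2) fun h _ => ?_)
    · rw [prod_const, card_univ, Fintype.card_fin]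
      exact le_trans (by norm_num) (Nat.pow_le_pow_right two_pos hm2)
    · refine Fintype.one_lt_card_iff.2 ?_
      have hlast : (0 : Fin (n + 1)) ≠ Fin.last n := by
        simp [Fin.ext_iff]; omega
      refine ⟨⟨Pi.single 0 (Fin.last (r h)), ?_⟩, ⟨Pi.single (Fin.last n) (Fin.last (r h)), ?_⟩,
        fun e => ?_⟩
      · rw [sum_eq_single 0 (fun b _ hb => by simp [hb]) (fun h => absurd (mem_univ _) h)]
        simp
      · rw [sum_eq_single (Fin.last n) (fun b _ hb => by simp [hb])
          (fun h => absurd (mem_univ _) h)]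
        simp
      · have := congrFun (Subtype.ext_iff.1 e) 0
        simp [Pi.single_eq_of_ne hlast, Fin.ext_iff] at this
        exact (hr h).ne' this
  have hbad : (Fintype.card Bad : ℝ) * (ε ^ 2 * m) ≤ (n + 1) * Fintype.card T := by
    have h1 : Fintype.card Bad ≤ ∑ i : Fin (n + 1), Fintype.card {j : T //
        ε * m ≤ |∑ h, (((j h).1 i : ℕ) : ℝ) / r h - m / (n + 1)|} := by
      simp only [Bad, Fintype.card_subtype]
      refine le_trans (card_le_card (t := univ.biUnion fun i : Fin (n + 1) => univ.filter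
        fun j : T => ε * m ≤ |∑ h, (((j h).1 i : ℕ) : ℝ) / r h - m / (n + 1)|) fun j hj => ?_)
        card_biUnion_le
      obtain ⟨i, hi⟩ := (mem_filter.1 hj).2
      exact mem_biUnion.2 ⟨i, mem_univ i, mem_filter.2 ⟨mem_univ j, hi⟩⟩
    refine (mul_le_mul_of_nonneg_right (Nat.cast_le.2 h1) (by positivity)).trans ?_
    push_cast
    rw [sum_mul]
    exact (sum_le_sum fun i _ => card_bad_le hr i hε).trans (le_of_eq (by simp [T]))
  have hhalf : 2 * (Fintype.card ((Bad × (Σ l, Fin (D l))) ⊕ Unit) : ℝ) ≤ Fintype.card T := by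
    rw [Fintype.card_sum, Fintype.card_prod, Fintype.card_sigma, Fintype.card_unit]
    simp only [Fintype.card_fin]
    push_cast at hm ⊢
    have hT : (4 : ℝ) ≤ Fintype.card T := by exact_mod_cast hN4
    have h1 : (Fintype.card Bad : ℝ) * (4 * (∑ l, (D l : ℝ))) ≤ Fintype.card T := by
      refine le_of_mul_le_mul_left ?_ (show (0 : ℝ) < (n : ℝ) + 1 by positivity)
      nlinarith [mul_le_mul_of_nonneg_left hm (Nat.cast_nonneg (α := ℝ) (Fintype.card Bad))]
    linarith
  have hlt : Fintype.card ((Bad × (Σ l, Fin (D l))) ⊕ Unit) < Fintype.card T := by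
    have h : 2 * Fintype.card ((Bad × (Σ l, Fin (D l))) ⊕ Unit) ≤ Fintype.card T := by
      exact_mod_cast hhalf
    omega
  obtain ⟨t, ht0, htM, htb⟩ := Int.Matrix.exists_ne_zero_int_vec_norm_le Mat hlt Fintype.card_pos
  -- the size of the equations
  have hboxform : ∀ l (p : Fin m × Fin (n + 1)),
      BoxDeg (fun o : Option (Fin m × Fin (n + 1)) => o.elim (e₀ l) fun _ => 1)
        (polyForm (a l) p) := by
    intro l p
    refine BoxDeg.sum fun i _ => BoxDeg.sum fun e he s hs o => ?_
    rw [coeff_monomial] at hs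
    split_ifs at hs with h
    · subst h
      rcases o with _ | q
      · simp only [Finsupp.add_apply, Finsupp.single_eq_same, Option.elim_none]
        rw [Finsupp.single_eq_of_ne (by simp), add_zero]
        exact (Nat.lt_succ_iff.1 (mem_range.1 he)).trans
          (le_sup (f := fun q : Fin (n + 1) × Fin (n + 1) => (a l q.1 q.2).natDegree)
            (mem_univ (p.2, i)))
      · simp [Finsupp.single_apply]
        split_ifs <;> simp
    · exact absurd rfl hs
  have hlenform : ∀ l (p : Fin m × Fin (n + 1)), len (polyForm (a l) p) ≤ B l := by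
    intro l p
    refine (len_sum_le _ _).trans ((sum_le_sum fun i _ => (len_sum_le _ _).trans
      (sum_le_sum fun e _ => len_monomial_le _ _)).trans ?_)
    refine le_trans ?_ (le_add_of_nonneg_left zero_le_one)
    exact single_le_sum (f := fun k => ∑ i, ∑ e ∈ range ((a l k i).natDegree + 1),
      |((a l k i).coeff e : ℝ)|) (fun _ _ => sum_nonneg fun _ _ => sum_nonneg fun _ _ =>
      abs_nonneg _) (mem_univ p.2)
  have hdeg : ∀ t : T, ∑ p, toF t p = S := fun t => by
    rw [Fintype.sum_prod_type]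
    exact sum_congr rfl fun h _ => htoFsum t h
  have hMb : max 1 ‖Mat‖ ≤ W ^ S := by
    refine max_le (one_le_pow₀ hW1) ((Matrix.norm_le_iff (by positivity)).2 fun row t => ?_)
    rw [Int.norm_eq_abs]
    rcases row with ⟨j, l, i⟩ | u
    · simp only [Mat]
      push_cast
      have hlen : len (Mon l (toF t)) ≤ B l ^ S := by
        refine (len_prod_le _ _).trans ((prod_le_prod (fun p _ => len_nonneg _) fun p _ =>
          ?_).trans_eq ((prod_pow_eq_pow_sum univ (toF t) (B l)).trans (by rw [hdeg])))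
        rw [pow_eq_prod_const]
        refine (len_prod_le _ _).trans ((prod_le_prod (fun _ _ => len_nonneg _)
          fun _ _ => hlenform l p).trans_eq (by simp))
      have hbox : BoxDeg (∑ p, ∑ _i ∈ range (toF t p),
          fun o : Option (Fin m × Fin (n + 1)) => o.elim (e₀ l) fun _ => 1) (Mon l (toF t)) :=
        BoxDeg.prod fun p _ => by
          rw [pow_eq_prod_const]
          exact BoxDeg.prod fun _ _ => hboxform l p
      refine (abs_sum_le_sum_abs _ _).trans ((sum_le_sum (g := fun q =>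
        |((coeff q (Mon l (toF t)) : ℤ) : ℝ)| * c₀ l ^ (e₀ l * S)) fun q hq => ?_).trans ?_)
      · rw [abs_mul]
        refine mul_le_mul_of_nonneg_left ((hc l _ _ i.isLt).trans (pow_le_pow_right₀ (hc₀ l) ?_))
          (abs_nonneg _)
        refine (hbox q (mem_support_iff.1 (mem_filter.1 hq).1) none).trans (le_of_eq ?_)
        simp [← hdeg t, sum_mul, mul_comm (e₀ l)]
      · refine le_trans ?_ (pow_le_pow_left₀ (zero_le_one.trans (hcB l)) (hWl l) S)
        rw [← sum_mul, mul_pow, ← pow_mul, mul_comm _ (B l ^ S)]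
        refine mul_le_mul_of_nonneg_right (le_trans ?_ hlen)
          (pow_nonneg (zero_le_one.trans (hc₀ l)) _)
        exact sum_le_sum_of_subset_of_nonneg (filter_subset _ _) fun _ _ _ => abs_nonneg _
    · simp only [Mat, Int.cast_zero, abs_zero]
      positivity
  have ht : ‖t‖ ≤ ((2 ^ (n + 1)) * W) ^ S := by
    have h1 : (Fintype.card ((Bad × (Σ l, Fin (D l))) ⊕ Unit) : ℝ) < Fintype.card T := by
      exact_mod_cast hlt
    have hbase : (Fintype.card T : ℝ) * max 1 ‖Mat‖ ≤ ((2 ^ (n + 1)) * W) ^ S := by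
      rw [mul_pow]
      exact mul_le_mul hN hMb (zero_le_one.trans (le_max_left _ _)) (by positivity)
    refine htb.trans ((Real.rpow_le_rpow (by positivity) hbase
      (div_nonneg (Nat.cast_nonneg _) (by linarith))).trans ?_)
    refine (Real.rpow_le_rpow_of_exponent_le (one_le_pow₀
      (one_le_mul_of_one_le_of_one_le h21 hW1)) ?_).trans (le_of_eq (Real.rpow_one _))
    rw [div_le_one (by linarith)]
    linarith
  set P : MvPolynomial (Fin m × Fin (n + 1)) ℤ := ∑ s : T, monomial (toF s) (t s) with hP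
  have hcoeff : ∀ s : T, coeff (toF s) P = t s := fun s => by
    simp only [P, coeff_sum, coeff_monomial, htoF.eq_iff]
    rw [sum_eq_single_of_mem s (mem_univ s) fun b _ hb => if_neg hb, if_pos rfl]
  have hmulti : MultiHom r P := by
    refine MultiHom.sum fun s _ q hq h => ?_
    rw [coeff_monomial] at hq
    split_ifs at hq with e
    · exact e ▸ htoFsum s h
    · exact absurd rfl hq
  refine ⟨P, fun e => ht0 (funext fun s => ?_), hmulti, ?_,
    fun j i hj l R _ α hα => ?_⟩
  · rw [← hcoeff s, e]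
    simp
  · refine (len_sum_le _ _).trans ((sum_le_sum fun s _ => len_monomial_le _ _).trans
      ((sum_le_card_nsmul _ _ (((2 : ℝ) ^ (n + 1) * W) ^ S) fun s _ => ?_).trans ?_))
    · rw [← Int.norm_eq_abs]
      exact (norm_le_pi_norm t s).trans ht
    · rw [nsmul_eq_mul, card_univ, mul_pow _ ((2 : ℝ) ^ (n + 1) * W)]
      exact mul_le_mul_of_nonneg_right hN (by positivity)
  · set A := Matrix.of fun k i => Polynomial.aeval α (a l k i) with hA
    by_contra hne
    have hjr := multiHom_aeval_linForm A hmulti j hne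
    let j' : T := fun h => ⟨fun k => ⟨j (h, k), Nat.lt_succ_of_le ((hjr h) ▸
      single_le_sum (f := fun k => j (h, k)) (fun _ _ => Nat.zero_le _) (mem_univ k))⟩, hjr h⟩
    have hj' : toF j' = j := by ext p; simp [toF, j']
    have hbad' : ∃ i, ε * m ≤ |∑ h, (((j' h).1 i : ℕ) : ℝ) / r h - m / (n + 1)| := ⟨i, hj⟩
    refine hne ?_
    -- the coefficient as a combination of powers of `α`
    have hterm : ∀ s : T, coeff j (aeval (linForm A) (monomial (toF s) (t s))) =
        ∑ l' : Fin (D l),
          ((Mat (Sum.inl (⟨j', hbad'⟩, ⟨l, l'⟩)) s * t s : ℤ) : R) * α ^ (l' : ℕ) := by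
      intro s
      have hev : aeval (linForm A) (monomial (toF s) (t s)) =
          C (t s : R) * aeval (fun o : Option (Fin m × Fin (n + 1)) => o.elim (C α) X)
            (Mon l (toF s)) := by
        rw [aeval_monomial, Finsupp.prod_fintype _ _ (fun _ => pow_zero _), map_prod]
        simp only [map_pow, aeval_polyForm, ← hA]
        simp
      rw [hev, coeff_C_mul, aeval_def, eval₂_eq, coeff_sum]
      simp only [Mat]
      push_cast
      simp only [sum_filter, hj', sum_mul, mul_sum]
      rw [sum_comm]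
      refine sum_congr rfl fun q _ => ?_
      have hprod : ∏ o ∈ q.support, (o.elim (C α) X : MvPolynomial (Fin m × Fin (n + 1)) R) ^ q o =
          C (α ^ q none) * monomial q.some 1 := by
        show q.prod (fun o e => (o.elim (C α) X : MvPolynomial (Fin m × Fin (n + 1)) R) ^ e) = _
        rw [Finsupp.prod_option_index _ _ (fun _ => pow_zero _) (fun _ _ _ => pow_add _ _ _),
          monomial_eq, map_one, one_mul, map_pow]
        rfl
      rw [hprod, ← mul_assoc, show (algebraMap ℤ (MvPolynomial (Fin m × Fin (n + 1)) R))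
        (coeff q (Mon l (toF s))) = C ((coeff q (Mon l (toF s)) : ℤ) : R) by simp, ← map_mul,
        coeff_C_mul, coeff_monomial, hpow l α hα (q none)]
      split_ifs with h
      · simp only [mul_one, mul_sum]
        exact sum_congr rfl fun l' _ => by ring
      · simp
    rw [hP, map_sum, coeff_sum, sum_congr rfl fun s _ => hterm s, sum_comm]
    refine sum_eq_zero fun l' _ => ?_
    rw [← sum_mul, ← Int.cast_sum]
    have h0 := congrFun htM (Sum.inl (⟨j', hbad'⟩, ⟨l, l'⟩))
    simp only [mulVec, dotProduct, Pi.zero_apply] at h0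
    rw [h0, Int.cast_zero, zero_mul]

end FA.Subspace

end
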