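import Fermat.Agent.Subspace.UnitEquation
import Mathlib.Algebra.Polynomial.Bivariate
import Mathlib.Data.Nat.GCD.Basic

/-!
# Common divisors of `u - 1` and `v - 1` for `S`-units

If `g` divides `u - 1` and `v - 1` and `g ≥ max (|u|, |v|) ^ ε`, the vector of the
`v ^ h u ^ j (u - 1) / g` and the `u ^ i v ^ t (v - 1) / g` is nearly killed by integer forms and
divisible by large powers of the primes in `S`; so a polynomial vanishes at `(u, v)` and, by the
unit equation, a monomial has one of finitely many values (Bugeaud, Corvaja and Zannier).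
-/

set_option autoImplicit false

noncomputable section

namespace FA.Subspace

open Finset Matrix Polynomial FA.Perfect

theorem isSUnitQ_intCast {S : Finset ℕ} {x : ℤ} (hx : x ≠ 0) (h : x.natAbs.primeFactors ⊆ S) :
    IsSUnitQ S (x : ℚ) :=
  isSUnitQ_of_primesOf (Int.cast_ne_zero.2 hx) (by simpa [primesOf] using h)

/-- Some monomial `u ^ p v ^ q` takes a listed value. -/
def OnCurves (R : Finset ((ℤ × ℤ) × ℚ)) (u v : ℤ) : Prop :=
  ∃ c ∈ R, (u : ℚ) ^ c.1.1 * (v : ℚ) ^ c.1.2 = c.2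

/-- The zeros of a polynomial in `S`-units lie on finitely many curves `u ^ p v ^ q = r`. -/
theorem exists_curves (S : Finset ℕ) {P : Polynomial (Polynomial ℤ)} (hP : P ≠ 0) :
    ∃ R : Finset ((ℤ × ℤ) × ℚ), (∀ c ∈ R, c.1 ≠ 0) ∧
      ∀ u v : ℤ, IsSUnitQ S u → IsSUnitQ S v → P.evalEval u v = 0 → OnCurves R u v := by
  classical
  set E : Finset ((_ : ℕ) × ℕ) := P.support.sigma fun t => (P.coeff t).support
  set co : E → ℚ := fun a => (((P.coeff a.1.1).coeff a.1.2 : ℤ) : ℚ)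
  set ex : E → ℤ × ℤ := fun a => ((a.1.2 : ℤ), (a.1.1 : ℤ))
  have hco : ∀ a : E, co a ≠ 0 := fun a =>
    Int.cast_ne_zero.2 (mem_support_iff.1 (mem_sigma.1 a.2).2)
  have hex : Function.Injective ex := fun a a' h => by
    simp only [ex, Prod.mk.injEq, Nat.cast_inj] at h
    exact Subtype.ext (Sigma.ext h.2 (heq_of_eq h.1))
  set S' := S ∪ univ.biUnion fun a : E => primesOf (co a)
  set R := univ.biUnion fun J : Finset E => univ.biUnion fun j₀ : J => univ.biUnion fun j₁ : J =>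
    (finite_unitSums J.card S' (Fintype.card_coe J) j₀).toFinset.image fun z =>
      (ex j₁ - ex j₀, z j₁ * co j₀ / co j₁)
  refine ⟨R.filter fun c => c.1 ≠ 0, fun c hc => (mem_filter.1 hc).2, fun u v hu hv h0 => ?_⟩
  set m : E → ℚ := fun a => (u : ℚ) ^ (ex a).1 * (v : ℚ) ^ (ex a).2 with hm
  set z : E → ℚ := fun a => co a * m a
  have hunit : ∀ {x : ℤ}, IsSUnitQ S x → ∀ e : ℕ, IsSUnitQ S' ((x : ℚ) ^ (e : ℤ)) :=
    fun {x} hx e => by
      rw [zpow_natCast]
      induction e with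
      | zero => exact ⟨by simp, fun p _ _ => by simp⟩
      | succ e ih => rw [pow_succ]; exact ih.mul (hx.mono subset_union_left)
  have hz : ∀ a, IsSUnitQ S' (z a) := fun a =>
    (isSUnitQ_of_primesOf (hco a) (subset_union_right.trans'
      (subset_biUnion_of_mem (fun a : E => primesOf (co a)) (mem_univ a)))).mul
      ((hunit hu _).mul (hunit hv _))
  have hsum : ∑ a, z a = 0 := by
    have h : ((P.evalEval u v : ℤ) : ℚ) = ∑ a, z a := by
      simp only [z, co, hm, ex, zpow_natCast]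
      rw [sum_coe_sort E (fun a => ((((P.coeff a.1).coeff a.2 : ℤ) : ℚ) *
        ((u : ℚ) ^ a.2 * (v : ℚ) ^ a.1))), sum_sigma]
      rw [evalEval, eval_eq_sum (p := P), Polynomial.sum_def, eval_finsetSum, Int.cast_sum]
      refine sum_congr rfl fun t _ => ?_
      rw [eval_mul, eval_pow, eval_C, eval_eq_sum (p := P.coeff t), Polynomial.sum_def, sum_mul,
        Int.cast_sum]
      exact sum_congr rfl fun i _ => by push_cast; ring
    rw [← h, h0, Int.cast_zero]
  have hne : (univ : Finset E).Nonempty := by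
    obtain ⟨t, ht⟩ := nonempty_support_iff.2 hP
    obtain ⟨i, hi⟩ := nonempty_support_iff.2 (mem_support_iff.1 ht)
    exact ⟨⟨⟨t, i⟩, mem_sigma.2 ⟨ht, hi⟩⟩, mem_univ _⟩
  obtain ⟨J, hJ, hmin⟩ := exists_min_image
    (univ.filter fun T : Finset E => T.Nonempty ∧ ∑ a ∈ T, z a = 0) card
    ⟨univ, mem_filter.2 ⟨mem_univ _, hne, hsum⟩⟩
  obtain ⟨-, hJne, hJ0⟩ := mem_filter.1 hJ
  obtain ⟨j₀, hj₀⟩ := hJne
  obtain ⟨j₁, hj₁, hj⟩ : ∃ j₁ ∈ J, j₁ ≠ j₀ := by
    by_contra! h
    rw [sum_eq_single_of_mem j₀ hj₀ fun b hb hne => absurd (h b hb) hne] at hJ0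
    exact (hz j₀).1 hJ0
  set y : J → ℚ := fun a => z a / z j₀
  have hy : y ∈ unitSums S' (⟨j₀, hj₀⟩ : J) := by
    refine ⟨fun a => (hz a).div (hz j₀), ?_, fun T hT hT0 => ?_, div_self (hz j₀).1⟩
    · simp only [y, ← sum_div]
      rw [sum_coe_sort J z, hJ0, zero_div]
    · simp only [y, ← sum_div, div_eq_zero_iff, (hz j₀).1, or_false] at hT0
      have h := hmin (T.map (Function.Embedding.subtype _))
        (mem_filter.2 ⟨mem_univ _, hT.map, by rw [sum_map]; exact hT0⟩)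
      rw [card_map, ← Fintype.card_coe J] at h
      exact eq_univ_of_card _ (le_antisymm (card_le_univ T) h)
  have hd : ex j₁ - ex j₀ ≠ 0 := fun e => hj (hex (sub_eq_zero.1 e))
  refine ⟨(ex j₁ - ex j₀, y ⟨j₁, hj₁⟩ * co j₀ / co j₁), mem_filter.2 ⟨?_, hd⟩, ?_⟩
  · refine mem_biUnion.2 ⟨J, mem_univ _, mem_biUnion.2 ⟨⟨j₀, hj₀⟩, mem_univ _,
      mem_biUnion.2 ⟨⟨j₁, hj₁⟩, mem_univ _, mem_image_of_mem
        (fun z : J → ℚ => (ex j₁ - ex j₀, z ⟨j₁, hj₁⟩ * co j₀ / co j₁))
        ((Set.Finite.mem_toFinset _).2 hy)⟩⟩⟩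
  · have h0' : m j₀ ≠ 0 := ((hunit hu _).mul (hunit hv _)).1
    simp only [Prod.fst_sub, Prod.snd_sub, zpow_sub₀ hu.1, zpow_sub₀ hv.1, div_mul_div_comm]
    show m j₁ / m j₀ = _
    simp only [y, z]
    have := hco j₀
    have := hco j₁
    field_simp

/-- The index set of the vector. -/
abbrev Slot (k h : ℕ) := Fin k ⊕ (Fin (k + 1) × Fin h)

/-- The forms: the first are reduced by the differences of the others. -/
def gcdForms (k h : ℕ) : Matrix (Slot k h) (Slot k h) ℤ :=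
  fromBlocks 1 (Matrix.of fun j p => (if p.1 = j.castSucc then 1 else 0) -
    if p.1 = j.succ then 1 else 0) 0 1

/-- The vector, `A = (u - 1) / g` and `B = (v - 1) / g`. -/
def gcdVec (k h : ℕ) (u v A B : ℤ) : Slot k h → ℤ :=
  Sum.elim (fun j => v ^ h * u ^ (j : ℕ) * A) fun p => B * u ^ (p.1 : ℕ) * v ^ (p.2 : ℕ)

theorem gcdForms_mulVec {k h : ℕ} {u v A B g : ℤ} (hg : g ≠ 0) (hA : g * A = u - 1)
    (hB : g * B = v - 1) :
    gcdForms k h *ᵥ gcdVec k h u v A B =
      Sum.elim (fun j : Fin k => u ^ (j : ℕ) * A)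
        fun p : Fin (k + 1) × Fin h => B * u ^ (p.1 : ℕ) * v ^ (p.2 : ℕ) := by
  simp only [gcdForms, gcdVec, fromBlocks_mulVec, Sum.elim_comp_inl, Sum.elim_comp_inr,
    zero_mulVec, one_mulVec, zero_add]
  congr 1
  funext j
  simp only [Pi.add_apply, mulVec, dotProduct, Matrix.of_apply, Fintype.sum_prod_type, sub_mul,
    sum_sub_distrib, ite_mul, one_mul, zero_mul]
  rw [sum_comm, sum_comm (s := (univ : Finset (Fin (k + 1))))]
  simp only [sum_ite_eq', mem_univ, if_true, Fin.val_castSucc, Fin.val_succ, ← mul_sum]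
  rw [Fin.sum_univ_eq_sum_range fun t => v ^ t]
  refine mul_left_cancel₀ hg ?_
  have hgeo := geom_sum_mul v h
  linear_combination (v ^ h * u ^ (j : ℕ) - u ^ (j : ℕ)) * hA +
    (u ^ (j : ℕ) - u ^ ((j : ℕ) + 1)) * (∑ t ∈ range h, v ^ t) * hB +
    (u ^ (j : ℕ) - u ^ ((j : ℕ) + 1)) * hgeo

/-- The polynomial of a relation between the coordinates. -/
def gcdPoly {k h : ℕ} (w : Slot k h → ℤ) : Polynomial (Polynomial ℤ) :=
  (Polynomial.C ((∑ j : Fin k, monomial (j : ℕ) (w (Sum.inl j))) * (Polynomial.X - 1))) *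
      Polynomial.X ^ h +
    (∑ t : Fin h, monomial (t : ℕ) (∑ i : Fin (k + 1), monomial (i : ℕ) (w (Sum.inr (i, t))))) *
      (Polynomial.X - 1)

theorem gcdPoly_ne_zero {k h : ℕ} {w : Slot k h → ℤ} (hw : w ≠ 0) : gcdPoly w ≠ 0 := by
  intro h0
  have h1 : (∑ j : Fin k, monomial (j : ℕ) (w (Sum.inl j))) = 0 := by
    have e := congrArg (Polynomial.eval (1 : Polynomial ℤ)) h0
    simp only [gcdPoly, eval_add, eval_mul, eval_pow, eval_X, eval_C, one_pow, mul_one, eval_sub,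
      eval_one, sub_self, mul_zero, add_zero, eval_zero] at e
    exact (mul_eq_zero.1 e).resolve_right (by simpa using X_sub_C_ne_zero (1 : ℤ))
  rw [gcdPoly, h1, zero_mul, map_zero, zero_mul, zero_add] at h0
  have h2 := (mul_eq_zero.1 h0).resolve_right
    (by simpa using X_sub_C_ne_zero (1 : Polynomial ℤ))
  refine hw (funext fun a => ?_)
  rcases a with j | ⟨i, t⟩
  · have e := congrArg (fun p => Polynomial.coeff p (j : ℕ)) h1
    simpa [finsetSum_coeff, coeff_monomial, Fin.val_inj] using e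
  · have e := congrArg (fun p => (Polynomial.coeff p (t : ℕ)).coeff (i : ℕ)) h2
    simpa [finsetSum_coeff, coeff_monomial, Fin.val_inj, apply_ite] using e

theorem gcdPoly_eval {k h : ℕ} (w : Slot k h → ℤ) {u v A B g : ℤ} (hA : g * A = u - 1)
    (hB : g * B = v - 1) :
    (gcdPoly w).evalEval u v = g * ∑ a, w a * gcdVec k h u v A B a := by
  simp only [gcdPoly, evalEval, eval_add, eval_mul, eval_pow, eval_X, eval_C, eval_finsetSum,
    eval_monomial, eval_sub, eval_one, Fintype.sum_sum_type, Fintype.sum_prod_type, gcdVec,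
    Sum.elim_inl, Sum.elim_inr, ← hA, ← hB, mul_add, mul_sum, sum_mul]
  rw [sum_comm (s := (univ : Finset (Fin h)))]
  congr 1
  · exact sum_congr rfl fun j _ => by ring
  · exact sum_congr rfl fun i _ => sum_congr rfl fun t _ => by ring

theorem abs_sub_one_le {x : ℤ} {H : ℝ} (hH : 1 ≤ H) (hx : |(x : ℝ)| ≤ H) :
    |((x - 1 : ℤ) : ℝ)| ≤ 2 * H := by
  push_cast
  linarith [abs_sub (x : ℝ) 1, abs_one (α := ℝ)]

/-- **Large common divisors lie on finitely many curves.** -/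
theorem exists_curves_of_large_gcd (S : Finset ℕ) (hS : ∀ p ∈ S, p.Prime) {ε : ℝ} (hε : 0 < ε) :
    ∃ R : Finset ((ℤ × ℤ) × ℚ), (∀ c ∈ R, c.1 ≠ 0) ∧
      ∀ u v : ℤ, u ≠ 0 → v ≠ 0 → u.natAbs.primeFactors ⊆ S → v.natAbs.primeFactors ⊆ S →
        ∀ g : ℤ, 0 < g → g ∣ u - 1 → g ∣ v - 1 →
          (max |(u : ℝ)| |(v : ℝ)|) ^ ε ≤ g → OnCurves R u v := by
  classical
  set k := max 1 ⌈2 / ε⌉₊ with hk_def
  have hk : 2 ≤ ε * k := by
    have := (Nat.le_ceil (2 / ε)).trans (Nat.cast_le.2 (le_max_right 1 ⌈2 / ε⌉₊))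
    rw [div_le_iff₀ hε, mul_comm] at this
    exact this
  set h := k ^ 2 + 1 with hh
  obtain ⟨m, hm⟩ : ∃ m, Fintype.card (Slot k h) = m + 1 :=
    ⟨Fintype.card (Slot k h) - 1, by simp; omega⟩
  have hm1 : 1 ≤ m := by
    have : Fintype.card (Slot k h) = k + (k + 1) * h := by simp
    have : 2 * h ≤ (k + 1) * h := Nat.mul_le_mul_right h (by
      have := le_max_left 1 ⌈2 / ε⌉₊; omega)
    omega
  set σ : Slot k h ≃ Fin (m + 1) := Fintype.equivFinOfCardEq hm
  set U := (gcdForms k h).submatrix σ.symm σ.symm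
  have hU : U.det = 1 := by
    rw [det_submatrix_equiv_self, gcdForms, det_fromBlocks_zero₂₁, det_one, det_one, one_mul]
  set P : Fin S.card → ℕ := fun l => S.equivFin.symm l
  have hP : ∀ l, P l ∈ S := fun l => (S.equivFin.symm l).2
  let Pl : Places S.card (m + 1) :=
    { base := P
      two_le := fun l => (hS _ (hP l)).two_le
      coprime := fun l l' hll => (Nat.coprime_primes (hS _ (hP l)) (hS _ (hP l'))).2
        fun e => hll (S.equivFin.symm.injective (Subtype.ext e))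
      mat := fun _ => 1
      isUnit_det := fun _ => by simp }
  set D := k + h + 1 with hD
  obtain ⟨V, hV, hVx⟩ := finite_subspaces_places hm1 Pl (U.map (Int.castRingHom ℝ)) (by
      rw [← RingHom.mapMatrix_apply, ← RingHom.map_det, hU]; simp)
    (fun i j => isAlgebraic_int _) (δ := 1 / (2 * (D : ℝ))) (by positivity)
  set c₀ : ℝ := (2 : ℝ) ^ k * 2 ^ ((k + 1) * h)
  set H₀ := max 2 ((2 * c₀) ^ (2 : ℕ)) with hH₀
  set N₀ := ⌈H₀⌉
  choose R hR hR' using fun w : {w : Fin (m + 1) → ℤ // w ≠ 0} =>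
    exists_curves S (gcdPoly_ne_zero (k := k) (h := h) (w := w.1 ∘ σ) fun e =>
      w.2 (funext fun a => by simpa using congrFun e (σ.symm a)))
  refine ⟨(V.subtype (· ≠ 0)).biUnion R ∪ {(((0 : ℤ), (1 : ℤ)), (1 : ℚ))} ∪
    (Finset.Icc (-N₀) N₀).image fun x : ℤ => (((1 : ℤ), (0 : ℤ)), (x : ℚ)), fun c hc => ?_,
    fun u v hu0 hv0 huS hvS g hg hgu hgv hbig => ?_⟩
  · rcases mem_union.1 hc with hc | hc
    · rcases mem_union.1 hc with hc | hc
      · obtain ⟨w, -, hw⟩ := mem_biUnion.1 hc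
        exact hR w c hw
      · rw [mem_singleton] at hc
        simp [hc]
    · obtain ⟨x, -, rfl⟩ := mem_image.1 hc
      simp
  set H := max |(u : ℝ)| |(v : ℝ)|
  by_cases hsmall : H < H₀
  · refine ⟨((1, 0), (u : ℚ)), mem_union_right _ (mem_image_of_mem
      (fun x : ℤ => (((1 : ℤ), (0 : ℤ)), (x : ℚ))) ?_), by simp⟩
    have h1 : |(u : ℝ)| ≤ (N₀ : ℤ) :=
      ((le_max_left _ _).trans hsmall.le).trans (Int.le_ceil H₀)
    rw [Finset.mem_Icc, ← abs_le]
    exact_mod_cast h1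
  rw [not_lt] at hsmall
  have hH2 : 2 ≤ H := (le_max_left _ _).trans hsmall
  have hH1 : 1 ≤ H := by linarith
  have hH0 : 0 < H := by linarith
  have hg1 : (1 : ℝ) < g := lt_of_lt_of_le (Real.one_lt_rpow (by linarith) hε) hbig
  have hg0 : (0 : ℝ) < g := zero_lt_one.trans hg1
  obtain ⟨A, hA⟩ := hgu
  obtain ⟨B, hB⟩ := hgv
  set x := fun a => gcdVec k h u v A B (σ.symm a) with hx
  -- the exponents
  set mon : Slot k h → ℤ := Sum.elim (fun _ => v ^ h) fun p => u ^ (p.1 : ℕ) * v ^ (p.2 : ℕ)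
  have hmon0 : ∀ a, mon a ≠ 0 := by rintro (j | p) <;> simp [mon, hu0, hv0]
  have hmonS : ∀ a, (mon a).natAbs.primeFactors ⊆ S := by
    have hpow : ∀ {x : ℕ} (e : ℕ), x.primeFactors ⊆ S → (x ^ e).primeFactors ⊆ S :=
      fun {x} e hxS => by
        rcases Nat.eq_zero_or_pos e with rfl | he
        · simp
        · rwa [Nat.primeFactors_pow _ he.ne']
    rintro (j | p)
    · simpa [mon, Int.natAbs_pow] using hpow h hvS
    · simp only [mon, Sum.elim_inr, Int.natAbs_mul, Int.natAbs_pow]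
      rw [Nat.primeFactors_mul (pow_ne_zero _ (Int.natAbs_ne_zero.2 hu0))
        (pow_ne_zero _ (Int.natAbs_ne_zero.2 hv0))]
      exact union_subset (hpow _ huS) (hpow _ hvS)
  have hdvdx : ∀ a, mon a ∣ gcdVec k h u v A B a := by
    rintro (j | p)
    · exact ⟨u ^ (j : ℕ) * A, by simp [mon, gcdVec, mul_assoc]⟩
    · exact ⟨B, by simp [mon, gcdVec]; ring⟩
  set e : Fin S.card → Fin (m + 1) → ℕ := fun l a => (mon (σ.symm a)).natAbs.factorization (P l)
  have hvol : (Pl.vol e : ℝ) = ∏ a, |(mon a : ℝ)| := by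
    have h : Pl.vol e = ∏ a, (mon a).natAbs := by
      rw [show ∏ a, (mon a).natAbs = ∏ a, ∏ p ∈ S, p ^ (mon a).natAbs.factorization p from
        prod_congr rfl fun a _ =>
          (prod_pow_factorization (Int.natAbs_ne_zero.2 (hmon0 a)) (hmonS a)).symm, prod_comm,
        Places.vol, ← prod_coe_sort S, ← Equiv.prod_comp S.equivFin.symm]
      refine prod_congr rfl fun l _ => ?_
      rw [prod_pow_eq_pow_sum, ← Equiv.sum_comp σ]
      simp [e, Pl, P]
    rw [h, Nat.cast_prod]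
    exact prod_congr rfl fun a _ => by rw [Nat.cast_natAbs, Int.cast_abs]
  by_cases hv1 : v = 1
  · exact ⟨((0, 1), 1), mem_union_left _ (mem_union_right _ (mem_singleton_self _)), by simp [hv1]⟩
  have hB0 : B ≠ 0 := fun e => hv1 (by rw [e, mul_zero, sub_eq_zero] at hB; exact hB)
  have hgne : g ≠ 0 := hg.ne'
  have hvec : ∀ a, gcdVec k h u v A B a ≠ 0 ∨ a.isLeft := fun a => by
    rcases a with j | p
    · exact Or.inr rfl
    · exact Or.inl (by simp [gcdVec, hu0, hv0, hB0])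
  have hx0 : x ≠ 0 := fun e => by
    obtain ⟨t⟩ : Nonempty (Fin h) := ⟨⟨0, by omega⟩⟩
    rcases hvec (Sum.inr (0, t)) with hne | hl
    · exact hne (by simpa [x] using congrFun e (σ (Sum.inr (0, t))))
    · simp at hl
  have hUx : ∀ a, ∑ b, U.map (Int.castRingHom ℝ) a b * (x b : ℝ) =
      ((Sum.elim (fun j : Fin k => u ^ (j : ℕ) * A)
        (fun p : Fin (k + 1) × Fin h => B * u ^ (p.1 : ℕ) * v ^ (p.2 : ℕ)) (σ.symm a) : ℤ) : ℝ) :=
    fun a => by
    rw [← gcdForms_mulVec hgne hA.symm hB.symm]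
    simp only [mulVec, dotProduct, Int.cast_sum, Int.cast_mul]
    exact Fintype.sum_equiv σ.symm _ _ fun b => by simp [U, x]
  -- the sizes
  have hAg : |(A : ℝ)| ≤ 2 * H / g := by
    rw [le_div_iff₀ hg0, ← abs_of_pos hg0, ← abs_mul]
    have hA' : (A : ℝ) * g = ((u - 1 : ℤ) : ℝ) := by rw [hA]; push_cast; ring
    rw [hA']
    exact abs_sub_one_le hH1 (le_max_left _ _)
  have hBg : |(B : ℝ)| ≤ 2 * H / g := by
    rw [le_div_iff₀ hg0, ← abs_of_pos hg0, ← abs_mul]
    have hB' : (B : ℝ) * g = ((v - 1 : ℤ) : ℝ) := by rw [hB]; push_cast; ring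
    rw [hB']
    exact abs_sub_one_le hH1 (le_max_right _ _)
  have hv1' : (1 : ℝ) ≤ |(v : ℝ)| := by exact_mod_cast Int.one_le_abs hv0
  have hBv : |(B : ℝ)| ≤ 2 * |(v : ℝ)| / g := by
    rw [le_div_iff₀ hg0, ← abs_of_pos hg0, ← abs_mul]
    have hB' : (B : ℝ) * g = ((v - 1 : ℤ) : ℝ) := by rw [hB]; push_cast; ring
    rw [hB']
    exact abs_sub_one_le hv1' le_rfl
  have hug : 2 * H / g ≤ 2 * H := div_le_self (by positivity) hg1.le
  have hpu : ∀ n, |((u : ℝ)) ^ n| ≤ H ^ n := fun n => by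
    rw [abs_pow]; exact pow_le_pow_left₀ (abs_nonneg _) (le_max_left _ _) n
  have hpv : ∀ n, |((v : ℝ)) ^ n| ≤ H ^ n := fun n => by
    rw [abs_pow]; exact pow_le_pow_left₀ (abs_nonneg _) (le_max_right _ _) n
  set X := ‖castVec x‖
  have hX0 : 0 < X := norm_pos_iff.2 fun e => hx0 (funext fun a => by
    simpa [castVec] using congrFun e a)
  have hXD : X ≤ (2 * H) ^ D := (pi_norm_le_iff_of_nonneg (by positivity)).2 fun a => by
    rw [Real.norm_eq_abs]
    simp only [castVec, x]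
    have h2 : ∀ n, n + 1 ≤ D → H ^ n * (2 * H) ≤ (2 * H) ^ D := fun n hn => by
      refine le_trans ?_ (pow_le_pow_right₀ (by linarith) hn)
      rw [pow_succ]
      exact mul_le_mul_of_nonneg_right (pow_le_pow_left₀ hH0.le (by linarith) n) (by positivity)
    rcases σ.symm a with j | ⟨i, t⟩
    · refine le_trans ?_ (h2 (h + (j : ℕ)) (by have := j.isLt; omega))
      simp only [gcdVec, Sum.elim_inl, Int.cast_mul, Int.cast_pow, abs_mul, pow_add]
      exact mul_le_mul (mul_le_mul (hpv h) (hpu j) (abs_nonneg _) (by positivity))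
        (hAg.trans hug) (abs_nonneg _) (by positivity)
    · refine le_trans ?_ (h2 ((i : ℕ) + t) (by have := i.isLt; have := t.isLt; omega))
      simp only [gcdVec, Sum.elim_inr, Int.cast_mul, Int.cast_pow, abs_mul, pow_add]
      rw [mul_assoc, mul_comm]
      exact mul_le_mul (mul_le_mul (hpu i) (hpv t) (abs_nonneg _) (by positivity))
        (hBg.trans hug) (abs_nonneg _) (by positivity)
  obtain ⟨w, hw, hwx⟩ := hVx x hx0 e (fun l a => by
    show (P l : ℤ) ^ e l a ∣ ((1 : Matrix (Fin (m + 1)) (Fin (m + 1)) ℤ) *ᵥ x) a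
    rw [one_mulVec]
    refine dvd_trans ?_ (hdvdx (σ.symm a))
    rw [← Nat.cast_pow, Int.natCast_dvd]
    exact Nat.ordProj_dvd _ _) (by
    simp only [hUx]
    rw [hvol, ← Equiv.prod_comp σ, Fintype.prod_sum_type, Fintype.prod_sum_type]
    simp only [Equiv.symm_apply_apply, Sum.elim_inl, Sum.elim_inr, Int.cast_mul, Int.cast_pow,
      mon]
    set M := ∏ p : Fin (k + 1) × Fin h, |(u : ℝ) ^ (p.1 : ℕ) * (v : ℝ) ^ (p.2 : ℕ)| with hM
    have hM' : ∏ p : Fin (k + 1) × Fin h, |(B : ℝ) * (u : ℝ) ^ (p.1 : ℕ) * (v : ℝ) ^ (p.2 : ℕ)| =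
        |(B : ℝ)| ^ ((k + 1) * h) * M := by
      rw [show |(B : ℝ)| ^ ((k + 1) * h) = ∏ _p : Fin (k + 1) × Fin h, |(B : ℝ)| by simp, hM,
        ← prod_mul_distrib]
      exact prod_congr rfl fun p _ => by rw [mul_assoc, abs_mul]
    rw [hM', prod_const, card_univ, Fintype.card_fin]
    have hM0 : 0 < M := prod_pos fun p _ => abs_pos.2
      (mul_ne_zero (pow_ne_zero _ (Int.cast_ne_zero.2 hu0)) (pow_ne_zero _ (Int.cast_ne_zero.2 hv0)))
    have hl : ∏ j : Fin k, |(u : ℝ) ^ (j : ℕ) * A| ≤ (H ^ k * (2 * H / g)) ^ k := by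
      refine (prod_le_prod (g := fun _ : Fin k => H ^ k * (2 * H / g)) (fun _ _ => abs_nonneg _)
        fun j _ => ?_).trans_eq (by simp)
      rw [abs_mul]
      exact mul_le_mul ((hpu j).trans (pow_le_pow_right₀ hH1 j.isLt.le)) hAg (abs_nonneg _)
        (by positivity)
    have hkey : (H ^ k * (2 * H / g)) ^ k * (2 * |(v : ℝ)| / g) ^ ((k + 1) * h) <
        X ^ (-(1 / (2 * (D : ℝ)))) * |(v : ℝ) ^ h| ^ k := by
      set N := k + (k + 1) * h with hN
      have hv' : (2 * |(v : ℝ)| / g) ^ ((k + 1) * h) ≤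
          (2 : ℝ) ^ ((k + 1) * h) * H ^ h / (g : ℝ) ^ ((k + 1) * h) * |(v : ℝ) ^ h| ^ k := by
        rw [div_pow, mul_pow, abs_pow, ← pow_mul, div_mul_eq_mul_div, mul_assoc,
          show (k + 1) * h = h + h * k by ring, pow_add |(v : ℝ)|]
        exact div_le_div_of_nonneg_right (mul_le_mul_of_nonneg_left (mul_le_mul_of_nonneg_right
          (pow_le_pow_left₀ (abs_nonneg _) (le_max_right _ _) h) (by positivity))
          (by positivity)) (by positivity)
      have e1 : (H ^ k * (2 * H / g)) ^ k * ((2 : ℝ) ^ ((k + 1) * h) * H ^ h /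
          (g : ℝ) ^ ((k + 1) * h)) = c₀ * (H ^ (k * k + k + h) / (g : ℝ) ^ N) := by
        rw [mul_pow, ← pow_mul, div_pow, mul_pow, hN]
        simp only [c₀, pow_add]
        field_simp
      refine lt_of_le_of_lt (mul_le_mul_of_nonneg_left hv' (by positivity)) ?_
      rw [← mul_assoc, e1]
      refine mul_lt_mul_of_pos_right ?_ (pow_pos (abs_pos.2 (pow_ne_zero _
        (Int.cast_ne_zero.2 hv0))) _)
      have hgN : H ^ (k * k + k + h + 1) ≤ (g : ℝ) ^ N := by
        refine le_trans ?_ (pow_le_pow_left₀ (by positivity) hbig N)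
        rw [← Real.rpow_mul_natCast hH0.le, ← Real.rpow_natCast]
        refine Real.rpow_le_rpow_of_exponent_le hH1 ?_
        have hkh : (k : ℝ) * k + 1 = h := by rw [hh]; push_cast; ring
        have hNr : (N : ℝ) = k + (k + 1) * h := by rw [hN]; push_cast; ring
        push_cast
        rw [hNr]
        have h3 := mul_le_mul_of_nonneg_right hk (show (0 : ℝ) ≤ h by positivity)
        have h4 := mul_le_mul_of_nonneg_right hk (show (0 : ℝ) ≤ k by positivity)
        have h5 : ε * ((k : ℝ) * k + 1) = ε * h := by rw [hkh]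
        have h6 : (0 : ℝ) ≤ ε * k := by positivity
        linarith
      rw [pow_succ] at hgN
      have h5 : H ^ (k * k + k + h) / (g : ℝ) ^ N ≤ 1 / H := by
        rw [div_le_div_iff₀ (by positivity) hH0, one_mul]
        exact hgN
      refine lt_of_le_of_lt (mul_le_mul_of_nonneg_left h5 (by positivity)) ?_
      rw [Real.rpow_neg hX0.le, mul_one_div, ← one_div (X ^ _),
        div_lt_div_iff₀ hH0 (by positivity), one_mul]
      have h6 : X ^ (1 / (2 * (D : ℝ))) ≤ (2 * H) ^ (1 / 2 : ℝ) := by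
        refine (Real.rpow_le_rpow hX0.le hXD (by positivity)).trans_eq ?_
        rw [← Real.rpow_natCast_mul (by positivity)]
        congr 1
        have : (D : ℝ) ≠ 0 := Nat.cast_ne_zero.2 (Nat.succ_ne_zero (k + h))
        field_simp
      refine lt_of_le_of_lt (mul_le_mul_of_nonneg_left h6 (by positivity)) ?_
      rw [← Real.sqrt_eq_rpow, Real.sqrt_mul zero_le_two]
      have h7 : 2 * c₀ ≤ Real.sqrt H :=
        Real.le_sqrt_of_sq_le ((le_max_right _ _).trans hsmall)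
      have h8 : Real.sqrt 2 < 2 := by
        rw [Real.sqrt_lt' two_pos]; norm_num
      have hH' : 0 < Real.sqrt H := Real.sqrt_pos.2 hH0
      calc c₀ * (Real.sqrt 2 * Real.sqrt H) < c₀ * (2 * Real.sqrt H) := by
            have : 0 < c₀ := by positivity
            gcongr
        _ = 2 * c₀ * Real.sqrt H := by ring
        _ ≤ Real.sqrt H * Real.sqrt H := mul_le_mul_of_nonneg_right h7 hH'.le
        _ = H := Real.mul_self_sqrt hH0.le
    calc (∏ j : Fin k, |(u : ℝ) ^ (j : ℕ) * A|) * (|(B : ℝ)| ^ ((k + 1) * h) * M)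
        ≤ (H ^ k * (2 * H / g)) ^ k * ((2 * |(v : ℝ)| / g) ^ ((k + 1) * h) * M) :=
          mul_le_mul hl (mul_le_mul_of_nonneg_right (pow_le_pow_left₀ (abs_nonneg _) hBv _) hM0.le)
            (by positivity) (by positivity)
      _ = (H ^ k * (2 * H / g)) ^ k * (2 * |(v : ℝ)| / g) ^ ((k + 1) * h) * M := by ring
      _ < X ^ (-(1 / (2 * (D : ℝ)))) * |(v : ℝ) ^ h| ^ k * M := mul_lt_mul_of_pos_right hkey hM0
      _ = |(v : ℝ) ^ h| ^ k * M * X ^ (-(1 / (2 * (D : ℝ)))) := by ring)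
  have hw0 : w ≠ 0 := hV w hw
  obtain ⟨c, hc, hcu⟩ := hR' ⟨w, hw0⟩ u v (isSUnitQ_intCast hu0 huS) (isSUnitQ_intCast hv0 hvS) (by
    rw [gcdPoly_eval _ hA.symm hB.symm]
    refine mul_eq_zero_of_right _ ?_
    rw [← hwx, dotProduct]
    exact Fintype.sum_equiv σ _ _ fun a => by simp [x])
  exact ⟨c, mem_union_left _ (mem_union_left _ (mem_biUnion.2 ⟨⟨w, hw0⟩, mem_subtype.2 hw, hc⟩)),
    hcu⟩

end FA.Subspace

end
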