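import Fermat.Agent.Subspace.Parametric

/-!
# The points of a parallelepiped on one hyperplane

Sharper form of the parametric subspace theorem: all the integer points with
`|L i x| ≤ Q ^ (c i - η)`, where `∑ c i = 0`, lie on one of finitely many rational hyperplanes,
that through the minima before a gap.
-/

set_option autoImplicit false

noncomputable section

namespace FA.Subspace

open Finset Matrix FA.Perfect

variable {n : ℕ}

/-- **The common hyperplane of the small points.** -/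
theorem finite_common_hyperplane (L : Matrix (Fin (n + 1)) (Fin (n + 1)) ℝ) (hL : L.det ≠ 0)
    (halg : ∀ i j, IsAlgebraic ℚ (L i j)) (c : Fin (n + 1) → ℝ) (hc : ∑ i, c i = 0) {η : ℝ}
    (hη : 0 < η) :
    ∃ (V : Finset (Fin (n + 1) → ℤ)) (Q₀ : ℝ), ∀ Q, Q₀ ≤ Q → ∃ v ∈ V, v ≠ 0 ∧
      ∀ x : Fin (n + 1) → ℤ, (∀ i, |∑ k, L i k * (x k : ℝ)| ≤ Q ^ (c i - η)) →
        v ⬝ᵥ x = 0 := by
  obtain ⟨V, Q₀, h⟩ := finite_common_hyperplane_local (Places.none (n + 1)).toLocal L hL halg c
    Fin.elim0 (fun l => l.elim0) (by simp [hc]) hη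
  refine ⟨V, Q₀, fun Q hQ => ?_⟩
  obtain ⟨v, hv, hv0, hvx⟩ := h Q hQ
  exact ⟨v, hv, hv0, fun x hx => hvx x hx fun l => l.elim0⟩

end FA.Subspace

end
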