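import Mathlib.LinearAlgebra.Matrix.Block
import Mathlib.LinearAlgebra.Matrix.NonsingularInverse
import Mathlib.LinearAlgebra.Matrix.ToLinearEquiv
import Mathlib.RingTheory.Valuation.ValuationSubring

/-!
# A unimodular matrix from a regular one

Over a valued field every regular matrix becomes, by a triangular change of its rows, a matrix with
integral entries and unit determinant: each new row is reduced at the pivots of the rows before and
divided by its largest entry.
-/

set_option autoImplicit false

noncomputable section

namespace FA.Subspace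

open Finset Matrix

variable {F : Type*} [Field F]

/-- A vector that is not zero has an entry dividing the others. -/
theorem exists_pivot (O : ValuationSubring F) {N : ℕ} {w : Fin N → F} (hw : w ≠ 0) :
    ∃ c, w c ≠ 0 ∧ ∀ j, w j / w c ∈ O := by
  obtain ⟨i, hi⟩ := Function.ne_iff.1 hw
  obtain ⟨c, -, hc⟩ := exists_max_image univ (fun j => O.valuation (w j)) ⟨i, mem_univ i⟩
  have h0 : w c ≠ 0 := fun h => hi (by
    have h1 := hc i (mem_univ i)
    rw [h, map_zero, le_zero_iff, map_eq_zero] at h1
    exact h1)
  refine ⟨c, h0, fun j => ?_⟩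
  rw [← O.valuation_le_one_iff, map_div₀,
    div_le_one₀ (zero_lt_iff.2 ((map_ne_zero O.valuation).2 h0))]
  exact hc j (mem_univ j)

/-- **The echelon form.** -/
theorem exists_echelon (O : ValuationSubring F) {N : ℕ} (U : Matrix (Fin N) (Fin N) F)
    (hU : U.det ≠ 0) :
    ∃ (V : Matrix (Fin N) (Fin N) O) (T : Matrix (Fin N) (Fin N) F), IsUnit V.det ∧
      (∀ i j, i < j → T i j = 0) ∧ V.map O.subtype = T * U := by
  classical
  have key : ∀ k ≤ N, ∃ (r t : Fin k → Fin N → F) (c : Fin k → Fin N), (∀ i j, r i j ∈ O) ∧
      (∀ i, r i = t i ᵥ* U) ∧ (∀ (i : Fin k) (j : Fin N), (i : ℕ) < j → t i j = 0) ∧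
      (∀ i, r i (c i) = 1) ∧ ∀ i j, j < i → r i (c j) = 0 := by
    intro k
    induction k with
    | zero =>
      exact fun _ => ⟨Fin.elim0, Fin.elim0, Fin.elim0, fun i => i.elim0, fun i => i.elim0,
        fun i => i.elim0, fun i => i.elim0, fun i => i.elim0⟩
    | succ k ih =>
      intro hk
      obtain ⟨r, t, c, hr, hrt, ht, hone, hzero⟩ := ih (Nat.le_of_succ_le hk)
      set A : Matrix (Fin k) (Fin k) F := Matrix.of fun i j => r i (c j) with hA
      have hAdet : IsUnit A.det := by
        rw [det_of_isUpperTriangular (M := A) (fun i j h => hzero i j h)]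
        simp [hA, hone]
      set new : Fin N := ⟨k, hk⟩
      set u := U new
      set a : Fin k → F := (fun j => u (c j)) ᵥ* A⁻¹ with ha
      set τ : Fin N → F := Pi.single new 1 - a ᵥ* Matrix.of t with hτ
      set w := τ ᵥ* U with hw
      have hwj : ∀ j, w j = u j - ∑ i, a i * r i j := fun j => by
        rw [hw, hτ, sub_vecMul, single_one_vecMul, vecMul_vecMul, Pi.sub_apply]
        simp only [hrt]
        simp [vecMul, dotProduct, Matrix.mul_apply, Matrix.of_apply, u, Matrix.row]
      have hwc : ∀ j, w (c j) = 0 := fun j => by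
        have h : a ᵥ* A = fun j => u (c j) := by
          rw [ha, vecMul_vecMul, nonsing_inv_mul _ hAdet, vecMul_one]
        rw [hwj, ← congrFun h j]
        simp [vecMul, dotProduct, hA]
      have hτnew : τ new = 1 := by
        simp [hτ, vecMul, dotProduct, fun i : Fin k => ht i new (by simp [new])]
      have hw0 : w ≠ 0 := fun h => by
        have h1 : τ = 0 := not_not.1 fun hτ0 => hU (exists_vecMul_eq_zero_iff.1 ⟨τ, hτ0, h⟩)
        rw [h1] at hτnew
        exact zero_ne_one hτnew
      obtain ⟨cn, hcn0, hcn⟩ := exists_pivot O hw0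
      refine ⟨Fin.snoc r ((w cn)⁻¹ • w), Fin.snoc t ((w cn)⁻¹ • τ), Fin.snoc c cn,
        fun i j => ?_, fun i => ?_, fun i j hij => ?_, fun i => ?_, fun i j hij => ?_⟩
      · refine Fin.lastCases ?_ (fun i => ?_) i
        · simpa [inv_mul_eq_div] using hcn j
        · simpa using hr i j
      · refine Fin.lastCases ?_ (fun i => ?_) i
        · simp [hw, smul_vecMul]
        · simpa using hrt i
      · revert hij
        refine Fin.lastCases (fun hij => ?_) (fun i hij => ?_) i
        · have hj : j ≠ new := fun e => by simp [e, new] at hij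
          have hs : ∀ i : Fin k, t i j = 0 := fun i => ht i j (by
            simp only [Fin.val_last] at hij
            omega)
          simp [hτ, vecMul, dotProduct, hj, hs]
        · simpa using ht i j (by simpa using hij)
      · refine Fin.lastCases ?_ (fun i => ?_) i
        · simp [inv_mul_cancel₀ hcn0]
        · simpa using hone i
      · revert hij
        refine Fin.lastCases (fun hij => ?_) (fun i hij => ?_) i
        · obtain ⟨j, rfl⟩ := Fin.exists_castSucc_eq.2 hij.ne
          simp [hwc]
        · obtain ⟨j, rfl⟩ := Fin.exists_castSucc_eq.2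
            (ne_of_lt (hij.trans (Fin.castSucc_lt_last i)))
          simpa using hzero i j (Fin.castSucc_lt_castSucc_iff.1 hij)
  obtain ⟨r, t, c, hr, hrt, ht, hone, hzero⟩ := key N le_rfl
  have hinj : Function.Injective c := by
    intro i j hij
    rcases lt_trichotomy i j with h | h | h
    · exact absurd ((hone j).symm.trans (hij ▸ hzero j i h)) one_ne_zero
    · exact h
    · exact absurd ((hone i).symm.trans (hij.symm ▸ hzero i j h)) one_ne_zero
  set σ := Equiv.ofBijective c (Finite.injective_iff_bijective.1 hinj)
  refine ⟨Matrix.of fun i j => ⟨r i j, hr i j⟩, Matrix.of t, ?_, fun i j h => ht i j h, ?_⟩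
  · set V : Matrix (Fin N) (Fin N) O := Matrix.of fun i j => ⟨r i j, hr i j⟩
    have h1 : (V.submatrix id σ).det = 1 := by
      rw [det_of_isUpperTriangular (fun i j h => Subtype.ext (hzero i j h))]
      exact prod_eq_one fun i _ => Subtype.ext (hone i)
    rw [det_permute'] at h1
    exact IsUnit.of_mul_eq_one _ ((mul_comm _ _).trans h1)
  · ext i j
    simp only [Matrix.map_apply, Matrix.of_apply, Matrix.mul_apply]
    rw [show O.subtype ⟨r i j, hr i j⟩ = r i j from rfl, hrt i]
    rfl

end FA.Subspace

end
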