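import Fermat.Agent.Subspace.UnitEquationNumberField
import Mathlib.Analysis.SpecialFunctions.Exp

/-!
# Sums of powers with small coefficients

For algebraic integers `α i`, no quotient of two of them a root of unity, and non-zero integral
coefficients of subexponential size the sum `∑ c i * α i ^ n` is at each place at least
`max |α i| ^ n * e ^ (-ε n)`: otherwise the subspace theorem gives a relation, which removes a
term. The sum cannot vanish as then all the `|α i|` would agree at every place (Evertse; van der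
Poorten and Schlickewei).
-/

set_option autoImplicit false
set_option linter.style.haveILetI false

noncomputable section

namespace FA.Subspace

open Finset Matrix NumberField IsDedekindDomain Filter Topology

variable {K : Type*} [Field K] [NumberField K] (S : Finset (HeightOneSpectrum (𝓞 K)))

/-- The absolute values at the embeddings and at the primes of `S`. -/
def placeAbv : (K →+* ℂ) ⊕ S → AbsoluteValue K ℝ :=
  Sum.elim (fun φ => place φ) fun v => HeightOneSpectrum.adicAbv K v.1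

variable {S}

theorem placeAbv_inl (φ : K →+* ℂ) (x : K) : placeAbv S (.inl φ) x = ‖φ x‖ := rfl

theorem placeAbv_inr (v : S) (x : K) :
    placeAbv S (.inr v) x = HeightOneSpectrum.adicAbv K v.1 x := rfl

theorem prod_placeAbv {x : K} (hx0 : x ≠ 0)
    (hx : ∀ v ∉ S, HeightOneSpectrum.adicAbv K v x = 1) : ∏ w, placeAbv S w x = 1 := by
  rw [Fintype.prod_sum_type]
  simp only [placeAbv_inl, placeAbv_inr]
  rw [prod_coe_sort S fun v => HeightOneSpectrum.adicAbv K v x]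
  exact prod_abv_unit (x := Units.mk0 x hx0) (mem_unit_iff.2 hx)

theorem placeAbv_le {y : 𝓞 K} {B : ℝ} (hB1 : 1 ≤ B) (hB : ∀ φ : K →+* ℂ, ‖φ (y : K)‖ ≤ B) :
    ∀ w, placeAbv S w (y : K) ≤ B
  | .inl φ => hB φ
  | .inr v => by
    refine le_trans ?_ hB1
    rw [placeAbv_inr, ← FinitePlace.norm_embedding]
    exact FinitePlace.norm_le_one K v.1 y

theorem one_le_placeAbv_mul {y : 𝓞 K} (hy : y ≠ 0) {B : ℝ} (hB1 : 1 ≤ B)
    (hB : ∀ φ : K →+* ℂ, ‖φ (y : K)‖ ≤ B) :
    ∀ w, 1 ≤ placeAbv S w (y : K) * B ^ Module.finrank ℚ K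
  | .inl φ => by
    classical
    have h1 : 1 ≤ ∏ ψ : K →+* ℂ, ‖ψ (y : K)‖ := by
      rw [prod_norm_embeddings, ← Algebra.coe_norm_int, Rat.cast_intCast]
      exact_mod_cast Int.one_le_abs (Algebra.norm_ne_zero_iff.2 hy)
    refine h1.trans ?_
    rw [← mul_prod_erase univ _ (mem_univ φ), placeAbv_inl]
    refine mul_le_mul_of_nonneg_left ((prod_le_prod (g := fun _ => B) (fun _ _ => norm_nonneg _)
      fun ψ _ => hB ψ).trans ?_) (norm_nonneg _)
    rw [prod_const]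
    exact pow_le_pow_right₀ hB1 ((card_le_univ _).trans (NumberField.Embeddings.card K ℂ).le)
  | .inr v => by
    obtain ⟨k, hk, hkv⟩ := exists_adicAbv_eq v.1 hy
    have hN : (0 : ℝ) < (Ideal.absNorm v.1.asIdeal : ℝ) ^ k := pow_pos (Nat.cast_pos.2
      (Nat.pos_of_ne_zero fun h => v.1.ne_bot (Ideal.absNorm_eq_zero_iff.1 h))) _
    rw [placeAbv_inr, hkv, inv_mul_eq_div, one_le_div₀ hN]
    refine (pow_absNorm_le_prod_norm v.1 hy hk).trans ((prod_le_prod (g := fun _ => B)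
      (fun _ _ => norm_nonneg _) fun ψ _ => hB ψ).trans ?_)
    rw [prod_const, card_univ, NumberField.Embeddings.card]

/-- Equal absolute values at every place make the quotient a root of unity. -/
theorem exists_pow_eq_of_placeAbv_eq {a b : 𝓞 K} (ha : a ≠ 0) (hb : b ≠ 0)
    (haS : ∀ v ∉ S, HeightOneSpectrum.adicAbv K v (a : K) = 1)
    (hbS : ∀ v ∉ S, HeightOneSpectrum.adicAbv K v (b : K) = 1)
    (h : ∀ w, placeAbv S w (a : K) = placeAbv S w (b : K)) : ∃ m, 0 < m ∧ a ^ m = b ^ m := by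
  have ha' : (a : K) ≠ 0 := RingOfIntegers.coe_ne_zero_iff.2 ha
  have hb' : (b : K) ≠ 0 := RingOfIntegers.coe_ne_zero_iff.2 hb
  obtain ⟨y, hy⟩ := exists_coe_eq_of_adicAbv_le_one (x := (a : K) / b) fun v => by
    rw [map_div₀]
    by_cases hv : v ∈ S
    · have h1 : HeightOneSpectrum.adicAbv K v (a : K) = HeightOneSpectrum.adicAbv K v (b : K) :=
        h (.inr ⟨v, hv⟩)
      rw [h1, div_self ((AbsoluteValue.ne_zero_iff _).2 hb')]
    · rw [haS v hv, hbS v hv, div_one]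
  obtain ⟨m, hm, hpow⟩ := Embeddings.pow_eq_one_of_norm_eq_one K ℂ
    (x := (a : K) / b) (hy ▸ y.isIntegral_coe) fun φ => by
      have h1 : ‖φ (a : K)‖ = ‖φ (b : K)‖ := h (.inl φ)
      rw [map_div₀, norm_div, h1, div_self (norm_ne_zero_iff.2 ((map_ne_zero φ).2 hb'))]
  refine ⟨m, hm, RingOfIntegers.coe_injective ?_⟩
  rw [div_pow, div_eq_one_iff_eq (pow_ne_zero m hb')] at hpow
  rw [map_pow, map_pow]
  exact hpow

variable {ι : Type*}

/-- Non-zero integral coefficients with conjugates at most `e ^ (η n)`. -/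
def SmallCoeffs (J : Finset ι) (η : ℝ) (n : ℕ) (c : ι → 𝓞 K) : Prop :=
  ∀ i ∈ J, c i ≠ 0 ∧ ∀ φ : K →+* ℂ, ‖φ (c i : K)‖ ≤ Real.exp (η * n)

theorem SmallCoeffs.mono {J J' : Finset ι} {η η' : ℝ} {n : ℕ} {c : ι → 𝓞 K}
    (h : SmallCoeffs J η n c) (hJ : J' ⊆ J) (hη : η ≤ η') : SmallCoeffs J' η' n c := fun i hi =>
  ⟨(h i (hJ hi)).1, fun φ => ((h i (hJ hi)).2 φ).trans
    (Real.exp_le_exp.2 (mul_le_mul_of_nonneg_right hη (Nat.cast_nonneg n)))⟩

theorem eventually_le_exp (C : ℝ) {η : ℝ} (hη : 0 < η) :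
    ∀ᶠ n : ℕ in atTop, C ≤ Real.exp (η * n) :=
  (Real.tendsto_exp_atTop.comp (tendsto_natCast_atTop_atTop.const_mul_atTop hη)).eventually_ge_atTop
    C

variable {α : ι → 𝓞 K}

/-- **The relations**: small values at some places come from finitely many linear relations. -/
theorem exists_relations_powers (hα : ∀ i, α i ≠ 0)
    (hαS : ∀ i, ∀ v ∉ S, HeightOneSpectrum.adicAbv K v (α i : K) = 1) {J : Finset ι}
    (hJ : 2 ≤ J.card) (T : Finset ((K →+* ℂ) ⊕ S)) {i₀ : (K →+* ℂ) ⊕ S → ι} (hi₀ : ∀ w, i₀ w ∈ J)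
    {ε : ℝ} (hε : 0 < ε) :
    ∃ W : Finset (ι → 𝓞 K), (∀ β ∈ W, ∃ i ∈ J, β i ≠ 0) ∧
      ∀ᶠ η in 𝓝[>] (0 : ℝ), ∀ᶠ n : ℕ in atTop, ∀ c : ι → 𝓞 K, SmallCoeffs J η n c →
        ∏ w ∈ T, placeAbv S w (∑ i ∈ J, (c i : K) * (α i : K) ^ n) <
            (∏ w ∈ T, placeAbv S w (α (i₀ w) : K) ^ n) * Real.exp (-(ε * n)) →
          ∃ β ∈ W, ∑ i ∈ J, β i * (c i * α i ^ n) = 0 := by
  classical
  obtain ⟨m, hm⟩ : ∃ m, J.card = m + 1 := ⟨J.card - 1, by omega⟩
  set e : Fin (m + 1) ≃ J := (J.equivFinOfCardEq hm).symm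
  set j₀ : (K →+* ℂ) ⊕ S → Fin (m + 1) := fun w => e.symm ⟨i₀ w, hi₀ w⟩
  set R : ((K →+* ℂ) ⊕ S) → Matrix (Fin (m + 1)) (Fin (m + 1)) K := fun w =>
    Matrix.of fun i j => if i = j ∨ (w ∈ T ∧ i = j₀ w) then 1 else 0
  have hR : ∀ w, (R w).det ≠ 0 := fun w h0 => by
    obtain ⟨y, hy, hy0⟩ := exists_mulVec_eq_zero_iff.2 h0
    refine hy (funext fun j => ?_)
    have hne : ∀ i, i ≠ j₀ w → y i = 0 := fun i hi => by
      simpa [R, hi, mulVec, dotProduct] using congrFun hy0 i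
    by_cases hj : j = j₀ w
    · have h := congrFun hy0 (j₀ w)
      simp only [R, mulVec, dotProduct, Matrix.of_apply] at h
      rw [sum_eq_single (j₀ w) (fun i _ hi => by rw [hne i hi, mul_zero])
        (fun h => absurd (mem_univ (j₀ w)) h)] at h
      simpa [hj] using h
    · exact hne j hj
  set Λ := 1 + ∑ i ∈ J, ∑ φ : K →+* ℂ, ‖φ (α i : K)‖
  have hΛ : 1 ≤ Λ := le_add_of_nonneg_right (by positivity)
  have hc0 : 0 < Real.log Λ + ε := by linarith [Real.log_nonneg hΛ]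
  set δ := ε / (4 * (Real.log Λ + ε))
  have hδ : 0 < δ := by positivity
  obtain ⟨W, hW, hWx⟩ := finite_subspaces_numberField_places (K := K) (n := m) (by omega)
    (fun φ => (R (.inl φ)).map φ)
    (fun φ => by
      rw [← RingHom.mapMatrix_apply, ← RingHom.map_det]
      exact (map_ne_zero φ).2 (hR _))
    (fun φ i k => (Algebra.IsAlgebraic.isAlgebraic (R := ℚ) _).algHom φ.toRatAlgHom) S
    (fun v => if h : v ∈ S then R (.inr ⟨v, h⟩) else 1)
    (fun v h => by rw [dif_pos h]; exact hR _) hδ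
  choose b hb using fun β : Fin (m + 1) → K =>
    IsLocalization.exist_integer_multiples_of_finite (nonZeroDivisors (𝓞 K)) β
  choose γ hγ using hb
  set ext' : (Fin (m + 1) → K) → ι → 𝓞 K := fun β i =>
    if h : i ∈ J then γ β (e.symm ⟨i, h⟩) else 0
  refine ⟨W.image ext', fun β hβ => ?_, ?_⟩
  · obtain ⟨β, hβW, rfl⟩ := mem_image.1 hβ
    obtain ⟨j, hj⟩ := Function.ne_iff.1 (hW β hβW)
    refine ⟨e j, (e j).2, fun h => hj ?_⟩
    have h1 : γ β j = 0 := by simpa [ext'] using h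
    have h2 := hγ β j
    rw [h1, map_zero, Algebra.smul_def] at h2
    exact (mul_eq_zero.1 h2.symm).resolve_left
      (RingOfIntegers.coe_ne_zero_iff.2 (nonZeroDivisors.coe_ne_zero (b β)))
  set N : ℕ := Fintype.card (((K →+* ℂ) ⊕ S) × Fin (m + 1))
  have hη₁ : 0 < min (ε / (2 * (N + 1))) ε := lt_min (by positivity) hε
  filter_upwards [Ioo_mem_nhdsGT hη₁] with η hη
  obtain ⟨hη0, hη⟩ := hη
  filter_upwards [eventually_ge_atTop 1] with n hn c hc hlt
  set ξ : Fin (m + 1) → 𝓞 K := fun j => c (e j) * α (e j) ^ n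
  have hE : 1 ≤ Real.exp (η * n) := Real.one_le_exp (by positivity)
  have hξ0 : ξ ≠ 0 := fun h =>
    mul_ne_zero (hc _ (e 0).2).1 (pow_ne_zero n (hα _)) (congrFun h 0)
  have hn1 : (1 : ℝ) ≤ n := Nat.one_le_cast.2 hn
  have hhouse : house ξ ≤ Real.exp ((Real.log Λ + ε) * n) := by
    refine (pi_norm_le_iff_of_nonneg (Real.exp_pos _).le).2 fun p => ?_
    simp only [ξ, map_mul, map_pow, norm_mul, norm_pow]
    rw [show (Real.log Λ + ε) * n = ε * n + n * Real.log Λ by ring, Real.exp_add, Real.exp_nat_mul,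
      Real.exp_log (by linarith)]
    refine mul_le_mul (((hc _ (e p.2).2).2 p.1).trans (Real.exp_le_exp.2
      (mul_le_mul_of_nonneg_right (hη.trans_le (min_le_right _ _)).le (Nat.cast_nonneg n))))
      (pow_le_pow_left₀ (norm_nonneg _) ?_ n) (by positivity) (Real.exp_pos _).le
    exact ((single_le_sum (f := fun φ : K →+* ℂ => ‖φ (α (e p.2) : K)‖)
      (fun _ _ => norm_nonneg _) (mem_univ p.1)).trans (single_le_sum (f := fun i =>
        ∑ φ : K →+* ℂ, ‖φ (α i : K)‖) (fun _ _ => by positivity) (e p.2).2)).trans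
          (le_add_of_nonneg_left zero_le_one)
  have hH : 0 < house ξ := (norm_nonneg _).lt_of_ne' (norm_ne_zero_iff.2 fun h => hξ0
    (funext fun j => by
      obtain ⟨φ⟩ : Nonempty (K →+* ℂ) := inferInstance
      have h1 : φ (ξ j : K) = 0 := congrFun h (φ, j)
      exact RingOfIntegers.coe_eq_zero_iff.1 ((map_eq_zero φ).1 h1)))
  set f : ((K →+* ℂ) ⊕ S) × Fin (m + 1) → ℝ := fun p =>
    placeAbv S p.1 (∑ j, R p.1 p.2 j * (ξ j : K))
  set g : ((K →+* ℂ) ⊕ S) × Fin (m + 1) → ℝ := fun p =>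
    Real.exp (η * n) * placeAbv S p.1 (α (e p.2) : K) ^ n
  set q : (K →+* ℂ) ⊕ S → ℝ := fun w =>
    placeAbv S w (∑ i ∈ J, (c i : K) * (α i : K) ^ n) / placeAbv S w (α (i₀ w) : K) ^ n
  have hpos : ∀ w i, 0 < placeAbv S w (α i : K) ^ n := fun w i =>
    pow_pos (AbsoluteValue.pos _ (RingOfIntegers.coe_ne_zero_iff.2 (hα i))) n
  have hfg : ∀ p, f p ≤ g p * if p.1 ∈ T ∧ p.2 = j₀ p.1 then q p.1 else 1 := fun p => by
    obtain ⟨w, i⟩ := p
    simp only [f, g]
    by_cases hp : w ∈ T ∧ i = j₀ w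
    · obtain ⟨hw, rfl⟩ := hp
      rw [if_pos ⟨hw, rfl⟩,
        show ∑ j, R w (j₀ w) j * (ξ j : K) = ∑ i ∈ J, (c i : K) * (α i : K) ^ n by
        simp only [R, Matrix.of_apply, hw, and_self, or_true, if_true, one_mul, ξ, map_mul, map_pow]
        rw [Equiv.sum_comp e fun i : J => (c i : K) * (α i : K) ^ n,
          sum_coe_sort J fun i => (c i : K) * (α i : K) ^ n], mul_assoc,
        show e (j₀ w) = ⟨i₀ w, hi₀ w⟩ from e.apply_symm_apply _]
      refine le_trans (le_of_eq ?_) (le_mul_of_one_le_left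
        (mul_nonneg (hpos _ _).le (div_nonneg (AbsoluteValue.nonneg _ _) (hpos _ _).le)) hE)
      exact (mul_div_cancel₀ _ (hpos _ _).ne').symm
    · rw [if_neg hp, mul_one, show ∑ j, R w i j * (ξ j : K) = (ξ i : K) by simp [R, hp]]
      simp only [ξ, map_mul, map_pow]
      exact mul_le_mul_of_nonneg_right (placeAbv_le hE (hc _ (e i).2).2 w)
        (pow_nonneg (AbsoluteValue.nonneg _ _) _)
  have hq : ∏ p : ((K →+* ℂ) ⊕ S) × Fin (m + 1), (if p.1 ∈ T ∧ p.2 = j₀ p.1 then q p.1 else 1) ≤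
      Real.exp (-(ε * n)) := by
    rw [Fintype.prod_prod_type, prod_congr rfl fun w _ => show
      ∏ i, (if w ∈ T ∧ i = j₀ w then q w else 1) = if w ∈ T then q w else 1 by
        by_cases hw : w ∈ T <;> simp [hw], prod_ite_mem, univ_inter, prod_div_distrib,
      div_le_iff₀ (prod_pos fun w _ => hpos w _), mul_comm]
    exact hlt.le
  have hprod : ∏ p, f p < house ξ ^ (-δ) := by
    refine (prod_le_prod (fun p _ => AbsoluteValue.nonneg _ _) fun p _ => hfg p).trans_lt ?_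
    rw [prod_mul_distrib]
    refine (mul_le_mul_of_nonneg_left hq (prod_nonneg fun p _ =>
      mul_nonneg (Real.exp_pos _).le (hpos _ _).le)).trans_lt ?_
    rw [prod_mul_distrib, prod_const, card_univ, Fintype.prod_prod_type]
    dsimp only
    rw [Finset.prod_comm]
    rw [prod_eq_one fun i _ => by
      rw [prod_pow, prod_placeAbv (RingOfIntegers.coe_ne_zero_iff.2 (hα _)) (hαS _), one_pow],
      mul_one, ← Real.exp_nat_mul, ← Real.exp_add, Real.rpow_def_of_pos hH]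
    refine Real.exp_lt_exp.2 ?_
    have h1 := Real.log_le_log hH hhouse
    rw [Real.log_exp] at h1
    have h2 : δ * Real.log (house ξ) ≤ ε / 4 * n := by
      refine (mul_le_mul_of_nonneg_left h1 hδ.le).trans_eq ?_
      simp only [δ]
      field_simp
    have h3 : (N : ℝ) * η ≤ ε / 2 := by
      have h := hη.trans_le (min_le_left _ _)
      rw [lt_div_iff₀ (by positivity)] at h
      linarith [hη0]
    linarith [mul_le_mul_of_nonneg_right h3 (Nat.cast_nonneg (α := ℝ) n),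
      mul_pos hε (zero_lt_one.trans_le hn1)]
  obtain ⟨β, hβ, hβ0⟩ := hWx ξ hξ0 (by
    refine lt_of_eq_of_lt ?_ hprod
    rw [Fintype.prod_prod_type, Fintype.prod_sum_type, ← prod_coe_sort S]
    refine congrArg₂ _ (prod_congr rfl fun φ _ => prod_congr rfl fun i _ => ?_)
      (prod_congr rfl fun v _ => prod_congr rfl fun i _ => ?_)
    · simp only [f, placeAbv_inl, Matrix.map_apply, map_sum, map_mul]
    · simp only [f, placeAbv_inr, dif_pos v.2, Subtype.coe_eta])
  refine ⟨_, mem_image_of_mem ext' hβ, RingOfIntegers.coe_injective ?_⟩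
  rw [map_sum, map_zero, ← mul_zero ((b β : 𝓞 K) : K), ← hβ0, mul_sum,
    ← sum_coe_sort J, ← Equiv.sum_comp e]
  refine sum_congr rfl fun j _ => ?_
  have h : ext' β (e j) = γ β j := by simp [ext']
  rw [h, map_mul, hγ β j, Algebra.smul_def, mul_assoc]

/-- **Evertse's bound for sums of powers with small coefficients.** -/
theorem eventually_lower_bound (hα : ∀ i, α i ≠ 0)
    (hαS : ∀ i, ∀ v ∉ S, HeightOneSpectrum.adicAbv K v (α i : K) = 1)
    (hnd : ∀ i j, i ≠ j → ∀ m, 0 < m → α i ^ m ≠ α j ^ m) (J : Finset ι) :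
    J.Nonempty → ∀ w (ε : ℝ), 0 < ε → ∀ᶠ η in 𝓝[>] (0 : ℝ), ∀ᶠ n : ℕ in atTop, ∀ c : ι → 𝓞 K,
      SmallCoeffs J η n c → ∀ i ∈ J, placeAbv S w (α i : K) ^ n * Real.exp (-(ε * n)) ≤
        placeAbv S w (∑ j ∈ J, (c j : K) * (α j : K) ^ n) := by
  classical
  induction J using Finset.strongInduction with
  | _ J ih =>
  intro hJ w₀ ε hε
  set d := Module.finrank ℚ K
  have hpos : ∀ (w : (K →+* ℂ) ⊕ S) i, 0 < placeAbv S w (α i : K) := fun w i =>
    AbsoluteValue.pos _ (RingOfIntegers.coe_ne_zero_iff.2 (hα i))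
  rcases lt_or_ge J.card 2 with h2 | h2
  · obtain ⟨i₁, rfl⟩ := card_eq_one.1 (show J.card = 1 by have := card_pos.2 hJ; omega)
    filter_upwards [Ioo_mem_nhdsGT (show 0 < ε / (d + 1) by positivity)] with η hη
    refine Eventually.of_forall fun n c hc i hi => ?_
    obtain rfl := mem_singleton.1 hi
    obtain ⟨hc0, hcb⟩ := hc i hi
    rw [sum_singleton, map_mul, map_pow, mul_comm]
    refine mul_le_mul_of_nonneg_right ?_ (pow_nonneg (hpos w₀ i).le n)
    have h := one_le_placeAbv_mul (S := S) hc0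
      (Real.one_le_exp (mul_nonneg hη.1.le (Nat.cast_nonneg n))) hcb w₀
    rw [← Real.exp_nat_mul] at h
    rw [Real.exp_neg, inv_le_iff_one_le_mul₀ (Real.exp_pos _)]
    refine h.trans (mul_le_mul_of_nonneg_left (Real.exp_le_exp.2 ?_) (AbsoluteValue.nonneg _ _))
    have h' := hη.2
    rw [lt_div_iff₀ (by positivity)] at h'
    rw [← mul_assoc]
    exact mul_le_mul_of_nonneg_right (by linarith [hη.1]) (Nat.cast_nonneg n)
  -- the sum does not vanish
  obtain ⟨w, i, hi, j, hj, hij⟩ :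
      ∃ w, ∃ i ∈ J, ∃ j ∈ J, placeAbv S w (α j : K) < placeAbv S w (α i : K) := by
    by_contra! h
    obtain ⟨i, hi, j, hj, hne⟩ := one_lt_card.1 h2
    obtain ⟨m, hm, hpow⟩ := exists_pow_eq_of_placeAbv_eq (S := S) (hα i) (hα j) (hαS i) (hαS j)
      fun w => le_antisymm (h w i hi j hj) (h w j hj i hi)
    exact hnd i j hne m hm hpow
  have hne : ∀ᶠ η in 𝓝[>] (0 : ℝ), ∀ᶠ n : ℕ in atTop, ∀ c : ι → 𝓞 K, SmallCoeffs J η n c →
      ∑ l ∈ J, (c l : K) * (α l : K) ^ n ≠ 0 := by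
    set L := Real.log (placeAbv S w (α i : K)) - Real.log (placeAbv S w (α j : K))
    have hL : 0 < L := sub_pos.2 (Real.log_lt_log (hpos w j) hij)
    have hiJ : i ∈ J.erase j := mem_erase.2 ⟨fun h => hij.ne (h ▸ rfl), hi⟩
    filter_upwards [ih _ (erase_ssubset hj) ⟨i, hiJ⟩ w (L / 2) (half_pos hL),
      Ioo_mem_nhdsGT (half_pos hL)] with η hev hη
    filter_upwards [hev, eventually_ge_atTop 1] with n hn hn1 c hc h0
    have h1 := hn c (hc.mono (erase_subset _ _) le_rfl) i hiJ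
    rw [← add_sum_erase J _ hj, add_comm, add_eq_zero_iff_eq_neg] at h0
    rw [h0, AbsoluteValue.map_neg, map_mul, map_pow] at h1
    have h2 := Real.log_le_log (mul_pos (pow_pos (hpos w i) n) (Real.exp_pos _))
      (h1.trans (mul_le_mul_of_nonneg_right (placeAbv_le (Real.one_le_exp
        (mul_nonneg hη.1.le (Nat.cast_nonneg n))) (hc j hj).2 w) (pow_nonneg (hpos w j).le n)))
    rw [Real.log_mul (pow_pos (hpos w i) n).ne' (Real.exp_pos _).ne', Real.log_exp,
      Real.log_mul (Real.exp_pos _).ne' (pow_pos (hpos w j) n).ne', Real.log_exp,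
      Real.log_pow, Real.log_pow] at h2
    have h3 : 0 < (L / 2 - η) * n := mul_pos (sub_pos.2 hη.2) (by exact_mod_cast hn1)
    nlinarith
  -- the largest term
  obtain ⟨i₀, hi₀, hmax⟩ := exists_max_image J (fun i => placeAbv S w₀ (α i : K)) hJ
  suffices h : ∀ᶠ η in 𝓝[>] (0 : ℝ), ∀ᶠ n : ℕ in atTop, ∀ c : ι → 𝓞 K, SmallCoeffs J η n c →
      placeAbv S w₀ (α i₀ : K) ^ n * Real.exp (-(ε * n)) ≤
        placeAbv S w₀ (∑ j ∈ J, (c j : K) * (α j : K) ^ n) by
    filter_upwards [h] with η hη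
    filter_upwards [hη] with n hn c hc i hi
    exact (mul_le_mul_of_nonneg_right (pow_le_pow_left₀ (hpos w₀ i).le (hmax i hi) n)
      (Real.exp_pos _).le).trans (hn c hc)
  obtain ⟨W, hW, hrel⟩ := exists_relations_powers hα hαS h2 {w₀} (i₀ := fun _ => i₀)
    (fun _ => hi₀) hε
  -- the smaller sums
  have hsmall : ∀ p ∈ W ×ˢ J, p.1 p.2 ≠ p.1 i₀ → ∀ᶠ η in 𝓝[>] (0 : ℝ), ∀ᶠ n : ℕ in atTop,
      ∀ c : ι → 𝓞 K, SmallCoeffs J η n c → ∑ l ∈ J, p.1 l * (c l * α l ^ n) = 0 →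
        placeAbv S w₀ (α i₀ : K) ^ n * Real.exp (-(ε * n)) ≤
          placeAbv S w₀ (∑ l ∈ J, (c l : K) * (α l : K) ^ n) := by
    rintro ⟨β, j⟩ hp hne
    obtain ⟨-, hj⟩ := mem_product.1 hp
    dsimp only at hne hj ⊢
    set J' := J.filter fun l => β l ≠ β j
    have hi₀' : i₀ ∈ J' := mem_filter.2 ⟨hi₀, hne.symm⟩
    have hJ' : J' ⊂ J := filter_ssubset.2 ⟨j, hj, fun h => h rfl⟩
    have htwo : Tendsto (fun η : ℝ => 2 * η) (𝓝[>] 0) (𝓝[>] 0) :=
      tendsto_nhdsWithin_of_tendsto_nhds_of_eventually_within _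
        (((continuous_const.mul continuous_id).tendsto' (0 : ℝ) 0 (mul_zero 2)).mono_left
          nhdsWithin_le_nhds)
        (eventually_nhdsWithin_of_forall fun x (hx : 0 < x) => mul_pos two_pos hx)
    filter_upwards [htwo.eventually (ih J' hJ' ⟨i₀, hi₀'⟩ w₀ (ε / 2) (half_pos hε)),
      self_mem_nhdsWithin] with η hev hη
    replace hη : 0 < η := hη
    set B := ∑ l ∈ J, ∑ φ : K →+* ℂ, ‖φ ((β j - β l : 𝓞 K) : K)‖
    filter_upwards [hev, eventually_le_exp B hη, eventually_le_exp (placeAbv S w₀ (β j : K))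
      (half_pos hε)] with n hn hB hβj c hc h0
    have hc' : SmallCoeffs J' (2 * η) n fun l => (β j - β l) * c l := fun l hl => by
      obtain ⟨hlJ, hlne⟩ := mem_filter.1 hl
      refine ⟨mul_ne_zero (sub_ne_zero.2 hlne.symm) (hc l hlJ).1, fun φ => ?_⟩
      dsimp only
      rw [show (((β j - β l) * c l : 𝓞 K) : K) = ((β j - β l : 𝓞 K) : K) * (c l : K) from
        map_mul (algebraMap (𝓞 K) K) _ _, map_mul, norm_mul,
        show 2 * η * (n : ℝ) = η * n + η * n by ring, Real.exp_add]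
      exact mul_le_mul (((single_le_sum (f := fun φ : K →+* ℂ => ‖φ ((β j - β l : 𝓞 K) : K)‖)
        (fun _ _ => norm_nonneg _) (mem_univ φ)).trans (single_le_sum (f := fun l =>
          ∑ φ : K →+* ℂ, ‖φ ((β j - β l : 𝓞 K) : K)‖) (fun _ _ => by positivity) hlJ)).trans hB)
        ((hc l hlJ).2 φ) (norm_nonneg _) (Real.exp_pos _).le
    have h1 := hn _ hc' i₀ hi₀'
    have hsum : ∑ l ∈ J', (((β j - β l) * c l : 𝓞 K) : K) * (α l : K) ^ n =
        (β j : K) * ∑ l ∈ J, (c l : K) * (α l : K) ^ n := by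
      have h2 := congrArg (fun x : 𝓞 K => (x : K)) h0
      simp only [map_sum, map_mul, map_pow, map_zero] at h2
      rw [sum_filter, mul_sum]
      conv_rhs => rw [← sub_zero (∑ l ∈ J, (β j : K) * _), ← h2, ← sum_sub_distrib]
      refine sum_congr rfl fun l _ => ?_
      split_ifs with h
      · push_cast
        ring
      · rw [not_not.1 h, sub_self]
    rw [hsum, map_mul] at h1
    refine le_of_mul_le_mul_left ?_ (Real.exp_pos (ε / 2 * n))
    refine le_trans (le_of_eq ?_) (h1.trans (mul_le_mul_of_nonneg_right hβj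
      (AbsoluteValue.nonneg _ _)))
    rw [mul_left_comm, ← Real.exp_add]
    ring_nf
  filter_upwards [hrel, hne, (eventually_all_finset ((W ×ˢ J).filter
    fun p => p.1 p.2 ≠ p.1 i₀)).2 fun p hp => hsmall p (mem_filter.1 hp).1 (mem_filter.1 hp).2]
    with η h1 h2 h3
  filter_upwards [h1, h2, (eventually_all_finset ((W ×ˢ J).filter fun p => p.1 p.2 ≠ p.1 i₀)).2 h3]
    with n hn1 hn2 hn3 c hc
  by_contra! hlt
  obtain ⟨β, hβ, h0⟩ := hn1 c hc (by rw [prod_singleton, prod_singleton]; exact hlt)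
  obtain ⟨j, hj, hne⟩ : ∃ j ∈ J, β j ≠ β i₀ := by
    by_contra! h
    obtain ⟨l, hl, hl0⟩ := hW β hβ
    refine hn2 c hc ?_
    rw [sum_congr rfl fun j hj => by rw [h j hj], ← mul_sum, mul_eq_zero] at h0
    have h0' := congrArg (fun x : 𝓞 K => (x : K)) (h0.resolve_left fun e => hl0 (h l hl ▸ e))
    simpa [map_sum] using h0'
  exact (hn3 (β, j) (mem_filter.2 ⟨mem_product.2 ⟨hβ, hj⟩, hne⟩) c hc h0).not_gt hlt

end FA.Subspace

end
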