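import Fermat.Agent.Subspace.CommonDivisors

/-!
# `gcd (a ^ n - 1, b ^ n - 1)` and the largest prime factor of `(a b + 1) (a c + 1)`

The bound of Bugeaud, Corvaja and Zannier, and the conjecture of Győry, Sárközy and Stewart proved
by Corvaja and Zannier and by Hernández and Luca.
-/

set_option autoImplicit false

noncomputable section

namespace FA.Subspace

open Finset

/-- Equal powers with coprime exponents have a common root. -/
theorem exists_common_root {u v P Q : ℕ} (hu : 0 < u) (hv : 0 < v) (hP : 0 < P) (hQ : 1 < Q)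
    (hco : P.Coprime Q) (h : u ^ P = v ^ Q) : ∃ w : ℕ, u = w ^ Q ∧ v = w ^ P := by
  obtain ⟨x, -, hx⟩ := Nat.exists_mul_mod_eq_one_of_coprime hco hQ
  have hPx := Nat.div_add_mod (P * x) Q
  rw [hx] at hPx
  set y := P * x / Q
  set w : ℚ := (v : ℚ) ^ x / (u : ℚ) ^ y with hw
  have hu' : (u : ℚ) ≠ 0 := by exact_mod_cast hu.ne'
  have hwQ : w ^ Q = u := by
    rw [hw, div_pow, div_eq_iff (pow_ne_zero _ (pow_ne_zero _ hu')), ← pow_mul, ← pow_mul,
      mul_comm x Q, pow_mul, show ((v : ℚ)) ^ Q = (u : ℚ) ^ P by exact_mod_cast h.symm, ← pow_mul,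
      show P * x = y * Q + 1 by rw [← hPx]; ring, pow_succ, mul_comm]
  have hw0 : 0 < w := by positivity
  have hden : w.den = 1 := by
    have e := congrArg Rat.den hwQ
    rw [Rat.den_pow, Rat.den_natCast] at e
    exact (pow_eq_one_iff.1 e).resolve_right (by omega)
  obtain ⟨W, hW⟩ : ∃ W : ℕ, w = W := ⟨w.num.natAbs, by
    rw [Nat.cast_natAbs, abs_of_pos (Rat.num_pos.2 hw0)]
    conv_lhs => rw [← Rat.coe_int_num_of_den_eq_one hden]⟩
  rw [hW] at hwQ
  have hWQ : W ^ Q = u := by exact_mod_cast hwQ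
  refine ⟨W, hWQ.symm, Nat.pow_left_injective (by omega : Q ≠ 0) ?_⟩
  simp only
  rw [← h, ← hWQ, ← pow_mul, ← pow_mul, mul_comm]

/-- Independent powers. -/
theorem zpow_mul_zpow_ne_one {a b : ℕ} (ha : 2 ≤ a) (hb : 2 ≤ b)
    (hind : ∀ i j : ℕ, 0 < i → a ^ i ≠ b ^ j) {p q : ℤ} (h : (p, q) ≠ 0) :
    (a : ℚ) ^ p * (b : ℚ) ^ q ≠ 1 := by
  intro e
  have ha1 : (1 : ℚ) < a := by exact_mod_cast ha
  have hb1 : (1 : ℚ) < b := by exact_mod_cast hb
  have key : ∀ (i : ℕ) (j : ℤ), 0 < i → (a : ℚ) ^ (i : ℤ) = (b : ℚ) ^ j → False := by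
    intro i j hi he
    rw [zpow_natCast] at he
    rcases le_or_gt 0 j with hj | hj
    · lift j to ℕ using hj
      rw [zpow_natCast] at he
      exact hind i j hi (by exact_mod_cast he)
    · linarith [one_lt_pow₀ ha1 hi.ne', zpow_le_one_of_nonpos₀ hb1.le hj.le]
  have hb0 : (b : ℚ) ≠ 0 := by positivity
  rcases lt_trichotomy p 0 with hp | rfl | hp
  · refine key p.natAbs q (Int.natAbs_pos.2 hp.ne) ?_
    rw [Int.ofNat_natAbs_of_nonpos hp.le, _root_.zpow_neg]
    exact inv_eq_of_mul_eq_one_right e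
  · rw [zpow_zero, one_mul] at e
    exact h (Prod.ext rfl ((zpow_eq_one_iff_right₀ (by positivity) hb1.ne').1 e))
  · refine key p.natAbs (-q) (Int.natAbs_pos.2 hp.ne') ?_
    rw [Int.natAbs_of_nonneg hp.le, _root_.zpow_neg]
    exact eq_inv_of_mul_eq_one_left e

/-- **The theorem of Bugeaud, Corvaja and Zannier.** -/
theorem gcd_pow_sub_one_lt {a b : ℕ} (ha : 2 ≤ a) (hb : 2 ≤ b)
    (hind : ∀ i j : ℕ, 0 < i → a ^ i ≠ b ^ j) {ε : ℝ} (hε : 0 < ε) :
    ∃ N : ℕ, ∀ n, N ≤ n → (Nat.gcd (a ^ n - 1) (b ^ n - 1) : ℝ) < Real.exp (ε * n) := by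
  classical
  have hab : (1 : ℝ) < max (a : ℝ) b :=
    lt_max_of_lt_left (by exact_mod_cast ha)
  obtain ⟨R, hR, h⟩ := exists_curves_of_large_gcd (a * b).primeFactors
    (fun p hp => (Nat.mem_primeFactors.1 hp).1) (div_pos hε (Real.log_pos hab))
  suffices hfin : {n : ℕ | Real.exp (ε * n) ≤ (Nat.gcd (a ^ n - 1) (b ^ n - 1) : ℝ)}.Finite by
    obtain ⟨N, hN⟩ := hfin.bddAbove
    exact ⟨N + 1, fun n hn => not_le.1 fun e => absurd (hN e) (by omega)⟩
  suffices hc : ∀ c ∈ R,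
      {n : ℕ | ((a : ℚ) ^ c.1.1 * (b : ℚ) ^ c.1.2) ^ n = c.2}.Finite by
    refine ((Set.finite_singleton 0).union (R.finite_toSet.biUnion hc)).subset fun n hn => ?_
    rcases Nat.eq_zero_or_pos n with rfl | hn0
    · exact Or.inl rfl
    refine Or.inr ?_
    have h1 : ∀ {x : ℕ}, 2 ≤ x → x ∣ a * b →
        ((x ^ n : ℕ) : ℤ).natAbs.primeFactors ⊆ (a * b).primeFactors := fun {x} hx hxab => by
      rw [Int.natAbs_natCast, Nat.primeFactors_pow _ hn0.ne']
      exact Nat.primeFactors_mono hxab (Nat.mul_ne_zero (by omega) (by omega))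
    have hdvd : ∀ {x : ℕ}, 2 ≤ x → Nat.gcd (a ^ n - 1) (b ^ n - 1) ∣ x ^ n - 1 →
        ((Nat.gcd (a ^ n - 1) (b ^ n - 1) : ℕ) : ℤ) ∣ ((x ^ n : ℕ) : ℤ) - 1 := fun {x} hx hd => by
      have e := Int.natCast_dvd_natCast.2 hd
      rwa [Nat.cast_sub (Nat.one_le_pow _ _ (by omega))] at e
    have hgpos : 0 < Nat.gcd (a ^ n - 1) (b ^ n - 1) := Nat.gcd_pos_of_pos_left _
      (Nat.sub_pos_of_lt (Nat.one_lt_pow hn0.ne' (by omega)))
    obtain ⟨c, hc, e⟩ := h (a ^ n : ℕ) (b ^ n : ℕ) (Int.natCast_ne_zero.2 (by positivity))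
      (Int.natCast_ne_zero.2 (by positivity)) (h1 ha (dvd_mul_right a b)) (h1 hb (dvd_mul_left b a))
      (Nat.gcd (a ^ n - 1) (b ^ n - 1) : ℕ) (by exact_mod_cast hgpos)
      (hdvd ha (Nat.gcd_dvd_left _ _)) (hdvd hb (Nat.gcd_dvd_right _ _)) (by
        push_cast
        refine le_trans (le_of_eq_of_le ?_ le_rfl) hn
        rw [abs_of_nonneg (by positivity : (0 : ℝ) ≤ (a : ℝ) ^ n),
          abs_of_nonneg (by positivity : (0 : ℝ) ≤ (b : ℝ) ^ n),
          show max ((a : ℝ) ^ n) ((b : ℝ) ^ n) = max (a : ℝ) b ^ n by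
            rcases le_total (a : ℝ) b with h | h
            · rw [max_eq_right h, max_eq_right (pow_le_pow_left₀ (Nat.cast_nonneg a) h n)]
            · rw [max_eq_left h, max_eq_left (pow_le_pow_left₀ (Nat.cast_nonneg b) h n)],
          ← Real.rpow_natCast, ← Real.rpow_mul (by positivity),
          Real.rpow_def_of_pos (zero_lt_one.trans hab)]
        congr 1
        have := (Real.log_pos hab).ne'
        field_simp)
    simp only [Set.mem_iUnion, exists_prop]
    refine ⟨c, hc, ?_⟩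
    rw [Set.mem_ofPred_eq, ← e]
    push_cast
    simp only [← zpow_natCast, ← _root_.zpow_mul, mul_comm, mul_zpow]
  intro c hc
  have hx0 : (0 : ℚ) < (a : ℚ) ^ c.1.1 * (b : ℚ) ^ c.1.2 := by
    have : (0 : ℚ) < a := by exact_mod_cast (show 0 < a by omega)
    have : (0 : ℚ) < b := by exact_mod_cast (show 0 < b by omega)
    positivity
  exact Set.Subsingleton.finite fun n hn n' hn' => pow_right_injective₀ hx0
    (zpow_mul_zpow_ne_one ha hb hind (hR c hc)) (hn.trans hn'.symm)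

/-- **The theorem of Győry, Sárközy and Stewart**, conjectured by them: finitely many `a > b > c`
with all prime factors of `(a b + 1) (a c + 1)` in a given finite set. -/
theorem finite_sunit_products (S : Finset ℕ) :
    {t : ℕ × ℕ × ℕ | 0 < t.2.2 ∧ t.2.2 < t.2.1 ∧ t.2.1 < t.1 ∧
      ((t.1 * t.2.1 + 1) * (t.1 * t.2.2 + 1)).primeFactors ⊆ S}.Finite := by
  classical
  obtain ⟨R, hR, h⟩ := exists_curves_of_large_gcd (S.filter Nat.Prime)
    (fun p hp => (mem_filter.1 hp).2) (ε := 1 / 2) (by norm_num)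
  set M := R.sup fun c => (c.2.num - c.2.den).natAbs
  refine ((Set.finite_Iic M).prod ((Set.finite_Iic M).prod (Set.finite_Iic M))).subset ?_
  rintro ⟨a, b, c⟩ ⟨hc0, hcb, hba, hS⟩
  simp only at hc0 hcb hba hS
  suffices ha : a ≤ M by exact ⟨ha, (hba.le.trans ha), (hcb.le.trans (hba.le.trans ha))⟩
  set u := a * b + 1 with hu
  set v := a * c + 1 with hv
  have hS' : ∀ {x : ℕ}, x ∣ u * v → (x : ℤ).natAbs.primeFactors ⊆ S.filter Nat.Prime :=
    fun {x} hx p hp => mem_filter.2 ⟨hS (Nat.primeFactors_mono hx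
      (Nat.mul_ne_zero (Nat.succ_ne_zero _) (Nat.succ_ne_zero _))
      (by simpa using hp)), (Nat.mem_primeFactors.1 hp).1⟩
  have hvu : v < u := by
    simp only [u, v]
    exact Nat.add_lt_add_right (Nat.mul_lt_mul_of_pos_left hcb (by omega)) 1
  have hua : u ≤ a ^ 2 := by
    have := Nat.mul_le_mul_left a (show b + 1 ≤ a by omega)
    rw [mul_add, mul_one] at this
    rw [sq]
    omega
  obtain ⟨r, hr, e⟩ := h u v (Int.natCast_ne_zero.2 (by omega)) (Int.natCast_ne_zero.2 (by omega))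
    (hS' (dvd_mul_right u v)) (hS' (dvd_mul_left v u)) a (by omega)
    ⟨b, by simp [hu]⟩ ⟨c, by simp [hv]⟩ (by
      push_cast
      rw [abs_of_nonneg (Nat.cast_nonneg u), abs_of_nonneg (Nat.cast_nonneg v),
        max_eq_left (Nat.cast_le.2 hvu.le), ← Real.sqrt_eq_rpow]
      exact Real.sqrt_le_iff.2 ⟨Nat.cast_nonneg a, by exact_mod_cast hua⟩)
  obtain ⟨⟨p, q⟩, x⟩ := r
  simp only at e
  have hu0 : (u : ℚ) ≠ 0 := by exact_mod_cast (show u ≠ 0 by omega)
  have hv0 : (v : ℚ) ≠ 0 := by exact_mod_cast (show v ≠ 0 by omega)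
  by_cases hx1 : x = 1
  · exfalso
    subst hx1
    push_cast at e
    obtain ⟨p, q, hpq, hne⟩ : ∃ p' q' : ℤ, (u : ℚ) ^ p' * (v : ℚ) ^ q' = 1 ∧ 0 < p' := by
      rcases lt_trichotomy p 0 with hp | rfl | hp
      · exact ⟨-p, -q, by rw [_root_.zpow_neg, _root_.zpow_neg, ← mul_inv, e, inv_one], by omega⟩
      · rw [zpow_zero, one_mul] at e
        have hv1 : (1 : ℚ) < v := by exact_mod_cast (show 1 < v by simp only [v]; nlinarith)
        exact absurd (show ((0 : ℤ), q) = 0 from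
          Prod.ext rfl ((zpow_eq_one_iff_right₀ (by positivity) hv1.ne').1 e)) (hR _ hr)
      · exact ⟨p, q, e, hp⟩
    lift p to ℕ using hne.le
    have hp : 0 < p := by exact_mod_cast hne
    have hu1 : (1 : ℚ) < u := by exact_mod_cast (show 1 < u by omega)
    rcases le_or_gt 0 q with hq | hq
    · have hv1 : (1 : ℚ) ≤ v := by exact_mod_cast (show 1 ≤ v by omega)
      have := one_le_zpow₀ hv1 hq
      rw [zpow_natCast] at hpq
      nlinarith [one_lt_pow₀ hu1 hp.ne']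
    obtain ⟨Q, rfl⟩ : ∃ Q : ℕ, q = -(Q : ℤ) := ⟨q.natAbs, by omega⟩
    rw [_root_.zpow_neg, mul_inv_eq_one₀ (zpow_ne_zero _ hv0), zpow_natCast, zpow_natCast] at hpq
    have hPQ : u ^ p = v ^ Q := by exact_mod_cast hpq
    have hlt : p < Q := by
      by_contra! hle
      have := Nat.pow_lt_pow_left hvu (show Q ≠ 0 by omega)
      have := Nat.pow_le_pow_right (show 0 < u by omega) hle
      omega
    obtain ⟨P', Q', hco, hP', hQ'⟩ := Nat.exists_coprime p Q
    set d := Nat.gcd p Q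
    have hd : 0 < d := Nat.gcd_pos_of_pos_left _ hp
    rw [hP', hQ', pow_mul, pow_mul] at hPQ
    have hPQ' := Nat.pow_left_injective hd.ne' hPQ
    have hlt' : P' < Q' := Nat.lt_of_mul_lt_mul_right (hP' ▸ hQ' ▸ hlt)
    have hP0 : 0 < P' := Nat.pos_of_mul_pos_right (hP' ▸ hp)
    obtain ⟨w, hwu, hwv⟩ := exists_common_root (u := u) (v := v) (by omega) (by omega) hP0
      (by omega) hco hPQ'
    have hw : a ∣ w - 1 := by
      have h1 : a ∣ Nat.gcd (w ^ Q' - 1) (w ^ P' - 1) := Nat.dvd_gcd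
        ⟨b, by rw [← hwu]; omega⟩ ⟨c, by rw [← hwv]; omega⟩
      rwa [Nat.pow_sub_one_gcd_pow_sub_one, Nat.gcd_comm Q', hco.gcd_eq_one, pow_one] at h1
    have hw2 : 2 ≤ w := by
      by_contra hlt2
      have : w ^ Q' ≤ 1 := (pow_le_one_iff (show Q' ≠ 0 by omega)).2 (by omega)
      rw [← hwu] at this
      omega
    have h1 := Nat.le_of_dvd (by omega) hw
    have h2 : w ^ 2 ≤ u := hwu ▸ Nat.pow_le_pow_right (by omega) (by omega)
    have h3 := Nat.pow_lt_pow_left (show a < w by omega) two_ne_zero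
    omega
  · -- reduce modulo `a`
    have hzp : ∀ z : ℚ, z ≠ 0 → ∀ i : ℤ, z ^ i * z ^ (-i).toNat = z ^ i.toNat := fun z hz i => by
      rw [← zpow_natCast, ← zpow_natCast, ← zpow_add₀ hz]
      congr 1
      omega
    have e' : (x.den : ℤ) * ((u : ℤ) ^ p.toNat * (v : ℤ) ^ q.toNat) =
        x.num * ((u : ℤ) ^ (-p).toNat * (v : ℤ) ^ (-q).toNat) := by
      have h1 : ((x.den : ℚ) * ((u : ℚ) ^ p.toNat * (v : ℚ) ^ q.toNat)) =
          (x.num : ℚ) * ((u : ℚ) ^ (-p).toNat * (v : ℚ) ^ (-q).toNat) := by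
        rw [← hzp _ hu0, ← hzp _ hv0, ← x.mul_den_eq_num]
        push_cast at e
        linear_combination ((x.den : ℚ) * (u : ℚ) ^ (-p).toNat * (v : ℚ) ^ (-q).toNat) * e
      exact_mod_cast h1
    have hmod : (a : ℤ) ∣ x.num - x.den := by
      rw [← ZMod.intCast_zmod_eq_zero_iff_dvd]
      have h1 := congrArg (fun z : ℤ => (z : ZMod a)) e'
      simp only [u, v, Int.cast_mul, Int.cast_pow, Nat.cast_add, Nat.cast_mul, Nat.cast_one,
        Int.cast_add, Int.cast_natCast, Int.cast_one, ZMod.natCast_self, zero_mul, zero_add,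
        one_pow, mul_one] at h1
      push_cast
      rw [h1, sub_self]
    refine le_trans (Nat.le_of_dvd (Int.natAbs_pos.2 fun e0 => hx1 ?_) (Int.natCast_dvd.1 hmod))
      (le_sup (f := fun c : (ℤ × ℤ) × ℚ => (c.2.num - c.2.den).natAbs) hr)
    rw [← x.num_div_den, sub_eq_zero.1 e0, Int.cast_natCast,
      div_self (Nat.cast_ne_zero.2 x.den_nz)]

/-- **The largest prime factor of `(a b + 1) (a c + 1)` tends to infinity.** -/
theorem exists_large_prime_factor (P : ℕ) :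
    ∃ A, ∀ a b c : ℕ, 0 < c → c < b → b < a → A ≤ a →
      ∃ p, P < p ∧ p.Prime ∧ p ∣ (a * b + 1) * (a * c + 1) := by
  obtain ⟨A, hA⟩ := ((finite_sunit_products (range (P + 1))).image Prod.fst).bddAbove
  refine ⟨A + 1, fun a b c hc hcb hba ha => ?_⟩
  by_contra! h
  have : a ≤ A := hA ⟨(a, b, c), ⟨hc, hcb, hba, fun p hp => by
    obtain ⟨hp', hd, -⟩ := Nat.mem_primeFactors.1 hp
    exact mem_range.2 (Nat.lt_succ_of_le (not_lt.1 fun hlt => h p hlt hp' hd))⟩, rfl⟩
  omega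

end FA.Subspace

end
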