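import Fermat.Agent.Subspace.Compound
import Mathlib.Analysis.SpecialFunctions.Log.Basic
import Mathlib.Data.Nat.ChineseRemainder
import Mathlib.Data.ZMod.QuotientRing
import Mathlib.LinearAlgebra.FreeModule.Finite.CardQuotient
import Mathlib.LinearAlgebra.FreeModule.PID
import Mathlib.LinearAlgebra.Matrix.NonsingularInverse
import Mathlib.RingTheory.IntegralClosure.IntegrallyClosed

/-!
# Forms at finitely many places

Finitely many pairwise coprime bases. At each a ring in which the integers have the same residues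
modulo the powers of the base, for instance the integers or the `p`-adic integers, and a unimodular
matrix over it with algebraic entries. The integer points at which the `i`-th form at the `l`-th
base is divisible by a given power of it form a lattice whose determinant is the product of all
these powers.
-/

set_option autoImplicit false

noncomputable section

namespace FA.Subspace

open Finset Matrix

/-- Finitely many pairwise coprime bases, each with a unimodular matrix of integer forms. -/
structure Places (s N : ℕ) where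
  /-- The bases, for instance primes. -/
  base : Fin s → ℕ
  two_le : ∀ l, 2 ≤ base l
  coprime : Pairwise fun l l' => Nat.Coprime (base l) (base l')
  /-- The forms at the `l`-th base. -/
  mat : Fin s → Matrix (Fin N) (Fin N) ℤ
  isUnit_det : ∀ l, IsUnit (mat l).det

/-- Finitely many pairwise coprime bases, each with a ring that has the residues of the integers
modulo its powers and a unimodular matrix over it with algebraic entries. -/
structure LocalPlaces (s N : ℕ) where
  /-- The bases, for instance primes. -/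
  base : Fin s → ℕ
  two_le : ∀ l, 2 ≤ base l
  coprime : Pairwise fun l l' => Nat.Coprime (base l) (base l')
  /-- The rings of the forms, for instance the `p`-adic integers. -/
  ring : Fin s → Type
  [commRing : ∀ l, CommRing (ring l)]
  [isDomain : ∀ l, IsDomain (ring l)]
  [charZero : ∀ l, CharZero (ring l)]
  [integrallyClosed : ∀ l, IsIntegrallyClosed (ring l)]
  dvd_int : ∀ l (k : ℕ) (z : ℤ), (base l : ring l) ^ k ∣ (z : ring l) → (base l : ℤ) ^ k ∣ z
  exists_int : ∀ l (k : ℕ) (r : ring l), ∃ z : ℤ, (base l : ring l) ^ k ∣ r - z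
  /-- The forms at the `l`-th base. -/
  mat : ∀ l, Matrix (Fin N) (Fin N) (ring l)
  isUnit_det : ∀ l, IsUnit (mat l).det
  isAlgebraic : ∀ l i j, IsAlgebraic ℤ (mat l i j)

attribute [instance] LocalPlaces.commRing LocalPlaces.isDomain LocalPlaces.charZero
  LocalPlaces.integrallyClosed

variable {s N : ℕ}

/-- A submodule containing a multiple of every point has full rank. -/
theorem finrank_eq_of_smul_mem {Λ : Submodule ℤ (Fin N → ℤ)} {D : ℤ} (hD0 : D ≠ 0)
    (hD : ∀ x, D • x ∈ Λ) : Module.finrank ℤ Λ = N := by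
  refine le_antisymm ((Submodule.finrank_le Λ).trans (by simp)) ?_
  let f : (Fin N → ℤ) →ₗ[ℤ] Λ :=
    { toFun := fun x => ⟨D • x, hD x⟩
      map_add' := fun x y => Subtype.ext (smul_add D x y)
      map_smul' := fun a x => Subtype.ext (smul_comm D a x) }
  have h := LinearMap.finrank_le_finrank_of_injective (f := f) fun x y h =>
    smul_right_injective _ hD0 (congrArg Subtype.val h :)
  simpa using h

/-- The integer point in a ring. -/
abbrev intVec (R : Type*) [IntCast R] (x : Fin N → ℤ) : Fin N → R := fun k => (x k : R)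

/-- The integer forms are forms at the bases. -/
def Places.toLocal (P : Places s N) : LocalPlaces s N where
  base := P.base
  two_le := P.two_le
  coprime := P.coprime
  ring _ := ℤ
  dvd_int _ _ z h := by simpa using h
  exists_int _ _ r := ⟨r, by simp⟩
  mat := P.mat
  isUnit_det := P.isUnit_det
  isAlgebraic _ _ _ := isAlgebraic_algebraMap _

namespace LocalPlaces

variable (P : LocalPlaces s N)

theorem base_pos (l : Fin s) : 0 < P.base l := two_pos.trans_le (P.two_le l)

theorem log_base_pos (l : Fin s) : 0 < Real.log (P.base l : ℝ) :=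
  Real.log_pos (by exact_mod_cast P.two_le l)

theorem pow_dvd_intCast_iff (l : Fin s) (k : ℕ) (z : ℤ) :
    (P.base l : P.ring l) ^ k ∣ (z : P.ring l) ↔ (P.base l : ℤ) ^ k ∣ z :=
  ⟨P.dvd_int l k z, fun h => by simpa using map_dvd (Int.castRingHom (P.ring l)) h⟩

/-- The forms at the `l`-th base are divisible by the given powers. -/
def Divides (e : Fin s → Fin N → ℕ) (x : Fin N → ℤ) : Prop :=
  ∀ l i, (P.base l : P.ring l) ^ e l i ∣ (P.mat l *ᵥ intVec (P.ring l) x) i

/-- The product of all the powers. -/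
def vol (e : Fin s → Fin N → ℕ) : ℕ := ∏ l, P.base l ^ ∑ i, e l i

theorem vol_pos (e : Fin s → Fin N → ℕ) : 0 < P.vol e :=
  prod_pos fun l _ => pow_pos (P.base_pos l) _

theorem log_vol (e : Fin s → Fin N → ℕ) :
    Real.log (P.vol e : ℝ) = ∑ l, ∑ i, (e l i : ℝ) * Real.log (P.base l) := by
  rw [vol]
  push_cast
  rw [Real.log_prod fun l _ => pow_ne_zero _ (by exact_mod_cast (P.base_pos l).ne')]
  refine sum_congr rfl fun l _ => ?_
  rw [Real.log_pow, ← sum_mul]
  push_cast
  rfl

theorem Divides.mono {e e' : Fin s → Fin N → ℕ} {x : Fin N → ℤ} (h : P.Divides e x)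
    (he : ∀ l i, e' l i ≤ e l i) : P.Divides e' x := fun l i =>
  (pow_dvd_pow _ (he l i)).trans (h l i)

theorem Divides.sum {ι : Type*} {t : Finset ι} {e : Fin s → Fin N → ℕ} {g : ι → Fin N → ℤ}
    (h : ∀ j ∈ t, P.Divides e (g j)) (a : ι → ℤ) :
    P.Divides e (∑ j ∈ t, a j • g j) := fun l i => by
  rw [show intVec (P.ring l) (∑ j ∈ t, a j • g j) =
      ∑ j ∈ t, (a j : P.ring l) • intVec (P.ring l) (g j) from funext fun k => by
    simp [intVec, Finset.sum_apply], Matrix.mulVec_sum, Finset.sum_apply]
  exact dvd_sum fun j hj => by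
    rw [Matrix.mulVec_smul, Pi.smul_apply, smul_eq_mul]
    exact (h j hj l i).mul_left _

/-- The least exponents for the logarithmic sizes `f l i * log Q`. -/
def minExp (f : Fin s → Fin N → ℝ) (Q : ℝ) (l : Fin s) (i : Fin N) : ℕ :=
  ⌈f l i * Real.log Q / Real.log (P.base l)⌉₊

theorem le_minExp (f : Fin s → Fin N → ℝ) (Q : ℝ) (l : Fin s) (i : Fin N) :
    f l i * Real.log Q ≤ P.minExp f Q l i * Real.log (P.base l) :=
  (div_le_iff₀ (P.log_base_pos l)).1 (Nat.le_ceil _)

theorem minExp_le_add {f : Fin s → Fin N → ℝ} (hf : ∀ l i, 0 ≤ f l i) {Q : ℝ} (hQ : 1 ≤ Q)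
    (l : Fin s) (i : Fin N) :
    (P.minExp f Q l i : ℝ) * Real.log (P.base l) ≤
      f l i * Real.log Q + Real.log (P.base l) := by
  have h0 : 0 ≤ f l i * Real.log Q / Real.log (P.base l) :=
    div_nonneg (mul_nonneg (hf l i) (Real.log_nonneg hQ)) (P.log_base_pos l).le
  have h := mul_le_mul_of_nonneg_right (Nat.ceil_lt_add_one h0).le (P.log_base_pos l).le
  rwa [add_mul, one_mul, div_mul_cancel₀ _ (P.log_base_pos l).ne'] at h

theorem minExp_le {f : Fin s → Fin N → ℝ} {Q : ℝ} {l : Fin s} {i : Fin N} {k : ℕ}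
    (h : f l i * Real.log Q ≤ k * Real.log (P.base l)) : P.minExp f Q l i ≤ k :=
  Nat.ceil_le.2 ((div_le_iff₀ (P.log_base_pos l)).2 h)

theorem minExp_mono {f : Fin s → Fin N → ℝ} {Q : ℝ} (hQ : 1 ≤ Q) {l : Fin s} {i j : Fin N}
    (h : f l i ≤ f l j) : P.minExp f Q l i ≤ P.minExp f Q l j :=
  Nat.ceil_mono (div_le_div_of_nonneg_right (mul_le_mul_of_nonneg_right h (Real.log_nonneg hQ))
    (P.log_base_pos l).le)

/-- The residues modulo a power of a base are those of the integers. -/
theorem natCard_residues (l : Fin s) (k : ℕ) :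
    Nat.card (P.ring l ⧸ Ideal.span {(P.base l : P.ring l) ^ k}) = P.base l ^ k := by
  set I := Ideal.span {(P.base l : P.ring l) ^ k}
  set ψ := (Ideal.Quotient.mk I).comp (Int.castRingHom (P.ring l))
  have hψ : Function.Surjective ψ := fun q => by
    obtain ⟨r, rfl⟩ := Ideal.Quotient.mk_surjective q
    obtain ⟨z, hz⟩ := P.exists_int l k r
    exact ⟨z, (Ideal.Quotient.eq.2 (Ideal.mem_span_singleton.2 hz)).symm⟩
  have hker : RingHom.ker ψ = Ideal.span {((P.base l ^ k : ℕ) : ℤ)} := Ideal.ext fun z => by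
    rw [RingHom.mem_ker, Ideal.mem_span_singleton, Nat.cast_pow, ← P.pow_dvd_intCast_iff,
      ← Ideal.mem_span_singleton, ← Ideal.Quotient.eq_zero_iff_mem]
    rfl
  rw [← Nat.card_congr (RingHom.quotientKerEquivOfSurjective hψ).toEquiv, hker,
    Nat.card_congr (Int.quotientSpanNatEquivZMod (P.base l ^ k)).toEquiv, Nat.card_zmod]

/-- **The lattice of the divisibility conditions.** -/
theorem exists_basis (e : Fin s → Fin N → ℕ) :
    ∃ T : Matrix (Fin N) (Fin N) ℤ, T.det.natAbs = P.vol e ∧
      (∀ y, P.Divides e (T *ᵥ y)) ∧ ∀ x, P.Divides e x → ∃ y, T *ᵥ y = x := by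
  classical
  let I := fun p : Fin s × Fin N => Ideal.span {(P.base p.1 : P.ring p.1) ^ e p.1 p.2}
  let φ : (Fin N → ℤ) →ₗ[ℤ] ∀ p : Fin s × Fin N, P.ring p.1 ⧸ I p :=
    AddMonoidHom.toIntLinearMap
      { toFun := fun x p => Ideal.Quotient.mk (I p) ((P.mat p.1 *ᵥ intVec (P.ring p.1) x) p.2)
        map_zero' := funext fun p => by simp [mulVec, dotProduct]
        map_add' := fun x y => funext fun p => by
          simp only [Pi.add_apply, ← map_add]
          congr 1
          simp [intVec, mulVec, dotProduct, mul_add, sum_add_distrib] }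
  have hφ : ∀ x p,
      φ x p = Ideal.Quotient.mk (I p) ((P.mat p.1 *ᵥ intVec (P.ring p.1) x) p.2) := fun x p => rfl
  have hker : ∀ x, x ∈ LinearMap.ker φ ↔ P.Divides e x := fun x => by
    rw [LinearMap.mem_ker, funext_iff]
    simp only [hφ, Pi.zero_apply, I, Ideal.Quotient.eq_zero_iff_mem, Ideal.mem_span_singleton,
      Prod.forall]
    rfl
  set Mo : Fin s → ℕ := fun l => P.base l ^ ∑ i, e l i
  have hsurj : Function.Surjective φ := by
    intro t
    choose τ hτ using fun p : Fin s × Fin N => Ideal.Quotient.mk_surjective (t p)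
    choose a ha using fun (l : Fin s) (k : Fin N) =>
      P.exists_int l (∑ i, e l i) (((P.mat l)⁻¹ *ᵥ fun i => τ (l, i)) k)
    have hMo : ∀ l, Mo l ≠ 0 := fun l => pow_ne_zero _ (P.base_pos l).ne'
    set z : Fin N → ℤ := fun k => ((Nat.chineseRemainderOfFinset
      (fun l => (a l k % (Mo l : ℤ)).toNat) Mo univ (fun l _ => hMo l)
      (fun l _ l' _ hne => Nat.Coprime.pow _ _ (P.coprime hne))).1 : ℕ) with hz
    have hzmod : ∀ l k, ((Mo l : ℕ) : ℤ) ∣ z k - a l k := by
      intro l k
      have h := (Nat.chineseRemainderOfFinset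
        (fun l => (a l k % (Mo l : ℤ)).toNat) Mo univ (fun l _ => hMo l)
        (fun l _ l' _ hne => Nat.Coprime.pow _ _ (P.coprime hne))).2 l (mem_univ l)
      rw [← Int.natCast_modEq_iff, Int.toNat_of_nonneg
        (Int.emod_nonneg _ (by exact_mod_cast hMo l))] at h
      exact Int.modEq_iff_dvd.1 (h.trans (Int.mod_modEq _ _)).symm
    refine ⟨z, funext fun p => ?_⟩
    obtain ⟨l, i⟩ := p
    rw [hφ, ← hτ (l, i), Ideal.Quotient.eq, Ideal.mem_span_singleton]
    refine (pow_dvd_pow (P.base l : P.ring l)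
      (single_le_sum (f := fun i => e l i) (fun _ _ => Nat.zero_le _) (mem_univ i))).trans ?_
    have h1 : τ (l, i) = (P.mat l *ᵥ ((P.mat l)⁻¹ *ᵥ fun i => τ (l, i))) i := by
      rw [mulVec_mulVec, mul_nonsing_inv _ (P.isUnit_det l), one_mulVec]
    rw [h1, ← Pi.sub_apply, ← Matrix.mulVec_sub]
    simp only [mulVec, dotProduct, Pi.sub_apply]
    refine dvd_sum fun k _ => Dvd.dvd.mul_left ?_ _
    rw [← sub_add_sub_cancel (z k : P.ring l) (a l k : P.ring l), ← Int.cast_sub]
    refine dvd_add ?_ (dvd_sub_comm.1 (ha l k))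
    exact (P.pow_dvd_intCast_iff l _ _).2 (by exact_mod_cast hzmod l k)
  set Λ := LinearMap.ker φ
  have hrank : Module.finrank ℤ Λ = N :=
    finrank_eq_of_smul_mem (D := (P.vol e : ℤ)) (by exact_mod_cast (P.vol_pos e).ne')
      fun x => (hker _).2 fun l i => by
    rw [show intVec (P.ring l) ((P.vol e : ℤ) • x) = (P.vol e : P.ring l) • intVec (P.ring l) x
      from funext fun k => by simp [intVec], Matrix.mulVec_smul, Pi.smul_apply, smul_eq_mul]
    refine Dvd.dvd.mul_right ?_ _
    rw [← Nat.cast_pow]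
    exact Nat.cast_dvd_cast ((pow_dvd_pow _ (single_le_sum (f := fun i => e l i)
      (fun _ _ => Nat.zero_le _) (mem_univ i))).trans
      (dvd_prod_of_mem (fun l => P.base l ^ ∑ i, e l i) (mem_univ l)))
  set bN := Module.finBasisOfFinrankEq ℤ Λ hrank
  refine ⟨Matrix.of fun i j => (bN j : Fin N → ℤ) i, ?_, fun y => ?_, fun x hx => ?_⟩
  · have h := Submodule.natAbs_det_basis_change (Pi.basisFun ℤ (Fin N)) Λ bN
    rw [Module.Basis.det_apply] at h
    refine Eq.trans ?_ (h.trans ?_)
    · congr 2
    · rw [Nat.card_congr (φ.quotKerEquivOfSurjective hsurj).toEquiv, Nat.card_pi]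
      simp only [I, natCard_residues, vol, Fintype.prod_prod_type, prod_pow_eq_pow_sum]
  · refine (hker _).1 ?_
    have e' : (Matrix.of fun i j => (bN j : Fin N → ℤ) i) *ᵥ y =
        ∑ j, y j • (bN j : Fin N → ℤ) := by
      funext i
      simp [mulVec, dotProduct, mul_comm]
    rw [e']
    exact Submodule.sum_mem _ fun j _ => Submodule.smul_mem _ _ (bN j).2
  · refine ⟨fun j => bN.repr ⟨x, (hker x).2 hx⟩ j, ?_⟩
    have h := congrArg Subtype.val (bN.sum_repr ⟨x, (hker x).2 hx⟩)
    simp only [Submodule.coe_sum, Submodule.coe_smul] at h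
    funext i
    have hi := congrFun h i
    simp only [Finset.sum_apply, Pi.smul_apply, smul_eq_mul] at hi
    rw [← hi]
    simp [mulVec, dotProduct, mul_comm]

/-- The forms at the places on the exterior power. -/
def compound {p C : ℕ} (e : Fin C ≃ (Fin p ↪o Fin N)) : LocalPlaces s C where
  base := P.base
  two_le := P.two_le
  coprime := P.coprime
  ring := P.ring
  dvd_int := P.dvd_int
  exists_int := P.exists_int
  mat l := FA.Subspace.compound e (P.mat l)
  isUnit_det l := isUnit_det_compound e (P.isUnit_det l)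
  isAlgebraic l := isAlgebraic_int_compound e (P.isAlgebraic l)

theorem divides_wedge {p C : ℕ} (e : Fin C ≃ (Fin p ↪o Fin N))
    {ex : Fin s → Fin N → ℕ} {u : Fin p → Fin N → ℤ} (hu : ∀ i, P.Divides ex (u i)) :
    (P.compound e).Divides (fun l σ => ∑ j, ex l (e σ j)) (wedge e u) := by
  classical
  intro l σ
  show (P.base l : P.ring l) ^ (∑ j, ex l (e σ j)) ∣
    (FA.Subspace.compound e (P.mat l) *ᵥ intVec (P.ring l) (wedge e u)) σ
  rw [show intVec (P.ring l) (wedge e u) = wedge e fun i => intVec (P.ring l) (u i) from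
      funext fun σ => map_wedge (Int.castRingHom (P.ring l)) e u σ, compound_mulVec_wedge, wedge,
    ← det_transpose, det_apply]
  refine dvd_sum fun π _ => ?_
  rw [Units.smul_def, zsmul_eq_mul]
  refine Dvd.dvd.mul_left ?_ _
  simp only [transpose_apply, Matrix.of_apply]
  rw [← prod_pow_eq_pow_sum, ← Equiv.prod_comp π fun j => (P.base l : P.ring l) ^ ex l (e σ j)]
  exact prod_dvd_prod_of_dvd _ _ fun i _ => hu i l _

end LocalPlaces

namespace Places

variable (P : Places s N)

theorem base_pos (l : Fin s) : 0 < P.base l := two_pos.trans_le (P.two_le l)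

theorem log_base_pos (l : Fin s) : 0 < Real.log (P.base l : ℝ) := P.toLocal.log_base_pos l

/-- The forms at the `l`-th base are divisible by the given powers. -/
def Divides (e : Fin s → Fin N → ℕ) (x : Fin N → ℤ) : Prop :=
  ∀ l i, (P.base l : ℤ) ^ e l i ∣ (P.mat l *ᵥ x) i

theorem toLocal_divides {e : Fin s → Fin N → ℕ} {x : Fin N → ℤ} :
    P.toLocal.Divides e x ↔ P.Divides e x := Iff.rfl

/-- The product of all the powers. -/
def vol (e : Fin s → Fin N → ℕ) : ℕ := ∏ l, P.base l ^ ∑ i, e l i

theorem vol_pos (e : Fin s → Fin N → ℕ) : 0 < P.vol e := P.toLocal.vol_pos e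

/-- The least exponents for the logarithmic sizes `f l i * log Q`. -/
def minExp (f : Fin s → Fin N → ℝ) (Q : ℝ) (l : Fin s) (i : Fin N) : ℕ :=
  ⌈f l i * Real.log Q / Real.log (P.base l)⌉₊

end Places

/-- No finite place. -/
def Places.none (N : ℕ) : Places 0 N where
  base := Fin.elim0
  two_le l := l.elim0
  coprime l := l.elim0
  mat := Fin.elim0
  isUnit_det l := l.elim0

end FA.Subspace

end
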