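import Fermat.Agent.Subspace.Auxiliary
import Fermat.Agent.Subspace.Places
import Mathlib.Analysis.SpecialFunctions.Pow.Real

/-!
# The auxiliary polynomial vanishes on a product of hyperplanes

Where all linear forms are small, also at the finitely many places, the derivatives of small order
of the auxiliary polynomial are rational integers of absolute value less than a number that divides
them. They vanish at all small integral combinations of `n` such points in each block, hence on the
product of their spans.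
-/

set_option autoImplicit false

noncomputable section

namespace FA.Subspace

open MvPolynomial Finset FA.Roth

section Majorant

variable {σ : Type*} [Fintype σ] {τ : σ → ℝ}

/-- The sum of the absolute values of the terms at the point `τ`. -/
def wlen (τ : σ → ℝ) (F : MvPolynomial σ ℝ) : ℝ :=
  ∑ s ∈ F.support, |coeff s F| * ∏ p, τ p ^ s p

theorem prod_pow_nonneg (hτ : ∀ p, 0 ≤ τ p) (s : σ →₀ ℕ) : 0 ≤ ∏ p, τ p ^ s p :=
  prod_nonneg fun p _ => pow_nonneg (hτ p) _

theorem wlen_nonneg (hτ : ∀ p, 0 ≤ τ p) (F : MvPolynomial σ ℝ) : 0 ≤ wlen τ F :=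
  sum_nonneg fun s _ => mul_nonneg (abs_nonneg _) (prod_pow_nonneg hτ s)

theorem wlen_eq_sum {F : MvPolynomial σ ℝ} {t : Finset (σ →₀ ℕ)} (h : F.support ⊆ t) :
    wlen τ F = ∑ s ∈ t, |coeff s F| * ∏ p, τ p ^ s p :=
  sum_subset h fun s _ hs => by simp [notMem_support_iff.1 hs]

theorem abs_coeff_mul_le (hτ : ∀ p, 0 ≤ τ p) (F : MvPolynomial σ ℝ) (s : σ →₀ ℕ) :
    |coeff s F| * ∏ p, τ p ^ s p ≤ wlen τ F := by
  classical
  rw [wlen_eq_sum (subset_insert s F.support)]
  exact single_le_sum (f := fun s => |coeff s F| * ∏ p, τ p ^ s p)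
    (fun s _ => mul_nonneg (abs_nonneg _) (prod_pow_nonneg hτ s)) (mem_insert_self s _)

theorem wlen_monomial_le (hτ : ∀ p, 0 ≤ τ p) (s : σ →₀ ℕ) (c : ℝ) :
    wlen τ (monomial s c) ≤ |c| * ∏ p, τ p ^ s p := by
  classical
  rw [wlen_eq_sum (t := {s}) support_monomial_subset, sum_singleton, coeff_monomial, if_pos rfl]

theorem wlen_add_le (hτ : ∀ p, 0 ≤ τ p) (F G : MvPolynomial σ ℝ) :
    wlen τ (F + G) ≤ wlen τ F + wlen τ G := by
  classical
  rw [wlen_eq_sum (t := F.support ∪ G.support) support_add,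
    wlen_eq_sum (F := F) (t := F.support ∪ G.support) subset_union_left,
    wlen_eq_sum (F := G) (t := F.support ∪ G.support) subset_union_right, ← sum_add_distrib]
  refine sum_le_sum fun s _ => ?_
  rw [coeff_add, ← add_mul]
  exact mul_le_mul_of_nonneg_right (abs_add_le _ _) (prod_pow_nonneg hτ s)

theorem wlen_sum_le (hτ : ∀ p, 0 ≤ τ p) {ι : Type*} (t : Finset ι) (f : ι → MvPolynomial σ ℝ) :
    wlen τ (∑ i ∈ t, f i) ≤ ∑ i ∈ t, wlen τ (f i) :=
  le_sum_of_subadditive _ (by simp [wlen]) (wlen_add_le hτ) t f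

theorem wlen_mul_le (hτ : ∀ p, 0 ≤ τ p) (F G : MvPolynomial σ ℝ) :
    wlen τ (F * G) ≤ wlen τ F * wlen τ G := by
  classical
  have h : F * G = ∑ a ∈ F.support, ∑ b ∈ G.support, monomial (a + b) (coeff a F * coeff b G) := by
    conv_lhs => rw [as_sum F, as_sum G, sum_mul_sum]
    simp only [monomial_mul]
  rw [h]
  conv_rhs => rw [wlen, wlen, sum_mul_sum]
  refine (wlen_sum_le hτ _ _).trans (sum_le_sum fun a _ => (wlen_sum_le hτ _ _).trans
    (sum_le_sum fun b _ => (wlen_monomial_le hτ _ _).trans (le_of_eq ?_)))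
  simp only [abs_mul, Finsupp.add_apply, pow_add, prod_mul_distrib]
  ring

theorem wlen_C_le (hτ : ∀ p, 0 ≤ τ p) (c : ℝ) : wlen τ (C c) ≤ |c| := by
  rw [← monomial_zero']
  exact (wlen_monomial_le hτ 0 c).trans_eq (by simp)

theorem wlen_C_mul_X_le (hτ : ∀ p, 0 ≤ τ p) (c : ℝ) (p : σ) :
    wlen τ (C c * X p) ≤ |c| * τ p := by
  classical
  rw [C_mul_X_eq_monomial]
  refine (wlen_monomial_le hτ _ c).trans_eq ?_
  congr 1
  rw [prod_eq_single p (fun q _ hq => by simp [Finsupp.single_eq_of_ne hq])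
    (fun h => absurd (mem_univ p) h)]
  simp

/-- The substitution of polynomials of bounded size into a term. -/
theorem wlen_term_le (hτ : ∀ p, 0 ≤ τ p) {ι : Type*} [Fintype ι] (c : ℝ)
    (f : ι → MvPolynomial σ ℝ) (s : ι → ℕ) {W : ι → ℝ} (hW : ∀ i, wlen τ (f i) ≤ W i) :
    wlen τ (C c * ∏ i, f i ^ s i) ≤ |c| * ∏ i, W i ^ s i := by
  have hW0 : ∀ i, 0 ≤ W i := fun i => (wlen_nonneg hτ _).trans (hW i)
  refine (wlen_mul_le hτ _ _).trans (mul_le_mul (wlen_C_le hτ c) ?_ (wlen_nonneg hτ _)
    (abs_nonneg c))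
  have h1 : ∀ t : Finset ι, wlen τ (∏ i ∈ t, f i ^ s i) ≤ ∏ i ∈ t, W i ^ s i := by
    classical
    intro t
    induction t using Finset.induction with
    | empty => simpa using wlen_C_le hτ (1 : ℝ)
    | insert a t ha ih =>
      rw [prod_insert ha, prod_insert ha]
      refine (wlen_mul_le hτ _ _).trans (mul_le_mul ?_ ih (wlen_nonneg hτ _)
        (pow_nonneg (hW0 a) _))
      induction s a with
      | zero => simpa using wlen_C_le hτ (1 : ℝ)
      | succ k ihk =>
        rw [pow_succ, pow_succ]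
        exact (wlen_mul_le hτ _ _).trans (mul_le_mul ihk (hW a) (wlen_nonneg hτ _)
          (pow_nonneg (hW0 a) _))
  exact h1 univ

end Majorant

section Divisibility

variable {σ : Type*} [Fintype σ] {R : Type*} [CommRing R] {b : R} {T : σ → ℕ}

/-- The coefficient of `X ^ t` is divisible by `b ^ (K - ∑ T p * t p)`. -/
def DivBound (b : R) (K : ℕ) (T : σ → ℕ) (F : MvPolynomial σ R) : Prop :=
  ∀ t, b ^ (K - ∑ p, T p * t p) ∣ coeff t F

theorem DivBound.mul {K K' : ℕ} {F G : MvPolynomial σ R} (hF : DivBound b K T F)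
    (hG : DivBound b K' T G) : DivBound b (K + K') T (F * G) := by
  classical
  intro t
  rw [coeff_mul]
  refine dvd_sum ?_
  rintro ⟨u, v⟩ huv
  rw [mem_antidiagonal] at huv
  refine (pow_dvd_pow b ?_).trans (by rw [pow_add]; exact mul_dvd_mul (hF u) (hG v))
  simp only [← huv, Finsupp.add_apply, mul_add, sum_add_distrib]
  omega

theorem DivBound.one : DivBound b 0 T (1 : MvPolynomial σ R) := fun t => by simp

theorem DivBound.pow {K : ℕ} {F : MvPolynomial σ R} (hF : DivBound b K T F) (k : ℕ) :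
    DivBound b (K * k) T (F ^ k) := by
  induction k with
  | zero => simpa using DivBound.one
  | succ k ih => rw [Nat.mul_succ, pow_succ]; exact ih.mul hF

theorem DivBound.prod {ι : Type*} {K : ι → ℕ} {t : Finset ι} {F : ι → MvPolynomial σ R}
    (h : ∀ i ∈ t, DivBound b (K i) T (F i)) :
    DivBound b (∑ i ∈ t, K i) T (∏ i ∈ t, F i) := by
  classical
  induction t using Finset.induction with
  | empty => simpa using DivBound.one
  | insert a t ha ih =>
    rw [sum_insert ha, prod_insert ha]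
    exact (h a (mem_insert_self a t)).mul (ih fun i hi => h i (mem_insert_of_mem hi))

theorem divBound_linear {K : ℕ} {w : R} (hw : b ^ K ∣ w) {ι : Type*} [Fintype ι] (u : ι → R)
    (π : ι → σ) (hT : ∀ i, K ≤ T (π i)) : DivBound b K T (C w + ∑ i, C (u i) * X (π i)) := by
  classical
  intro t
  rw [coeff_add, coeff_sum, coeff_C]
  refine dvd_add ?_ (dvd_sum fun i _ => ?_)
  · split_ifs with h
    · exact (pow_dvd_pow b (Nat.sub_le _ _)).trans hw
    · exact dvd_zero _
  · rw [coeff_C_mul, coeff_X]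
    split_ifs with h
    · subst h
      have h1 : T (π i) * 1 ≤ ∑ p, T p * Finsupp.single (π i) 1 p := by
        refine le_of_eq_of_le ?_ (single_le_sum (f := fun p => T p * Finsupp.single (π i) 1 p)
          (fun _ _ => Nat.zero_le _) (mem_univ (π i)))
        simp
      rw [Nat.sub_eq_zero_of_le ((hT i).trans (by simpa using h1)), pow_zero]
      exact one_dvd _
    · simp

/-- The derivatives at a point with divisible forms are divisible. -/
theorem dvd_aeval_hasse {n m : ℕ} {P : MvPolynomial (Fin m × Fin (n + 1)) ℤ}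
    {U U' : Matrix (Fin (n + 1)) (Fin (n + 1)) R} (hU : U' * U = 1)
    {e : Fin m → Fin (n + 1) → ℕ} {T : Fin m → ℕ} (hT : ∀ h i, e h i ≤ T h)
    {z : Fin m × Fin (n + 1) → ℤ} (hz : ∀ h i, b ^ e h i ∣ ∑ k, U i k * (z (h, k) : R))
    {μ : Fin m × Fin (n + 1) →₀ ℕ} {K : ℕ}
    (hK : ∀ j, coeff j (aeval (linForm U') P) ≠ 0 →
      K ≤ (∑ p : Fin m × Fin (n + 1), e p.1 p.2 * j p) -
        ∑ p : Fin m × Fin (n + 1), T p.1 * μ p) :
    b ^ K ∣ ((aeval z (hasse μ P) : ℤ) : R) := by
  classical
  obtain ⟨Y, hY⟩ : ∃ Y : Fin m × Fin (n + 1) → MvPolynomial (Fin m × Fin (n + 1)) R,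
      ∀ p, Y p = ∑ k, C (U p.2 k) * (X (p.1, k) + C (z (p.1, k) : R)) := ⟨_, fun _ => rfl⟩
  have hid : aeval Y (aeval (linForm U') P) =
      taylor (fun p => (z p : R)) (MvPolynomial.map (Int.castRingHom R) P) := by
    rw [← AlgHom.restrictScalars_apply ℤ (aeval Y), comp_aeval_apply, FA.Roth.taylor,
      ← algebraMap_int_eq, aeval_map_algebraMap]
    congr 2
    funext p
    rw [AlgHom.restrictScalars_apply, linForm, map_sum]
    simp only [map_mul, aeval_C, aeval_X, MvPolynomial.algebraMap_eq]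
    simp only [hY, mul_sum, ← mul_assoc, ← map_mul]
    rw [sum_comm]
    simp only [← sum_mul, ← map_sum]
    have h1 : ∀ k, ∑ i, U' p.2 i * U i k = if p.2 = k then 1 else 0 := fun k => by
      have := congrFun (congrFun hU p.2) k
      rwa [Matrix.mul_apply, Matrix.one_apply] at this
    simp only [h1]
    rw [sum_eq_single p.2 (fun k _ hk => by simp [Ne.symm hk])
      (fun h => absurd (mem_univ p.2) h)]
    simp
  have hval : ((aeval z (hasse μ P) : ℤ) : R) =
      coeff μ (taylor (fun p => (z p : R)) (MvPolynomial.map (Int.castRingHom R) P)) := by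
    rw [coeff_taylor, hasse_map, eval_map, aeval_def, algebraMap_int_eq,
      ← eq_intCast (Int.castRingHom R) (eval₂ _ z _), eval₂_comp_left]
    rfl
  rw [hval, ← hid, aeval_def, eval₂_eq', coeff_sum]
  refine dvd_sum fun j hj => ?_
  rw [MvPolynomial.algebraMap_eq, coeff_C_mul]
  refine Dvd.dvd.mul_left ((pow_dvd_pow b (hK j (mem_support_iff.1 hj))).trans ?_) _
  refine (DivBound.prod (T := fun p : Fin m × Fin (n + 1) => T p.1) fun p _ =>
    (?_ : DivBound b (e p.1 p.2) (fun p : Fin m × Fin (n + 1) => T p.1) (Y p)).pow (j p)) μ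
  have hsplit : Y p = C (∑ k, U p.2 k * (z (p.1, k) : R)) + ∑ k, C (U p.2 k) * X (p.1, k) := by
    rw [hY, map_sum, ← sum_add_distrib]
    exact sum_congr rfl fun k _ => by rw [map_mul]; ring
  rw [hsplit]
  exact divBound_linear (hz p.1 p.2) _ _ fun k => hT p.1 p.2

/-- The substitution of a multiple of the forms. -/
theorem coeff_aeval_linForm_smul {n m : ℕ} {r : Fin m → ℕ}
    {P : MvPolynomial (Fin m × Fin (n + 1)) ℤ} (hP : MultiHom r P) (c : R)
    (A : Matrix (Fin (n + 1)) (Fin (n + 1)) R) (j : Fin m × Fin (n + 1) →₀ ℕ) :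
    coeff j (aeval (linForm (c • A)) P) = c ^ (∑ h, r h) * coeff j (aeval (linForm A) P) := by
  have h : linForm (m := m) (c • A) = fun p => C c * linForm A p := funext fun p => by
    simp [linForm, mul_sum, mul_assoc]
  rw [h, ← coeff_C_mul]
  congr 1
  rw [aeval_def, aeval_def, eval₂_eq', eval₂_eq', mul_sum]
  refine sum_congr rfl fun s hs => ?_
  simp only [mul_pow, prod_mul_distrib]
  rw [prod_pow_eq_pow_sum, hP.sum_eq (mem_support_iff.1 hs), ← map_pow]
  ring

end Divisibility

section Estimate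

variable {n m : ℕ}

/-- **The derivatives of small order vanish where all the forms are small.** -/
theorem aeval_hasse_eq_zero {r : Fin m → ℕ} (hr : ∀ h, 0 < r h)
    {P : MvPolynomial (Fin m × Fin (n + 1)) ℤ} (hP : MultiHom r P)
    {L A : Matrix (Fin (n + 1)) (Fin (n + 1)) ℝ} {d : ℕ} (hd : 0 < d)
    (hAL : A * L = (d : ℝ) • (1 : Matrix (Fin (n + 1)) (Fin (n + 1)) ℝ))
    {s : ℕ} (Pl : LocalPlaces s (n + 1)) {f : Fin s → Fin (n + 1) → ℝ} (hf : ∀ l i, 0 ≤ f l i)
    {c : Fin (n + 1) → ℝ} (hc : ∑ i, c i = ∑ l, ∑ i, f l i) {η ε Bf : ℝ} (hη : 0 < η) (hε : 0 < ε)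
    (hBf : 0 ≤ Bf) (hεc : 16 * (∑ i, |c i| + η + 1 + ((∑ l, ∑ i, f l i) + Bf * s)) * ε ≤ η)
    {Q : Fin m → ℝ} (hQ : ∀ h, 1 ≤ Q h)
    {E : ℝ} (hE0 : 0 ≤ E) (hE : ∀ h, E ≤ r h * Real.log (Q h))
    (hE' : ∀ h, (r h : ℝ) * Real.log (Q h) ≤ (1 + ε) * E)
    (hgood : ∀ j i, ε * m ≤ |∑ h, (j (h, i) : ℝ) / r h - m / (n + 1)| →
      (∀ l, coeff j (aeval (linForm (Pl.mat l)⁻¹) P) = 0) ∧ coeff j (aeval (linForm A) P) = 0)
    {e : Fin m → Fin s → Fin (n + 1) → ℕ}
    (he : ∀ h l i, f l i * Real.log (Q h) ≤ e h l i * Real.log (Pl.base l))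
    (he' : ∀ h l i, (e h l i : ℝ) * Real.log (Pl.base l) ≤ Bf * Real.log (Q h))
    {z : Fin m × Fin (n + 1) → ℤ} (hdiv : ∀ h, Pl.Divides (e h) fun k => z (h, k))
    {Z : ℝ} (hZ : 1 ≤ Z)
    (hz : ∀ h i, |∑ k, L i k * (z (h, k) : ℝ)| ≤ Z * Q h ^ (c i - η))
    (hsmall : len P * ((1 + ∑ k, ∑ i, |A k i|) * (Z + ∑ i, ∑ k, |L i k|)) ^ (∑ h, r h) *
      Real.exp (-(η * m * E / 2)) < 1)
    {μ : Fin m × Fin (n + 1) →₀ ℕ} (hμ : weight (fun p : Fin m × Fin (n + 1) => r p.1) μ < ε * m) :
    aeval z (hasse μ P) = 0 := by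
  classical
  set S := ∑ h, r h with hS
  set FF := ∑ l, ∑ i, f l i with hFF
  have hFF0 : 0 ≤ FF := sum_nonneg fun l _ => sum_nonneg fun i _ => hf l i
  set cc := ∑ i, |c i| + η + 1 + (FF + Bf * s) with hcc
  set WA := 1 + ∑ k, ∑ i, |A k i| with hWA
  set ZL := Z + ∑ i, ∑ k, |L i k| with hZL
  have hcc0 : 0 < cc := by positivity
  have hε1 : ε ≤ 1 := by
    nlinarith [sum_nonneg fun i (_ : i ∈ univ) => abs_nonneg (c i),
      mul_nonneg hBf (Nat.cast_nonneg (α := ℝ) s)]
  have hci : ∀ i, -cc ≤ c i - η ∧ |c i - η| ≤ cc := fun i => by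
    have h1 : |c i| ≤ ∑ i, |c i| :=
      single_le_sum (f := fun i => |c i|) (fun _ _ => abs_nonneg _) (mem_univ i)
    have h2 := neg_abs_le (c i)
    have h3 := le_abs_self (c i)
    have h4 : 0 ≤ FF + Bf * s := by positivity
    exact ⟨by linarith, abs_le.2 ⟨by linarith, by linarith⟩⟩
  set lQ := fun h => Real.log (Q h) with hlQ
  have hQ0 : ∀ h, 0 < Q h := fun h => zero_lt_one.trans_le (hQ h)
  have hlQ0 : ∀ h, 0 ≤ lQ h := fun h => Real.log_nonneg (hQ h)
  set τ : Fin m × Fin (n + 1) → ℝ := fun p => Real.exp (-(cc * lQ p.1)) with hτ_def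
  have hτ : ∀ p, 0 ≤ τ p := fun p => (Real.exp_pos _).le
  set G := aeval (linForm (m := m) A) P with hG
  obtain ⟨Y, hY⟩ : ∃ Y : Fin m × Fin (n + 1) → MvPolynomial (Fin m × Fin (n + 1)) ℝ,
      ∀ p, Y p = ∑ k, C (L p.2 k) * (X (p.1, k) + C (z (p.1, k) : ℝ)) := ⟨_, fun _ => rfl⟩
  -- the identity
  have hid : aeval Y G =
      C ((d : ℝ) ^ S) * taylor (fun p => (z p : ℝ)) (MvPolynomial.map (Int.castRingHom ℝ) P) := by
    have hin : ∀ p : Fin m × Fin (n + 1), aeval Y (linForm A p) =
        C (d : ℝ) * (X p + C (z p : ℝ)) := by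
      intro p
      rw [linForm, map_sum]
      simp only [map_mul, aeval_C, aeval_X, MvPolynomial.algebraMap_eq]
      simp only [hY, mul_sum, ← mul_assoc, ← map_mul]
      rw [sum_comm]
      simp only [← sum_mul, ← map_sum]
      have h1 : ∀ k, ∑ i, A p.2 i * L i k = if p.2 = k then (d : ℝ) else 0 := fun k => by
        have := congrFun (congrFun hAL p.2) k
        simp only [Matrix.mul_apply, Matrix.smul_apply, Matrix.one_apply, smul_eq_mul] at this
        rw [this]
        split_ifs <;> simp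
      simp only [h1]
      rw [sum_eq_single p.2 (fun k _ hk => by simp [Ne.symm hk])
        (fun h => absurd (mem_univ p.2) h)]
      simp
    rw [hG, ← AlgHom.restrictScalars_apply ℤ (aeval Y), comp_aeval_apply]
    simp only [AlgHom.restrictScalars_apply, hin]
    rw [FA.Roth.taylor, ← algebraMap_int_eq, aeval_map_algebraMap, aeval_def, aeval_def,
      eval₂_eq', eval₂_eq', mul_sum]
    refine sum_congr rfl fun s hs => ?_
    simp only [mul_pow, prod_mul_distrib]
    rw [prod_pow_eq_pow_sum, hP.sum_eq (mem_support_iff.1 hs), ← map_pow]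
    ring
  have hval : coeff μ (aeval Y G) = (d : ℝ) ^ S * ((aeval z (hasse μ P) : ℤ) : ℝ) := by
    rw [hid, coeff_C_mul, coeff_taylor, hasse_map, eval_map, aeval_def, algebraMap_int_eq]
    congr 1
    rw [← eq_intCast (Int.castRingHom ℝ) (eval₂ _ z _), eval₂_comp_left]
    rfl
  -- the estimate
  have hYb : ∀ p, wlen τ (Y p) ≤ ZL * Q p.1 ^ (c p.2 - η) := by
    intro p
    have hsplit : Y p = C (∑ k, L p.2 k * (z (p.1, k) : ℝ)) + ∑ k, C (L p.2 k) * X (p.1, k) := by
      rw [hY, map_sum, ← sum_add_distrib]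
      exact sum_congr rfl fun k _ => by rw [map_mul]; ring
    rw [hsplit, hZL, add_mul]
    refine (wlen_add_le hτ _ _).trans (add_le_add ((wlen_C_le hτ _).trans (hz p.1 p.2)) ?_)
    refine (wlen_sum_le hτ _ _).trans ((sum_le_sum fun k _ => wlen_C_mul_X_le hτ _ _).trans ?_)
    rw [show ∑ k, |L p.2 k| * τ (p.1, k) = (∑ k, |L p.2 k|) * τ p by
      rw [sum_mul]]
    refine mul_le_mul (single_le_sum (f := fun i => ∑ k, |L i k|)
      (fun _ _ => sum_nonneg fun _ _ => abs_nonneg _) (mem_univ p.2)) ?_ (hτ p)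
      (sum_nonneg fun _ _ => sum_nonneg fun _ _ => abs_nonneg _)
    rw [Real.rpow_def_of_pos (hQ0 _), hτ_def]
    refine Real.exp_le_exp.2 ?_
    have := mul_le_mul_of_nonneg_right (hci p.2).1 (hlQ0 p.1)
    simp only [hlQ] at this ⊢
    linarith
  have hterm : ∀ j ∈ G.support, (∏ p, (ZL * Q p.1 ^ (c p.2 - η)) ^ j p) ≤
      ZL ^ S * Real.exp (E * m * (FF / (n + 1) + 2 * cc * ε - η)) := by
    intro j hj
    have hj0 := mem_support_iff.1 hj
    have hjr := multiHom_aeval_linForm A hP j hj0
    simp only [mul_pow, prod_mul_distrib]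
    rw [prod_pow_eq_pow_sum, (multiHom_aeval_linForm A hP).sum_eq hj0]
    refine mul_le_mul_of_nonneg_left ?_ (pow_nonneg (by positivity) _)
    simp only [Real.rpow_def_of_pos (hQ0 _), ← Real.exp_nat_mul, ← Real.exp_sum,
      Real.exp_le_exp]
    rw [Fintype.sum_prod_type]
    set J := fun i => ∑ h, (j (h, i) : ℝ) / r h with hJ
    have hsum1 : ∀ h, ∑ i, (j (h, i) : ℝ) / r h = 1 := fun h => by
      rw [← sum_div, div_eq_one_iff_eq (by exact_mod_cast (hr h).ne')]
      exact_mod_cast hjr h
    calc ∑ h, ∑ i, (j (h, i) : ℝ) * (Real.log (Q h) * (c i - η))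
        = ∑ h, ∑ i, (c i - η) * ((j (h, i) : ℝ) / r h) * E +
          ∑ h, (∑ i, (c i - η) * ((j (h, i) : ℝ) / r h)) * (r h * lQ h - E) := by
          rw [← sum_add_distrib]
          refine sum_congr rfl fun h _ => ?_
          rw [sum_mul, ← sum_add_distrib]
          refine sum_congr rfl fun i _ => ?_
          have hrh : (r h : ℝ) ≠ 0 := by exact_mod_cast (hr h).ne'
          simp only [hlQ]
          field_simp
          ring
      _ ≤ (FF * (m / (n + 1)) + ∑ i, |c i| * (ε * m) - η * m) * E +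
          ∑ _h : Fin m, cc * (ε * E) := by
          refine add_le_add ?_ (sum_le_sum fun h _ => ?_)
          · rw [sum_comm]
            simp only [← sum_mul, ← mul_sum]
            refine mul_le_mul_of_nonneg_right ?_ hE0
            have hJsum : ∑ i, J i = m := by
              rw [hJ, sum_comm]
              simp [hsum1]
            calc ∑ i, (c i - η) * J i =
                  FF * (m / (n + 1)) + ∑ i, c i * (J i - m / (n + 1)) - η * m := by
                  simp only [sub_mul, mul_sub, sum_sub_distrib, ← mul_sum, ← sum_mul, hc, hJsum]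
                  ring
              _ ≤ FF * (m / (n + 1)) + ∑ i, |c i| * (ε * m) - η * m := by
                  refine sub_le_sub_right (add_le_add le_rfl
                    (sum_le_sum fun i _ => (le_abs_self _).trans ?_)) _
                  rw [abs_mul]
                  refine mul_le_mul_of_nonneg_left (le_of_lt ?_) (abs_nonneg _)
                  exact not_le.1 fun h => hj0 (hgood j i h).2
              _ = _ := by rw [sum_mul univ (fun i => |c i|)]
          · refine (le_abs_self _).trans ?_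
            rw [abs_mul]
            refine mul_le_mul ?_ ?_ (abs_nonneg _) hcc0.le
            · refine (abs_sum_le_sum_abs _ _).trans ((sum_le_sum
                (g := fun i => cc * ((j (h, i) : ℝ) / r h)) fun i _ => ?_).trans_eq
                (by rw [← mul_sum, hsum1, mul_one]))
              rw [abs_mul, abs_of_nonneg (show (0 : ℝ) ≤ (j (h, i) : ℝ) / r h by positivity)]
              exact mul_le_mul_of_nonneg_right (hci i).2 (by positivity)
            · rw [abs_of_nonneg (by linarith [hE h])]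
              linarith [hE' h]
      _ ≤ E * m * (FF / (n + 1) + 2 * cc * ε - η) := by
          rw [← sum_mul]
          have h1 : (∑ i, |c i|) ≤ cc := by
            linarith [show 0 ≤ FF + Bf * s by positivity]
          have h2 := mul_le_mul_of_nonneg_right h1 (show 0 ≤ ε * m * E by positivity)
          simp only [sum_const, card_univ, Fintype.card_fin, nsmul_eq_mul]
          ring_nf at h2 ⊢
          linarith
  have hlenG : ∑ j ∈ G.support, |coeff j G| ≤ len P * WA ^ S := by
    have h1 : wlen (fun _ => (1 : ℝ)) G = ∑ j ∈ G.support, |coeff j G| := by simp [wlen]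
    rw [← h1, hG, aeval_def, eval₂_eq', len, sum_mul]
    refine (wlen_sum_le (fun _ => zero_le_one) _ _).trans (sum_le_sum fun s hs => ?_)
    rw [show (algebraMap ℤ (MvPolynomial (Fin m × Fin (n + 1)) ℝ)) (coeff s P) =
      C ((coeff s P : ℤ) : ℝ) by simp]
    refine (wlen_term_le (fun _ => zero_le_one) _ _ _ (W := fun _ => WA) fun p => ?_).trans
      (le_of_eq ?_)
    · refine (wlen_sum_le (fun _ => zero_le_one) _ _).trans ((sum_le_sum fun i _ =>
        wlen_C_mul_X_le (fun _ => zero_le_one) _ _).trans ?_)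
      simp only [mul_one, hWA]
      refine le_trans ?_ (le_add_of_nonneg_left zero_le_one)
      exact single_le_sum (f := fun k => ∑ i, |A k i|)
        (fun _ _ => sum_nonneg fun _ _ => abs_nonneg _) (mem_univ p.2)
    · rw [prod_pow_eq_pow_sum, hP.sum_eq (mem_support_iff.1 hs)]
  have hwY : wlen τ (aeval Y G) ≤
      len P * WA ^ S * (ZL ^ S * Real.exp (E * m * (FF / (n + 1) + 2 * cc * ε - η))) := by
    rw [aeval_def, eval₂_eq']
    refine (wlen_sum_le hτ _ _).trans ((sum_le_sum (g := fun j =>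
      |coeff j G| * (ZL ^ S * Real.exp (E * m * (FF / (n + 1) + 2 * cc * ε - η))))
      fun j hj => ?_).trans ?_)
    · rw [MvPolynomial.algebraMap_eq]
      exact (wlen_term_le hτ _ _ _ hYb).trans
        (mul_le_mul_of_nonneg_left (hterm j hj) (abs_nonneg _))
    · rw [← sum_mul]
      exact mul_le_mul_of_nonneg_right hlenG (by positivity)
  have hpen : Real.exp (-(E * m * (2 * cc * ε))) ≤ ∏ p, τ p ^ μ p := by
    simp only [hτ_def, ← Real.exp_nat_mul, ← Real.exp_sum, Real.exp_le_exp]
    calc -(E * m * (2 * cc * ε)) ≤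
          -(cc * ((1 + ε) * E * weight (fun p : Fin m × Fin (n + 1) => r p.1) μ)) := by
          rw [neg_le_neg_iff]
          have h1 := mul_le_mul (mul_le_mul_of_nonneg_right (show 1 + ε ≤ 2 by linarith) hE0)
            hμ.le (weight_nonneg _ _) (by positivity)
          have := mul_le_mul_of_nonneg_left h1 hcc0.le
          linarith
      _ ≤ _ := by
          rw [weight, mul_sum, mul_sum, ← sum_neg_distrib]
          refine sum_le_sum fun p _ => ?_
          have hrh : (0 : ℝ) < r p.1 := by exact_mod_cast hr p.1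
          have h1 := mul_le_mul_of_nonneg_left (hE' p.1)
            (show 0 ≤ (μ p : ℝ) / r p.1 * cc by positivity)
          have h2 : (μ p : ℝ) / r p.1 * cc * (r p.1 * Real.log (Q p.1)) =
              (μ p : ℝ) * (cc * Real.log (Q p.1)) := by field_simp
          simp only [hlQ]
          linarith
  by_contra hne
  -- the divisibility
  set lb := fun l => Real.log (Pl.base l : ℝ) with hlb
  have hlb0 : ∀ l, 0 < lb l := Pl.log_base_pos
  set Rl := fun l => E * m * ((∑ i, f l i) / (n + 1) - ε * ∑ i, f l i - 2 * Bf * ε) with hRl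
  set K : Fin s → ℕ := fun l => ⌈Rl l / lb l⌉₊ with hK
  have hdvd : ∀ l, ((Pl.base l : ℤ)) ^ K l ∣ aeval z (hasse μ P) := by
    intro l
    refine Pl.dvd_int l _ _ (dvd_aeval_hasse (U := Pl.mat l) (U' := (Pl.mat l)⁻¹)
      (Matrix.nonsing_inv_mul _ (Pl.isUnit_det l)) (e := fun h i => e h l i)
      (T := fun h => univ.sup fun i => e h l i)
      (fun h i => le_sup (f := fun i => e h l i) (mem_univ i)) (fun h i => hdiv h l i)
      (fun j hj => ?_))
    set X₁ := ∑ p : Fin m × Fin (n + 1), e p.1 l p.2 * j p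
    set X₂ := ∑ p : Fin m × Fin (n + 1), (univ.sup fun i => e p.1 l i) * μ p
    have hX₁ : E * m * ((∑ i, f l i) / (n + 1) - ε * ∑ i, f l i) ≤ (X₁ : ℝ) * lb l := by
      calc E * m * ((∑ i, f l i) / (n + 1) - ε * ∑ i, f l i)
          = ∑ i, f l i * ((m : ℝ) / (n + 1) - ε * m) * E := by
            simp only [← sum_mul]
            ring
        _ ≤ ∑ i, f l i * (∑ h, (j (h, i) : ℝ) / r h) * E := by
            refine sum_le_sum fun i _ => mul_le_mul_of_nonneg_right
              (mul_le_mul_of_nonneg_left ?_ (hf l i)) hE0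
            have h := not_le.1 fun h => hj ((hgood j i h).1 l)
            linarith [(abs_lt.1 h).1]
        _ = ∑ h, ∑ i, f l i * ((j (h, i) : ℝ) / r h) * E := by
            rw [sum_comm]
            exact sum_congr rfl fun i _ => by rw [mul_sum, sum_mul]
        _ ≤ ∑ h, ∑ i, (e h l i : ℝ) * lb l * j (h, i) := by
            refine sum_le_sum fun h _ => sum_le_sum fun i _ => ?_
            have hrh : (0 : ℝ) < r h := by exact_mod_cast hr h
            have h1 := mul_le_mul_of_nonneg_left (hE h)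
              (show 0 ≤ f l i * ((j (h, i) : ℝ) / r h) from mul_nonneg (hf l i) (by positivity))
            refine h1.trans (le_trans (le_of_eq ?_)
              (mul_le_mul_of_nonneg_right (he h l i) (Nat.cast_nonneg _)))
            field_simp
        _ = _ := by
            simp only [X₁, Fintype.sum_prod_type]
            push_cast
            rw [sum_mul]
            exact sum_congr rfl fun h _ => by
              rw [sum_mul]; exact sum_congr rfl fun i _ => by ring
    have hX₂ : (X₂ : ℝ) * lb l ≤ E * m * (2 * Bf * ε) := by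
      calc (X₂ : ℝ) * lb l
          = ∑ p : Fin m × Fin (n + 1), ((univ.sup fun i => e p.1 l i : ℕ) : ℝ) * lb l * μ p := by
            simp only [X₂]
            push_cast
            rw [sum_mul]
            exact sum_congr rfl fun p _ => by ring
        _ ≤ ∑ p : Fin m × Fin (n + 1), Bf * ((1 + ε) * E) * ((μ p : ℝ) / r p.1) := by
            refine sum_le_sum fun p _ => ?_
            have hrh : (0 : ℝ) < r p.1 := by exact_mod_cast hr p.1
            obtain ⟨i, -, hi⟩ := exists_mem_eq_sup univ univ_nonempty fun i => e p.1 l i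
            rw [hi]
            refine (mul_le_mul_of_nonneg_right (he' p.1 l i) (Nat.cast_nonneg _)).trans ?_
            have h1 := mul_le_mul_of_nonneg_left (hE' p.1)
              (show 0 ≤ Bf * ((μ p : ℝ) / r p.1) by positivity)
            refine le_of_eq_of_le ?_ (h1.trans_eq (by ring))
            field_simp
        _ ≤ _ := by
            rw [← mul_sum]
            refine (mul_le_mul (mul_le_mul_of_nonneg_left (mul_le_mul_of_nonneg_right
              (show 1 + ε ≤ 2 by linarith) hE0) hBf) hμ.le (weight_nonneg _ _)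
              (by positivity)).trans_eq ?_
            ring
    refine Nat.ceil_le.2 ?_
    rw [div_le_iff₀ (hlb0 l)]
    have h1 : (X₁ : ℝ) ≤ ((X₁ - X₂ : ℕ) : ℝ) + X₂ := by exact_mod_cast le_tsub_add
    have h2 := mul_le_mul_of_nonneg_right h1 (hlb0 l).le
    simp only [hRl]
    linarith
  have hbig : Real.exp (∑ l, Rl l) ≤ |((aeval z (hasse μ P) : ℤ) : ℝ)| := by
    have hall : ∏ l, (Pl.base l : ℤ) ^ K l ∣ aeval z (hasse μ P) := by
      refine Fintype.prod_dvd_of_coprime (fun l l' hll => IsCoprime.pow ?_) hdvd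
      exact Int.isCoprime_iff_gcd_eq_one.2 (Pl.coprime hll)
    have h1 := Int.le_of_dvd (abs_pos.2 hne) ((dvd_abs _ _).2 hall)
    have h2 : Real.exp (∑ l, Rl l) ≤ ∏ l, (Pl.base l : ℝ) ^ K l := by
      rw [Real.exp_sum]
      refine prod_le_prod (fun l _ => (Real.exp_pos _).le) fun l _ => ?_
      rw [← Real.le_log_iff_exp_le (pow_pos (by exact_mod_cast Pl.base_pos l) _), Real.log_pow]
      exact (div_le_iff₀ (hlb0 l)).1 (Nat.le_ceil _)
    refine h2.trans ?_
    exact_mod_cast h1
  have h1 : Real.exp (∑ l, Rl l) ≤ |coeff μ (aeval Y G)| := by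
    rw [hval, abs_mul, abs_pow, Nat.abs_cast]
    exact hbig.trans (le_mul_of_one_le_left (abs_nonneg _) (one_le_pow₀ (by exact_mod_cast hd)))
  have hRsum : E * m * (FF / (n + 1) - 2 * cc * ε) ≤ ∑ l, Rl l := by
    simp only [hRl, ← mul_sum, sum_sub_distrib, ← sum_div, sum_const, card_univ,
      Fintype.card_fin, nsmul_eq_mul, ← hFF]
    refine mul_le_mul_of_nonneg_left ?_ (by positivity)
    have h3 : FF + 2 * Bf * s ≤ 2 * cc := by
      linarith [sum_nonneg fun i (_ : i ∈ univ) => abs_nonneg (c i)]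
    have h4 := mul_le_mul_of_nonneg_right h3 hε.le
    linarith
  have h2 : Real.exp (E * m * (FF / (n + 1) - 4 * cc * ε)) ≤
      len P * WA ^ S * (ZL ^ S * Real.exp (E * m * (FF / (n + 1) + 2 * cc * ε - η))) := by
    refine le_trans ?_ ((mul_le_mul ((Real.exp_le_exp.2 hRsum).trans h1) hpen (Real.exp_pos _).le
      (abs_nonneg _)).trans ((abs_coeff_mul_le hτ _ μ).trans hwY))
    rw [← Real.exp_add]
    exact le_of_eq (by ring_nf)
  refine not_lt.2 ?_ hsmall
  rw [mul_pow, ← mul_assoc]
  refine le_of_mul_le_mul_right ?_ (Real.exp_pos (E * m * (FF / (n + 1) - 4 * cc * ε)))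
  rw [one_mul]
  refine h2.trans ?_
  rw [← mul_assoc, mul_assoc _ (Real.exp (-(η * m * E / 2))), ← Real.exp_add]
  refine mul_le_mul_of_nonneg_left (Real.exp_le_exp.2 ?_)
    (mul_nonneg (mul_nonneg (len_nonneg P) (by positivity)) (by positivity))
  have := mul_le_mul_of_nonneg_left hεc (mul_nonneg hE0 (Nat.cast_nonneg (α := ℝ) m))
  have h5 : 0 ≤ E * m * (cc * ε) := by positivity
  linarith

end Estimate

section Interpolation

/-- A polynomial with more zeros, counted with multiplicities, than its degrees on a grid. -/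
theorem eq_zero_of_vanish : ∀ {N : ℕ} {d t : Fin N → ℕ} {K : ℕ} {F : MvPolynomial (Fin N) ℤ},
    BoxDeg d F → (∀ p, d p < (K + 1) * t p) →
    (∀ (a : Fin N → Fin (K + 1)) (ν : Fin N →₀ ℕ), (∀ p, ν p < t p) →
      coeff ν (taylor (fun p => ((a p : ℕ) : ℤ)) F) = 0) → F = 0 := by
  intro N
  induction N with
  | zero =>
    intro d t K F _ _ hvan
    by_contra hF
    obtain ⟨ν, hν⟩ := ne_zero_iff.1 (taylor_ne_zero (fun p : Fin 0 => ((p : ℕ) : ℤ)) hF)
    exact hν ((congrArg (fun a => coeff ν (taylor a F)) (funext fun p => p.elim0)).trans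
      (hvan Fin.elim0 ν fun p => p.elim0))
  | succ N ih =>
    intro d t K F hbox hdt hvan
    have hdec : F = ∑ j ∈ range (d 0 + 1), sep (slice j F) (Polynomial.X ^ j) := by
      refine ext_cons fun i μ => ?_
      simp only [coeff_sum, coeff_sep, Polynomial.coeff_X_pow, ite_mul, one_mul, zero_mul,
        sum_ite_eq, mem_range]
      split_ifs with h
      · rw [coeff_slice]
      · by_contra hne
        exact h (Nat.lt_succ_of_le (by simpa using hbox _ hne 0))
    have hall : ∀ j, slice j F = 0 := by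
      intro j
      refine ih (hbox.slice j) (fun p => hdt p.succ) fun a ν hν => ?_
      set f : ℕ → ℤ := fun i => coeff ν (taylor (fun p => ((a p : ℕ) : ℤ)) (slice i F))
      set p : Polynomial ℤ := ∑ i ∈ range (d 0 + 1), Polynomial.C (f i) * Polynomial.X ^ i with hp
      have hpd : p.natDegree ≤ d 0 := Polynomial.natDegree_sum_le_of_forall_le _ _ fun i hi =>
        (Polynomial.natDegree_C_mul_X_pow_le _ _).trans (Nat.lt_succ_iff.1 (mem_range.1 hi))
      have hroot : ∀ a₀ : Fin (K + 1), ∀ i < t 0,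
          (Polynomial.taylor ((a₀ : ℕ) : ℤ) p).coeff i = 0 := by
        intro a₀ i hi
        rw [← hvan (Fin.cons a₀ a) (Finsupp.cons i ν) (Fin.cases (by simpa using hi)
          (fun q => by simpa using hν q)), congrArg (taylor _) hdec]
        simp only [map_sum, coeff_sum, taylor_sep, coeff_sep, hp, map_sum, Polynomial.taylor_mul,
          Polynomial.taylor_C, Polynomial.finsetSum_coeff, Polynomial.coeff_C_mul, Fin.cons_zero]
        refine sum_congr rfl fun k _ => ?_
        rw [mul_comm]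
        rfl
      have hp0 : p = 0 := by
        by_contra hp0
        set Rt : Finset ℤ := univ.image fun a₀ : Fin (K + 1) => ((a₀ : ℕ) : ℤ) with hRt
        have hcard : Rt.card = K + 1 := by
          rw [hRt, card_image_of_injective _ fun x y e => Fin.ext (by exact_mod_cast e), card_univ,
            Fintype.card_fin]
        have h1 : ∀ x ∈ Rt, t 0 ≤ p.roots.count x := by
          intro x hx
          obtain ⟨a₀, -, rfl⟩ := mem_image.1 hx
          rw [Polynomial.count_roots]
          refine (Polynomial.le_rootMultiplicity_iff hp0).2 (Thue.pow_dvd_iff.2 fun i hi => ?_)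
          rw [← Polynomial.taylor_coeff]
          exact hroot a₀ i hi
        have h2 : (K + 1) * t 0 ≤ Multiset.card p.roots := by
          rw [← hcard, ← smul_eq_mul, ← sum_const, ← Multiset.toFinset_sum_count_eq]
          refine (sum_le_sum h1).trans (sum_le_sum_of_ne_zero fun x _ hx => ?_)
          rwa [Multiset.mem_toFinset, ← Multiset.count_ne_zero]
        have h3 := (h2.trans (Polynomial.card_roots' p)).trans hpd
        exact absurd (hdt 0) (not_lt.2 h3)
      by_cases hj : j < d 0 + 1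
      · have h := congrArg (fun q => Polynomial.coeff q j) hp0
        simpa [hp, Polynomial.coeff_X_pow, hj, f] using h
      · have h : slice j F = 0 := by
          refine MvPolynomial.ext _ _ fun μ => ?_
          rw [coeff_slice, coeff_zero]
          by_contra hne
          exact hj (Nat.lt_succ_of_le (by simpa using hbox _ hne 0))
        rw [h, map_zero, coeff_zero]
    rw [hdec]
    exact sum_eq_zero fun j _ => by simp [hall j, sep]

/-- The same for any finite set of variables. -/
theorem eq_zero_of_vanish_fintype {σ : Type*} [Fintype σ] {d t : σ → ℕ} {K : ℕ}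
    {F : MvPolynomial σ ℤ} (hF : BoxDeg d F) (hdt : ∀ p, d p < (K + 1) * t p)
    (hvan : ∀ (a : σ → Fin (K + 1)) (ν : σ →₀ ℕ), (∀ p, ν p < t p) →
      coeff ν (taylor (fun p => ((a p : ℕ) : ℤ)) F) = 0) : F = 0 := by
  classical
  set e := Fintype.equivFin σ
  have hinj : Function.Injective (rename e : MvPolynomial σ ℤ → _) :=
    rename_injective _ e.injective
  refine hinj ((eq_zero_of_vanish (d := d ∘ e.symm) (t := t ∘ e.symm) (K := K) ?_
    (fun q => hdt _) fun a ν hν => ?_).trans (map_zero _).symm)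
  · intro s hs q
    obtain ⟨u, rfl, hu⟩ := coeff_rename_ne_zero _ _ _ hs
    have := hF u hu (e.symm q)
    rwa [← Finsupp.mapDomain_apply e.injective u (e.symm q), e.apply_symm_apply] at this
  · have h1 : (taylor fun q => ((a q : ℕ) : ℤ)).comp (rename e) =
        (rename e).comp (taylor fun p : σ => ((a (e p) : ℕ) : ℤ)) :=
      MvPolynomial.algHom_ext fun p => by simp [taylor]
    have hν' : Finsupp.mapDomain e (Finsupp.mapDomain e.symm ν) = ν := by
      rw [← Finsupp.mapDomain_comp, e.self_comp_symm, Finsupp.mapDomain_id]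
    rw [show taylor _ (rename e F) = rename e (taylor (fun p => ((a (e p) : ℕ) : ℤ)) F) from
      DFunLike.congr_fun h1 F, ← hν', coeff_rename_mapDomain _ e.injective]
    refine hvan (fun p => a (e p)) _ fun p => ?_
    rw [show p = e.symm (e p) from (e.symm_apply_apply p).symm,
      Finsupp.mapDomain_apply e.symm.injective]
    exact hν (e p)

end Interpolation

/-- **The index on a product of hyperplanes.** -/
theorem aeval_hasse_span_eq_zero {n m : ℕ} {r : Fin m → ℕ} (hr : ∀ h, 0 < r h)
    {P : MvPolynomial (Fin m × Fin (n + 1)) ℤ} (hP : MultiHom r P)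
    (g : Fin m → Fin n → Fin (n + 1) → ℤ) {ε : ℝ} {K : ℕ} (hK : 2 * (n : ℝ) < ε * (K + 1))
    (hε : 0 < ε)
    (hvan : ∀ (a : Fin m × Fin n → Fin (K + 1)) (μ : Fin m × Fin (n + 1) →₀ ℕ),
      weight (fun p : Fin m × Fin (n + 1) => r p.1) μ < ε * m →
        aeval (fun p => ∑ j, ((a (p.1, j) : ℕ) : ℤ) * g p.1 j p.2) (hasse μ P) = 0)
    {μ : Fin m × Fin (n + 1) →₀ ℕ}
    (hμ : weight (fun p : Fin m × Fin (n + 1) => r p.1) μ < ε * m / 2)
    {S : Type*} [CommRing S] (z : Fin m × Fin (n + 1) → S) (b : Fin m → Fin n → S)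
    (hz : ∀ h k, z (h, k) = ∑ j, b h j * (g h j k : S)) :
    aeval z (hasse μ P) = 0 := by
  classical
  set ℓ : Fin m × Fin (n + 1) → MvPolynomial (Fin m × Fin n) ℤ :=
    fun p => ∑ j, C (g p.1 j p.2) * X (p.1, j) with hℓ
  have hcomp : aeval z (hasse μ P) =
      aeval (fun q : Fin m × Fin n => b q.1 q.2) (aeval ℓ (hasse μ P)) := by
    rw [comp_aeval_apply]
    congr 2
    funext p
    rw [hz p.1 p.2, map_sum]
    exact sum_congr rfl fun j _ => by
      rw [map_mul, aeval_C, aeval_X, algebraMap_int_eq, eq_intCast, mul_comm]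
  have hhom : ∀ s : Fin m × Fin (n + 1) →₀ ℕ,
      MultiHom (fun h => ∑ k, s (h, k)) (∏ p, ℓ p ^ s p) :=
    fun s => multiHom_prod_pow (fun p => multiHom_sum_C_mul_X p.1 _) s
  have hcoef : ∀ (T : MvPolynomial (Fin m × Fin (n + 1)) ℤ) (ν : Fin m × Fin n →₀ ℕ),
      coeff ν (aeval ℓ T) ≠ 0 → ∃ s, coeff s T ≠ 0 ∧ ∀ h, ∑ k, s (h, k) = ∑ j, ν (h, j) := by
    intro T ν hne
    rw [aeval_def, eval₂_eq', coeff_sum] at hne
    obtain ⟨s, hs, hne⟩ := exists_ne_zero_of_sum_ne_zero hne
    rw [MvPolynomial.algebraMap_eq, coeff_C_mul] at hne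
    exact ⟨s, mem_support_iff.1 hs, fun h => (hhom s ν (right_ne_zero_of_mul hne) h).symm⟩
  rcases Nat.eq_zero_or_pos n with hn | hn
  · subst hn
    have h0 := hvan (fun p => p.2.elim0) μ (by
      have := weight_nonneg (fun p : Fin m × Fin (0 + 1) => r p.1) μ
      linarith)
    simp only [univ_eq_empty, sum_empty] at h0 hz
    rw [show z = algebraMap ℤ S ∘ fun _ => (0 : ℤ) from funext fun p => by simp [hz p.1 p.2],
      aeval_algebraMap_apply, h0, map_zero]
  suffices h : aeval ℓ (hasse μ P) = 0 by rw [hcomp, h, map_zero]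
  set t : Fin m × Fin n → ℕ := fun q => ⌈(r q.1 : ℝ) * ε / (2 * n)⌉₊ with ht
  have hn' : (0 : ℝ) < n := by exact_mod_cast hn
  refine eq_zero_of_vanish_fintype (d := fun q => r q.1) (t := t) (K := K) ?_ (fun q => ?_) ?_
  · intro ν hν q
    obtain ⟨s, hs, hsν⟩ := hcoef _ ν hν
    rw [coeff_hasse] at hs
    have h1 := hP _ (right_ne_zero_of_mul hs) q.1
    simp only [Finsupp.add_apply, sum_add_distrib, hsν] at h1
    have h2 : ν (q.1, q.2) ≤ ∑ j, ν (q.1, j) :=
      single_le_sum (f := fun j => ν (q.1, j)) (fun _ _ => Nat.zero_le _) (mem_univ q.2)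
    show ν q ≤ r q.1
    change ν q ≤ _ at h2
    omega
  · have h1 := Nat.le_ceil ((r q.1 : ℝ) * ε / (2 * n))
    have hrq : (0 : ℝ) < r q.1 := by exact_mod_cast hr q.1
    have h2 : (r q.1 : ℝ) < ((K : ℝ) + 1) * (t q : ℕ) := by
      refine lt_of_lt_of_le ?_ (mul_le_mul_of_nonneg_left h1 (by positivity))
      rw [← mul_div_assoc, lt_div_iff₀ (by positivity)]
      nlinarith [mul_lt_mul_of_pos_left hK hrq]
    exact_mod_cast h2
  · intro a ν hν
    set zz : Fin m × Fin (n + 1) → ℤ := fun p => ∑ j, ((a (p.1, j) : ℕ) : ℤ) * g p.1 j p.2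
    have hcomm : taylor (fun q : Fin m × Fin n => ((a q : ℕ) : ℤ)) (aeval ℓ (hasse μ P)) =
        aeval ℓ (taylor zz (hasse μ P)) := by
      rw [show taylor zz (hasse μ P) = aeval (fun p => X p + C (zz p)) (hasse μ P) from rfl,
        comp_aeval_apply, comp_aeval_apply]
      congr 2
      funext p
      simp only [hℓ, taylor, map_add, map_sum, map_mul, aeval_X, aeval_C,
        MvPolynomial.algebraMap_eq, mul_add, sum_add_distrib, zz]
      congr 1
      exact sum_congr rfl fun j _ => mul_comm _ _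
    by_contra hne
    rw [hcomm] at hne
    obtain ⟨s, hs, hsν⟩ := hcoef _ ν hne
    rw [coeff_taylor_hasse] at hs
    refine right_ne_zero_of_mul hs ?_
    rw [coeff_taylor]
    refine hvan a (μ + s) ?_
    have hw : weight (fun p : Fin m × Fin (n + 1) => r p.1) s < ε * m / 2 ∨ m = 0 := by
      rcases Nat.eq_zero_or_pos m with hm | hm
      · exact Or.inr hm
      refine Or.inl ?_
      have h1 : weight (fun p : Fin m × Fin (n + 1) => r p.1) s =
          ∑ h, ((∑ j, ν (h, j) : ℕ) : ℝ) / r h := by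
        rw [weight, Fintype.sum_prod_type]
        refine sum_congr rfl fun h _ => ?_
        rw [← hsν h, Nat.cast_sum, sum_div]
      rw [h1]
      refine lt_of_lt_of_le (sum_lt_sum_of_nonempty (g := fun _ => ε / 2) ⟨⟨0, hm⟩, mem_univ _⟩
        fun h _ => ?_) (le_of_eq (by simp; ring))
      have hrh : (0 : ℝ) < r h := by exact_mod_cast hr h
      have h2 : ∀ j, (ν (h, j) : ℝ) < r h * ε / (2 * n) := fun j => Nat.lt_ceil.1 (hν (h, j))
      rw [div_lt_iff₀ hrh, Nat.cast_sum]
      refine lt_of_lt_of_le (sum_lt_sum_of_nonempty ⟨⟨0, hn⟩, mem_univ _⟩ fun j _ => h2 j)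
        (le_of_eq ?_)
      simp only [sum_const, card_univ, Fintype.card_fin, nsmul_eq_mul]
      field_simp
    rw [weight_add]
    rcases hw with hw | hm
    · linarith
    · subst hm
      have := weight_nonneg (fun p : Fin 0 × Fin (n + 1) => r p.1) μ
      simp at hμ
      linarith

end FA.Subspace

end
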