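import Fermat.Agent.Perfect.Transference

/-!
# Davenport's lemma

Independent integer vectors attain the successive minima of the norm `|M x|` and their product is
about `|det M|`. When the last minimum is much larger than the others, a change of scale of single
coordinates gives all small vectors one size: there are bounds `b i` for the coordinates with a
small product, met by a basis of the hyperplane of the minima before the last.
-/

set_option autoImplicit false
set_option linter.style.haveILetI false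

noncomputable section

namespace FA.Subspace

open Finset Matrix FA.Perfect FA.Reduction

variable {n : ℕ}

/-- The Euclidean length of the image of an integer vector. -/
def size (M : Matrix (Fin (n + 1)) (Fin (n + 1)) ℝ) (y : Fin (n + 1) → ℤ) : ℝ :=
  Real.sqrt (∑ i, (M *ᵥ castVec y) i ^ 2)

theorem size_nonneg (M : Matrix (Fin (n + 1)) (Fin (n + 1)) ℝ) (y : Fin (n + 1) → ℤ) :
    0 ≤ size M y := Real.sqrt_nonneg _

theorem abs_le_size (M : Matrix (Fin (n + 1)) (Fin (n + 1)) ℝ) (y : Fin (n + 1) → ℤ)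
    (i : Fin (n + 1)) : |(M *ᵥ castVec y) i| ≤ size M y := by
  rw [← Real.sqrt_sq_eq_abs]
  exact Real.sqrt_le_sqrt
    (single_le_sum (f := fun i => (M *ᵥ castVec y) i ^ 2) (fun _ _ => sq_nonneg _) (mem_univ i))

theorem size_le_sum (M : Matrix (Fin (n + 1)) (Fin (n + 1)) ℝ) (y : Fin (n + 1) → ℤ) :
    size M y ≤ ∑ i, |(M *ᵥ castVec y) i| := by
  refine (Real.sqrt_le_sqrt ?_).trans_eq (Real.sqrt_sq (sum_nonneg fun i _ => abs_nonneg _))
  exact (sum_congr rfl fun i _ => (sq_abs _).symm).trans_le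
    (sum_sq_le_sq_sum_of_nonneg fun i _ => abs_nonneg _)

theorem size_le {M : Matrix (Fin (n + 1)) (Fin (n + 1)) ℝ} {y : Fin (n + 1) → ℤ} {b : ℝ}
    (h : ∀ i, |(M *ᵥ castVec y) i| ≤ b) : size M y ≤ (n + 1) * b :=
  (size_le_sum M y).trans ((sum_le_sum fun i _ => h i).trans (le_of_eq (by simp)))

/-- Independent integer vectors attaining the minima of the length. -/
def IsMinimal (M : Matrix (Fin (n + 1)) (Fin (n + 1)) ℝ) (w : Fin (n + 1) → Fin (n + 1) → ℤ) :
    Prop :=
  LinearIndependent ℝ (castVec ∘ w) ∧ Monotone (fun k => size M (w k)) ∧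
    (∀ k, 0 < size M (w k)) ∧
    (∀ k y, castVec y ∉ Submodule.span ℝ ((castVec ∘ w) '' {j | j < k}) →
      size M (w k) ≤ size M y)

/-- The constant of Minkowski's second theorem. -/
def minimaConst (n : ℕ) : ℝ := 1 + Real.sqrt ((4 / 3 : ℝ) ^ (n * (n + 1)))

theorem one_le_minimaConst (n : ℕ) : 1 ≤ minimaConst n :=
  le_add_of_nonneg_right (Real.sqrt_nonneg _)

/-- **The successive minima of the length.** -/
theorem exists_minimal {M : Matrix (Fin (n + 1)) (Fin (n + 1)) ℝ} (hM : M.det ≠ 0) :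
    ∃ w, IsMinimal M w ∧ |M.det| ≤ ∏ k, size M (w k) ∧
      ∏ k, size M (w k) ≤ minimaConst n * |M.det| := by
  set P := Mᵀ * M with hP
  have hPd : P.PosDef := by
    rw [hP, ← conjTranspose_eq_transpose_of_trivial]
    simpa using Matrix.PosDef.one.conjTranspose_mul_mul_same
      (mulVec_injective_of_isUnit_det (isUnit_iff_ne_zero.2 hM))
  have hval : ∀ y, ival P y = ∑ i, (M *ᵥ castVec y) i ^ 2 := fun y => by
    show castVec y ⬝ᵥ (P *ᵥ castVec y) = _
    rw [hP, ← mulVec_mulVec, dotProduct_mulVec, vecMul_transpose, dotProduct]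
    exact sum_congr rfl fun i _ => by ring
  obtain ⟨w, hw⟩ := exists_minimaFamily hPd
  have hsz : ∀ y, size M y = Real.sqrt (ival P y) := fun y => by rw [size, hval]
  have hpos : ∀ k, 0 < ival P (w k) := fun k => ival_pos hPd fun e => hw.1.ne_zero k (by
    funext i
    simp [castVec, e])
  obtain ⟨h1, h2⟩ := prod_succMin_bounds hPd fun Q hQ => hermiteInv_le_hermite hQ
  simp only [succMin_eq hw] at h1 h2
  have hdet : P.det = |M.det| ^ 2 := by rw [hP, det_mul, det_transpose, sq_abs, sq]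
  have hprod : ∏ k, size M (w k) = Real.sqrt (∏ k, ival P (w k)) := by
    refine ((Real.sqrt_eq_iff_eq_sq (prod_nonneg fun k _ => (hpos k).le)
      (prod_nonneg fun k _ => size_nonneg _ _)).2 ?_).symm
    rw [← prod_pow]
    exact prod_congr rfl fun k _ => by rw [hsz, Real.sq_sqrt (hpos k).le]
  refine ⟨w, ⟨hw.1, fun i j h => ?_, fun k => ?_, fun k y hy => ?_⟩, ?_, ?_⟩
  · show size M (w i) ≤ size M (w j)
    rw [hsz, hsz]
    exact Real.sqrt_le_sqrt (hw.2.1 h)
  · rw [hsz]
    exact Real.sqrt_pos.2 (hpos k)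
  · rw [hsz, hsz]
    exact Real.sqrt_le_sqrt (hw.2.2 k y hy)
  · rw [hprod]
    exact Real.le_sqrt_of_sq_le (hdet ▸ h1)
  · rw [hprod]
    rw [hdet] at h2
    refine Real.sqrt_le_iff.2 ⟨mul_nonneg (zero_le_one.trans (one_le_minimaConst n))
      (abs_nonneg _), h2.trans ?_⟩
    rw [mul_pow]
    refine mul_le_mul_of_nonneg_right ?_ (sq_nonneg |M.det|)
    rw [minimaConst]
    nlinarith [Real.sqrt_nonneg ((4 / 3 : ℝ) ^ (n * (n + 1)))]

/-- The minima are at most the lengths of any independent vectors. -/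
theorem IsMinimal.size_le_of_li {M : Matrix (Fin (n + 1)) (Fin (n + 1)) ℝ}
    {w : Fin (n + 1) → Fin (n + 1) → ℤ} (hw : IsMinimal M w) {q : ℕ}
    {u : Fin q → Fin (n + 1) → ℤ} (hu : LinearIndependent ℝ (castVec ∘ u)) {k : Fin (n + 1)}
    (hk : (k : ℕ) < q) {b : ℝ} (hb : ∀ j, size M (u j) ≤ b) : size M (w k) ≤ b := by
  classical
  set S := Submodule.span ℝ ((castVec ∘ w) '' {j | j < k}) with hS
  by_contra hcon
  have hle : Submodule.span ℝ (Set.range (castVec ∘ u)) ≤ S := by
    rw [Submodule.span_le]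
    rintro _ ⟨j, rfl⟩
    by_contra hj
    exact hcon ((hw.2.2.2 k (u j) hj).trans (hb j))
  have h1 := Submodule.finrank_mono hle
  rw [finrank_span_eq_card hu, Fintype.card_fin] at h1
  have h2 : Module.finrank ℝ S ≤ k := by
    have e : (castVec ∘ w) '' {j | j < k} = ↑((Finset.Iio k).image (castVec ∘ w)) := by
      ext x
      simp
    rw [hS, e]
    exact (finrank_span_finset_le_card _).trans (card_image_le.trans_eq (Fin.card_Iio k))
  omega

/-- The product of the smallest minima is at most the product of the lengths of independent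
vectors. -/
theorem IsMinimal.prod_le {M : Matrix (Fin (n + 1)) (Fin (n + 1)) ℝ}
    {w : Fin (n + 1) → Fin (n + 1) → ℤ} (hw : IsMinimal M w) {q : ℕ} (hq : q ≤ n + 1)
    {u : Fin q → Fin (n + 1) → ℤ} (hu : LinearIndependent ℝ (castVec ∘ u)) :
    ∏ j, size M (w (Fin.castLE hq j)) ≤ ∏ j, size M (u j) := by
  set f := fun j => size M (u j)
  rw [← Equiv.prod_comp (Tuple.sort f) f]
  refine prod_le_prod (fun j _ => size_nonneg _ _) fun j _ => ?_
  refine hw.size_le_of_li (u := fun l : Fin (j.1 + 1) => u (Tuple.sort f (Fin.castLE j.2 l)))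
    (hu.comp _ ((Tuple.sort f).injective.comp (Fin.castLE_injective _))) (Nat.lt_succ_self _)
    fun l => Tuple.monotone_sort f (Fin.le_def.2 (Nat.le_of_lt_succ l.2))

/-- A hyperplane in some coordinates is controlled by one coordinate fewer. -/
theorem exists_coordinate {d : ℕ} {W : Fin d → Fin (n + 1) → ℝ} (S : Finset (Fin (n + 1)))
    (hS : S.card = d + 1) :
    ∃ σ ∈ S, ∀ u ∈ Submodule.span ℝ (Set.range W), ∀ b, 0 ≤ b →
      (∀ i ∈ S, i ≠ σ → |u i| ≤ b) → |u σ| ≤ (n + 1) * b := by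
  classical
  set f : (S → ℝ) →ₗ[ℝ] (Fin d → ℝ) := (Matrix.of fun (l : Fin d) (i : S) => W l i).mulVecLin
  have hker : LinearMap.ker f ≠ ⊥ :=
    LinearMap.ker_ne_bot_of_finrank_lt (by simp [hS])
  obtain ⟨a, ha, ha0⟩ := (Submodule.ne_bot_iff _).1 hker
  have hne : (univ : Finset S).Nonempty := by
    rw [← card_pos, card_univ, Fintype.card_coe]
    omega
  obtain ⟨σ, -, hσ⟩ := exists_max_image univ (fun i => |a i|) hne
  have hσ0 : a σ ≠ 0 := fun e => ha0 (funext fun i =>
    abs_nonpos_iff.1 ((hσ i (mem_univ i)).trans_eq (by rw [e, abs_zero])))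
  refine ⟨σ, σ.2, fun u hu b hb0 hb => ?_⟩
  have hrel : ∑ i : S, a i * u i = 0 := by
    refine Submodule.span_induction (p := fun u _ => ∑ i : S, a i * u i = 0) ?_ (by simp)
      (fun x y _ _ hx hy => by
        simp only [Pi.add_apply, mul_add, sum_add_distrib, hx, hy, add_zero])
      (fun t x _ hx => by
        simp only [Pi.smul_apply, smul_eq_mul, mul_left_comm _ t, ← mul_sum, hx, mul_zero]) hu
    rintro _ ⟨l, rfl⟩
    have := congrFun (LinearMap.mem_ker.1 ha) l
    simp only [f, mulVecLin_apply, mulVec, dotProduct, Matrix.of_apply, Pi.zero_apply] at this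
    rw [← this]
    exact sum_congr rfl fun i _ => mul_comm _ _
  rw [← add_sum_erase _ _ (mem_univ σ), add_eq_zero_iff_eq_neg] at hrel
  refine le_of_mul_le_mul_left ?_ (abs_pos.2 hσ0)
  rw [← abs_mul, hrel, abs_neg]
  refine (abs_sum_le_sum_abs _ _).trans ((sum_le_card_nsmul _ _ (|a σ| * b) fun i hi => ?_).trans ?_)
  · rw [abs_mul]
    exact mul_le_mul (hσ i (mem_univ i))
      (hb i i.2 fun e => ne_of_mem_erase hi (Subtype.ext e)) (abs_nonneg _) (abs_nonneg _)
  · rw [nsmul_eq_mul, mul_left_comm]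
    refine mul_le_mul_of_nonneg_left (mul_le_mul_of_nonneg_right ?_ hb0) (abs_nonneg _)
    have h : (univ.erase σ).card ≤ n + 1 :=
      (card_erase_le).trans (by rw [card_univ, Fintype.card_coe]; exact card_finset_fin_le S)
    exact_mod_cast h

/-- **The choice of the pivots.** -/
theorem exists_pivots (M : Matrix (Fin (n + 1)) (Fin (n + 1)) ℝ)
    (w : Fin (n + 1) → Fin (n + 1) → ℤ) :
    ∃ π : Equiv.Perm (Fin (n + 1)), ∀ J : Fin (n + 1), ∀ x ∈
      Submodule.span ℝ ((castVec ∘ w) '' {l | l ≤ J}), ∀ b, 0 ≤ b →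
        (∀ i, i ≤ J → |(M *ᵥ x) (π i)| ≤ b) → ∀ σ, |(M *ᵥ x) σ| ≤ ((n : ℝ) + 1) ^ n * b := by
  classical
  suffices h : ∀ d, d ≤ n → ∃ π : Equiv.Perm (Fin (n + 1)), ∀ J : Fin (n + 1), n ≤ J + d → ∀ x ∈
      Submodule.span ℝ ((castVec ∘ w) '' {l | l ≤ J}), ∀ b, 0 ≤ b →
        (∀ i, i ≤ J → |(M *ᵥ x) (π i)| ≤ b) →
          ∀ σ, |(M *ᵥ x) σ| ≤ ((n : ℝ) + 1) ^ (n - (J : ℕ)) * b by
    obtain ⟨π, hπ⟩ := h n le_rfl
    refine ⟨π, fun J x hx b hb0 hb σ => (hπ J (by omega) x hx b hb0 hb σ).trans ?_⟩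
    exact mul_le_mul_of_nonneg_right
      (pow_le_pow_right₀ (by linarith [(Nat.cast_nonneg n : (0 : ℝ) ≤ n)]) (Nat.sub_le _ _)) hb0
  intro d
  induction d with
  | zero =>
    intro _
    refine ⟨1, fun J hJ x _ b _ hb σ => ?_⟩
    have hJn : (J : ℕ) = n := by omega
    rw [hJn, Nat.sub_self, pow_zero, one_mul]
    exact hb σ (Fin.le_def.2 (by omega))
  | succ d ih =>
    intro hd
    obtain ⟨π, hπ⟩ := ih (by omega)
    set J₀ : Fin (n + 1) := ⟨n - (d + 1), by omega⟩ with hJ₀
    set J₁ : Fin (n + 1) := ⟨n - d, by omega⟩ with hJ₁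
    set W : Fin (J₀.1 + 1) → Fin (n + 1) → ℝ :=
      fun l => M *ᵥ castVec (w (Fin.castLE J₀.2 l)) with hW
    set S := (Finset.Iic J₁).image π with hS
    obtain ⟨σ, hσ, hσb⟩ := exists_coordinate (W := W) S (by
      rw [hS, card_image_of_injective _ π.injective, Fin.card_Iic]
      simp only [J₀, J₁]
      omega)
    obtain ⟨i', hi', rfl⟩ := mem_image.1 hσ
    rw [Finset.mem_Iic] at hi'
    refine ⟨π * Equiv.swap i' J₁, fun J hJ x hx b hb0 hb => ?_⟩
    have hbig : ∀ J : Fin (n + 1), n ≤ J + d → ∀ x ∈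
        Submodule.span ℝ ((castVec ∘ w) '' {l | l ≤ J}), ∀ b, 0 ≤ b →
        (∀ i, i ≤ J → |(M *ᵥ x) ((π * Equiv.swap i' J₁) i)| ≤ b) →
          ∀ σ, |(M *ᵥ x) σ| ≤ ((n : ℝ) + 1) ^ (n - (J : ℕ)) * b := by
      intro J hJ x hx b hb0 hb
      refine hπ J hJ x hx b hb0 fun i hi => ?_
      have hJ' : J₁ ≤ J := by
        simp only [J₁, Fin.le_def]
        omega
      have h := hb (Equiv.swap i' J₁ i) (by
        rw [Equiv.swap_apply_def]
        split_ifs
        · exact hJ'
        · exact hi'.trans hJ'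
        · exact hi)
      rwa [Equiv.Perm.mul_apply, Equiv.swap_apply_self] at h
    by_cases hJd : n ≤ J + d
    · exact hbig J hJd x hx b hb0 hb
    have hJ0 : J = J₀ := Fin.ext (by simp only [J₀]; omega)
    subst hJ0
    intro σ
    have hn1 : (1 : ℝ) ≤ (n : ℝ) + 1 := by linarith [(Nat.cast_nonneg n : (0 : ℝ) ≤ n)]
    have hmem : M *ᵥ x ∈ Submodule.span ℝ (Set.range W) := by
      refine (Submodule.span_le.2 ?_ hx :
        x ∈ (Submodule.span ℝ (Set.range W)).comap M.mulVecLin)
      rintro _ ⟨l, hl, rfl⟩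
      exact Submodule.subset_span ⟨⟨l.1, Nat.lt_succ_of_le (Fin.le_def.1 hl)⟩, rfl⟩
    have hS' : ∀ i ∈ S, i ≠ π i' → |(M *ᵥ x) i| ≤ b := by
      intro i hi hne
      obtain ⟨l, hl, rfl⟩ := mem_image.1 hi
      rw [Finset.mem_Iic] at hl
      have hl' : Equiv.swap i' J₁ l ≤ J₀ := by
        have h1 : Equiv.swap i' J₁ l ≠ J₁ := fun e => hne (by
          rw [← Equiv.swap_apply_self i' J₁ l, e, Equiv.swap_apply_right])
        have h2 : Equiv.swap i' J₁ l ≤ J₁ := by
          rw [Equiv.swap_apply_def]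
          split_ifs
          · exact le_rfl
          · exact hi'
          · exact hl
        have h3 := Fin.lt_def.1 (lt_of_le_of_ne h2 h1)
        have hv : (J₁ : ℕ) = n - d := rfl
        have hv₀ : (J₀ : ℕ) = n - (d + 1) := rfl
        rw [Fin.le_def]
        omega
      have h := hb _ hl'
      rwa [Equiv.Perm.mul_apply, Equiv.swap_apply_self] at h
    have hπi := hσb _ hmem b hb0 hS'
    have h := hπ J₁ (by simp only [J₁]; omega) x
      (Submodule.span_mono (Set.image_mono fun l hl => le_trans hl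
        (Fin.le_def.2 (by simp only [J₁, J₀]; omega))) hx)
      (((n : ℝ) + 1) * b) (mul_nonneg (zero_le_one.trans hn1) hb0) (fun i hi => ?_) σ
    · refine h.trans_eq ?_
      rw [← mul_assoc, ← pow_succ]
      congr 2
      simp only [J₁, J₀]
      omega
    · by_cases he : π i = π i'
      · rw [he]
        exact hπi
      · exact (hS' _ (mem_image_of_mem π (Finset.mem_Iic.2 hi)) he).trans
          (le_mul_of_one_le_left hb0 hn1)

/-- **Davenport's lemma**, after a gap before the last minimum. -/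
theorem exists_equalized (q : ℕ) : ∃ K : ℝ, 1 ≤ K ∧
    ∀ (M : Matrix (Fin (q + 1 + 1)) (Fin (q + 1 + 1)) ℝ) (w : Fin (q + 1 + 1) → Fin (q + 1 + 1) → ℤ),
      M.det ≠ 0 → IsMinimal M w → |M.det| ≤ ∏ k, size M (w k) →
      K * size M (w (Fin.last q).castSucc) < size M (w (Fin.last (q + 1))) →
      ∃ (b : Fin (q + 1 + 1) → ℝ) (y : Fin (q + 1) → Fin (q + 1 + 1) → ℤ),
        LinearIndependent ℝ (castVec ∘ y) ∧
        (∀ j, castVec (y j) ∈
          Submodule.span ℝ ((castVec ∘ w) '' {l | l < Fin.last (q + 1)})) ∧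
        (∀ j i, |(M *ᵥ castVec (y j)) i| ≤ b i) ∧
        (∀ i, size M (w 0) ≤ b i ∧ b i ≤ K * size M (w (Fin.last (q + 1)))) ∧
        (∏ i, b i) * size M (w (Fin.last (q + 1))) ≤
          K * (∏ k, size M (w k)) * size M (w (Fin.last q).castSucc) := by
  classical
  set c := (q + 1 + 1 : ℝ) * ((q + 1 + 1 : ℝ)) ^ (q + 1) with hc_def
  have hc1 : 1 ≤ c := one_le_mul_of_one_le_of_one_le
    (by linarith [(Nat.cast_nonneg q : (0 : ℝ) ≤ q)])
    (one_le_pow₀ (by linarith [(Nat.cast_nonneg q : (0 : ℝ) ≤ q)]))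
  set K₁ := minimaConst (q + 1) * c ^ (q + 1) with hK₁
  have hK₁1 : 1 ≤ K₁ := one_le_mul_of_one_le_of_one_le (one_le_minimaConst _) (one_le_pow₀ hc1)
  refine ⟨c * K₁ * K₁ ^ (q + 1 + 1), one_le_mul_of_one_le_of_one_le
    (one_le_mul_of_one_le_of_one_le hc1 hK₁1) (one_le_pow₀ hK₁1), fun M w hM hw hdet hgap => ?_⟩
  set pen := (Fin.last q).castSucc with hpen
  set lst := Fin.last (q + 1)
  set ν := fun k => size M (w k) with hν
  have hν0 : ∀ k, 0 < ν k := hw.2.2.1
  obtain ⟨π, hπ⟩ := exists_pivots M w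
  set μ : Fin (q + 1 + 1) → ℝ := fun i => if i = lst then ν pen else ν i with hμ
  have hμ0 : ∀ i, 0 < μ i := fun i => by simp only [hμ]; split_ifs <;> exact hν0 _
  have hμmono : Monotone μ := by
    intro i j hij
    simp only [hμ]
    split_ifs with h1 h2 h2
    · exact le_rfl
    · exact absurd (Fin.last_le_iff.1 (by rw [h1] at hij; exact hij)) h2
    · refine hw.2.1 (Fin.le_def.2 ?_)
      have := Fin.val_lt_last h1
      simp only [pen, Fin.val_castSucc, Fin.val_last]
      omega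
    · exact hw.2.1 hij
  set M' := diagonal (fun σ => (μ (π.symm σ))⁻¹) * M with hM'
  have hM'v : ∀ y i, (M' *ᵥ castVec y) (π i) = (M *ᵥ castVec y) (π i) / μ i := fun y i => by
    rw [hM', ← mulVec_mulVec, mulVec_diagonal, Equiv.symm_apply_apply, inv_mul_eq_div]
  have hdet' : |M'.det| = |M.det| / ∏ i, μ i := by
    rw [hM', det_mul, det_diagonal, abs_mul, prod_inv_distrib, Equiv.prod_comp π.symm μ, abs_inv,
      abs_of_pos (prod_pos fun i _ => hμ0 i), inv_mul_eq_div]
  have hμprod : (∏ i, μ i) * ν lst = (∏ i, ν i) * ν pen := by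
    rw [← mul_prod_erase univ μ (mem_univ lst), ← mul_prod_erase univ ν (mem_univ lst),
      prod_congr rfl fun i hi => show μ i = ν i from if_neg (ne_of_mem_erase hi)]
    simp only [hμ, if_pos]
    ring
  have hM'0 : M'.det ≠ 0 := by
    rw [← abs_ne_zero, hdet']
    exact div_ne_zero (abs_ne_zero.2 hM) (prod_pos fun i _ => hμ0 i).ne'
  set bw := basisOfLinearIndependentOfCardEqFinrank hw.1 (by simp)
  have hbw : ⇑bw = castVec ∘ w := coe_basisOfLinearIndependentOfCardEqFinrank _ _
  -- a lower bound for the new length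
  have hlow : ∀ y : Fin (q + 1 + 1) → ℤ, y ≠ 0 → 1 ≤ c * size M' y ∧
      (castVec y ∉ Submodule.span ℝ ((castVec ∘ w) '' {l | l < lst}) →
        ν lst ≤ c * size M' y * ν pen) := by
    intro y hy
    have hy0 : castVec y ≠ 0 := fun e => hy (funext fun i => by
      simpa [castVec] using congrFun e i)
    have hsupp : (bw.repr (castVec y)).support.Nonempty :=
      Finsupp.support_nonempty_iff.2 fun e => hy0 (bw.repr.map_eq_zero_iff.1 e)
    set J := (bw.repr (castVec y)).support.max' hsupp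
    have hle : castVec y ∈ Submodule.span ℝ ((castVec ∘ w) '' {l | l ≤ J}) := by
      rw [← hbw, bw.mem_span_image]
      exact fun l hl => le_max' _ l hl
    have hnot : castVec y ∉ Submodule.span ℝ ((castVec ∘ w) '' {l | l < J}) := by
      rw [← hbw, bw.mem_span_image]
      exact fun h => lt_irrefl J (h (max'_mem _ hsupp))
    have hcoord := hπ J (castVec y) hle (μ J * size M' y)
      (mul_nonneg (hμ0 J).le (size_nonneg _ _)) fun i hi => by
        have h := abs_le_size M' y (π i)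
        rw [hM'v, abs_div, abs_of_pos (hμ0 i), div_le_iff₀ (hμ0 i), mul_comm] at h
        exact h.trans (mul_le_mul_of_nonneg_right (hμmono hi) (size_nonneg _ _))
    have h1 : ν J ≤ c * size M' y * μ J := by
      refine ((hw.2.2.2 J y hnot).trans (size_le hcoord)).trans (le_of_eq ?_)
      rw [hc_def]
      push_cast
      ring
    by_cases hJ : J = lst
    · rw [hJ] at h1
      simp only [hμ, if_pos] at h1
      refine ⟨?_, fun _ => h1⟩
      refine le_of_mul_le_mul_right ?_ (hν0 pen)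
      rw [one_mul]
      exact (hw.2.1 (Fin.le_last pen)).trans h1
    · simp only [hμ, if_neg hJ] at h1
      refine ⟨(le_mul_iff_one_le_left (hν0 J)).1 h1, fun h => absurd ?_ h⟩
      exact Submodule.span_mono (Set.image_mono fun l (hl : l ≤ J) =>
        lt_of_le_of_lt hl (lt_of_le_of_ne (Fin.le_last J) hJ)) hle
  obtain ⟨z, hz, -, hzprod⟩ := exists_minimal hM'0
  have hz0 : ∀ k, z k ≠ 0 := fun k e => hz.1.ne_zero k (funext fun i => by simp [castVec, e])
  -- some new minimum is large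
  obtain ⟨j₀, hj₀⟩ : ∃ j, castVec (z j) ∉ Submodule.span ℝ ((castVec ∘ w) '' {l | l < lst}) := by
    by_contra! h
    have h1 : Submodule.span ℝ (Set.range (castVec ∘ z)) ≤
        Submodule.span ℝ ((castVec ∘ w) '' {l | l < lst}) :=
      Submodule.span_le.2 (by rintro _ ⟨j, rfl⟩; exact h j)
    rw [hz.1.span_eq_top_of_card_eq_finrank (by simp), top_le_iff] at h1
    have h2 : castVec (w lst) ∈ Submodule.span ℝ ((castVec ∘ w) '' {l | l < lst}) :=
      h1 ▸ Submodule.mem_top
    exact hw.1.notMem_span_image (lt_irrefl lst) h2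
  have hlast : ν lst ≤ c * size M' (z lst) * ν pen :=
    ((hlow _ (hz0 j₀)).2 hj₀).trans (mul_le_mul_of_nonneg_right
      (mul_le_mul_of_nonneg_left (hz.2.1 (Fin.le_last j₀)) (zero_le_one.trans hc1)) (hν0 pen).le)
  have hsmall : size M' (z pen) ≤ K₁ := by
    have hne : pen ≠ lst := (Fin.castSucc_lt_last (Fin.last q)).ne
    have hrest : 1 ≤ c ^ q * ∏ k ∈ (univ.erase lst).erase pen, size M' (z k) := by
      have h := Finset.one_le_prod (s := (univ.erase lst).erase pen)
        (f := fun k => c * size M' (z k)) fun k _ => (hlow _ (hz0 k)).1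
      rw [prod_mul_distrib, prod_const, card_erase_of_mem (mem_erase.2 ⟨hne, mem_univ _⟩),
        card_erase_of_mem (mem_univ _), card_univ, Fintype.card_fin] at h
      exact h
    rw [← mul_prod_erase univ _ (mem_univ lst),
      ← mul_prod_erase _ _ (mem_erase.2 ⟨hne, mem_univ pen⟩)] at hzprod
    set rest := ∏ k ∈ (univ.erase lst).erase pen, size M' (z k)
    have hup : |M'.det| * ν pen ≤ ν lst := by
      rw [hdet', div_mul_eq_mul_div, div_le_iff₀ (prod_pos fun i _ => hμ0 i), mul_comm (ν lst),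
        hμprod]
      exact mul_le_mul_of_nonneg_right hdet (hν0 pen).le
    have hpos : 0 < ν lst := hν0 lst
    refine le_of_mul_le_mul_right ?_ hpos
    have hK0 : 0 ≤ minimaConst (q + 1) := zero_le_one.trans (one_le_minimaConst _)
    calc size M' (z pen) * ν lst
        ≤ size M' (z pen) * (c * size M' (z lst) * ν pen) :=
          mul_le_mul_of_nonneg_left hlast (size_nonneg _ _)
      _ ≤ size M' (z pen) * (c * size M' (z lst) * ν pen) * (c ^ q * rest) :=
          le_mul_of_one_le_right (mul_nonneg (size_nonneg _ _)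
            (mul_nonneg (mul_nonneg (zero_le_one.trans hc1) (size_nonneg _ _)) (hν0 pen).le)) hrest
      _ = c ^ (q + 1) * (size M' (z lst) * (size M' (z pen) * rest)) * ν pen := by ring
      _ ≤ c ^ (q + 1) * (minimaConst (q + 1) * |M'.det|) * ν pen :=
          mul_le_mul_of_nonneg_right (mul_le_mul_of_nonneg_left hzprod (by positivity))
            (hν0 pen).le
      _ ≤ c ^ (q + 1) * minimaConst (q + 1) * ν lst := by
          rw [← mul_assoc, mul_assoc (c ^ (q + 1) * minimaConst (q + 1))]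
          exact mul_le_mul_of_nonneg_left hup (by positivity)
      _ = K₁ * ν lst := by rw [hK₁]; ring
  have hKbig : c * K₁ ≤ c * K₁ * K₁ ^ (q + 1 + 1) :=
    le_mul_of_one_le_right (by positivity) (one_le_pow₀ hK₁1)
  have hK₁K : K₁ ≤ c * K₁ * K₁ ^ (q + 1 + 1) := le_trans (le_mul_of_one_le_left (by positivity) hc1) hKbig
  refine ⟨fun σ => K₁ * μ (π.symm σ), fun j => z j.castSucc,
    hz.1.comp _ (Fin.castSucc_injective _), fun j => ?_, fun j σ => ?_, fun σ => ⟨?_, ?_⟩, ?_⟩
  · by_contra hj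
    have h1 := (hlow _ (hz0 _)).2 hj
    have h2 : size M' (z j.castSucc) ≤ K₁ :=
      (hz.2.1 (Fin.castSucc_le_castSucc_iff.2 (Fin.le_last j))).trans hsmall
    have h3 : ν lst ≤ c * K₁ * ν pen :=
      h1.trans (mul_le_mul_of_nonneg_right (mul_le_mul_of_nonneg_left h2
        (zero_le_one.trans hc1)) (hν0 pen).le)
    exact absurd (h3.trans (mul_le_mul_of_nonneg_right hKbig (hν0 pen).le)) (not_le.2 hgap)
  · have h := (abs_le_size M' (z j.castSucc) (π (π.symm σ))).trans
      ((hz.2.1 (Fin.castSucc_le_castSucc_iff.2 (Fin.le_last j))).trans hsmall)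
    rw [hM'v, abs_div, abs_of_pos (hμ0 _), div_le_iff₀ (hμ0 _), Equiv.apply_symm_apply] at h
    exact h
  · refine le_trans ?_ (le_mul_of_one_le_left (hμ0 _).le hK₁1)
    simp only [hμ]
    split_ifs <;> exact hw.2.1 (Fin.zero_le _)
  · refine mul_le_mul hK₁K ?_ (hμ0 _).le (zero_le_one.trans (le_trans hK₁1 hK₁K))
    simp only [hμ]
    split_ifs <;> exact hw.2.1 (Fin.le_last _)
  · rw [prod_mul_distrib, Equiv.prod_comp π.symm μ, prod_const, card_univ, Fintype.card_fin,
      mul_assoc, hμprod, ← mul_assoc]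
    refine mul_le_mul_of_nonneg_right (mul_le_mul_of_nonneg_right ?_
      (prod_nonneg fun k _ => (hν0 k).le)) (hν0 pen).le
    exact le_mul_of_one_le_left (by positivity) (one_le_mul_of_one_le_of_one_le hc1 hK₁1)

end FA.Subspace

end
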