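import Fermat.Agent.Subspace.UnitEquation
import Mathlib.Algebra.MvPolynomial.Eval
import Mathlib.GroupTheory.Finiteness
import Mathlib.Analysis.Complex.Basic

/-!
# The `S`-unit points of subvarieties of tori

The monomials of each equation at an `S`-unit point fall into vanishing sums without vanishing
proper part, so the quotients of the monomials within one of them have finitely many values by
the unit equation in several variables. These values cut out finitely many cosets of subgroups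
contained in the variety (Laurent, Evertse).
-/

set_option autoImplicit false

noncomputable section

namespace FA.Subspace

open Finset

theorem IsSUnitQ.one (S : Finset ℕ) : IsSUnitQ S 1 :=
  ⟨one_ne_zero, fun _ _ _ => padicValRat.one⟩

theorem IsSUnitQ.zpow {S : Finset ℕ} {x : ℚ} (h : IsSUnitQ S x) (k : ℤ) : IsSUnitQ S (x ^ k) :=
  ⟨zpow_ne_zero k h.1, fun p hp hpS => by
    have : Fact p.Prime := ⟨hp⟩
    rw [padicValRat.zpow, h.2 p hp hpS, mul_zero]⟩

theorem IsSUnitQ.prod {S : Finset ℕ} {ι : Type*} (s : Finset ι) {x : ι → ℚ}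
    (h : ∀ i ∈ s, IsSUnitQ S (x i)) : IsSUnitQ S (∏ i ∈ s, x i) :=
  prod_induction x (IsSUnitQ S) (fun _ _ => IsSUnitQ.mul) (IsSUnitQ.one S) h

theorem abs_eq_one_of_isSUnitQ_empty {x : ℚ} (h : IsSUnitQ ∅ x) : |x| = 1 := by
  have h1 := h.primesOf_subset
  rw [primesOf, subset_empty, union_eq_empty, Nat.primeFactors_eq_empty,
    Nat.primeFactors_eq_empty] at h1
  have hn : x.num.natAbs = 1 := h1.1.resolve_left (Int.natAbs_ne_zero.2 (Rat.num_ne_zero.2 h.1))
  have hd : x.den = 1 := h1.2.resolve_left x.den_nz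
  rw [Rat.abs_def, hn, hd]
  simp

/-- The monomial with integral exponents `w`. -/
def monom {K : Type*} [Field K] {n : ℕ} (x : Fin n → K) (w : Fin n → ℤ) : K := ∏ i, x i ^ w i

section

variable {K : Type*} [Field K] {n : ℕ} {x y : Fin n → K}

theorem monom_ne_zero (hx : ∀ i, x i ≠ 0) (w : Fin n → ℤ) : monom x w ≠ 0 :=
  prod_ne_zero_iff.2 fun i _ => zpow_ne_zero _ (hx i)

theorem monom_sub (hx : ∀ i, x i ≠ 0) (w w' : Fin n → ℤ) :
    monom x (w - w') = monom x w / monom x w' := by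
  simp only [monom, ← prod_div_distrib]
  exact prod_congr rfl fun i _ => zpow_sub₀ (hx i) _ _

theorem monom_mul (w : Fin n → ℤ) : monom (x * y) w = monom x w * monom y w := by
  simp only [monom, Pi.mul_apply, mul_zpow, prod_mul_distrib]

theorem map_monom {L : Type*} [Field L] (φ : K →+* L) (w : Fin n → ℤ) :
    φ (monom x w) = monom (fun i => φ (x i)) w := by
  simp only [monom, map_prod, map_zpow₀]

theorem padicValRat_monom {p : ℕ} [Fact p.Prime] {x : Fin n → ℚ} (hx : ∀ i, x i ≠ 0)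
    (w : Fin n → ℤ) : padicValRat p (monom x w) = ∑ i, w i * padicValRat p (x i) := by
  unfold monom
  induction (univ : Finset (Fin n)) using Finset.induction_on with
  | empty => simp
  | insert i s hi ih =>
    rw [prod_insert hi, sum_insert hi, padicValRat.mul (zpow_ne_zero _ (hx i))
      (prod_ne_zero_iff.2 fun j _ => zpow_ne_zero _ (hx j)), padicValRat.zpow, ih]

end

theorem zpow_sum_eq_prod {K : Type*} [Field K] {ι : Type*} {t : K} (ht : t ≠ 0)
    (s : Finset ι) (a : ι → ℤ) : t ^ ∑ j ∈ s, a j = ∏ j ∈ s, t ^ a j := by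
  classical
  induction s using Finset.induction_on with
  | empty => simp
  | insert j s hj ih => rw [sum_insert hj, prod_insert hj, zpow_add₀ ht, ih]

/-- A vanishing sum without vanishing proper part. -/
def IsMinimalVanishing {ι : Type*} (t : ι → ℚ) (B : Finset ι) : Prop :=
  B.Nonempty ∧ ∑ e ∈ B, t e = 0 ∧ ∀ T ⊆ B, T.Nonempty → ∑ e ∈ T, t e = 0 → T = B

theorem exists_minimalVanishing {ι : Type*} (t : ι → ℚ) (A : Finset ι) :
    A.Nonempty → ∑ e ∈ A, t e = 0 → ∃ B ⊆ A, IsMinimalVanishing t B := by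
  induction A using Finset.strongInduction with
  | _ A ih =>
    intro hA hsum
    by_cases h : ∀ T ⊆ A, T.Nonempty → ∑ e ∈ T, t e = 0 → T = A
    · exact ⟨A, subset_rfl, hA, hsum, h⟩
    · push Not at h
      obtain ⟨T, hT, hTne, hT0, hTA⟩ := h
      obtain ⟨B, hB, hBm⟩ := ih T (hT.ssubset_of_ne hTA) hTne hT0
      exact ⟨B, hB.trans hT, hBm⟩

/-- Weights constant on the minimal parts keep a sum zero. -/
theorem sum_mul_eq_zero {ι : Type*} {K : Type*} [Field K] [Algebra ℚ K] (t : ι → ℚ) (g : ι → K)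
    (A : Finset ι) : ∑ e ∈ A, t e = 0 →
      (∀ B ⊆ A, IsMinimalVanishing t B → ∀ e ∈ B, ∀ e' ∈ B, g e = g e') →
      ∑ e ∈ A, algebraMap ℚ K (t e) * g e = 0 := by
  classical
  induction A using Finset.strongInduction with
  | _ A ih =>
    intro hsum hg
    rcases A.eq_empty_or_nonempty with rfl | hA
    · simp
    obtain ⟨B, hB, hBm⟩ := exists_minimalVanishing t A hA hsum
    obtain ⟨e₀, he₀⟩ := hBm.1
    have h1 : ∑ e ∈ A \ B, t e = 0 := by rw [sum_sdiff_eq_sub hB, hsum, hBm.2.1, sub_zero]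
    rw [← sum_sdiff hB, ih _ (sdiff_ssubset hB hBm.1) h1
      (fun C hC => hg C (hC.trans sdiff_subset)), zero_add,
      sum_congr rfl fun e he => by rw [hg B hB hBm e he e₀ he₀], ← sum_mul, ← map_sum, hBm.2.1,
      map_zero, zero_mul]

/-- The difference of two exponents. -/
def expDiff {n : ℕ} (e e' : Fin n →₀ ℕ) : Fin n → ℤ :=
  (fun i => (e i : ℤ)) - fun i => (e' i : ℤ)

/-- The terms of a polynomial at a point. -/
def termAt {n : ℕ} (f : MvPolynomial (Fin n) ℚ) (x : Fin n → ℚ) (e : Fin n →₀ ℕ) : ℚ :=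
  f.coeff e * monom x fun i => (e i : ℤ)

/-- The coset given by the monomials `W` at `u` lies in the variety. -/
def Within {n : ℕ} (F : Finset (MvPolynomial (Fin n) ℚ)) (W : Finset (Fin n → ℤ))
    (u : Fin n → ℚ) : Prop :=
  ∀ (K : Type) [Field K] [Algebra ℚ K] (z : Fin n → K), (∀ i, z i ≠ 0) →
    (∀ w ∈ W, monom z w = algebraMap ℚ K (monom u w)) → ∀ f ∈ F, MvPolynomial.aeval z f = 0

/-- **The `S`-unit points lie in finitely many cosets inside the variety.** -/
theorem exists_cosets (S : Finset ℕ) {n : ℕ} (F : Finset (MvPolynomial (Fin n) ℚ)) :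
    ∃ 𝒮 : Set (Finset (Fin n → ℤ) × (Fin n → ℚ)), 𝒮.Finite ∧
      (∀ p ∈ 𝒮, (∀ i, IsSUnitQ S (p.2 i)) ∧ Within F p.1 p.2) ∧
      ∀ x : Fin n → ℚ, (∀ i, IsSUnitQ S (x i)) → (∀ f ∈ F, MvPolynomial.eval x f = 0) →
        ∃ p ∈ 𝒮, ∀ w ∈ p.1, monom x w = monom p.2 w := by
  classical
  set S' := S ∪ F.biUnion fun f => f.support.biUnion fun e => primesOf (f.coeff e)
  set D := F.biUnion fun f => (f.support ×ˢ f.support).image fun q => expDiff q.1 q.2
  set W : (Fin n → ℚ) → Finset (Fin n → ℤ) := fun x => D.filter fun w =>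
    ∃ f ∈ F, ∃ B ⊆ f.support, IsMinimalVanishing (termAt f x) B ∧
      ∃ e ∈ B, ∃ e' ∈ B, expDiff e e' = w
  set V : Set ℚ := ⋃ f ∈ F, ⋃ B ∈ f.support.powerset, ⋃ e : B, ⋃ e' : B,
    (fun z : B → ℚ => z e * f.coeff e' / f.coeff e) '' unitSums S' e'
  have hV : V.Finite := F.finite_toSet.biUnion fun f _ =>
    f.support.powerset.finite_toSet.biUnion fun B _ => Set.finite_iUnion fun e =>
      Set.finite_iUnion fun e' => (finite_unitSums _ S' rfl e').image _
  set Sol := {x : Fin n → ℚ | (∀ i, IsSUnitQ S (x i)) ∧ ∀ f ∈ F, MvPolynomial.eval x f = 0}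
  -- the values of the monomials
  have hval : ∀ x ∈ Sol, ∀ w ∈ W x, monom x w ∈ V := fun x hx w hw => by
    obtain ⟨-, f, hf, B, hB, hBm, e, he, e', he', rfl⟩ := mem_filter.1 hw
    have hx0 : ∀ i, x i ≠ 0 := fun i => (hx.1 i).1
    have hc : ∀ a ∈ B, f.coeff a ≠ 0 := fun a ha => MvPolynomial.mem_support_iff.1 (hB ha)
    have hu : ∀ a ∈ B, IsSUnitQ S' (termAt f x a) := fun a ha =>
      (isSUnitQ_of_primesOf (hc a ha) ((subset_biUnion_of_mem (fun e => primesOf (f.coeff e))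
        (hB ha)).trans ((subset_biUnion_of_mem (fun f : MvPolynomial (Fin n) ℚ =>
          f.support.biUnion fun e => primesOf (f.coeff e)) hf).trans subset_union_right))).mul
        (IsSUnitQ.prod _ fun i _ => ((hx.1 i).mono subset_union_left).zpow _)
    simp only [V, Set.mem_iUnion]
    refine ⟨f, hf, B, mem_powerset.2 hB, ⟨e, he⟩, ⟨e', he'⟩,
      fun a => termAt f x a / termAt f x e', ⟨fun a => (hu a a.2).div (hu e' he'), ?_, ?_, ?_⟩, ?_⟩
    · rw [← sum_div, sum_coe_sort B (termAt f x), hBm.2.1, zero_div]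
    · intro T hT h0
      rw [← sum_div, div_eq_zero_iff, or_iff_left (hu e' he').1] at h0
      refine map_injective (Function.Embedding.subtype (· ∈ B)) ((hBm.2.2 _ (fun a ha => ?_)
        (hT.map) (by rw [sum_map]; exact h0)).trans (by ext a; simp))
      obtain ⟨b, -, rfl⟩ := mem_map.1 ha
      exact b.2
    · exact div_self (hu e' he').1
    · show termAt f x e / termAt f x e' * f.coeff e' / f.coeff e = monom x (expDiff e e')
      rw [expDiff, monom_sub hx0, termAt, termAt]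
      have := hc e he; have := hc e' he'
      have := monom_ne_zero hx0 fun i => (e' i : ℤ)
      field_simp
  -- finitely many cosets
  set key : (Fin n → ℚ) → Finset (Fin n → ℤ) × (D → ℚ) := fun x =>
    (W x, fun w => if (w : Fin n → ℤ) ∈ W x then monom x w else 0)
  have hkey : (key '' Sol).Finite := by
    refine (D.powerset.finite_toSet.prod (Set.Finite.pi fun _ : D => hV.insert 0)).subset ?_
    rintro _ ⟨x, hx, rfl⟩
    refine ⟨mem_powerset.2 (filter_subset _ _), fun w _ => ?_⟩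
    show (if _ then _ else _) ∈ insert 0 V
    split_ifs with h
    · exact Or.inr (hval x hx w h)
    · exact Or.inl rfl
  choose! rep hrep hrepk using fun k (hk : k ∈ key '' Sol) => hk
  refine ⟨(fun k => (W (rep k), rep k)) '' (key '' Sol), hkey.image _, ?_, fun x hx hx0 => ?_⟩
  · rintro _ ⟨k, hk, rfl⟩
    refine ⟨(hrep k hk).1, fun K _ _ z hz hzw f hf => ?_⟩
    set u := rep k
    have hu : ∀ i, u i ≠ 0 := fun i => ((hrep k hk).1 i).1
    have huK : ∀ w, algebraMap ℚ K (monom u w) ≠ 0 := fun w =>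
      (map_ne_zero _).2 (monom_ne_zero hu w)
    have h0 : ∑ e ∈ f.support, termAt f u e = 0 := by
      rw [← (hrep k hk).2 f hf, MvPolynomial.eval_eq']
      simp [termAt, monom, u]
    rw [MvPolynomial.aeval_def, MvPolynomial.eval₂_eq',
      ← sum_mul_eq_zero (termAt f u) (fun e => monom z (fun i => (e i : ℤ)) /
        algebraMap ℚ K (monom u fun i => (e i : ℤ))) f.support h0 fun B hB hBm e he e' he' => ?_]
    · refine sum_congr rfl fun e _ => ?_
      rw [termAt, map_mul, mul_assoc, mul_div_cancel₀ _ (huK _)]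
      simp [monom]
    · have hw : expDiff e e' ∈ W u := mem_filter.2 ⟨mem_biUnion.2 ⟨f, hf, mem_image.2
        ⟨(e, e'), mem_product.2 ⟨hB he, hB he'⟩, rfl⟩⟩, f, hf, B, hB, hBm, e, he, e', he', rfl⟩
      have h := hzw _ hw
      rw [expDiff, monom_sub hz, monom_sub hu, map_div₀, div_eq_div_iff (monom_ne_zero hz _)
        (huK _)] at h
      rw [div_eq_div_iff (huK _) (huK _)]
      linear_combination h
  · have hk : key x ∈ key '' Sol := ⟨x, ⟨hx, hx0⟩, rfl⟩
    refine ⟨_, ⟨_, hk, rfl⟩, fun w hw => ?_⟩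
    have he := hrepk _ hk
    have hW : W (rep (key x)) = W x := congrArg Prod.fst he
    have hD : w ∈ D := (mem_filter.1 hw).1
    have h := congrFun (congrArg Prod.snd he) ⟨w, hD⟩
    simp only [key] at h
    rw [if_pos hw, if_pos (hW ▸ hw)] at h
    exact h.symm

/-- The character of exponent `w`. -/
def monomHom {n : ℕ} (w : Fin n → ℤ) : (Fin n → ℚˣ) →* ℚˣ where
  toFun γ := ∏ i, γ i ^ w i
  map_one' := by simp
  map_mul' γ δ := by simp [mul_zpow, prod_mul_distrib]

theorem coe_monomHom {n : ℕ} (w : Fin n → ℤ) (γ : Fin n → ℚˣ) :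
    (monomHom w γ : ℚ) = monom (fun i => (γ i : ℚ)) w := by
  simp [monomHom, monom]

theorem exists_support {n : ℕ} {Γ : Subgroup (Fin n → ℚˣ)} (hΓ : Γ.FG) :
    ∃ S : Finset ℕ, ∀ γ ∈ Γ, ∀ i, IsSUnitQ S (γ i : ℚ) := by
  classical
  obtain ⟨T, rfl⟩ := hΓ
  refine ⟨T.biUnion fun γ => univ.biUnion fun i => primesOf (γ i : ℚ), fun γ hγ => ?_⟩
  induction hγ using Subgroup.closure_induction with
  | mem γ hγ =>
    exact fun i => isSUnitQ_of_primesOf (Units.ne_zero _) ((subset_biUnion_of_mem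
      (fun i => primesOf (γ i : ℚ)) (mem_univ i)).trans (subset_biUnion_of_mem
        (fun γ : Fin n → ℚˣ => univ.biUnion fun i => primesOf (γ i : ℚ)) hγ))
  | one => exact fun i => by simpa using IsSUnitQ.one _
  | mul γ δ _ _ h h' => exact fun i => by simpa using (h i).mul (h' i)
  | inv γ _ h => exact fun i => by simpa using (h i).zpow (-1)

/-- **Lang's conjecture for tori over the rationals.** -/
theorem exists_subgroup_cosets {n : ℕ} (F : Finset (MvPolynomial (Fin n) ℚ))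
    {Γ : Subgroup (Fin n → ℚˣ)} (hΓ : Γ.FG) :
    ∃ 𝒯 : Set ((Fin n → ℚˣ) × Subgroup (Fin n → ℚˣ)), 𝒯.Finite ∧
      (∀ p ∈ 𝒯, p.1 ∈ Γ ∧ p.2 ≤ Γ ∧ ∀ η ∈ p.2, ∀ f ∈ F,
        MvPolynomial.eval (fun i => ((p.1 * η) i : ℚ)) f = 0) ∧
      ∀ γ ∈ Γ, (∀ f ∈ F, MvPolynomial.eval (fun i => (γ i : ℚ)) f = 0) →
        ∃ p ∈ 𝒯, p.1⁻¹ * γ ∈ p.2 := by
  obtain ⟨S, hS⟩ := exists_support hΓ
  obtain ⟨𝒮, hfin, hin, hcov⟩ := exists_cosets S F
  set good := {p ∈ 𝒮 | ∃ γ ∈ Γ, ∀ w ∈ p.1, (monomHom w γ : ℚ) = monom p.2 w}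
  choose! g hg hgw using fun p (hp : p ∈ good) => hp.2
  refine ⟨(fun p => (g p, Γ ⊓ ⨅ w ∈ p.1, (monomHom w).ker)) '' good,
    (hfin.subset fun p hp => hp.1).image _, ?_, fun γ hγ hz => ?_⟩
  · rintro _ ⟨p, hp, rfl⟩
    refine ⟨hg p hp, inf_le_left, fun η hη f hf => ?_⟩
    rw [← MvPolynomial.coe_aeval_eq_eval]
    refine (hin p hp.1).2 ℚ _ (fun i => Units.ne_zero _) (fun w hw => ?_) f hf
    rw [← coe_monomHom, map_mul, show monomHom w η = 1 from MonoidHom.mem_ker.1
      (Subgroup.mem_iInf.1 (Subgroup.mem_iInf.1 hη.2 w) hw), mul_one, hgw p hp w hw]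
    rfl
  · obtain ⟨p, hp, hpw⟩ := hcov _ (hS γ hγ) hz
    have hgood : p ∈ good := ⟨hp, γ, hγ, fun w hw => by rw [coe_monomHom]; exact hpw w hw⟩
    refine ⟨_, ⟨p, hgood, rfl⟩, Γ.mul_mem (Γ.inv_mem (hg p hgood)) hγ,
      Subgroup.mem_iInf.2 fun w => Subgroup.mem_iInf.2 fun hw => MonoidHom.mem_ker.2 ?_⟩
    rw [map_mul, map_inv, inv_mul_eq_one]
    exact Units.ext ((hgw p hgood w hw).trans (by rw [coe_monomHom]; exact (hpw w hw).symm))

/-- **Infinitely many `S`-unit points give a translated subtorus.** -/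
theorem exists_subtorus (S : Finset ℕ) {n : ℕ} (F : Finset (MvPolynomial (Fin n) ℚ))
    (hinf : {x : Fin n → ℚ | (∀ i, IsSUnitQ S (x i)) ∧
      ∀ f ∈ F, MvPolynomial.eval x f = 0}.Infinite) :
    ∃ (x : Fin n → ℚ) (a : Fin n → ℤ), a ≠ 0 ∧ (∀ i, IsSUnitQ S (x i)) ∧
      ∀ t : ℂ, t ≠ 0 → ∀ f ∈ F, MvPolynomial.aeval (fun i => (x i : ℂ) * t ^ a i) f = 0 := by
  obtain ⟨𝒮, hfin, hin, hcov⟩ := exists_cosets S F
  obtain ⟨p, hp, hpinf⟩ : ∃ p ∈ 𝒮, {x : Fin n → ℚ | (∀ i, IsSUnitQ S (x i)) ∧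
      ∀ w ∈ p.1, monom x w = monom p.2 w}.Infinite := by
    by_contra! h
    refine hinf ((hfin.biUnion fun p hp => h p hp).subset fun x hx => ?_)
    obtain ⟨p, hp, hpw⟩ := hcov x hx.1 hx.2
    exact Set.mem_iUnion₂.2 ⟨p, hp, hx.1, hpw⟩
  have hu := (hin p hp).1
  obtain ⟨y, ⟨hyS, hyw⟩, hy⟩ := hpinf.exists_notMem_finset
    ((Set.Finite.pi fun i => Set.toFinite ({p.2 i, -p.2 i} : Set ℚ)).toFinset)
  rw [Set.Finite.mem_toFinset] at hy
  obtain ⟨i, hi⟩ : ∃ i, |y i / p.2 i| ≠ 1 := by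
    by_contra! h
    refine hy fun i _ => ?_
    have := h i
    rcases abs_eq (one_pos.le) |>.1 this with e | e <;> rw [div_eq_iff (hu i).1] at e <;> simp [e]
  obtain ⟨q, hq, hqv⟩ : ∃ q : ℕ, q.Prime ∧ padicValRat q (y i / p.2 i) ≠ 0 := by
    by_contra! h
    exact hi (abs_eq_one_of_isSUnitQ_empty ⟨div_ne_zero (hyS i).1 (hu i).1,
      fun q hq _ => h q hq⟩)
  have : Fact q.Prime := ⟨hq⟩
  refine ⟨p.2, fun j => padicValRat q (y j / p.2 j), fun h => hqv (congrFun h i), hu,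
    fun t ht f hf => (hin p hp).2 ℂ _ (fun j => mul_ne_zero (Rat.cast_ne_zero.2 (hu j).1)
      (zpow_ne_zero _ ht)) (fun w hw => ?_) f hf⟩
  have hsum : ∑ j, w j * padicValRat q (y j / p.2 j) = 0 := by
    have h : monom (fun j => y j / p.2 j) w = 1 := by
      have := monom_mul (x := fun j => y j / p.2 j) (y := p.2) w
      rw [show (fun j => y j / p.2 j) * p.2 = y from funext fun j => div_mul_cancel₀ _ (hu j).1,
        hyw w hw] at this
      exact (mul_eq_right₀ (monom_ne_zero (fun j => (hu j).1) w)).1 this.symm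
    rw [← padicValRat_monom (fun j => div_ne_zero (hyS j).1 (hu j).1), h, padicValRat.one]
  show monom ((fun j => (p.2 j : ℂ)) * fun j => t ^ padicValRat q (y j / p.2 j)) w = _
  rw [monom_mul, show monom (fun j => t ^ padicValRat q (y j / p.2 j)) w = 1 by
    simp only [monom, ← zpow_mul]
    rw [← zpow_sum_eq_prod ht, show ∑ j, padicValRat q (y j / p.2 j) * w j = 0 by
      simpa only [mul_comm] using hsum, zpow_zero], mul_one, map_monom]
  rfl

end FA.Subspace

end
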