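import Fermat.Agent.Subspace.UnitEquationNumberField
import Mathlib.RingTheory.Trace.Basic
import Mathlib.RingTheory.Ideal.Norm.AbsNorm
import Mathlib.NumberTheory.NumberField.Units.DirichletTheorem
import Mathlib.FieldTheory.IntermediateField.Adjoin.Basic

/-!
# Norm form equations

A rational subspace of a number field is cut out by traces, that is by sums over the embeddings.
At a unit in it each sum falls into minimal vanishing parts with finitely many quotients by the
unit equation, so infinitely many units in it give infinitely many units in the subfield on which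
the embeddings within each part agree, and a multiple of that subfield lies in the subspace
(Schmidt's theorem on norm form equations, after Evertse and Győry).
-/

set_option autoImplicit false

noncomputable section

namespace FA.Subspace

open Finset NumberField Module

/-- A part with sum zero, no proper part of which has sum zero. -/
def IsMinimalPart {ι M : Type*} [AddCommMonoid M] (z : ι → M) (B : Finset ι) : Prop :=
  B.Nonempty ∧ ∑ e ∈ B, z e = 0 ∧ ∀ T ⊆ B, T.Nonempty → ∑ e ∈ T, z e = 0 → T = B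

theorem exists_minimalPart {ι M : Type*} [AddCommMonoid M] (z : ι → M) (A : Finset ι) :
    A.Nonempty → ∑ e ∈ A, z e = 0 → ∃ B ⊆ A, IsMinimalPart z B := by
  induction A using Finset.strongInduction with
  | _ A ih =>
    intro hA hsum
    by_cases h : ∀ T ⊆ A, T.Nonempty → ∑ e ∈ T, z e = 0 → T = A
    · exact ⟨A, subset_rfl, hA, hsum, h⟩
    · push Not at h
      obtain ⟨T, hT, hTne, hT0, hTA⟩ := h
      obtain ⟨B, hB, hBm⟩ := ih T (hT.ssubset_of_ne hTA) hTne hT0
      exact ⟨B, hB.trans hT, hBm⟩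

/-- Weights constant on the minimal parts keep a sum zero. -/
theorem sum_mul_eq_zero_of_parts {ι F : Type*} [Field F] (z g : ι → F) (A : Finset ι) :
    ∑ e ∈ A, z e = 0 →
      (∀ B ⊆ A, IsMinimalPart z B → ∀ e ∈ B, ∀ e' ∈ B, g e = g e') →
      ∑ e ∈ A, z e * g e = 0 := by
  classical
  induction A using Finset.strongInduction with
  | _ A ih =>
    intro hsum hg
    rcases A.eq_empty_or_nonempty with rfl | hA
    · simp
    obtain ⟨B, hB, hBm⟩ := exists_minimalPart z A hA hsum
    obtain ⟨e₀, he₀⟩ := hBm.1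
    have h1 : ∑ e ∈ A \ B, z e = 0 := by rw [sum_sdiff_eq_sub hB, hsum, hBm.2.1, sub_zero]
    rw [← sum_sdiff hB, ih _ (sdiff_ssubset hB hBm.1) h1
      (fun C hC => hg C (hC.trans sdiff_subset)), zero_add,
      sum_congr rfl fun e he => by rw [hg B hB hBm e he e₀ he₀], ← sum_mul, hBm.2.1, zero_mul]

variable {K : Type*} [Field K] [NumberField K]

/-- Units all of whose conjugates have the same absolute value are finitely many. -/
theorem finite_units_norm_const :
    {u : (𝓞 K)ˣ | ∀ φ ψ : K →+* ℂ, ‖φ (u : K)‖ = ‖ψ (u : K)‖}.Finite := by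
  refine ((Embeddings.finite_of_norm_le K ℂ 1).preimage
    (Units.coe_injective K).injOn).subset fun u hu => ⟨RingOfIntegers.isIntegral_coe _, fun φ => ?_⟩
  have h := prod_norm_unit u
  rw [prod_congr rfl fun ψ _ => hu ψ φ, prod_const, card_univ,
    pow_eq_one_iff_of_nonneg (norm_nonneg _) Fintype.card_ne_zero] at h
  exact h.le

/-- **The units in a rational subspace** are finitely many unless a multiple of a subfield with
infinitely many units lies in it. -/
theorem finite_units_mem (W : Submodule ℚ K)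
    (hW : ∀ (L : IntermediateField ℚ K) (μ : K), μ ≠ 0 → (∀ t ∈ L, μ * t ∈ W) →
      Subsingleton (InfinitePlace L)) :
    {u : (𝓞 K)ˣ | (u : K) ∈ W}.Finite := by
  classical
  set N : IntermediateField ℚ ℂ := ⨆ φ : K →+* ℂ, φ.toRatAlgHom.fieldRange
  have : ∀ φ : K →+* ℂ, FiniteDimensional ℚ φ.toRatAlgHom.fieldRange := fun φ =>
    Module.Finite.equiv (AlgEquiv.ofInjectiveField φ.toRatAlgHom).toLinearEquiv
  have : FiniteDimensional ℚ N := IntermediateField.finiteDimensional_iSup_of_finite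
  have : NumberField N := { to_charZero := inferInstance, to_finiteDimensional := inferInstance }
  set σ : Fin (Fintype.card (K →+* ℂ)) ≃ (K →+* ℂ) := (Fintype.equivFin _).symm
  set ψ : Fin (Fintype.card (K →+* ℂ)) → K →+* N := fun i =>
    (σ i).codRestrict N fun x =>
      le_iSup (fun φ : K →+* ℂ => φ.toRatAlgHom.fieldRange) (σ i) ⟨x, rfl⟩
  -- the equations of the subspace
  have hnd := traceForm_nondegenerate ℚ K
  obtain ⟨S, hS⟩ := IsNoetherian.noetherian W.dualAnnihilator
  set Cs := (S.filter (· ≠ 0)).image ((Algebra.traceForm ℚ K).toDual hnd).symm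
  have hCs : ∀ c ∈ Cs, c ≠ 0 := fun c hc => by
    obtain ⟨f, hf, rfl⟩ := mem_image.1 hc
    exact (LinearEquiv.map_ne_zero_iff _).2 (mem_filter.1 hf).2
  have hsumtr : ∀ x : K, ((∑ i, ψ i x : N) : ℂ) = (Algebra.trace ℚ K x : ℂ) := fun x => by
    rw [AddSubmonoidClass.coe_finsetSum, ← eq_ratCast (algebraMap ℚ ℂ) (Algebra.trace ℚ K x),
      trace_eq_sum_embeddings ℂ, ← Equiv.sum_comp (RingHom.equivRatAlgHom K ℂ), ← σ.sum_comp]
    rfl
  have hmem : ∀ x : K, x ∈ W ↔ ∀ c ∈ Cs, ∑ i, ψ i (c * x) = 0 := fun x => by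
    have h0 : ∀ c, ∑ i, ψ i (c * x) = 0 ↔ Algebra.trace ℚ K (c * x) = 0 := fun c => by
      rw [← Subtype.coe_inj, hsumtr, ZeroMemClass.coe_zero, Rat.cast_eq_zero]
    simp only [h0]
    constructor
    · intro hx c hc
      obtain ⟨f, hf, rfl⟩ := mem_image.1 hc
      rw [← Algebra.traceForm_apply, LinearMap.BilinForm.apply_toDual_symm_apply]
      exact (Submodule.mem_dualAnnihilator f).1 (hS ▸ Submodule.subset_span (mem_filter.1 hf).1)
        x hx
    · intro h
      by_contra hx
      obtain ⟨f, hfx, hfW⟩ := Submodule.exists_dual_map_eq_bot_of_notMem hx inferInstance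
      have hf : f ∈ W.dualAnnihilator := (Submodule.mem_dualAnnihilator f).2 fun y hy =>
        (Submodule.mem_bot ℚ).1 (hfW ▸ Submodule.mem_map_of_mem hy)
      rw [← hS] at hf
      refine hfx ((Submodule.span_le.2 ?_ hf : f ∈ LinearMap.ker (Module.Dual.eval ℚ K x)))
      intro g hg
      rcases eq_or_ne g 0 with rfl | hg0
      · simp
      have := h _ (mem_image_of_mem _ (mem_filter.2 ⟨hg, hg0⟩))
      rwa [← Algebra.traceForm_apply, LinearMap.BilinForm.apply_toDual_symm_apply] at this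
  -- the quotients within a minimal part
  set term : K → K → Fin (Fintype.card (K →+* ℂ)) → N := fun c x i => ψ i (c * x)
  set key : (𝓞 K)ˣ → Cs × Finset (Fin (Fintype.card (K →+* ℂ))) ×
      Fin (Fintype.card (K →+* ℂ)) × Fin (Fintype.card (K →+* ℂ)) → N := fun u p =>
    if IsMinimalPart (term p.1 (u : K)) p.2.1 ∧ p.2.2.1 ∈ p.2.1 ∧ p.2.2.2 ∈ p.2.1
    then ψ p.2.2.1 (u : K) / ψ p.2.2.2 (u : K) else 0
  set U := {u : (𝓞 K)ˣ | (u : K) ∈ W}
  have hkey : (key '' U).Finite := by
    refine (Set.Finite.pi fun p => Set.Finite.insert 0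
      (?_ : {r : N | (p.1 : K) ≠ 0 ∧ ∃ i ∈ p.2.1, ∃ j ∈ p.2.1, ∃ u : (𝓞 K)ˣ,
        IsMinimalPart (term p.1 (u : K)) p.2.1 ∧ r = ψ i (u : K) / ψ j (u : K)}.Finite)).subset ?_
    · obtain ⟨⟨c, hc⟩, B, -, -⟩ := p
      set A := ratios (univ.image fun i => ψ i c)
      refine (Set.finite_iUnion fun j : B => Set.finite_iUnion fun i : B =>
        (finite_unitSumsNF ∅ B.card A (Fintype.card_coe B) j).image
          fun z => z i * ψ j c / ψ i c).subset ?_
      rintro r ⟨hc0, i, hi, j, hj, u, hu, rfl⟩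
      have hpu : ∀ a, IsUnitUpTo ∅ (univ.image fun i => ψ i c) (term c (u : K) a) := fun a =>
        .of_unit (mem_image_of_mem _ (mem_univ a)) ((map_ne_zero _).2 hc0)
          (Units.map (RingOfIntegers.mapRingHom (ψ a)).toMonoidHom u) (map_mul (ψ a) c (u : K))
      simp only [Set.mem_iUnion]
      refine ⟨⟨j, hj⟩, ⟨i, hi⟩, ?_⟩
      refine ⟨fun a : B => term c (u : K) a / term c (u : K) j,
        ⟨fun a => (hpu a).div (hpu j), ?_, fun T hT h0 => ?_, div_self (hpu j).ne_zero⟩, ?_⟩
      · rw [← sum_div, sum_coe_sort B (term c (u : K)), hu.2.1, zero_div]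
      · rw [← sum_div, div_eq_zero_iff, or_iff_left (hpu j).ne_zero] at h0
        have h := hu.2.2 (T.map (Function.Embedding.subtype (· ∈ B))) (fun a ha => by
          obtain ⟨b, -, rfl⟩ := mem_map.1 ha
          exact b.2) hT.map (by rw [sum_map]; exact h0)
        exact eq_univ_of_card T (by
          rw [← card_map (Function.Embedding.subtype (· ∈ B)), h, Fintype.card_coe])
      · show term c (u : K) i / term c (u : K) j * ψ j c / ψ i c = _
        have h1 : ψ i c ≠ 0 := (map_ne_zero _).2 hc0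
        have h2 : ψ j c ≠ 0 := (map_ne_zero _).2 hc0
        have h3 : ψ j (u : K) ≠ 0 := (map_ne_zero _).2 (Units.coe_ne_zero u)
        simp only [term, map_mul]
        field_simp
    · rintro _ ⟨u, -, rfl⟩ p -
      simp only [key]
      split_ifs with h
      · exact Or.inr ⟨hCs _ p.1.2, _, h.2.1, _, h.2.2, u, h.1, rfl⟩
      · exact Or.inl rfl
  by_contra hinf
  obtain ⟨k, hk⟩ : ∃ k, {u ∈ U | key u = k}.Infinite := by
    by_contra! h
    exact hinf ((hkey.biUnion fun k _ => h k).subset fun u hu =>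
      Set.mem_iUnion₂.2 ⟨key u, ⟨u, hu, rfl⟩, hu, rfl⟩)
  obtain ⟨u₀, hu₀, hk₀⟩ := hk.nonempty
  -- the subfield
  let L₀ : Subfield K :=
    { carrier := {t | ∀ p, key u₀ p ≠ 0 → ψ p.2.2.1 t = ψ p.2.2.2 t}
      mul_mem' := fun {a b} ha hb p hp => by rw [map_mul, map_mul, ha p hp, hb p hp]
      one_mem' := fun p _ => by rw [map_one, map_one]
      add_mem' := fun {a b} ha hb p hp => by rw [map_add, map_add, ha p hp, hb p hp]
      zero_mem' := fun p _ => by rw [map_zero, map_zero]
      neg_mem' := fun {a} ha p hp => by rw [map_neg, map_neg, ha p hp]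
      inv_mem' := fun a ha p hp => by rw [map_inv₀, map_inv₀, ha p hp] }
  set L : IntermediateField ℚ K := L₀.toIntermediateField fun q p _ => by
    rw [eq_ratCast, map_ratCast, map_ratCast]
  have hLW : ∀ t ∈ L, (u₀ : K) * t ∈ W := fun t ht => (hmem _).2 fun c hc => by
    rw [sum_congr rfl fun i _ => show ψ i (c * ((u₀ : K) * t)) = term c (u₀ : K) i * ψ i t by
      simp only [term, map_mul, mul_assoc]]
    refine sum_mul_eq_zero_of_parts _ _ univ ((hmem _).1 hu₀ c hc) fun B _ hB e he e' he' =>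
      ht (⟨c, hc⟩, B, e, e') ?_
    simp only [key, if_pos (And.intro hB (And.intro he he'))]
    exact div_ne_zero ((map_ne_zero _).2 (Units.coe_ne_zero _))
      ((map_ne_zero _).2 (Units.coe_ne_zero _))
  have := hW L _ (Units.coe_ne_zero u₀) hLW
  -- its units
  refine hk ((finite_units_norm_const (K := K)).preimage
    (mul_left_injective u₀⁻¹).injOn |>.subset fun u hu => ?_)
  have hu' : (u₀ : K) * ((u * u₀⁻¹ : (𝓞 K)ˣ) : K) = (u : K) := by
    rw [← Units.coe_mul, mul_comm, inv_mul_cancel_right]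
  have ht : ((u * u₀⁻¹ : (𝓞 K)ˣ) : K) ∈ L := fun p hp => by
    have h : key u p = key u₀ p := congrFun (hu.2.trans hk₀.symm) p
    have h' := h
    simp only [key] at h'
    have h2 : IsMinimalPart (term p.1 (u₀ : K)) p.2.1 ∧ p.2.2.1 ∈ p.2.1 ∧ p.2.2.2 ∈ p.2.1 := by
      by_contra h2
      exact hp (by simp only [key, if_neg h2])
    rw [if_pos h2] at h'
    have h4 : ψ p.2.2.1 (u₀ : K) ≠ 0 := (map_ne_zero _).2 (Units.coe_ne_zero _)
    have h5 : ψ p.2.2.2 (u₀ : K) ≠ 0 := (map_ne_zero _).2 (Units.coe_ne_zero _)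
    split_ifs at h' with h1
    · rw [← hu', map_mul, map_mul] at h'
      have h6 : ψ p.2.2.2 ((u * u₀⁻¹ : (𝓞 K)ˣ) : K) ≠ 0 :=
        (map_ne_zero _).2 (Units.coe_ne_zero _)
      field_simp at h'
      exact h'
    · exact absurd h'.symm (div_ne_zero h4 h5)
  intro φ φ'
  exact congrArg (fun w : InfinitePlace L => w ⟨_, ht⟩) (Subsingleton.elim
    (InfinitePlace.mk (φ.comp L.val.toRingHom)) (InfinitePlace.mk (φ'.comp L.val.toRingHom)))

/-- **Schmidt's theorem on norm form equations.** -/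
theorem finite_norm_form {n : ℕ} {α : Fin n → K} (hα : LinearIndependent ℚ α)
    (hV : ∀ (L : IntermediateField ℚ K) (μ : K), μ ≠ 0 →
      (∀ t ∈ L, μ * t ∈ Submodule.span ℚ (Set.range α)) → Subsingleton (InfinitePlace L))
    {m : ℚ} (hm : m ≠ 0) :
    {x : Fin n → ℤ | Algebra.norm ℚ (∑ i, (x i : K) * α i) = m}.Finite := by
  classical
  obtain ⟨y, hy, hyα⟩ := exists_integral_multiples ℤ ℚ (univ.image α)
  have hint : ∀ i, IsIntegral ℤ ((y : K) * α i) := fun i => by
    simpa [zsmul_eq_mul] using hyα (α i) (mem_image_of_mem _ (mem_univ i))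
  have hy0 : (y : K) ≠ 0 := Int.cast_ne_zero.2 hy
  set μ : (Fin n → ℤ) → K := fun x => ∑ i, (x i : K) * α i
  set β : (Fin n → ℤ) → 𝓞 K := fun x => ∑ i, (x i : 𝓞 K) * ⟨(y : K) * α i, hint i⟩
  have hβ : ∀ x, (β x : K) = (y : K) * μ x := fun x => by
    simp only [β, μ, map_sum, map_mul, map_intCast, mul_sum, RingOfIntegers.map_mk]
    exact sum_congr rfl fun i _ => by ring
  set Sol := {x : Fin n → ℤ | Algebra.norm ℚ (μ x) = m}
  set I : (Fin n → ℤ) → Ideal (𝓞 K) := fun x => Ideal.span {β x}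
  have hI : (I '' Sol).Finite := by
    refine (Ideal.finite_setOfPred_absNorm_le
      ⌊|(y : ℚ) ^ finrank ℚ K * m|⌋₊).subset ?_
    rintro _ ⟨x, hx, rfl⟩
    have h : ((Algebra.norm ℤ (β x) : ℤ) : ℚ) = (y : ℚ) ^ finrank ℚ K * m := by
      rw [Algebra.coe_norm_int, hβ, map_mul, ← (hx : Algebra.norm ℚ (μ x) = m),
        ← map_intCast (algebraMap ℚ K), Algebra.norm_algebraMap]
    show Ideal.absNorm (I x) ≤ _
    rw [Ideal.absNorm_span_singleton, ← h, Nat.le_floor_iff (abs_nonneg _), Nat.cast_natAbs,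
      Int.cast_abs]
  refine Set.Finite.subset (hI.biUnion (t := fun J => {x | x ∈ Sol ∧ I x = J}) fun J _ => ?_)
    fun x hx => Set.mem_iUnion₂.2 ⟨I x, ⟨x, hx, rfl⟩, hx, rfl⟩
  rcases Set.eq_empty_or_nonempty {x | x ∈ Sol ∧ I x = J} with he | ⟨x₀, hx₀, hx₀J⟩
  · rw [he]; exact Set.finite_empty
  have hμ₀ : μ x₀ ≠ 0 := fun e => hm (by
    rw [← (hx₀ : Algebra.norm ℚ (μ x₀) = m), e, Algebra.norm_zero])
  have hfin := finite_units_mem ((Submodule.span ℚ (Set.range α)).comap
    (LinearMap.mulLeft ℚ (μ x₀))) fun L ν hν hL => hV L (μ x₀ * ν) (mul_ne_zero hμ₀ hν)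
      fun t ht => by rw [mul_assoc]; exact hL t ht
  refine (hfin.biUnion fun u _ => (Set.subsingleton_of_forall_eq
    (s := {x | μ x = μ x₀ * (u : K)})
    (Classical.epsilon fun x : Fin n → ℤ => μ x = μ x₀ * (u : K)) ?_).finite).subset fun x hx => ?_
  · intro x hx
    have he := Classical.epsilon_spec (p := fun x => μ x = μ x₀ * (u : K)) ⟨x, hx⟩
    refine funext fun i => ?_
    have h0 := Fintype.linearIndependent_iff.1 hα
      (fun i => (x i : ℚ) - ((Classical.epsilon fun x : Fin n → ℤ => μ x = μ x₀ * (u : K)) i : ℚ))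
      (by
        simp only [Rat.smul_def, Rat.cast_sub, Rat.cast_intCast, sub_mul, sum_sub_distrib]
        exact sub_eq_zero.2 ((hx : μ x = _).trans he.symm)) i
    exact_mod_cast sub_eq_zero.1 h0
  · obtain ⟨u, hu⟩ := Ideal.span_singleton_eq_span_singleton.1 (hx₀J.trans hx.2.symm)
    have h : μ x = μ x₀ * (u : K) := by
      refine mul_left_cancel₀ hy0 ?_
      rw [← hβ, ← hu, ← mul_assoc, ← hβ]
      exact map_mul (algebraMap (𝓞 K) K) _ _
    refine Set.mem_iUnion₂.2 ⟨u, ?_, h⟩
    show LinearMap.mulLeft ℚ (μ x₀) (u : K) ∈ Submodule.span ℚ (Set.range α)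
    rw [LinearMap.mulLeft_apply, ← h]
    exact sum_mem fun i _ => by
      rw [← zsmul_eq_mul]
      exact zsmul_mem (Submodule.subset_span (Set.mem_range_self i)) _

/-- A field with more than one archimedean place has infinitely many units. -/
theorem infinite_units (L : Type*) [Field L] [NumberField L]
    (h : ¬Subsingleton (InfinitePlace L)) : Infinite (𝓞 L)ˣ := by
  by_contra hinf
  rw [not_infinite_iff_finite] at hinf
  have hpos : 0 < NumberField.Units.rank L := by
    by_contra hr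
    exact h (Fintype.card_le_one_iff_subsingleton.1
      (by simp only [NumberField.Units.rank] at hr; omega))
  have : Nonempty (Fin (NumberField.Units.rank L)) := Fin.pos_iff_nonempty.1 hpos
  refine not_finite_iff_infinite.2 (Infinite.of_injective
    (fun e : Fin (NumberField.Units.rank L) → ℤ => ∏ i, NumberField.Units.fundSystem L i ^ e i)
    fun e e' he => ?_) hinf
  exact (Prod.ext_iff.1 ((NumberField.Units.exist_unique_eq_mul_prod L
    (∏ i, NumberField.Units.fundSystem L i ^ e i)).unique (y₁ := (1, e)) (y₂ := (1, e'))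
    (by simp) (by simpa using he))).2

/-- **The converse**: a degenerate module gives infinitely many solutions for some value. -/
theorem infinite_norm_form {n : ℕ} {α : Fin n → K} {L : IntermediateField ℚ K} {μ : K}
    (hμ : μ ≠ 0) (hL : ∀ t ∈ L, μ * t ∈ Submodule.span ℚ (Set.range α))
    (hLp : ¬Subsingleton (InfinitePlace L)) :
    ∃ m : ℚ, m ≠ 0 ∧ {x : Fin n → ℤ | Algebra.norm ℚ (∑ i, (x i : K) * α i) = m}.Infinite := by
  classical
  have := infinite_units L hLp
  set b := RingOfIntegers.basis L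
  choose c hc using fun j => Submodule.mem_span_range_iff_exists_fun ℚ |>.1
    (hL ((b j : L) : K) (SetLike.coe_mem _))
  set D : ℕ := ∏ j, ∏ i, (c j i).den
  have hD : D ≠ 0 := prod_ne_zero_iff.2 fun j _ => prod_ne_zero_iff.2 fun i _ => (c j i).den_nz
  have hint : ∀ j i, ∃ z : ℤ, (z : ℚ) = D * c j i := fun j i => by
    obtain ⟨t, ht⟩ : (c j i).den ∣ D := (dvd_prod_of_mem (fun i => (c j i).den) (mem_univ i)).trans
      (dvd_prod_of_mem (fun j => ∏ i, (c j i).den) (mem_univ j))
    refine ⟨t * (c j i).num, ?_⟩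
    rw [ht]
    push_cast
    linear_combination (-(t : ℚ)) * (c j i).mul_den_eq_num
  choose z hz using hint
  have hx : ∀ a : 𝓞 L, ∃ x : Fin n → ℤ,
      ∑ i, (x i : K) * α i = (D : K) * μ * ((a : L) : K) := fun a => by
    refine ⟨fun i => ∑ j, b.repr a j * z j i, ?_⟩
    conv_rhs => rw [← b.sum_repr a]
    simp only [Int.cast_sum, Int.cast_mul, sum_mul, map_sum, zsmul_eq_mul, map_mul, map_intCast,
      IntermediateField.coe_sum, IntermediateField.coe_mul, mul_sum]
    rw [sum_comm]
    refine sum_congr rfl fun j _ => ?_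
    push_cast
    have h1 : ∀ i, (z j i : K) = (D : K) * (c j i : K) := fun i => by
      exact_mod_cast congrArg (fun q : ℚ => (q : K)) (hz j i)
    have h2 := hc j
    simp only [Rat.smul_def] at h2
    rw [mul_left_comm _ ((b.repr a) j : K), mul_assoc (D : K), ← h2, mul_sum, mul_sum]
    exact sum_congr rfl fun i _ => by rw [h1 i]; ring
  choose x hx using hx
  refine ⟨Algebra.norm ℚ ((D : K) * μ), (Algebra.norm_ne_zero_iff).2
    (mul_ne_zero (Nat.cast_ne_zero.2 hD) hμ), ?_⟩
  set f : (𝓞 L)ˣ → Fin n → ℤ := fun u => x ((u ^ 2 : (𝓞 L)ˣ) : 𝓞 L)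
  have hmaps : ∀ u, f u ∈ {x : Fin n → ℤ |
      Algebra.norm ℚ (∑ i, (x i : K) * α i) = Algebra.norm ℚ ((D : K) * μ)} := fun u => by
    show Algebra.norm ℚ _ = _
    rw [hx, map_mul]
    have h := Units.norm K (Units.map (RingOfIntegers.mapRingHom L.val.toRingHom).toMonoidHom u)
    have h' : |Algebra.norm ℚ (((u : 𝓞 L) : L) : K)| = 1 := h
    show Algebra.norm ℚ ((D : K) * μ) * Algebra.norm ℚ ((((u : 𝓞 L) : L) : K) ^ 2) = _
    rw [map_pow, ← sq_abs, h', one_pow, mul_one]
  have hfib : ∀ y, (f ⁻¹' {y}).Finite := fun y => by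
    rcases Set.eq_empty_or_nonempty (f ⁻¹' {y}) with he | ⟨u, hu⟩
    · rw [he]; exact Set.finite_empty
    refine ({u, -u} : Set (𝓞 L)ˣ).toFinite.subset fun v hv => ?_
    have h1 := hx ((u ^ 2 : (𝓞 L)ˣ) : 𝓞 L)
    have h2 := hx ((v ^ 2 : (𝓞 L)ˣ) : 𝓞 L)
    rw [show x _ = f u from rfl, Set.mem_singleton_iff.1 hu] at h1
    rw [show x _ = f v from rfl, Set.mem_singleton_iff.1 hv] at h2
    have h3 : ((v : (𝓞 L)ˣ) : 𝓞 L) ^ 2 = ((u : (𝓞 L)ˣ) : 𝓞 L) ^ 2 := by
      refine RingOfIntegers.coe_injective (Subtype.coe_injective ?_)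
      simpa [Units.val_pow_eq_pow_val, Subtype.coe_inj, hD, hμ] using h2.symm.trans h1
    rcases sq_eq_sq_iff_eq_or_eq_neg.1 h3 with e | e
    · exact Or.inl (Units.ext e)
    · exact Or.inr (Units.ext e)
  exact fun hfin => Set.infinite_univ ((hfin.preimage' fun y _ => hfib y).subset
    fun u _ => hmaps u)

/-- One archimedean place: the rationals or an imaginary quadratic field. -/
theorem subsingleton_infinitePlace_iff (L : Type*) [Field L] [NumberField L] :
    Subsingleton (InfinitePlace L) ↔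
      finrank ℚ L = 1 ∨ finrank ℚ L = 2 ∧ ∀ w : InfinitePlace L, w.IsComplex := by
  classical
  have hsum := InfinitePlace.sum_mult_eq (K := L)
  constructor
  · intro h
    obtain ⟨w⟩ := (inferInstance : Nonempty (InfinitePlace L))
    rw [Fintype.sum_subsingleton _ w, InfinitePlace.mult] at hsum
    split_ifs at hsum with hw
    · exact Or.inl hsum.symm
    · exact Or.inr ⟨hsum.symm, fun w' => Subsingleton.elim w w' ▸
        InfinitePlace.not_isReal_iff_isComplex.1 hw⟩
  · intro h
    refine ⟨fun w w' => by_contra fun hne => ?_⟩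
    have hle : w.mult + w'.mult ≤ finrank ℚ L := by
      rw [← hsum, ← sum_pair hne]
      exact sum_le_sum_of_subset (subset_univ _)
    rcases h with h | ⟨h, hc⟩
    · have := InfinitePlace.mult_pos (w := w); have := InfinitePlace.mult_pos (w := w'); omega
    · have h1 : w.mult = 2 := if_neg (InfinitePlace.not_isReal_iff_isComplex.2 (hc w))
      have := InfinitePlace.mult_pos (w := w'); omega

end FA.Subspace

end
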