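import Fermat.Agent.Subspace.CommonHyperplane
import Fermat.Agent.Subspace.Main
import Mathlib.NumberTheory.NumberField.CanonicalEmbedding.Basic
import Mathlib.NumberTheory.NumberField.InfinitePlace.Basic

/-!
# Integral coordinates over a number field

The integral points are by an integral basis the integer points of a larger space, in which
independent forms at the embeddings stay independent and rational hyperplanes containing all the
multiples of a point by the basis give hyperplanes over the field.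
-/

set_option autoImplicit false

noncomputable section

namespace FA.Subspace

open Finset Matrix FA.Perfect NumberField Module

variable {K : Type*} [Field K]

/-- A proper subspace lies on a hyperplane. -/
theorem exists_normal_field {n : ℕ} (W : Submodule K (Fin (n + 1) → K)) (hW : W ≠ ⊤) :
    ∃ β : Fin (n + 1) → K, β ≠ 0 ∧ ∀ ξ ∈ W, ∑ k, β k * ξ k = 0 := by
  classical
  obtain ⟨φ, hφ, hφW⟩ := Submodule.exists_le_ker_of_lt_top W (lt_top_iff_ne_top.2 hW)
  have he : ∀ ξ : Fin (n + 1) → K, φ ξ = ∑ k, φ (Pi.single k 1) * ξ k := fun ξ => by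
    conv_lhs => rw [pi_eq_sum_univ' ξ]
    simp [map_sum, mul_comm]
  exact ⟨fun k => φ (Pi.single k 1), fun h => hφ (LinearMap.ext fun ξ => by
      rw [he, LinearMap.zero_apply]; exact sum_eq_zero fun k _ => by rw [show φ (Pi.single k 1) = 0
        from congrFun h k, zero_mul]),
    fun ξ hξ => (he ξ).symm.trans (LinearMap.mem_ker.1 (hφW hξ))⟩

/-- The size of an integral point: its largest conjugate. -/
def house [NumberField K] {n : ℕ} (ξ : Fin n → 𝓞 K) : ℝ :=
  ‖fun p : (K →+* ℂ) × Fin n => p.1 (ξ p.2 : K)‖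

/-- Integral coordinates of the integral points: bounded by the house, invertible, carrying the
forms at the embeddings to independent forms, and rational relations to relations over the field. -/
theorem exists_coordinates (K : Type*) [Field K] [NumberField K] (n : ℕ) :
    ∃ (m : ℕ) (crd : (Fin (n + 1) → 𝓞 K) → Fin (m + 1) → ℤ)
      (back : (Fin (m + 1) → ℤ) → Fin (n + 1) → 𝓞 K)
      (g : Fin (m + 1) ≃ (K →+* ℂ) × Fin (n + 1)) (CI : ℝ) (Ω : Finset (𝓞 K)),
      1 ≤ CI ∧ (∀ ξ, back (crd ξ) = ξ) ∧ (∀ x y, back (x + y) = back x + back y) ∧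
      (∀ ξ, ‖castVec (crd ξ)‖ ≤ CI * house ξ) ∧
      (∀ v : Fin (m + 1) → ℤ, v ≠ 0 → ∃ β : Fin (n + 1) → K, β ≠ 0 ∧
        ∀ ξ : Fin (n + 1) → 𝓞 K, (∀ a ∈ Ω, v ⬝ᵥ crd (fun k => a * ξ k) = 0) →
          ∑ k, β k * (ξ k : K) = 0) ∧
      ∀ L : (K →+* ℂ) → Matrix (Fin (n + 1)) (Fin (n + 1)) ℂ, (∀ φ, (L φ).det ≠ 0) →
        (∀ φ i k, IsAlgebraic ℚ (L φ i k)) →
        ∃ C : Matrix (Fin (m + 1)) (Fin (m + 1)) ℂ, C.det ≠ 0 ∧ (∀ r c, IsAlgebraic ℚ (C r c)) ∧
          ∀ ξ r, ∑ c, C r c * (crd ξ c : ℂ) =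
            ∑ k, L (g r).1 (g r).2 k * (g r).1 (ξ k : K) := by
  classical
  set ι := Free.ChooseBasisIndex ℤ (𝓞 K)
  set bb := RingOfIntegers.basis K
  set ib := integralBasis K
  have hib : ∀ j, ib j = (bb j : K) := fun j => integralBasis_apply K j
  obtain ⟨m, hm⟩ : ∃ m, Fintype.card (Fin (n + 1) × ι) = m + 1 :=
    ⟨Fintype.card (Fin (n + 1) × ι) - 1, by
      have : 0 < Fintype.card (Fin (n + 1) × ι) := by
        have : Nonempty ι := ib.index_nonempty
        exact Fintype.card_pos
      omega⟩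
  set e : Fin (m + 1) ≃ Fin (n + 1) × ι := (Fintype.equivFinOfCardEq hm).symm
  have hcard : Fintype.card ((K →+* ℂ) × Fin (n + 1)) = m + 1 := by
    rw [← hm, Fintype.card_prod, Fintype.card_prod, NumberField.Embeddings.card,
      finrank_eq_card_basis ib, mul_comm]
  set g : Fin (m + 1) ≃ (K →+* ℂ) × Fin (n + 1) := (Fintype.equivFinOfCardEq hcard).symm
  set crd : (Fin (n + 1) → 𝓞 K) → Fin (m + 1) → ℤ := fun ξ r => bb.repr (ξ (e r).1) (e r).2
  -- the coordinates are bounded by the house
  set F : ι → ((K →+* ℂ) → ℂ) →L[ℂ] ℂ := fun j => LinearMap.toContinuousLinearMap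
    ((Finsupp.lapply j).comp (canonicalEmbedding.latticeBasis K).repr.toLinearMap)
  set CI := 1 + ∑ j, ‖F j‖
  have hCI : 1 ≤ CI := le_add_of_nonneg_right
    (sum_nonneg fun j _ => ContinuousLinearMap.opNorm_nonneg _)
  have hcrd : ∀ ξ, ‖castVec (crd ξ)‖ ≤ CI * house ξ := fun ξ => by
    refine (pi_norm_le_iff_of_nonneg (mul_nonneg (zero_le_one.trans hCI) (norm_nonneg _))).2
      fun r => ?_
    have h : F (e r).2 (canonicalEmbedding K (ξ (e r).1 : K)) = (crd ξ r : ℂ) := by
      show (canonicalEmbedding.latticeBasis K).repr _ (e r).2 = _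
      rw [canonicalEmbedding.integralBasis_repr_apply]
      show ((ib.repr (algebraMap (𝓞 K) K (ξ (e r).1)) (e r).2 : ℚ) : ℂ) = _
      rw [integralBasis_repr_apply]
      simp [crd, bb]
    have h' : ‖castVec (crd ξ) r‖ = ‖F (e r).2 (canonicalEmbedding K (ξ (e r).1 : K))‖ := by
      rw [h, Complex.norm_intCast, Real.norm_eq_abs]; rfl
    rw [h']
    refine (ContinuousLinearMap.le_opNorm _ _).trans (mul_le_mul ?_ ?_ (norm_nonneg _)
      (zero_le_one.trans hCI))
    · exact (single_le_sum (f := fun j => ‖F j‖) (fun _ _ => ContinuousLinearMap.opNorm_nonneg _)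
        (mem_univ _)).trans
        (le_add_of_nonneg_left zero_le_one)
    · exact (pi_norm_le_iff_of_nonneg (norm_nonneg _)).2 fun φ =>
        norm_le_pi_norm (fun p : (K →+* ℂ) × Fin (n + 1) => p.1 (ξ p.2 : K)) (φ, (e r).1)
  set back : (Fin (m + 1) → ℤ) → Fin (n + 1) → 𝓞 K := fun y k =>
    ∑ j, y (e.symm (k, j)) • bb j
  have hback : ∀ ξ, back (crd ξ) = ξ := fun ξ => funext fun k => by
    exact (sum_congr rfl fun j _ => by simp [crd]).trans (bb.sum_repr (ξ k))
  refine ⟨m, crd, back, g, CI, univ.image bb, hCI, hback, fun x y => funext fun k => by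
    simp [back, add_mul, sum_add_distrib], hcrd, fun v hv0 => ?_,
    fun L hL halg => ?_⟩
  · set f : (Fin (n + 1) → K) →ₗ[ℚ] ℚ := ∑ r, (v r : ℚ) •
      (((Finsupp.lapply (e r).2).comp ib.repr.toLinearMap).comp (LinearMap.proj (e r).1))
    have hf : ∀ η, f η = ∑ r, (v r : ℚ) * ib.repr (η (e r).1) (e r).2 := fun η => by
      simp [f, LinearMap.sum_apply]
    let W : Submodule K (Fin (n + 1) → K) :=
      { carrier := {η | ∀ t : K, f (t • η) = 0}
        zero_mem' := fun t => by rw [smul_zero, map_zero]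
        add_mem' := fun {a b} ha hb t => by rw [smul_add, map_add, ha t, hb t, add_zero]
        smul_mem' := fun u a ha t => by rw [smul_smul]; exact ha _ }
    obtain ⟨β, hβ, h⟩ := exists_normal_field W (fun htop => hv0 (funext fun r => by
      have h : f ((1 : K) • Pi.single (e r).1 (ib (e r).2)) = 0 :=
        (htop ▸ Submodule.mem_top : Pi.single (e r).1 (ib (e r).2) ∈ W) 1
      rw [one_smul, hf, sum_eq_single r (fun c _ hc => ?_) (fun h => absurd (mem_univ r) h)] at h
      · simpa using h
      · rcases eq_or_ne (e c).1 (e r).1 with h1 | h1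
        · have h2 : (e c).2 ≠ (e r).2 := fun h2 => hc (e.injective (Prod.ext h1 h2))
          simp [h1, h2.symm]
        · simp [h1]))
    refine ⟨β, hβ, fun ξ hξ => h _ fun t => ?_⟩
    let G : K →ₗ[ℚ] ℚ :=
      { toFun := fun t => f (t • fun k => (ξ k : K))
        map_add' := fun a b => by rw [add_smul, map_add]
        map_smul' := fun a b => by rw [smul_assoc, map_smul]; rfl }
    have hG : G = 0 := ib.ext fun j => by
      show f (ib j • fun k => (ξ k : K)) = 0
      have h1 : ((v ⬝ᵥ crd (fun k => bb j * ξ k) : ℤ) : ℚ) = 0 := by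
        rw [hξ _ (mem_image_of_mem bb (mem_univ j)), Int.cast_zero]
      rw [hf, ← h1]
      simp only [dotProduct, Int.cast_sum, Int.cast_mul]
      refine sum_congr rfl fun r _ => congrArg₂ _ rfl ?_
      rw [Pi.smul_apply, smul_eq_mul, hib, ← map_mul]
      exact integralBasis_repr_apply K _ _
    exact LinearMap.congr_fun hG t
  · set C : Matrix (Fin (m + 1)) (Fin (m + 1)) ℂ := Matrix.of fun r c =>
      L (g r).1 (g r).2 (e c).1 * (g r).1 (ib (e c).2)
    have hCx : ∀ ξ r, ∑ c, C r c * (crd ξ c : ℂ) =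
        ∑ k, L (g r).1 (g r).2 k * (g r).1 (ξ k : K) := fun ξ r => by
      rw [← Equiv.sum_comp e.symm, Fintype.sum_prod_type]
      refine sum_congr rfl fun k _ => ?_
      conv_rhs => rw [← bb.sum_repr (ξ k)]
      simp only [C, crd, Matrix.of_apply, Equiv.apply_symm_apply, map_sum, zsmul_eq_mul, map_mul,
        map_intCast, hib, mul_sum]
      exact sum_congr rfl fun j _ => by ring
    have hC : C.det ≠ 0 := fun h0 => by
      obtain ⟨y, hy, hy0⟩ := exists_mulVec_eq_zero_iff.2 h0
      set Y : (K →+* ℂ) → Fin (n + 1) → ℂ := fun φ k => ∑ j, y (e.symm (k, j)) * φ (ib j)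
      have hY : ∀ φ, Y φ = 0 := fun φ => eq_zero_of_mulVec_eq_zero (hL φ) (funext fun i => by
        have h := congrFun hy0 (g.symm (φ, i))
        simp only [mulVec, dotProduct, C, Matrix.of_apply, Equiv.apply_symm_apply] at h
        rw [← Equiv.sum_comp e.symm, Fintype.sum_prod_type] at h
        simp only [Equiv.apply_symm_apply] at h
        show ∑ k, L φ i k * Y φ k = 0
        refine Eq.trans (sum_congr rfl fun k _ => ?_) h
        simp only [Y, mul_sum]
        exact sum_congr rfl fun j _ => by ring)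
      refine hy (funext fun c => ?_)
      have h := Fintype.linearIndependent_iff.1
        (canonicalEmbedding.latticeBasis K).linearIndependent
        (fun j => y (e.symm ((e c).1, j))) (funext fun φ => by
          simpa [Y, canonicalEmbedding.latticeBasis_apply, canonicalEmbedding.apply_at, ib]
            using congrFun (hY φ) (e c).1) (e c).2
      simpa using h
    have hCalg : ∀ r c, IsAlgebraic ℚ (C r c) := fun r c =>
      (halg _ _ _).mul ((Algebra.IsAlgebraic.isAlgebraic (R := ℚ) (ib (e c).2)).algHom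
        (g r).1.toRatAlgHom)
    exact ⟨C, hC, hCalg, hCx⟩

end FA.Subspace

end
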