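import Fermat.Agent.Subspace.Echelon
import Mathlib.NumberTheory.NumberField.Completion.FinitePlace

/-!
# Forms unimodular at a prime of a number field

Independent forms with coefficients in the field are, in a given order of their sizes at a prime
`P`, controlled by forms with integral coefficients and determinant outside `P`.
-/

set_option autoImplicit false

noncomputable section

namespace FA.Subspace

open Finset Matrix NumberField IsDedekindDomain WithZero

theorem toNNReal_exp {e : NNReal} (he : e ≠ 0) (a : ℤ) :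
    WithZeroMulInt.toNNReal he (exp a) = e ^ a := by
  rw [WithZeroMulInt.toNNReal_neg_apply _ exp_ne_zero]
  congr 1

variable {K : Type*} [Field K] [NumberField K]

/-- The absolute value at a prime of an element of a power of it. -/
theorem adicAbv_le_of_mem (v : HeightOneSpectrum (𝓞 K)) {y : 𝓞 K} {k : ℕ}
    (hy : y ∈ v.asIdeal ^ k) :
    HeightOneSpectrum.adicAbv K v (y : K) ≤ ((Ideal.absNorm v.asIdeal : ℝ) ^ k)⁻¹ := by
  have h := (v.intValuation_le_pow_iff_mem y k).2 hy
  rw [← v.valuation_of_algebraMap (K := K)] at h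
  have h1 := (WithZeroMulInt.toNNReal_strictMono
    (NumberField.HeightOneSpectrum.one_lt_absNorm_nnreal v)).monotone h
  rw [NumberField.HeightOneSpectrum.adicAbv_def]
  refine (NNReal.coe_le_coe.2 h1).trans_eq ?_
  rw [toNNReal_exp]
  simp [_root_.zpow_neg]

/-- The exact order at a prime of a nonzero integer. -/
theorem exists_adicAbv_eq (v : HeightOneSpectrum (𝓞 K)) {y : 𝓞 K} (hy : y ≠ 0) :
    ∃ k : ℕ, y ∈ v.asIdeal ^ k ∧
      HeightOneSpectrum.adicAbv K v (y : K) = ((Ideal.absNorm v.asIdeal : ℝ) ^ k)⁻¹ := by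
  obtain ⟨k, hk⟩ : ∃ k : ℕ, v.intValuation y = exp (-(k : ℤ)) := ⟨_, v.intValuation_if_neg hy⟩
  refine ⟨k, (v.intValuation_le_pow_iff_mem y k).1 hk.le, ?_⟩
  rw [NumberField.HeightOneSpectrum.adicAbv_def, v.valuation_of_algebraMap, hk,
    toNNReal_exp]
  simp [_root_.zpow_neg]

/-- Integral forms with determinant prime to `v`, controlled by the given ones in their order. -/
theorem exists_echelon_prime (v : HeightOneSpectrum (𝓞 K)) {N : ℕ}
    (U : Matrix (Fin N) (Fin N) K) (hU : U.det ≠ 0) :
    ∃ (V : Matrix (Fin N) (Fin N) (𝓞 K)) (C : ℝ), V.det ∉ v.asIdeal ∧ 1 ≤ C ∧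
      ∀ ξ : Fin N → 𝓞 K,
        Monotone (fun i => HeightOneSpectrum.adicAbv K v (∑ k, U i k * (ξ k : K))) →
        ∀ i, HeightOneSpectrum.adicAbv K v (((V *ᵥ ξ) i : 𝓞 K) : K) ≤
          C * HeightOneSpectrum.adicAbv K v (∑ k, U i k * (ξ k : K)) := by
  classical
  set O := (v.valuation K).valuationSubring
  obtain ⟨V', T, hV', hT, hVT⟩ := exists_echelon O U hU
  choose num den hnd using fun p : Fin N × Fin N =>
    v.exists_primeCompl_mul_eq_of_integer (V' p.1 p.2 : K) (V' p.1 p.2).2
  set c : 𝓞 K := ∏ p, (den p : 𝓞 K) with hc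
  set V : Matrix (Fin N) (Fin N) (𝓞 K) :=
    Matrix.of fun i j => num (i, j) * ∏ p ∈ univ.erase (i, j), (den p : 𝓞 K)
  have hVc : ∀ i j, (V i j : K) = (c : K) * (V' i j : K) := fun i j => by
    rw [hc, ← mul_prod_erase univ _ (mem_univ (i, j))]
    simp only [V, Matrix.of_apply, map_mul]
    rw [← hnd (i, j)]
    ring
  have hc0 : c ∉ v.asIdeal := fun h => by
    obtain ⟨p, -, hp⟩ := (v.isPrime.prod_mem_iff).1 h
    exact (den p).2 hp
  have habv : ∀ y : 𝓞 K, y ∉ v.asIdeal → HeightOneSpectrum.adicAbv K v (y : K) = 1 := fun y hy => by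
    rw [← FinitePlace.norm_embedding]
    exact (FinitePlace.norm_eq_one_iff_notMem K v y).2 hy
  refine ⟨V, 1 + ∑ i, ∑ j, HeightOneSpectrum.adicAbv K v (T i j), ?_,
    le_add_of_nonneg_right (by positivity), fun ξ hmono i => ?_⟩
  · intro h
    have h1 : ((V.det : 𝓞 K) : K) = (c : K) ^ N * ((V'.det : O) : K) := by
      rw [show ((V.det : 𝓞 K) : K) = (algebraMap (𝓞 K) K) V.det from rfl, RingHom.map_det,
        show (algebraMap (𝓞 K) K).mapMatrix V = (c : K) • O.subtype.mapMatrix V' from
          Matrix.ext fun i j => hVc i j, det_smul, Fintype.card_fin, ← RingHom.map_det]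
      rfl
    have h2 : v.valuation K ((V'.det : O) : K) = 1 :=
      (Valuation.Integers.isUnit_iff_valuation_eq_one
        (Valuation.valuationSubring.integers (v.valuation K))).1 hV'
    have h3 := (v.valuation_lt_one_iff_mem (K := K) V.det).2 h
    replace h3 : v.valuation K ((V.det : 𝓞 K) : K) < 1 := h3
    rw [h1, map_mul, map_pow, h2, mul_one,
      (v.valuation_eq_one_iff_notMem (K := K)).2 hc0, one_pow] at h3
    exact lt_irrefl _ h3
  · have h : (((V *ᵥ ξ) i : 𝓞 K) : K) = (c : K) * ∑ j, T i j * ∑ k, U j k * (ξ k : K) := by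
      simp only [mulVec, dotProduct, map_sum, map_mul, hVc, mul_assoc, ← mul_sum]
      congr 1
      have h1 : ∀ k, (V' i k : K) = ∑ j, T i j * U j k := fun k => by
        rw [← Matrix.mul_apply, ← hVT]
        rfl
      simp only [h1, sum_mul, mul_sum, mul_assoc]
      exact sum_comm
    rw [h, map_mul, habv c hc0, one_mul]
    refine ((HeightOneSpectrum.adicAbv K v).sum_le _ _).trans ((sum_le_sum (g := fun j =>
      HeightOneSpectrum.adicAbv K v (T i j) *
        HeightOneSpectrum.adicAbv K v (∑ k, U i k * (ξ k : K))) fun j _ => ?_).trans ?_)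
    · rw [map_mul]
      rcases lt_or_ge i j with hij | hij
      · simp [hT i j hij]
      · exact mul_le_mul_of_nonneg_left (hmono hij) (AbsoluteValue.nonneg _ _)
    · rw [← sum_mul]
      exact mul_le_mul_of_nonneg_right ((single_le_sum
        (f := fun i => ∑ j, HeightOneSpectrum.adicAbv K v (T i j))
        (fun _ _ => sum_nonneg fun _ _ => AbsoluteValue.nonneg _ _) (mem_univ i)).trans
        (le_add_of_nonneg_left zero_le_one)) (AbsoluteValue.nonneg _ _)

end FA.Subspace

end
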