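import Fermat.Agent.Thue.Auxiliary
import Mathlib.FieldTheory.Minpoly.IsIntegrallyClosed
import Mathlib.FieldTheory.PrimitiveElement
import Mathlib.LinearAlgebra.Matrix.AbsoluteValue
import Mathlib.LinearAlgebra.Matrix.NonsingularInverse
import Mathlib.RingTheory.Algebraic.Integral
import Mathlib.RingTheory.PowerBasis

/-!
# Linear forms with algebraic coefficients

The coefficients of the inverse of a matrix with algebraic entries are, up to a common integer
factor, polynomials in one algebraic integer; a value at this number of a combination of integer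
polynomials that does not vanish is bounded from below by a power of the coefficients (Liouville).
A generalised cross product of `n` vectors in dimension `n + 1` gives their normal vector.
-/

set_option autoImplicit false

noncomputable section

namespace FA.Subspace

open Polynomial Finset Matrix

/-- Finitely many algebraic elements of an integrally closed domain are, up to a common integer
factor, polynomials in one of its algebraic integers. -/
theorem exists_presentation {R : Type*} [CommRing R] [IsDomain R] [CharZero R]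
    [IsIntegrallyClosed R] {ι : Type*} [Fintype ι] (x : ι → R) (hx : ∀ p, IsAlgebraic ℤ (x p)) :
    ∃ (α : R) (μ : ℤ[X]) (d : ℕ) (a : ι → ℤ[X]), μ.Monic ∧ aeval α μ = 0 ∧
      0 < μ.natDegree ∧ LinearIndependent ℤ (fun i : Fin μ.natDegree => α ^ (i : ℕ)) ∧
      0 < d ∧ ∀ p, (d : R) * x p = aeval α (a p) := by
  classical
  let F := FractionRing R
  haveI : CharZero F := charZero_of_injective_algebraMap (IsFractionRing.injective R F)
  haveI := IsScalarTower.of_algebraMap_eq' (R := ℤ) (S := ℚ) (A := F) (RingHom.ext_int _ _)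
  have hxF : ∀ p, IsAlgebraic ℚ (algebraMap R F (x p)) := fun p =>
    (IsFractionRing.isAlgebraic_iff ℤ ℚ F).1
      ((isAlgebraic_algebraMap_iff (IsFractionRing.injective R F)).2 (hx p))
  set S : Set F := Set.range fun p => algebraMap R F (x p) with hS
  set K := IntermediateField.adjoin ℚ S with hK
  haveI : Finite S := (Set.finite_range _).to_subtype
  haveI : FiniteDimensional ℚ K := IntermediateField.finiteDimensional_adjoin fun y hy => by
    obtain ⟨p, rfl⟩ := hy
    exact (hxF p).isIntegral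
  obtain ⟨α₀, hα₀⟩ := Field.exists_primitive_element ℚ K
  have hα₀i : IsIntegral ℚ α₀ := IsIntegral.of_finite ℚ α₀
  -- an integral multiple of the primitive element
  set β : F := algebraMap K F α₀ with hβ
  have hβalg : IsAlgebraic ℤ β :=
    (IsFractionRing.isAlgebraic_iff ℤ ℚ F).2 (hα₀i.map (IsScalarTower.toAlgHom ℚ K F)).isAlgebraic
  obtain ⟨y, hy, hint⟩ := hβalg.exists_integral_multiple
  obtain ⟨α, hα⟩ := IsIntegrallyClosed.isIntegral_iff.1 (hint.tower_top (A := R))
  have hαi : IsIntegral ℤ α := by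
    rw [← isIntegral_algebraMap_iff (B := F) (IsFractionRing.injective R F), hα]
    exact hint
  have hy0 : (y : F) ≠ 0 := Int.cast_ne_zero.2 hy
  have hpoly : ∀ z : K, ∃ q : ℚ[X], algebraMap K F z = aeval (algebraMap R F α) q := by
    intro z
    have hz : z ∈ (IntermediateField.adjoin ℚ {α₀}).toSubalgebra := by
      rw [hα₀]
      exact IntermediateField.mem_top
    rw [IntermediateField.adjoin_simple_toSubalgebra_of_isAlgebraic hα₀i.isAlgebraic,
      Algebra.adjoin_singleton_eq_range_aeval] at hz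
    obtain ⟨p, rfl⟩ := hz
    refine ⟨p.comp (C ((y : ℚ)⁻¹) * X), ?_⟩
    rw [aeval_comp]
    show algebraMap K F (aeval α₀ p) = _
    rw [← aeval_algebraMap_apply, ← hβ]
    congr 1
    simp only [map_mul, aeval_C, aeval_X, hα, zsmul_eq_mul, map_inv₀, map_intCast]
    rw [Algebra.smul_def, eq_intCast, inv_mul_cancel_left₀ hy0]
  have hint' : ∀ p, ∃ (d : ℕ) (a : ℤ[X]), 0 < d ∧ (d : R) * x p = aeval α a := by
    intro p
    obtain ⟨q, hq⟩ := hpoly ⟨algebraMap R F (x p), IntermediateField.subset_adjoin ℚ S ⟨p, rfl⟩⟩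
    obtain ⟨b, hb, hbq⟩ := IsLocalization.integerNormalization_spec (nonZeroDivisors ℤ) q
    have hb0 : b ≠ 0 := nonZeroDivisors.ne_zero hb
    set w := IsLocalization.integerNormalization (nonZeroDivisors ℤ) q
    have hw : aeval α w = (b : R) * x p := by
      apply IsFractionRing.injective R F
      rw [← aeval_algebraMap_apply, ← aeval_map_algebraMap ℚ (algebraMap R F α) w, hbq,
        map_zsmul, zsmul_eq_mul, ← hq, map_mul, map_intCast]
      rfl
    refine ⟨b.natAbs, if 0 ≤ b then w else -w, Int.natAbs_pos.2 hb0, ?_⟩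
    split_ifs with h
    · rw [hw, Nat.cast_natAbs, abs_of_nonneg h]
    · rw [map_neg, hw, Nat.cast_natAbs, abs_of_nonpos (not_le.1 h).le, Int.cast_neg, neg_mul]
  choose dd aa hdd haa using hint'
  refine ⟨α, minpoly ℤ α, ∏ p, dd p, fun p => C ((∏ p' ∈ univ.erase p, dd p' : ℕ) : ℤ) * aa p,
    minpoly.monic hαi, minpoly.aeval ℤ α, minpoly.natDegree_pos hαi, ?_,
    prod_pos fun p _ => hdd p, fun p => ?_⟩
  · have h := linearIndependent_pow (K := ℚ) (algebraMap R F α)
    rw [minpoly.isIntegrallyClosed_eq_field_fractions' ℚ hαi.algebraMap,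
      (minpoly.monic hαi.algebraMap).natDegree_map,
      minpoly.algebraMap_eq (IsFractionRing.injective R F)] at h
    refine Fintype.linearIndependent_iff.2 fun c hc i => ?_
    have h2 := Fintype.linearIndependent_iff.1 h (fun i => (c i : ℚ)) ?_ i
    · exact_mod_cast h2
    · simpa [Rat.smul_def, zsmul_eq_mul] using congrArg (algebraMap R F) hc
  · rw [map_mul, aeval_C, ← haa, ← mul_prod_erase univ dd (mem_univ p)]
    simp only [Nat.cast_mul, map_natCast, algebraMap_int_eq]
    ring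

theorem isAlgebraic_det {R : Type*} [CommRing R] [IsDomain R] {m : Type*} [Fintype m]
    [DecidableEq m] {U : Matrix m m R} (hU : ∀ i j, IsAlgebraic ℤ (U i j)) :
    IsAlgebraic ℤ U.det := by
  set O := Subalgebra.algebraicClosure ℤ R
  have h : U = (Matrix.of fun i j => (⟨U i j, hU i j⟩ : O)).map O.val.toRingHom := rfl
  rw [h, ← RingHom.mapMatrix_apply, ← RingHom.map_det]
  exact Subtype.prop (_ : O)

/-- The entries of the inverse of an invertible matrix with algebraic entries are algebraic. -/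
theorem isAlgebraic_inv {R : Type*} [CommRing R] [IsDomain R] {m : Type*} [Fintype m]
    [DecidableEq m] {U : Matrix m m R} (hU : ∀ i j, IsAlgebraic ℤ (U i j)) (hdet : IsUnit U.det)
    (i j : m) : IsAlgebraic ℤ (U⁻¹ i j) := by
  rw [Matrix.inv_def, Matrix.smul_apply, smul_eq_mul]
  refine IsAlgebraic.mul ?_ ?_
  · refine (isAlgebraic_algebraMap_iff (IsFractionRing.injective R (FractionRing R))).1 ?_
    obtain ⟨u, hu⟩ := hdet
    rw [← hu, Ring.inverse_unit, map_units_inv]
    exact IsAlgebraic.inv (by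
      rw [hu]; exact (isAlgebraic_algebraMap_iff (IsFractionRing.injective R _)).2
        (isAlgebraic_det hU))
  · rw [adjugate_apply]
    refine isAlgebraic_det fun p q => ?_
    rw [updateRow_apply]
    split_ifs
    · rcases eq_or_ne q i with rfl | h
      · simpa using isAlgebraic_one
      · simpa [Pi.single_eq_of_ne h] using isAlgebraic_zero
    · exact hU p q

/-- The common field of algebraic numbers. -/
theorem exists_setup {N : ℕ} (L : Matrix (Fin N) (Fin N) ℝ) (hL : L.det ≠ 0)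
    (halg : ∀ i j, IsAlgebraic ℚ (L i j)) :
    ∃ (α : ℝ) (μ : ℤ[X]) (d : ℕ) (a : Fin N → Fin N → ℤ[X]), μ.Monic ∧ aeval α μ = 0 ∧
      0 < μ.natDegree ∧ LinearIndependent ℚ (fun i : Fin μ.natDegree => α ^ (i : ℕ)) ∧
      0 < d ∧ ∀ k i, (d : ℝ) * L⁻¹ k i = aeval α (a k i) := by
  obtain ⟨α, μ, d, a, hmon, hα, hD, hind, hd, ha⟩ := exists_presentation
    (fun p : Fin N × Fin N => L⁻¹ p.1 p.2) fun p => isAlgebraic_inv
      (fun i j => (IsFractionRing.isAlgebraic_iff ℤ ℚ ℝ).2 (halg i j))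
      (isUnit_iff_ne_zero.2 hL) p.1 p.2
  exact ⟨α, μ, d, fun k i => a (k, i), hmon, hα, hD,
    (LinearIndependent.iff_fractionRing ℤ ℚ).1 hind, hd, fun k i => ha (k, i)⟩

/-- The multiplications by polynomials in an algebraic integer, in the powers of it. -/
theorem exists_mul_rows {R : Type} [CommRing R] {α : R} {μ : ℤ[X]} (hmon : μ.Monic)
    (hα : aeval α μ = 0) (hD : 0 < μ.natDegree) {ι : Type*} (b : ι → ℤ[X]) :
    ∃ Z : ι → Matrix (Fin μ.natDegree) (Fin μ.natDegree) ℤ, ∀ k (i : Fin μ.natDegree),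
      aeval α (b k) * α ^ (i : ℕ) = ∑ l, (Z k i l : R) * α ^ (l : ℕ) := by
  obtain ⟨c, c₀, -, hpow, -⟩ := Thue.exists_power_coeff hmon rfl hD
  refine ⟨fun k => Matrix.of fun i l =>
    ∑ e ∈ range ((b k).natDegree + 1), (b k).coeff e * c (e + (i : ℕ)) l, fun k i => ?_⟩
  rw [aeval_eq_sum_range, sum_mul]
  simp only [Matrix.of_apply, Int.cast_sum, Int.cast_mul, sum_mul]
  rw [sum_comm (s := univ)]
  refine sum_congr rfl fun e _ => ?_
  rw [zsmul_eq_mul, mul_assoc, ← pow_add, hpow α hα, mul_sum]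
  exact sum_congr rfl fun l _ => by ring

theorem abs_sum_rows_le {D : ℕ} {ι : Type*} [Fintype ι] (Z : ι → Matrix (Fin D) (Fin D) ℤ)
    {u : ι → ℤ} {U : ℝ} (hU : 1 ≤ U) (hu : ∀ k, |(u k : ℝ)| ≤ U) (i l : Fin D) :
    |((∑ k, u k • Z k) i l : ℝ)| ≤ (1 + ∑ k, ∑ i, ∑ l, |(Z k i l : ℝ)|) * U := by
  simp only [Matrix.sum_apply, Matrix.smul_apply, smul_eq_mul, Int.cast_sum, Int.cast_mul]
  refine (abs_sum_le_sum_abs _ _).trans ?_
  refine (sum_le_sum (g := fun k => (∑ i, ∑ l, |(Z k i l : ℝ)|) * U) fun k _ => ?_).trans ?_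
  · rw [abs_mul, mul_comm |(u k : ℝ)|]
    refine mul_le_mul ?_ (hu k) (abs_nonneg _) (by positivity)
    exact le_trans (single_le_sum (f := fun l => |(Z k i l : ℝ)|) (fun _ _ => abs_nonneg _)
      (mem_univ l)) (single_le_sum (f := fun i => ∑ l, |(Z k i l : ℝ)|)
      (fun _ _ => sum_nonneg fun _ _ => abs_nonneg _) (mem_univ i))
  · rw [← sum_mul]
    exact mul_le_mul_of_nonneg_right (le_add_of_nonneg_left zero_le_one) (by linarith)

/-- **Liouville's inequality** for linear combinations of fixed numbers of a number field. -/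
theorem exists_linear_lower {α : ℝ} {μ : ℤ[X]} (hmon : μ.Monic) (hα : aeval α μ = 0)
    (hD : 0 < μ.natDegree) (hind : LinearIndependent ℚ (fun i : Fin μ.natDegree => α ^ (i : ℕ)))
    {ι : Type*} [Fintype ι] (b : ι → ℤ[X]) :
    ∃ C : ℝ, 1 ≤ C ∧ ∀ (u : ι → ℤ) (U : ℝ), 1 ≤ U → (∀ k, |(u k : ℝ)| ≤ U) →
      ∑ k, (u k : ℝ) * aeval α (b k) ≠ 0 →
        1 ≤ C * U ^ μ.natDegree * |∑ k, (u k : ℝ) * aeval α (b k)| := by
  classical
  set D := μ.natDegree with hDdef
  obtain ⟨Z, hrow⟩ := exists_mul_rows hmon hα hD b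
  set B : ℝ := 1 + ∑ k, ∑ i, ∑ l, |(Z k i l : ℝ)| with hB
  have hB1 : 1 ≤ B := le_add_of_nonneg_right
    (sum_nonneg fun _ _ => sum_nonneg fun _ _ => sum_nonneg fun _ _ => abs_nonneg _)
  refine ⟨1 + (∑ l : Fin D, |α| ^ (l : ℕ)) * (D.factorial * B ^ D),
    le_add_of_nonneg_right (by positivity), fun u U hU hu hne => ?_⟩
  set g := ∑ k, (u k : ℝ) * aeval α (b k) with hg
  set M : Matrix (Fin D) (Fin D) ℤ := ∑ k, u k • Z k with hM
  set e : Fin D → ℝ := fun l => α ^ (l : ℕ) with he
  have hMe : M.map (fun z : ℤ => (z : ℝ)) *ᵥ e = g • e := by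
    funext i
    simp only [mulVec, dotProduct, Matrix.map_apply, hM, Matrix.sum_apply, Matrix.smul_apply,
      smul_eq_mul, Int.cast_sum, Int.cast_mul, Pi.smul_apply, he, hg, sum_mul]
    rw [sum_comm]
    refine sum_congr rfl fun k _ => ?_
    rw [mul_assoc, hrow, mul_sum]
    exact sum_congr rfl fun l _ => by ring
  have hMbound : ∀ i l, |(M i l : ℝ)| ≤ B * U := fun i l => abs_sum_rows_le Z hU hu i l
  have hdet0 : M.det ≠ 0 := by
    intro h0
    obtain ⟨v, hv0, hv⟩ := exists_vecMul_eq_zero_iff.2 h0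
    have h1 : (∑ i, (v i : ℝ) * e i) * g = 0 := by
      calc (∑ i, (v i : ℝ) * e i) * g = (fun i => (v i : ℝ)) ⬝ᵥ (g • e) := by
            rw [sum_mul, dotProduct]
            exact sum_congr rfl fun i _ => by simp [mul_assoc, mul_comm g]
        _ = ((fun i => (v i : ℝ)) ᵥ* M.map (fun z : ℤ => (z : ℝ))) ⬝ᵥ e := by
            rw [← hMe, dotProduct_mulVec]
        _ = 0 := by
            have : (fun i => (v i : ℝ)) ᵥ* M.map (fun z : ℤ => (z : ℝ)) = 0 := by
              funext l
              have := congrFun hv l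
              simp only [vecMul, dotProduct, Pi.zero_apply] at this
              simp only [vecMul, dotProduct, Matrix.map_apply, Pi.zero_apply]
              exact_mod_cast this
            rw [this, zero_dotProduct]
    refine hv0 (funext fun i => ?_)
    have h2 := Fintype.linearIndependent_iff.1 hind (fun i => (v i : ℚ)) ?_ i
    · exact_mod_cast h2
    · rw [← (mul_eq_zero.1 h1).resolve_right hne]
      exact sum_congr rfl fun i _ => by simp [Rat.smul_def, he]
  set A := (M.map (fun z : ℤ => (z : ℝ))).adjugate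
  have hAM : ((M.det : ℤ) : ℝ) * e ⟨0, hD⟩ = g * (A *ᵥ e) ⟨0, hD⟩ := by
    have h : A *ᵥ (M.map (fun z : ℤ => (z : ℝ)) *ᵥ e) = ((M.det : ℤ) : ℝ) • e := by
      rw [mulVec_mulVec, adjugate_mul, smul_mulVec, one_mulVec, Int.cast_det]
    rw [hMe, mulVec_smul] at h
    simpa using (congrFun h ⟨0, hD⟩).symm
  have he0 : e ⟨0, hD⟩ = 1 := by simp [he]
  rw [he0, mul_one] at hAM
  have hAb : ∀ i l, |A i l| ≤ D.factorial * (B * U) ^ D := by
    intro i l
    simp only [A, adjugate_apply]
    refine (det_le (abv := AbsoluteValue.abs) (x := B * U) fun p q => ?_).trans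
      (le_of_eq (by simp))
    show |updateRow _ l (Pi.single i 1) p q| ≤ B * U
    rw [updateRow_apply]
    split_ifs with h
    · refine le_trans ?_ (one_le_mul_of_one_le_of_one_le hB1 hU)
      rcases eq_or_ne q i with rfl | hqi <;> simp [*]
    · exact hMbound p q
  have h1 : (1 : ℝ) ≤ |((M.det : ℤ) : ℝ)| := by exact_mod_cast Int.one_le_abs hdet0
  rw [hAM, abs_mul] at h1
  refine h1.trans ?_
  rw [mul_comm |g|]
  refine mul_le_mul_of_nonneg_right ?_ (abs_nonneg g)
  simp only [mulVec, dotProduct]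
  refine (abs_sum_le_sum_abs _ _).trans ((sum_le_sum (g := fun l : Fin D =>
    |α| ^ (l : ℕ) * (D.factorial * B ^ D) * U ^ D) fun l _ => ?_).trans ?_)
  · rw [abs_mul, show |e l| = |α| ^ (l : ℕ) by simp [he], mul_comm |A _ l|, mul_assoc,
      mul_assoc (D.factorial : ℝ), ← mul_pow]
    exact mul_le_mul_of_nonneg_left (hAb _ l) (pow_nonneg (abs_nonneg α) _)
  · rw [← sum_mul, ← sum_mul]
    exact mul_le_mul_of_nonneg_right (le_add_of_nonneg_left zero_le_one) (by positivity)

/-- A non-zero combination of finitely many algebraic elements of an integrally closed domain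
divides a non-zero integer bounded by a power of the coefficients. -/
theorem exists_norm_bound {R : Type} [CommRing R] [IsDomain R] [CharZero R]
    [IsIntegrallyClosed R] {ι : Type*} [Fintype ι] (x : ι → R) (hx : ∀ p, IsAlgebraic ℤ (x p)) :
    ∃ (C : ℝ) (D : ℕ), 1 ≤ C ∧ ∀ (u : ι → ℤ) (U : ℝ), 1 ≤ U → (∀ k, |(u k : ℝ)| ≤ U) →
      ∑ k, (u k : R) * x k ≠ 0 →
        ∃ z : ℤ, z ≠ 0 ∧ |(z : ℝ)| ≤ C * U ^ D ∧ ∑ k, (u k : R) * x k ∣ (z : R) := by
  classical
  obtain ⟨α, μ, d, a, hmon, hα, hD, hind, hd, ha⟩ := exists_presentation x hx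
  set D := μ.natDegree with hDdef
  obtain ⟨Z, hrow⟩ := exists_mul_rows hmon hα hD a
  set B : ℝ := 1 + ∑ k, ∑ i, ∑ l, |(Z k i l : ℝ)| with hB
  have hB1 : 1 ≤ B := le_add_of_nonneg_right
    (sum_nonneg fun _ _ => sum_nonneg fun _ _ => sum_nonneg fun _ _ => abs_nonneg _)
  refine ⟨1 + D.factorial * B ^ D, D, le_add_of_nonneg_right (by positivity),
    fun u U hU hu hne => ?_⟩
  set γ := ∑ k, (u k : R) * x k
  set M : Matrix (Fin D) (Fin D) ℤ := ∑ k, u k • Z k with hM
  set e : Fin D → R := fun l => α ^ (l : ℕ) with he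
  set MR := M.map (Int.castRingHom R)
  have hMe : MR *ᵥ e = ((d : R) * γ) • e := by
    funext i
    simp only [MR, mulVec, dotProduct, Matrix.map_apply, hM, Matrix.sum_apply, Matrix.smul_apply,
      smul_eq_mul, eq_intCast, Int.cast_sum, Int.cast_mul, Pi.smul_apply, he, γ, mul_sum, sum_mul]
    rw [sum_comm]
    refine sum_congr rfl fun k _ => ?_
    rw [mul_left_comm (d : R), ha, mul_assoc, hrow, mul_sum]
    exact sum_congr rfl fun l _ => by ring
  have hdγ : (d : R) * γ ≠ 0 := mul_ne_zero (Nat.cast_ne_zero.2 hd.ne') hne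
  have hdet0 : M.det ≠ 0 := by
    intro h0
    obtain ⟨v, hv0, hv⟩ := exists_vecMul_eq_zero_iff.2 h0
    have hv' : (fun i => (v i : R)) ᵥ* MR = 0 := funext fun l => by
      simpa [MR, vecMul, dotProduct] using congrArg (Int.cast : ℤ → R) (congrFun hv l)
    have h1 : (fun i => (v i : R)) ⬝ᵥ e * ((d : R) * γ) = 0 := by
      rw [mul_comm, ← smul_eq_mul, ← dotProduct_smul, ← hMe, dotProduct_mulVec, hv',
        zero_dotProduct]
    refine hv0 (funext (Fintype.linearIndependent_iff.1 hind v ?_))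
    rw [← (mul_eq_zero.1 h1).resolve_right hdγ, dotProduct]
    exact sum_congr rfl fun i _ => by rw [zsmul_eq_mul]
  have hMU : ∀ i l, |(M i l : ℝ)| ≤ B * U := fun i l => abs_sum_rows_le Z hU hu i l
  refine ⟨M.det, hdet0, ?_, ?_⟩
  · refine (det_le (A := M.map fun z : ℤ => (z : ℝ)) (abv := AbsoluteValue.abs) (x := B * U)
      fun p q => hMU p q).trans' (le_of_eq ?_) |>.trans ?_
    · rw [Int.cast_det]
      rfl
    · rw [Fintype.card_fin, nsmul_eq_mul, mul_pow, ← mul_assoc]
      exact mul_le_mul_of_nonneg_right (le_add_of_nonneg_left zero_le_one) (by positivity)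
  · have h : MR.adjugate *ᵥ (MR *ᵥ e) = ((M.det : ℤ) : R) • e := by
      rw [mulVec_mulVec, adjugate_mul, smul_mulVec, one_mulVec, Int.cast_det]
      rfl
    rw [hMe, mulVec_smul] at h
    have h0 := congrFun h ⟨0, hD⟩
    simp only [Pi.smul_apply, smul_eq_mul, he, pow_zero, mul_one] at h0
    rw [← h0]
    exact (dvd_mul_left γ (d : R)).mul_right _

section Cross

variable {n : ℕ} {R : Type*} [CommRing R]

/-- The vector of the cofactors of `n` vectors in dimension `n + 1`. -/
def cross (g : Fin n → Fin (n + 1) → R) (k : Fin (n + 1)) : R :=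
  (Matrix.of (Fin.snoc g (Pi.single k 1) : Fin (n + 1) → Fin (n + 1) → R)).det

/-- Its product with a vector is the determinant. -/
theorem cross_dotProduct (g : Fin n → Fin (n + 1) → R) (x : Fin (n + 1) → R) :
    cross g ⬝ᵥ x = (Matrix.of (Fin.snoc g x : Fin (n + 1) → Fin (n + 1) → R)).det := by
  rw [det_eq_sum_mul_adjugate_row _ (Fin.last n), dotProduct]
  refine sum_congr rfl fun k _ => ?_
  rw [adjugate_apply, mul_comm]
  congr 1
  · simp
  · rw [cross]
    congr 1
    ext i j
    rw [updateRow_apply]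
    rcases Fin.eq_castSucc_or_eq_last i with ⟨p, rfl⟩ | rfl
    · simp [Fin.castSucc_ne_last]
    · simp

theorem cross_dotProduct_self (g : Fin n → Fin (n + 1) → R) (j : Fin n) :
    cross g ⬝ᵥ g j = 0 := by
  rw [cross_dotProduct]
  exact det_zero_of_row_eq (Fin.castSucc_ne_last j) (by simp [funext_iff, Matrix.of_apply])

theorem map_cross {S : Type*} [CommRing S] (f : R →+* S) (g : Fin n → Fin (n + 1) → R)
    (k : Fin (n + 1)) : cross (fun j i => f (g j i)) k = f (cross g k) := by
  rw [cross, cross, RingHom.map_det]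
  congr 1
  ext i j
  rcases Fin.eq_castSucc_or_eq_last i with ⟨p, rfl⟩ | rfl
  · simp
  · rcases eq_or_ne j k with rfl | h <;> simp [*]

theorem exists_det_snoc_ne_zero {K : Type*} [Field K] {g : Fin n → Fin (n + 1) → K}
    (hg : LinearIndependent K g) :
    ∃ x, (Matrix.of (Fin.snoc g x : Fin (n + 1) → Fin (n + 1) → K)).det ≠ 0 := by
  obtain ⟨x, hx⟩ : ∃ x, x ∉ Submodule.span K (Set.range g) := by
    by_contra! h
    have h1 := Submodule.eq_top_iff'.2 h
    have h2 := finrank_span_eq_card hg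
    rw [h1, finrank_top, Module.finrank_fin_fun, Fintype.card_fin] at h2
    omega
  exact ⟨x, ((isUnit_iff_isUnit_det _).1 (linearIndependent_rows_iff_isUnit.1
    (linearIndependent_finSnoc.2 ⟨hg, hx⟩ :))).ne_zero⟩

theorem cross_ne_zero {K : Type*} [Field K] {g : Fin n → Fin (n + 1) → K}
    (hg : LinearIndependent K g) : cross g ≠ 0 := fun h => by
  obtain ⟨x, hx⟩ := exists_det_snoc_ne_zero hg
  rw [← cross_dotProduct, h, zero_dotProduct] at hx
  exact hx rfl

end Cross

/-- A non-zero integer vector is a multiple of one whose coordinates are coprime. -/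
theorem exists_primitive_vector {N : ℕ} {w : Fin N → ℤ} (hw : w ≠ 0) :
    ∃ (k : ℤ) (v a : Fin N → ℤ), k ≠ 0 ∧ (∀ i, w i = k * v i) ∧ ∑ i, a i * v i = 1 := by
  set I := Ideal.span (Set.range w)
  set k := Submodule.IsPrincipal.generator I
  have hk : ∀ i, k ∣ w i := fun i =>
    (Submodule.IsPrincipal.mem_iff_generator_dvd I).1 (Ideal.subset_span ⟨i, rfl⟩)
  choose v hv using hk
  obtain ⟨a, ha⟩ := Ideal.mem_span_range_iff_exists_fun.1
    (Submodule.IsPrincipal.generator_mem I)
  have hk0 : k ≠ 0 := fun e => hw (funext fun i => by rw [hv i, e, zero_mul, Pi.zero_apply])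
  refine ⟨k, v, a, hk0, hv, mul_left_cancel₀ hk0 ?_⟩
  rw [mul_sum, mul_one]
  refine (sum_congr rfl fun i _ => ?_).trans ha
  rw [hv i]
  ring

/-- Some coordinate quotient of a coprime vector has a large denominator. -/
theorem exists_large_den {N : ℕ} {v a : Fin (N + 1) → ℤ} (ha : ∑ i, a i * v i = 1)
    {i₀ : Fin (N + 1)} (h0 : v i₀ ≠ 0) (hN : 0 < N) :
    ∃ i₁, i₁ ≠ i₀ ∧ |(v i₀ : ℝ)| ≤ ((((v i₁ : ℚ) / v i₀).den : ℕ) : ℝ) ^ N := by
  classical
  set dn : Fin (N + 1) → ℕ := fun l => ((v l : ℚ) / v i₀).den with hdn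
  set P := ∏ l ∈ univ.erase i₀, dn l with hP
  have hdvd : ∀ l, v i₀ ∣ (P : ℤ) * v l := by
    intro l
    rcases eq_or_ne l i₀ with rfl | hl
    · exact dvd_mul_left _ _
    obtain ⟨t, ht⟩ := dvd_prod_of_mem dn (mem_erase.2 ⟨hl, mem_univ l⟩)
    refine ⟨((v l : ℚ) / v i₀).num * t, ?_⟩
    have h1 := Rat.num_div_den ((v l : ℚ) / v i₀)
    have h0' : (v i₀ : ℚ) ≠ 0 := by exact_mod_cast h0
    have h2 : ((((v l : ℚ) / v i₀).num : ℤ) : ℚ) * v i₀ = (v l : ℚ) * (dn l : ℕ) := by
      have hd : ((dn l : ℕ) : ℚ) ≠ 0 := by simp [hdn, Rat.den_nz]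
      field_simp [hdn] at h1 ⊢
      linear_combination h1
    have h3 : ((v l : ℤ) : ℚ) * (P : ℕ) = v i₀ * (((v l : ℚ) / v i₀).num * (t : ℕ)) := by
      rw [hP, ht]
      push_cast
      linear_combination (-(t : ℚ)) * h2
    rw [mul_comm]
    exact_mod_cast h3
  have hP' : v i₀ ∣ (P : ℤ) := by
    have h : v i₀ ∣ ∑ l, a l * ((P : ℤ) * v l) := dvd_sum fun l _ => (hdvd l).mul_left _
    rwa [sum_congr rfl fun l _ => mul_left_comm (a l) (P : ℤ) (v l), ← mul_sum, ha, mul_one] at h
  have hP0 : 0 < P := prod_pos fun l _ => Rat.den_pos _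
  have hne : (univ.erase i₀).Nonempty := by
    rw [← card_pos, card_erase_of_mem (mem_univ _), card_univ, Fintype.card_fin]
    omega
  obtain ⟨i₁, hi₁, hmax⟩ := (univ.erase i₀).exists_max_image dn hne
  refine ⟨i₁, ne_of_mem_erase hi₁, ?_⟩
  have h1 : |v i₀| ≤ (P : ℤ) := Int.le_of_dvd (by exact_mod_cast hP0) ((abs_dvd _ _).2 hP')
  have h2 : P ≤ dn i₁ ^ N := by
    refine (prod_le_pow_card _ _ _ hmax).trans (le_of_eq ?_)
    simp
  calc |(v i₀ : ℝ)| ≤ ((P : ℕ) : ℝ) := by exact_mod_cast h1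
    _ ≤ _ := (Nat.cast_le.2 h2).trans_eq (Nat.cast_pow _ _)

end FA.Subspace

end
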