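import Fermat.Agent.Subspace.PrimeCoordinates
import Fermat.Agent.Subspace.Setup
import Mathlib.FieldTheory.AlgebraicClosure
import Mathlib.NumberTheory.NumberField.Basic

/-!
# Linear forms with algebraic `p`-adic values at a prime of a number field

The coordinates at a prime `P` extend to additive maps `φ : 𝓞 K → ℤ_p ^ (e f)`, and `x ∈ P ^ k`
iff the coordinates of `x` are divisible by the powers of `p` of exponents `stepExp e k`. If `θ`
generates the field, the vectors `φ (θ ^ i)` span over the algebraic numbers in `ℚ_p` a space of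
dimension at most `e f` that contains the standard basis, so all these coordinates are algebraic.
-/

set_option autoImplicit false
set_option linter.style.haveILetI false

noncomputable section

namespace FA.Subspace

open Finset Matrix NumberField IsDedekindDomain WithZero

theorem stepExp_le {e : ℕ} (k : ℕ) (a : Fin e) : stepExp e k a ≤ k := by
  refine (Nat.div_le_div_right (Nat.add_le_add_right ?_ _)).trans_eq (stepExp_mul k a)
  exact Nat.le_mul_of_pos_left k (Nat.zero_lt_of_lt a.isLt)

variable {K : Type*} [Field K] [NumberField K]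

/-- An additive map to `ℤ_p ^ I` commuting with the integers of a field by matrices has algebraic
values once it takes the standard basis as values. -/
theorem isAlgebraic_additive {p : ℕ} [Fact p.Prime] {I : Type*} [Fintype I] [DecidableEq I]
    (φ : 𝓞 K →+ I → ℤ_[p]) (β : I → 𝓞 K) (hβ : ∀ j, φ (β j) = Pi.single j 1)
    (M : 𝓞 K → Matrix I I ℤ_[p]) (hM : ∀ x y, φ (x * y) = M x *ᵥ φ y) (x : 𝓞 K) (i : I) :
    IsAlgebraic ℤ (φ x i) := by
  classical
  set b := RingOfIntegers.basis K
  obtain ⟨α, μ, d, a, hmon, hα, -, -, hd, ha⟩ := exists_presentation (fun j => b j) fun j =>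
    (RingOfIntegers.isIntegral (b j)).isAlgebraic
  -- the matrix of the generator
  set ι := algebraMap ℤ_[p] ℚ_[p]
  set A : Matrix I I ℚ_[p] := (M α).map ι
  set w : 𝓞 K → I → ℚ_[p] := fun y => ι ∘ φ y
  have hw_add : ∀ y z, w (y + z) = w y + w z := fun y z => by
    funext j; simp [w]
  let wh : 𝓞 K →+ I → ℚ_[p] := AddMonoidHom.mk' w hw_add
  have hstep : ∀ (n : ℕ) (y : 𝓞 K), w (α ^ n * y) = (A ^ n) *ᵥ w y := by
    intro n y
    induction n with
    | zero => rw [pow_zero, one_mul, pow_zero, one_mulVec]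
    | succ n ih =>
      rw [pow_succ', mul_assoc, pow_succ', ← mulVec_mulVec, ← ih]
      funext j
      simp only [w, Function.comp_apply, hM, A]
      exact RingHom.map_mulVec ι _ _ j
  have hpoly : ∀ (q : Polynomial ℤ) (y : 𝓞 K),
      w (Polynomial.aeval α q * y) = Polynomial.aeval A q *ᵥ w y := by
    intro q y
    induction q using Polynomial.induction_on' with
    | add q r hq hr => rw [map_add, map_add, add_mul, hw_add, hq, hr, add_mulVec]
    | monomial n c =>
      rw [Polynomial.aeval_monomial, Polynomial.aeval_monomial, ← Algebra.smul_def,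
        ← Algebra.smul_def, smul_mul_assoc, smul_mulVec, ← hstep]
      exact map_zsmul wh c _
  have hA : Polynomial.aeval A μ = 0 := Matrix.ext_of_mulVec_single fun j => by
    have h := hpoly μ (β j)
    rw [hα, zero_mul, show w (β j) = Pi.single j 1 from funext fun i => by
      simp [w, hβ, Pi.single_apply, apply_ite ι], show w 0 = 0 from wh.map_zero] at h
    rw [← h, zero_mulVec]
  set g := minpoly ℚ_[p] A
  set r := g.natDegree
  have hgalg : ∀ n, g.coeff n ∈ algebraicClosure ℚ ℚ_[p] := by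
    have hdvd : g ∣ μ.map (algebraMap ℤ ℚ_[p]) := minpoly.dvd _ _ (by
      rw [Polynomial.aeval_map_algebraMap, hA])
    have h := integralClosure.mem_lifts_of_monic_of_dvd_map ℚ_[p] hmon
      (minpoly.monic (Matrix.isIntegral A)) hdvd
    intro n
    obtain ⟨⟨c, hc⟩, hn⟩ := (Polynomial.lifts_iff_coeff_lifts _).1 h n
    rw [← hn]
    exact mem_algebraicClosure_iff.2
      ((IsFractionRing.isAlgebraic_iff ℤ ℚ ℚ_[p]).1 hc.isAlgebraic)
  have hr : r ≤ Fintype.card I := by
    rw [← Matrix.charpoly_natDegree_eq_dim A]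
    exact Polynomial.natDegree_le_of_dvd (Matrix.minpoly_dvd_charpoly A) A.charpoly_monic.ne_zero
  set F₀ := algebraicClosure ℚ ℚ_[p]
  set u : ℕ → I → ℚ_[p] := fun n => (A ^ n) *ᵥ w 1
  set Λ : Submodule F₀ (I → ℚ_[p]) := Submodule.span F₀ ↑((range r).image u)
  have hu : ∀ n, u n ∈ Λ := by
    intro n
    induction n using Nat.strong_induction_on with
    | _ n ih =>
      rcases lt_or_ge n r with h | h
      · exact Submodule.subset_span (mem_coe.2 (mem_image_of_mem u (mem_range.2 h)))
      obtain ⟨m, rfl⟩ := Nat.exists_eq_add_of_le h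
      have h0 := minpoly.aeval ℚ_[p] A
      rw [Polynomial.aeval_eq_sum_range, sum_range_succ,
        (minpoly.monic (Matrix.isIntegral A)).coeff_natDegree, one_smul] at h0
      have h1 : u (r + m) = -∑ n ∈ range r, g.coeff n • u (n + m) := by
        simp only [u, pow_add, ← mulVec_mulVec, ← smul_mulVec, ← sum_mulVec, ← neg_mulVec]
        rw [← eq_neg_of_add_eq_zero_right h0]
      rw [h1]
      refine Submodule.neg_mem _ (Submodule.sum_mem _ fun k hk => ?_)
      have := mem_range.1 hk
      exact Submodule.smul_mem Λ (⟨g.coeff k, hgalg k⟩ : F₀) (ih _ (by omega))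
  have hmem : ∀ y, w y ∈ Λ := by
    intro y
    have hbj : ∀ j, w (b j) ∈ Λ := fun j => by
      have h := hpoly (a j) 1
      rw [mul_one, ← ha, ← nsmul_eq_mul, show w (d • b j) = d • w (b j) from map_nsmul wh d _,
        Polynomial.aeval_eq_sum_range, sum_mulVec] at h
      have h1 : d • w (b j) ∈ Λ := by
        rw [h]
        refine Submodule.sum_mem _ fun n _ => ?_
        rw [smul_mulVec]
        exact Λ.toAddSubgroup.zsmul_mem (hu n) _
      rw [← Nat.cast_smul_eq_nsmul F₀] at h1
      exact (Λ.smul_mem_iff (Nat.cast_ne_zero.2 hd.ne')).1 h1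
    rw [← b.sum_repr y, show w (∑ j, b.repr y j • b j) = ∑ j, b.repr y j • w (b j) by
      rw [show w = ⇑wh from rfl, map_sum]
      exact sum_congr rfl fun j _ => map_zsmul wh _ _]
    exact Submodule.sum_mem _ fun j _ => Λ.toAddSubgroup.zsmul_mem (hbj j) _
  -- the algebraic vectors
  set κ : (I → F₀) →ₗ[F₀] (I → ℚ_[p]) :=
    LinearMap.pi fun i => (Algebra.linearMap F₀ ℚ_[p]).comp (LinearMap.proj i)
  have hκ : Function.Injective κ := fun s t h => funext fun i =>
    Subtype.ext (congrFun h i)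
  have hle : LinearMap.range κ ≤ Λ := by
    rintro _ ⟨s, rfl⟩
    have h : κ s = ∑ j, s j • w (β j) := funext fun i => by
      simp [κ, w, hβ, Finset.sum_apply, Pi.single_apply, apply_ite ι, Subalgebra.smul_def,
        IntermediateField.smul_def]
    rw [h]
    exact Submodule.sum_mem _ fun j _ => Λ.smul_mem _ (hmem _)
  have hfin : Module.finrank F₀ Λ ≤ Fintype.card I :=
    ((finrank_span_finset_le_card _).trans card_image_le).trans (by simpa using hr)
  haveI : Module.Finite F₀ Λ := Module.Finite.span_of_finite F₀ (Finset.finite_toSet _)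
  have heq : LinearMap.range κ = Λ := Submodule.eq_of_le_of_finrank_le hle (by
    rwa [LinearMap.finrank_range_of_inj hκ, Module.finrank_pi])
  obtain ⟨s, hs⟩ := heq.ge (hmem x)
  refine (isAlgebraic_algebraMap_iff (A := ℚ_[p]) (IsFractionRing.injective ℤ_[p] ℚ_[p])).1
    ((IsFractionRing.isAlgebraic_iff ℤ ℚ ℚ_[p]).2 ?_)
  rw [show ι (φ x i) = (s i : ℚ_[p]) from (congrFun hs i).symm]
  exact mem_algebraicClosure_iff.1 (s i).2

/-- **The forms at a prime.** -/
theorem exists_prime_forms (v : HeightOneSpectrum (𝓞 K)) {p : ℕ} [Fact p.Prime]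
    (hpv : (p : 𝓞 K) ∈ v.asIdeal) :
    ∃ (e f : ℕ) (φ : 𝓞 K →+ (Fin e × Fin f → ℤ_[p]))
      (M : 𝓞 K → Matrix (Fin e × Fin f) (Fin e × Fin f) ℤ_[p]),
      0 < e ∧ 0 < f ∧ v.intValuation (p : 𝓞 K) = exp (-(e : ℤ)) ∧
      Ideal.absNorm v.asIdeal = p ^ f ∧
      (∀ k x, x ∈ v.asIdeal ^ k ↔ ∀ i, (p : ℤ_[p]) ^ stepExp e k i.1 ∣ φ x i) ∧
      (∀ x y, φ (x * y) = M x *ᵥ φ y) ∧ (∀ x i, IsAlgebraic ℤ (φ x i)) ∧
      (∀ x i j, IsAlgebraic ℤ (M x i j)) ∧
      ∀ z : Fin e × Fin f → ℤ, ∃ x, φ x = fun i => (z i : ℤ_[p]) := by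
  classical
  obtain ⟨e, f, β, he0, hf0, he, hf, hex, hiff⟩ := exists_prime_coordinates v hpv
  choose c hc using fun x m => hex (e * m) x
  have hdvd : ∀ m (z : Fin e × Fin f → ℤ), ∑ i, (z i : 𝓞 K) * β i ∈ v.asIdeal ^ (e * m) →
      ∀ i, (p : ℤ) ^ m ∣ z i := fun m z h i => by
    simpa [stepExp_mul] using (hiff (e * m) z).1 h i
  have hcompat : ∀ x i m, (p : ℤ) ^ m ∣ c x (m + 1) i - c x m i := fun x i m => by
    refine hdvd m (fun i => c x (m + 1) i - c x m i) ?_ i
    have h := Ideal.sub_mem _ (hc x m)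
      (Ideal.pow_le_pow_right (Nat.mul_le_mul_left e m.le_succ) (hc x (m + 1)))
    convert h using 1
    simp [sub_mul, sum_sub_distrib]
  choose y hy using fun x i => exists_padic_limit (fun m => c x m i) (hcompat x i)
  have huniq : ∀ x (z : Fin e × Fin f → ℤ_[p]), (∀ m, ∃ c' : Fin e × Fin f → ℤ,
      x - ∑ i, (c' i : 𝓞 K) * β i ∈ v.asIdeal ^ (e * m) ∧
        ∀ i, (p : ℤ_[p]) ^ m ∣ z i - c' i) → z = y x := by
    intro x z hz
    refine funext fun i => eq_of_forall_pow_dvd fun m => ?_
    obtain ⟨c', hc', hzc⟩ := hz m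
    have h := hdvd m (fun i => c' i - c x m i) (by
      have h := Ideal.sub_mem _ (hc x m) hc'
      convert h using 1
      simp [sub_mul, sum_sub_distrib]) i
    rw [show z i - y x i = (z i - (c' i : ℤ_[p])) - (y x i - (c x m i : ℤ_[p])) +
      (((c' i - c x m i : ℤ)) : ℤ_[p]) by push_cast; ring]
    refine dvd_add (dvd_sub (hzc i) (hy x i m)) ?_
    rw [PadicInt.pow_p_dvd_int_iff]
    exact h
  have hadd : ∀ x z, y (x + z) = y x + y z := fun x z =>
    (huniq _ _ fun m => ⟨fun i => c x m i + c z m i, by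
      have h := Ideal.add_mem _ (hc x m) (hc z m)
      convert h using 1
      simp [add_mul, sum_add_distrib]
      ring, fun i => by
      rw [Pi.add_apply, Int.cast_add, show y x i + y z i - ((c x m i : ℤ_[p]) + c z m i) =
        (y x i - c x m i) + (y z i - c z m i) by ring]
      exact dvd_add (hy x i m) (hy z i m)⟩).symm
  let φ : 𝓞 K →+ (Fin e × Fin f → ℤ_[p]) := AddMonoidHom.mk' y hadd
  have hcoord : ∀ z : Fin e × Fin f → ℤ, y (∑ i, (z i : 𝓞 K) * β i) = fun i => (z i : ℤ_[p]) :=
    fun z => (huniq _ _ fun m => ⟨z, by simp, fun i => by simp⟩).symm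
  have hmem : ∀ k x, x ∈ v.asIdeal ^ k ↔ ∀ i, (p : ℤ_[p]) ^ stepExp e k i.1 ∣ y x i := by
    intro k x
    have hk := Ideal.pow_le_pow_right (Nat.le_mul_of_pos_left k he0) (hc x k)
    rw [← Submodule.sub_mem_iff_right _ hk (y := x), sub_sub_cancel_left, neg_mem_iff, hiff]
    refine forall_congr' fun i => ?_
    have h1 := (pow_dvd_pow (p : ℤ_[p]) (stepExp_le k i.1)).trans (hy x i k)
    rw [← PadicInt.pow_p_dvd_int_iff]
    exact ⟨fun h => by simpa using dvd_add h1 h, fun h => by simpa using dvd_sub h h1⟩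
  set M : 𝓞 K → Matrix (Fin e × Fin f) (Fin e × Fin f) ℤ_[p] :=
    fun x => Matrix.of fun i j => y (x * β j) i
  have hM : ∀ x z, φ (x * z) = M x *ᵥ φ z := by
    intro x z
    refine funext fun i => eq_of_forall_pow_dvd fun m => ?_
    set r := z - ∑ j, (c z m j : 𝓞 K) * β j
    have h1 : φ (x * z) i = φ (x * r) i + ∑ j, (c z m j : ℤ_[p]) * y (x * β j) i := by
      rw [show x * z = x * r + ∑ j, c z m j • (x * β j) by
        simp only [r, zsmul_eq_mul, mul_sub, mul_sum]
        rw [sub_add]
        simp [mul_left_comm], map_add, map_sum, Pi.add_apply, Finset.sum_apply]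
      congr 1
      refine sum_congr rfl fun j _ => ?_
      rw [map_zsmul, Pi.smul_apply, zsmul_eq_mul]
      rfl
    have h2 : (M x *ᵥ φ z) i = ∑ j, y z j * y (x * β j) i := by
      simp only [M, mulVec, dotProduct, Matrix.of_apply]
      exact sum_congr rfl fun j _ => mul_comm _ _
    rw [h1, h2, add_sub_assoc, ← sum_sub_distrib]
    refine dvd_add ?_ (dvd_sum fun j _ => ?_)
    · have h := (hmem (e * m) (x * r)).1 (Ideal.mul_mem_left _ x (hc z m)) i
      rwa [stepExp_mul] at h
    · rw [← sub_mul]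
      exact (dvd_sub_comm.1 (hy z j m)).mul_right _
  have hβ : ∀ j, φ (β j) = Pi.single j 1 := fun j => by
    have h := hcoord (Pi.single j 1)
    rw [sum_eq_single j (fun i _ hi => by simp [hi]) (fun h => absurd (mem_univ j) h)] at h
    simp only [Pi.single_eq_same, Int.cast_one, one_mul] at h
    refine h.trans (funext fun i => ?_)
    simp [Pi.single_apply, apply_ite (Int.cast (R := ℤ_[p]))]
  have halg := isAlgebraic_additive φ β hβ M hM
  exact ⟨e, f, φ, M, he0, hf0, he, hf, hmem, hM, halg, fun x i j => halg (x * β j) i,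
    fun z => ⟨_, hcoord z⟩⟩

end FA.Subspace

end
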