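import Fermat.Agent.Subspace.Padic
import Fermat.Agent.Subspace.PrimeEchelon
import Fermat.Agent.Subspace.PrimeForms
import Mathlib.RingTheory.DedekindDomain.Ideal.Lemmas

/-!
# The forms at a finite set of primes of a number field as forms at rational primes

Integral forms unimodular at the primes of a finite set, composed with the coordinates at all the
primes over the rational primes below them, are unimodular forms with algebraic coefficients over
the `p`-adic integers; their divisibilities are the conditions `V ξ i ∈ P ^ k` and the determinant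
of the lattice of these conditions is the product of the norms.
-/

set_option autoImplicit false
set_option linter.style.haveILetI false

noncomputable section

namespace FA.Subspace

open Finset Matrix NumberField IsDedekindDomain WithZero

variable {K : Type*} [Field K] [NumberField K]

/-- The rational prime below a prime. -/
theorem exists_prime_below (v : HeightOneSpectrum (𝓞 K)) :
    ∃ p : ℕ, p.Prime ∧ (p : 𝓞 K) ∈ v.asIdeal := by
  haveI := v.isMaximal
  obtain ⟨p, n, -, hp, hpp, -⟩ := Ideal.exists_prime_and_absNorm_eq_pow v.asIdeal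
  exact ⟨p, hpp, hp⟩

theorem prime_below_unique (v : HeightOneSpectrum (𝓞 K)) {p q : ℕ} (hp : p.Prime) (hq : q.Prime)
    (hpv : (p : 𝓞 K) ∈ v.asIdeal) (hqv : (q : 𝓞 K) ∈ v.asIdeal) : p = q := by
  by_contra hne
  obtain ⟨a, b, hab⟩ : IsCoprime (p : ℤ) q :=
    Nat.isCoprime_iff_coprime.2 ((Nat.coprime_primes hp hq).2 hne)
  refine v.isPrime.ne_top ((Ideal.eq_top_iff_one _).2 ?_)
  have h := congrArg (Int.cast (R := 𝓞 K)) hab
  push_cast at h
  rw [← h]
  exact Ideal.add_mem _ (Ideal.mul_mem_left _ _ hpv) (Ideal.mul_mem_left _ _ hqv)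

/-- **The sum of `e f`** over the primes above a rational prime is the degree. -/
theorem sum_mul_eq_finrank {p : ℕ} [hp : Fact p.Prime] (T : Finset (HeightOneSpectrum (𝓞 K)))
    (hT : ∀ v, v ∈ T ↔ (p : 𝓞 K) ∈ v.asIdeal) (e f : T → ℕ)
    (he : ∀ v, v.1.intValuation (p : 𝓞 K) = exp (-(e v : ℤ)))
    (hf : ∀ v, Ideal.absNorm v.1.asIdeal = p ^ f v) :
    ∑ v, e v * f v = Module.finrank ℚ K := by
  classical
  have hp0 : (p : 𝓞 K) ≠ 0 := Nat.cast_ne_zero.2 hp.out.ne_zero
  set I := Ideal.span {(p : 𝓞 K)}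
  have hI : I ≠ 0 := fun h => hp0 (Ideal.span_singleton_eq_bot.1 h)
  have hcount : ∀ v : T, v.1.maxPowDividing I = v.1.asIdeal ^ e v := fun v => by
    have h := he v
    rw [v.1.intValuation_if_neg hp0, exp_inj, neg_inj, Int.natCast_inj] at h
    exact congrArg (v.1.asIdeal ^ ·) h
  have hI' : ∏ v : T, v.1.asIdeal ^ e v = I := by
    conv_rhs => rw [← Ideal.finprod_heightOneSpectrum_factorization hI]
    rw [finprod_eq_prod_of_mulSupport_subset _ (s := T) fun v hv => mem_coe.2 ((hT v).2 ?_),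
      ← prod_coe_sort T]
    · exact prod_congr rfl fun v _ => (hcount v).symm
    · by_contra hn
      refine hv (?_ : v.maxPowDividing I = 1)
      have h := v.intValuation_if_neg hp0
      rw [(HeightOneSpectrum.intValuation_eq_one_iff).2 hn, ← exp_zero, exp_inj, eq_comm,
        neg_eq_zero, Int.natCast_eq_zero] at h
      exact (congrArg (v.asIdeal ^ ·) h).trans (pow_zero _)
  have h := congrArg Ideal.absNorm hI'
  rw [map_prod, Ideal.absNorm_span_singleton, Algebra.norm_natCast, RingOfIntegers.rank,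
    Int.natAbs_pow, Int.natAbs_natCast, prod_congr rfl fun v _ => by
      rw [map_pow, hf, ← pow_mul, mul_comm], prod_pow_eq_pow_sum] at h
  exact Nat.pow_right_injective hp.out.two_le h

/-- **The forms at finitely many primes** as forms at the rational primes below them. -/
theorem exists_localPlaces {n m : ℕ} (back : (Fin (m + 1) → ℤ) →+ (Fin (n + 1) → 𝓞 K))
    (hback : Function.Surjective back) (hm : m + 1 = (n + 1) * Module.finrank ℚ K)
    (S : Finset (HeightOneSpectrum (𝓞 K)))
    (V₀ : HeightOneSpectrum (𝓞 K) → Matrix (Fin (n + 1)) (Fin (n + 1)) (𝓞 K))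
    (hV₀ : ∀ v ∈ S, (V₀ v).det ∉ v.asIdeal) :
    ∃ (s : ℕ) (Pl : LocalPlaces s (m + 1))
      (ex : (HeightOneSpectrum (𝓞 K) → Fin (n + 1) → ℕ) → Fin s → Fin (m + 1) → ℕ),
      (∀ k x, Pl.Divides (ex k) x ↔ ∀ v ∈ S, ∀ i, (V₀ v *ᵥ back x) i ∈ v.asIdeal ^ k v i) ∧
      ∀ k, Pl.vol (ex k) = ∏ v ∈ S, ∏ i, Ideal.absNorm v.asIdeal ^ k v i := by
  classical
  choose pv hpv hpvmem using exists_prime_below (K := K)
  set P₀ := S.image pv
  set p : Fin P₀.card → ℕ := fun l => (P₀.equivFin.symm l : ℕ) with hp_def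
  haveI hpf : ∀ l, Fact (p l).Prime := fun l => ⟨by
    obtain ⟨v, -, hv⟩ := mem_image.1 (P₀.equivFin.symm l).2
    rw [hp_def]
    dsimp only
    rw [← hv]
    exact hpv v⟩
  have hpinj : Function.Injective p := Subtype.val_injective.comp P₀.equivFin.symm.injective
  have hfinT : ∀ l, {v : HeightOneSpectrum (𝓞 K) | (p l : 𝓞 K) ∈ v.asIdeal}.Finite := fun l =>
    (Ideal.finite_factors (I := Ideal.span {(p l : 𝓞 K)}) fun h =>
      Nat.cast_ne_zero.2 (hpf l).out.ne_zero (Ideal.span_singleton_eq_bot.1 h)).subset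
      fun v hv => Ideal.dvd_span_singleton.2 hv
  set T := fun l => (hfinT l).toFinset
  have hT : ∀ l v, v ∈ T l ↔ (p l : 𝓞 K) ∈ v.asIdeal := fun l v => (hfinT l).mem_toFinset
  have hTS : ∀ v ∈ S, ∀ l, v ∈ T l ↔ pv v = p l := fun v _ l =>
    ⟨fun h => prime_below_unique v (hpv v) (hpf l).out (hpvmem v) ((hT l v).1 h),
      fun h => (hT l v).2 (h ▸ hpvmem v)⟩
  choose e f φ M he0 hf0 he hf hmem hM halg halgM hsurj using
    fun (l : Fin P₀.card) (v : T l) => exists_prime_forms v.1 ((hT l v.1).1 v.2)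
  set V := fun v => if v ∈ S then V₀ v else 1 with hV
  have hVdet : ∀ v, (V v).det ∉ v.asIdeal := fun v => by
    simp only [hV]
    split_ifs with h
    · exact hV₀ v h
    · rw [det_one]
      exact fun h1 => v.isPrime.ne_top ((Ideal.eq_top_iff_one _).2 h1)
  -- the rows
  have hcard : ∀ l, Fintype.card (Fin (n + 1) × Σ v : T l, Fin (e l v) × Fin (f l v)) = m + 1 :=
    fun l => by
      simp only [Fintype.card_prod, Fintype.card_sigma, Fintype.card_fin]
      rw [hm, sum_mul_eq_finrank (T l) (hT l) (e l) (f l) (he l) (hf l)]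
  set g := fun l => (Fintype.equivFinOfCardEq (hcard l)).symm
  let Φ : ∀ l, (Fin (m + 1) → ℤ) →+ (Fin (m + 1) → ℤ_[p l]) := fun l =>
    { toFun := fun x r => φ l (g l r).2.1 ((V (g l r).2.1.1 *ᵥ back x) (g l r).1) (g l r).2.2
      map_zero' := funext fun r => by simp
      map_add' := fun x y => funext fun r => by simp [mulVec_add] }
  set U : ∀ l, Matrix (Fin (m + 1)) (Fin (m + 1)) ℤ_[p l] :=
    fun l => Matrix.of fun r c => Φ l (Pi.single c 1) r
  have hU : ∀ l x, U l *ᵥ intVec _ x = Φ l x := fun l x => by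
    funext r
    conv_rhs => rw [show x = ∑ c, x c • (Pi.single c 1 : Fin (m + 1) → ℤ) from funext fun i => by
      simp [Finset.sum_apply, Pi.single_apply]]
    rw [map_sum, Finset.sum_apply]
    show ∑ c, Φ l (Pi.single c 1) r * (x c : ℤ_[p l]) = _
    refine sum_congr rfl fun c _ => ?_
    rw [show Φ l (x c • (Pi.single c 1 : Fin (m + 1) → ℤ)) = x c • Φ l (Pi.single c 1) from
        map_zsmul (Φ l) (x c) _,
      Pi.smul_apply, zsmul_eq_mul]
    exact mul_comm _ _
  have hUdet : ∀ l, IsUnit (U l).det := fun l => by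
    refine isUnit_of_map_unit PadicInt.toZMod _ ?_
    rw [RingHom.map_det, ← isUnit_iff_isUnit_det, ← mulVec_surjective_iff_isUnit]
    intro z
    set zz : Fin (n + 1) × (Σ v : T l, Fin (e l v) × Fin (f l v)) → ℤ :=
      fun q => ((z ((g l).symm q)).val : ℤ)
    choose t ht using fun (v : T l) (i : Fin (n + 1)) => hsurj l v fun ab => zz (i, ⟨v, ab⟩)
    have hinv : ∀ v : T l, ∃ y, (V v.1).det * y - 1 ∈ v.1.asIdeal ^ e l v := fun v => by
      obtain ⟨y, hy⟩ := v.1.isMaximal.exists_inv (hVdet v.1)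
      obtain ⟨j, hj, hjy⟩ := hy
      obtain ⟨c, hc⟩ := sub_dvd_pow_sub_pow (1 : 𝓞 K) j (e l v)
      refine ⟨y * c, ?_⟩
      rw [one_pow, show (1 : 𝓞 K) - j = (V v.1).det * y by linear_combination mul_comm y _ - hjy]
        at hc
      rw [show (V v.1).det * (y * c) - 1 = -(j ^ e l v) by linear_combination -hc, neg_mem_iff]
      exact Ideal.pow_mem_pow hj _
    choose y hy using hinv
    set W := fun v : T l => y v • ((V v.1).adjugate *ᵥ t v)
    choose ξ hξ using fun k : Fin (n + 1) => IsDedekindDomain.exists_forall_sub_mem_ideal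
      (s := univ) (fun v : T l => v.1.asIdeal) (fun v => e l v) (fun v _ => v.1.prime)
      (fun v _ w _ hne h => hne (Subtype.ext (HeightOneSpectrum.ext h))) fun v => W v.1 k
    obtain ⟨x, hx⟩ := hback fun k => ξ k
    refine ⟨fun c => (x c : ZMod (p l)), funext fun r => ?_⟩
    have hr : ((U l).map PadicInt.toZMod *ᵥ fun c => (x c : ZMod (p l))) r =
        PadicInt.toZMod (Φ l x r) := by
      rw [← hU, RingHom.map_mulVec]
      congr 1
      funext c
      simp [intVec]
    show ((U l).map PadicInt.toZMod *ᵥ fun c => (x c : ZMod (p l))) r = z r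
    rw [hr]
    show PadicInt.toZMod (φ l (g l r).2.1 ((V (g l r).2.1.1 *ᵥ back x) (g l r).1) (g l r).2.2) = z r
    rw [hx]
    obtain ⟨⟨i, v, ab⟩, hq⟩ : ∃ q, g l r = q := ⟨_, rfl⟩
    have hdiff : (V v.1 *ᵥ ξ) i - t v i ∈ v.1.asIdeal ^ (e l v * 1) := by
      rw [mul_one]
      have h1 : (V v.1 *ᵥ ξ) i - t v i =
          (V v.1 *ᵥ (ξ - W v)) i + ((V v.1).det * y v - 1) * t v i := by
        have h2 : (V v.1 *ᵥ W v) i = (V v.1).det * y v * t v i := by
          simp only [W, mulVec_smul, mulVec_mulVec, mul_adjugate, smul_mulVec, one_mulVec,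
            Pi.smul_apply, smul_eq_mul]
          ring
        rw [mulVec_sub, Pi.sub_apply, h2]
        ring
      rw [h1]
      refine Ideal.add_mem _ ?_ (Ideal.mul_mem_right _ _ (hy v))
      show (∑ k, V v.1 i k * (ξ k - W v k)) ∈ v.1.asIdeal ^ e l v
      exact Ideal.sum_mem _ fun k _ => Ideal.mul_mem_left _ _ (hξ k v (mem_univ v))
    have h := (hmem l v _ _).1 hdiff ab
    rw [stepExp_mul, pow_one, map_sub, Pi.sub_apply] at h
    rw [hq]
    obtain ⟨c, hc⟩ := h
    rw [sub_eq_iff_eq_add.1 hc, map_add, map_mul, map_natCast, ZMod.natCast_self, zero_mul,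
      zero_add, ht v i, map_intCast]
    simp only [zz, Int.cast_natCast, ZMod.natCast_zmod_val]
    rw [← hq, Equiv.symm_apply_apply]
  have hUalg : ∀ l r c, IsAlgebraic ℤ (U l r c) := fun l r c => halg l _ _ _
  set k' := fun (k : HeightOneSpectrum (𝓞 K) → Fin (n + 1) → ℕ) v i =>
    if v ∈ S then k v i else 0
  refine ⟨P₀.card, LocalPlaces.ofPadic p hpinj U hUdet hUalg,
    fun k l r => stepExp (e l (g l r).2.1) (k' k (g l r).2.1.1 (g l r).1) (g l r).2.2.1,
    fun k x => ⟨fun h v hv i => ?_, fun h l r => ?_⟩, fun k => ?_⟩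
  · obtain ⟨l, hl⟩ : ∃ l, v ∈ T l := ⟨P₀.equivFin ⟨pv v, mem_image_of_mem pv hv⟩,
      (hTS v hv _).2 (by simp [hp_def])⟩
    rw [hmem l ⟨v, hl⟩]
    intro ab
    obtain ⟨r, hr⟩ : ∃ r, g l r = (i, ⟨⟨v, hl⟩, ab⟩) := (g l).surjective _
    have h1 : (p l : ℤ_[p l]) ^ stepExp (e l (g l r).2.1)
        (k' k (g l r).2.1.1 (g l r).1) (g l r).2.2.1 ∣ (U l *ᵥ intVec _ x) r := h l r
    rw [hU] at h1
    change (p l : ℤ_[p l]) ^ _ ∣
      φ l (g l r).2.1 ((V (g l r).2.1.1 *ᵥ back x) (g l r).1) (g l r).2.2 at h1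
    rw [hr] at h1
    simpa [k', hv, hV] using h1
  · show (p l : ℤ_[p l]) ^ stepExp (e l (g l r).2.1)
        (k' k (g l r).2.1.1 (g l r).1) (g l r).2.2.1 ∣ (U l *ᵥ intVec _ x) r
    rw [hU]
    refine (hmem l (g l r).2.1 _ _).1 ?_ _
    simp only [k', hV]
    split_ifs with hv
    · exact h _ hv _
    · rw [pow_zero, Ideal.one_eq_top]
      exact Submodule.mem_top
  · have hrow : ∀ l, ∑ r, stepExp (e l (g l r).2.1) (k' k (g l r).2.1.1 (g l r).1) (g l r).2.2.1 =
        ∑ v : T l, ∑ i, k' k v.1 i * f l v := fun l => by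
      rw [Equiv.sum_comp (g l) fun q => stepExp (e l q.2.1) (k' k q.2.1.1 q.1) q.2.2.1,
        Fintype.sum_prod_type]
      simp only [Fintype.sum_sigma]
      rw [sum_comm]
      refine sum_congr rfl fun v _ => sum_congr rfl fun i _ => ?_
      rw [Fintype.sum_prod_type]
      simp only [sum_const, card_univ, Fintype.card_fin, smul_eq_mul, ← mul_sum,
        sum_stepExp (he0 l v)]
      ring
    calc ∏ l, p l ^ (∑ r, stepExp (e l (g l r).2.1) (k' k (g l r).2.1.1 (g l r).1) (g l r).2.2.1)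
        = ∏ l, ∏ v ∈ T l, ∏ i, Ideal.absNorm v.asIdeal ^ k' k v i := prod_congr rfl fun l _ => by
          rw [hrow, ← prod_coe_sort (T l), ← prod_pow_eq_pow_sum]
          refine prod_congr rfl fun v _ => ?_
          rw [← prod_pow_eq_pow_sum]
          refine prod_congr rfl fun i _ => ?_
          rw [hf l v, ← pow_mul, mul_comm]
      _ = ∏ l, ∏ v ∈ S with pv v = p l, ∏ i, Ideal.absNorm v.asIdeal ^ k v i :=
          prod_congr rfl fun l _ => by
          refine (prod_subset_one_on_sdiff ?_ ?_ ?_).symm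
          · exact fun v hv => (hTS v (mem_filter.1 hv).1 l).2 (mem_filter.1 hv).2
          · intro v hv
            obtain ⟨hvT, hvn⟩ := mem_sdiff.1 hv
            have hvS : v ∉ S := fun h => hvn (mem_filter.2 ⟨h, (hTS v h l).1 hvT⟩)
            exact prod_eq_one fun i _ => by simp [k', hvS]
          · exact fun v hv => prod_congr rfl fun i _ => by simp [k', (mem_filter.1 hv).1]
      _ = _ := by
          rw [← prod_fiberwise_of_maps_to (g := pv) (t := P₀) fun v hv => mem_image_of_mem pv hv,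
            ← prod_coe_sort P₀, ← Equiv.prod_comp P₀.equivFin.symm]

end FA.Subspace

end
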