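import Fermat.Agent.Subspace.NumberField
import Fermat.Agent.Subspace.PrimeSystem
import Mathlib.Data.Fin.Tuple.Sort
import Mathlib.NumberTheory.NumberField.InfinitePlace.Embeddings

/-!
# The subspace theorem over a number field with finite places

Independent forms with algebraic coefficients at the embeddings, at finitely many primes
independent forms with coefficients in the field: the integral points at which the product of all
these values, each in its absolute value, is below `H ^ (-δ)` lie on finitely many hyperplanes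
(Schlickewei).
-/

set_option autoImplicit false

noncomputable section

namespace FA.Subspace

open Finset Matrix FA.Perfect NumberField IsDedekindDomain

variable {K : Type*} [Field K] [NumberField K]

theorem prod_norm_embeddings (x : K) :
    ∏ φ : K →+* ℂ, ‖φ x‖ = |(Algebra.norm ℚ x : ℝ)| := by
  classical
  rw [← prod_fiberwise (g := InfinitePlace.mk), ← Rat.cast_abs, ← InfinitePlace.prod_eq_abs_norm]
  refine prod_congr rfl fun w _ => ?_
  rw [← InfinitePlace.card_filter_mk_eq w, ← prod_const]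
  refine prod_congr rfl fun φ hφ => ?_
  rw [← (mem_filter.1 hφ).2]
  rfl

/-- The norm of a power of a prime is at most the product of the conjugates of its elements. -/
theorem pow_absNorm_le_prod_norm (v : HeightOneSpectrum (𝓞 K)) {y : 𝓞 K} (hy : y ≠ 0) {k : ℕ}
    (hk : y ∈ v.asIdeal ^ k) :
    (Ideal.absNorm v.asIdeal : ℝ) ^ k ≤ ∏ φ : K →+* ℂ, ‖φ (y : K)‖ := by
  have h := Ideal.absNorm_dvd_norm_of_mem hk
  rw [map_pow, Nat.cast_pow] at h
  have h1 := Int.le_of_dvd (abs_pos.2 (Algebra.norm_ne_zero_iff.2 hy)) ((dvd_abs _ _).2 h)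
  rw [prod_norm_embeddings, ← Algebra.coe_norm_int, Rat.cast_intCast]
  exact_mod_cast h1

/-- Two of the coordinates give a hyperplane through a point. -/
theorem exists_orth_field {F : Type*} [Field F] {n : ℕ} (hn : 1 ≤ n) (x : Fin (n + 1) → F) :
    ∃ β : Fin (n + 1) → F, β ≠ 0 ∧ ∑ k, β k * x k = 0 := by
  set i : Fin (n + 1) := ⟨1, by omega⟩
  have hi : i ≠ 0 := by simp [i, Fin.ext_iff]
  rcases eq_or_ne (x 0) 0 with h | h
  · exact ⟨Pi.single 0 1, fun e => by simpa using congrFun e 0, by simp [Pi.single_apply, h]⟩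
  · refine ⟨Pi.single 0 (x i) - Pi.single i (x 0), fun e => h ?_, ?_⟩
    · simpa [Pi.single_eq_of_ne hi] using congrFun e i
    · simp [sum_sub_distrib, Pi.single_apply, mul_comm, mul_sub]

theorem finite_house_le (n : ℕ) (X : ℝ) : {ξ : Fin n → 𝓞 K | house ξ ≤ X}.Finite :=
  (Set.Finite.pi fun _ : Fin n => (Embeddings.finite_of_norm_le K ℂ X).preimage
    RingOfIntegers.coe_injective.injOn).subset fun ξ hξ k _ =>
      ⟨(ξ k).isIntegral_coe, fun φ =>
        (norm_le_pi_norm (fun p : (K →+* ℂ) × Fin n => p.1 (ξ p.2 : K)) (φ, k)).trans hξ⟩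

/-- **The subspace theorem over a number field with exponents at finitely many primes.** Integral
forms with determinant prime to `v` are divisible by the powers `k v i` of `v`. -/
theorem finite_subspaces_numberField_exponents {n : ℕ} (hn : 1 ≤ n)
    (L : (K →+* ℂ) → Matrix (Fin (n + 1)) (Fin (n + 1)) ℂ) (hL : ∀ φ, (L φ).det ≠ 0)
    (halg : ∀ φ i k, IsAlgebraic ℚ (L φ i k)) (S : Finset (HeightOneSpectrum (𝓞 K)))
    (U : HeightOneSpectrum (𝓞 K) → Matrix (Fin (n + 1)) (Fin (n + 1)) (𝓞 K))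
    (hU : ∀ v ∈ S, (U v).det ∉ v.asIdeal) {δ : ℝ} (hδ : 0 < δ) :
    ∃ W : Finset (Fin (n + 1) → K), (∀ β ∈ W, β ≠ 0) ∧ ∀ ξ : Fin (n + 1) → 𝓞 K, ξ ≠ 0 →
      ∀ k : HeightOneSpectrum (𝓞 K) → Fin (n + 1) → ℕ,
        (∀ v ∈ S, ∀ i, (U v *ᵥ ξ) i ∈ v.asIdeal ^ k v i) →
        ∏ φ, ∏ i, ‖∑ j, L φ i j * φ (ξ j : K)‖ <
            (∏ v ∈ S, ∏ i, (Ideal.absNorm v.asIdeal : ℝ) ^ k v i) * house ξ ^ (-δ) →
          ∃ β ∈ W, ∑ j, β j * (ξ j : K) = 0 := by
  classical
  obtain ⟨m, crd, back, g, CI, Ω, hCI, hback, hadd, hcrd, hrat, hmat⟩ := exists_coordinates K n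
  set d := Module.finrank ℚ K with hd
  let Bk : (Fin (m + 1) → ℤ) →+ (Fin (n + 1) → 𝓞 K) := AddMonoidHom.mk' back hadd
  obtain ⟨s, Pl, ex, hdiv, hvol⟩ := exists_localPlaces Bk (fun ξ => ⟨crd ξ, hback ξ⟩) (by
    rw [← Fintype.card_fin (m + 1), Fintype.card_congr g, Fintype.card_prod,
      NumberField.Embeddings.card, Fintype.card_fin, mul_comm]) S U hU
  obtain ⟨C, hC, hCalg, hCx⟩ := hmat L hL halg
  obtain ⟨M, hM, hMrow⟩ := exists_re_im C hC
  have hMalg : ∀ r c, IsAlgebraic ℚ (M r c) := fun r c => by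
    rcases hMrow r with h | h <;> rw [h]
    · exact isAlgebraic_re (hCalg r c)
    · exact isAlgebraic_im (hCalg r c)
  have hMx : ∀ ξ r, |∑ c, M r c * (crd ξ c : ℝ)| ≤
      ‖∑ k, L (g r).1 (g r).2 k * (g r).1 (ξ k : K)‖ := fun ξ r => by
    rw [← hCx]
    rcases hMrow r with h | h <;> rw [h]
    · refine le_of_eq_of_le (congrArg abs ?_) (Complex.abs_re_le_norm _)
      simp [Complex.re_sum]
    · refine le_of_eq_of_le (congrArg abs ?_) (Complex.abs_im_le_norm _)
      simp [Complex.im_sum]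
  -- the points on which a form vanishes
  have hform : ∀ r : Fin (m + 1), ∃ β : Fin (n + 1) → K, β ≠ 0 ∧ ∀ ξ : Fin (n + 1) → K,
      ∑ k, L (g r).1 (g r).2 k * (g r).1 (ξ k) = 0 → ∑ k, β k * ξ k = 0 := fun r => by
    let W : Submodule K (Fin (n + 1) → K) :=
      { carrier := {ξ | ∑ k, L (g r).1 (g r).2 k * (g r).1 (ξ k) = 0}
        zero_mem' := by simp
        add_mem' := fun {a b} ha hb => by
          simp only [Set.mem_ofPred_eq, Pi.add_apply, map_add, mul_add, sum_add_distrib] at ha hb ⊢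
          rw [ha, hb, add_zero]
        smul_mem' := fun t a ha => by
          simp only [Set.mem_ofPred_eq, Pi.smul_apply, smul_eq_mul, map_mul, mul_left_comm _
            ((g r).1 t), ← mul_sum] at ha ⊢
          rw [ha, mul_zero] }
    obtain ⟨β, hβ, h⟩ := exists_normal_field W (fun htop => hL (g r).1
      (det_eq_zero_of_row_eq_zero (g r).2 fun k => by
        have h : Pi.single k (1 : K) ∈ W := htop ▸ Submodule.mem_top
        replace h : ∑ j, L (g r).1 (g r).2 j * (g r).1 ((Pi.single k (1 : K) : _ → K) j) = 0 := h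
        simpa [Pi.single_apply, apply_ite] using h))
    exact ⟨β, hβ, h⟩
  choose β₀ hβ₀ hβ₀' using hform
  choose β₂ hβ₂ hβ₂' using fun v : {v : Fin (m + 1) → ℤ // v ≠ 0} => hrat v.1 v.2
  -- the rows at the primes
  have hrow : ∀ p : S × Fin (n + 1), (fun j => (U p.1.1 p.2 j : K)) ≠ 0 := fun p h =>
    hU p.1.1 p.1.2 (by
      rw [det_eq_zero_of_row_eq_zero p.2 fun j => RingOfIntegers.coe_eq_zero_iff.1 (congrFun h j)]
      exact Ideal.zero_mem _)
  -- the grid
  set Dm : ℝ := 3 * d * (n + 1) * S.card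
  set D := 2 * (m : ℝ) + δ + 2 + Dm with hD
  have hDm : 0 ≤ Dm := by positivity
  obtain ⟨T, hT, hcover⟩ := exists_grid_places m s D (half_pos hδ)
  choose V Q₀ hV using fun t : T => finite_common_hyperplane_local Pl M hM hMalg t.1.1 t.1.2.1
    (hT _ t.2).1 (hT _ t.2).2.1 (half_pos (hT _ t.2).2.2)
  set CB := 1 + ∑ φ : K →+* ℂ, ∑ a ∈ Ω, ‖φ (a : K)‖
  have hCB : 1 ≤ CB := le_add_of_nonneg_right (by positivity)
  set CC := 1 + ∑ r, ∑ c, ‖C r c‖
  have hCC : 1 ≤ CC := le_add_of_nonneg_right (by positivity)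
  set CH := 1 + ∑ φ : K →+* ℂ, ∑ j, ∑ c, ‖φ (Bk (Pi.single c 1) j : K)‖
  have hCH : 1 ≤ CH := le_add_of_nonneg_right (by positivity)
  set CV := 1 + ∑ v ∈ S, ∑ i, ∑ φ : K →+* ℂ, ∑ j, ‖φ (U v i j : K)‖
  have hCV : 1 ≤ CV := le_add_of_nonneg_right (by positivity)
  set X₀ := max (max (CC + CH + CV) (CI ^ (2 : ℝ)))
    (1 + ∑ t, (|Q₀ t| + CB ^ (2 / t.1.2.2)))
  set N₀ := ⌈X₀⌉
  set box := Fintype.piFinset fun _ : Fin (m + 1) => Finset.Icc (-N₀) N₀
  choose β₁ hβ₁ hβ₁' using fun ξ : Fin (n + 1) → 𝓞 K => exists_orth_field hn fun j => (ξ j : K)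
  refine ⟨(univ.image β₀ ∪ univ.image (fun (p : S × Fin (n + 1)) j => (U p.1.1 p.2 j : K)) ∪
    box.image (fun y => β₁ (back y))) ∪
    univ.biUnion fun t => ((V t).subtype (· ≠ 0)).image β₂, fun β hβ => ?_,
    fun ξ hξ k hk hsmall => ?_⟩
  · simp only [mem_union, mem_image, mem_biUnion] at hβ
    rcases hβ with ((⟨r, -, rfl⟩ | ⟨p, -, rfl⟩) | ⟨y, -, rfl⟩) | ⟨t, -, v, -, rfl⟩
    · exact hβ₀ r
    · exact hrow p
    · exact hβ₁ _
    · exact hβ₂ v
  simp only [mem_union, mem_image, mem_biUnion]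
  set Λ := fun r => ‖∑ k, L (g r).1 (g r).2 k * (g r).1 (ξ k : K)‖
  by_cases hzero : ∃ r, Λ r = 0
  · obtain ⟨r, hr⟩ := hzero
    exact ⟨β₀ r, Or.inl (Or.inl (Or.inl ⟨r, mem_univ r, rfl⟩)), hβ₀' r _ (norm_eq_zero.1 hr)⟩
  push Not at hzero
  by_cases hzeroU : ∃ p : S × Fin (n + 1), (U p.1.1 *ᵥ ξ) p.2 = 0
  · obtain ⟨p, hp⟩ := hzeroU
    refine ⟨_, Or.inl (Or.inl (Or.inr ⟨p, mem_univ p, rfl⟩)), ?_⟩
    simpa [mulVec, dotProduct] using congrArg (fun y : 𝓞 K => (y : K)) hp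
  push Not at hzeroU
  set X := ‖castVec (crd ξ)‖
  have hxk : ∀ c, |(crd ξ c : ℝ)| ≤ X := fun c => norm_le_pi_norm (castVec (crd ξ)) c
  by_cases hX : X < X₀
  · refine ⟨_, Or.inl (Or.inr ⟨crd ξ, Fintype.mem_piFinset.2 fun c => ?_, rfl⟩), ?_⟩
    · rw [Finset.mem_Icc, ← abs_le]
      exact_mod_cast ((hxk c).trans hX.le).trans (Int.le_ceil X₀)
    · rw [hback]; exact hβ₁' ξ
  rw [not_lt] at hX
  have hXC : CC + CH + CV ≤ X := ((le_max_left _ _).trans (le_max_left _ _)).trans hX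
  have hXI : CI ^ (2 : ℝ) ≤ X := ((le_max_right _ _).trans (le_max_left _ _)).trans hX
  have hX1 : 1 ≤ X := by linarith
  have hX0 : 0 < X := by linarith
  have hlogX : 0 < Real.log X := Real.log_pos (by linarith)
  have hΛ0 : ∀ r, 0 < Λ r := fun r => (norm_nonneg _).lt_of_ne' (hzero r)
  have hHX : house ξ ≤ CH * X := by
    refine (pi_norm_le_iff_of_nonneg (by positivity)).2 fun p => ?_
    conv_lhs => rw [← hback ξ]
    change ‖p.1 (Bk (crd ξ) p.2 : K)‖ ≤ _
    rw [show crd ξ = ∑ c, crd ξ c • (Pi.single c 1 : Fin (m + 1) → ℤ) from funext fun i => by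
      simp [Finset.sum_apply, Pi.single_apply], map_sum, Finset.sum_apply]
    simp only [map_sum]
    refine (norm_sum_le _ _).trans ((sum_le_sum (g := fun c =>
      ‖p.1 (Bk (Pi.single c 1) p.2 : K)‖ * X) fun c _ => ?_).trans ?_)
    · rw [show Bk (crd ξ c • (Pi.single c 1 : Fin (m + 1) → ℤ)) = crd ξ c • Bk (Pi.single c 1) from
          map_zsmul Bk (crd ξ c) _, Pi.smul_apply, zsmul_eq_mul, map_mul, map_intCast, map_mul,
        map_intCast, norm_mul, Complex.norm_intCast, mul_comm]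
      exact mul_le_mul_of_nonneg_left (hxk c) (norm_nonneg _)
    · rw [← sum_mul]
      exact mul_le_mul_of_nonneg_right (((single_le_sum (f := fun j =>
        ∑ c, ‖p.1 (Bk (Pi.single c 1) j : K)‖) (fun _ _ => by positivity) (mem_univ p.2)).trans
          (single_le_sum (f := fun φ : K →+* ℂ => ∑ j, ∑ c, ‖φ (Bk (Pi.single c 1) j : K)‖)
            (fun _ _ => by positivity) (mem_univ p.1))).trans (le_add_of_nonneg_left zero_le_one))
        hX0.le
  have hN : ∀ v ∈ S, ∀ i, (k v i : ℝ) * Real.log (Ideal.absNorm v.asIdeal) ≤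
      3 * d * Real.log X := fun v hv i => by
    have hφ : ∀ φ : K →+* ℂ, ‖φ ((U v *ᵥ ξ) i : K)‖ ≤ X ^ (3 : ℕ) := fun φ => by
      simp only [mulVec, dotProduct, map_sum, map_mul]
      refine (norm_sum_le _ _).trans ((sum_le_sum (g := fun j => ‖φ (U v i j : K)‖ * (CH * X))
        fun j _ => ?_).trans ?_)
      · rw [norm_mul]
        exact mul_le_mul_of_nonneg_left ((norm_le_pi_norm
          (fun p : (K →+* ℂ) × Fin (n + 1) => p.1 (ξ p.2 : K)) (φ, j)).trans hHX) (norm_nonneg _)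
      · rw [← sum_mul, pow_three]
        refine mul_le_mul ?_ (mul_le_mul_of_nonneg_right (by linarith) hX0.le) (by positivity)
          hX0.le
        refine (((single_le_sum (f := fun φ : K →+* ℂ => ∑ j, ‖φ (U v i j : K)‖)
          (fun _ _ => by positivity) (mem_univ φ)).trans (single_le_sum (f := fun i =>
            ∑ φ : K →+* ℂ, ∑ j, ‖φ (U v i j : K)‖) (fun _ _ => by positivity) (mem_univ i))).trans
          (single_le_sum (f := fun v => ∑ i, ∑ φ : K →+* ℂ, ∑ j, ‖φ (U v i j : K)‖)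
            (fun _ _ => by positivity) hv)).trans ?_
        linarith [show (0 : ℝ) ≤ CC by linarith]
    have h1 := (pow_absNorm_le_prod_norm v (hzeroU (⟨v, hv⟩, i)) (hk v hv i)).trans
      (prod_le_prod (fun φ _ => norm_nonneg _) fun φ _ => hφ φ)
    rw [prod_const, card_univ, NumberField.Embeddings.card, ← pow_mul] at h1
    have h2 := Real.log_le_log (pow_pos (Nat.cast_pos.2 (Nat.pos_of_ne_zero fun h =>
      v.ne_bot (Ideal.absNorm_eq_zero_iff.1 h))) _) h1
    rw [Real.log_pow, Real.log_pow] at h2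
    exact_mod_cast h2
  set f := fun l r => (ex k l r : ℝ) * Real.log (Pl.base l) / Real.log X with hf
  have hf0 : ∀ l r, 0 ≤ f l r := fun l r =>
    div_nonneg (mul_nonneg (Nat.cast_nonneg _) (Pl.log_base_pos l).le) hlogX.le
  set F := ∑ l, ∑ r, f l r with hF
  have hFvol : F * Real.log X =
      Real.log (∏ v ∈ S, ∏ i, (Ideal.absNorm v.asIdeal : ℝ) ^ k v i) := by
    simp only [hF, hf, ← sum_div, ← Pl.log_vol, hvol]
    rw [div_mul_cancel₀ _ hlogX.ne']
    push_cast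
    rfl
  have hN0 : ∀ v ∈ S, 0 < ∏ i, (Ideal.absNorm v.asIdeal : ℝ) ^ k v i := fun v _ =>
    prod_pos fun i _ => pow_pos (Nat.cast_pos.2 (Nat.pos_of_ne_zero fun h =>
      v.ne_bot (Ideal.absNorm_eq_zero_iff.1 h))) _
  have hF0 : 0 ≤ F := sum_nonneg fun l _ => sum_nonneg fun r _ => hf0 l r
  have hFD : F ≤ Dm := by
    refine le_of_mul_le_mul_right ?_ hlogX
    rw [hFvol, Real.log_prod fun v hv => (hN0 v hv).ne']
    refine (sum_le_sum (g := fun _ => (n + 1 : ℝ) * (3 * d * Real.log X)) fun v hv => ?_).trans_eq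
      (by simp [Dm]; ring)
    rw [Real.log_prod fun i _ => (pow_pos (Nat.cast_pos.2 (Nat.pos_of_ne_zero fun h =>
      v.ne_bot (Ideal.absNorm_eq_zero_iff.1 h))) _).ne']
    refine (sum_le_sum fun i _ => ?_).trans_eq (by simp : ∑ _i : Fin (n + 1), 3 * (d : ℝ) *
      Real.log X = _)
    rw [Real.log_pow]
    exact hN v hv i
  have hfD : ∀ l r, f l r ≤ Dm := fun l r => (((single_le_sum (fun r _ => hf0 l r)
    (mem_univ r)).trans (single_le_sum (f := fun l => ∑ r, f l r)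
      (fun l _ => sum_nonneg fun r _ => hf0 l r) (mem_univ l)))).trans hFD
  set a := fun r => Real.log (Λ r) / Real.log X
  have ha2 : ∀ r, a r ≤ 2 := fun r => by
    simp only [a]
    rw [div_le_iff₀ hlogX]
    have h1 : Λ r ≤ CC * X := by
      simp only [Λ]
      rw [← hCx]
      refine (norm_sum_le _ _).trans ((sum_le_sum (g := fun c => ‖C r c‖ * X)
        fun c _ => ?_).trans ?_)
      · rw [norm_mul, Complex.norm_intCast]
        exact mul_le_mul_of_nonneg_left (hxk c) (norm_nonneg _)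
      · rw [← sum_mul]
        exact mul_le_mul_of_nonneg_right ((single_le_sum (f := fun r => ∑ c, ‖C r c‖)
          (fun _ _ => sum_nonneg fun _ _ => norm_nonneg _) (mem_univ r)).trans
            (le_add_of_nonneg_left zero_le_one)) hX0.le
    refine (Real.log_le_log (hΛ0 r)
      (h1.trans (mul_le_mul_of_nonneg_right (show CC ≤ X by linarith) hX0.le))).trans_eq ?_
    rw [Real.log_mul hX0.ne' hX0.ne']
    ring
  have hH : 0 < house ξ := by
    have := (hX0.trans_le (hcrd ξ))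
    exact pos_of_mul_pos_right this (zero_le_one.trans hCI)
  have hasum : ∑ r, a r ≤ F - δ / 2 := by
    simp only [a, ← sum_div]
    rw [div_le_iff₀ hlogX, ← Real.log_prod fun r _ => (hΛ0 r).ne']
    have h1 : ∏ r, Λ r = ∏ φ, ∏ i, ‖∑ k, L φ i k * φ (ξ k : K)‖ := by
      rw [← Fintype.prod_prod_type']
      exact Equiv.prod_comp g fun p => ‖∑ k, L p.1 p.2 k * p.1 (ξ k : K)‖
    refine (Real.log_le_log (prod_pos fun r _ => hΛ0 r) (h1.trans_le hsmall.le)).trans ?_
    rw [Real.log_mul (prod_pos hN0).ne' (Real.rpow_pos_of_pos hH _).ne', Real.log_rpow hH,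
      ← hFvol]
    have h2 := Real.log_le_log hX0 (hcrd ξ)
    rw [Real.log_mul (by linarith) hH.ne'] at h2
    have h3 := Real.log_le_log (by positivity) hXI
    rw [Real.log_rpow (by linarith)] at h3
    have h4 := mul_le_mul_of_nonneg_left (show Real.log X / 2 ≤ Real.log (house ξ) by linarith)
      hδ.le
    linarith
  set b := fun r => max (a r) (-D)
  have hm0 : (0 : ℝ) ≤ m := Nat.cast_nonneg m
  have hbsum : ∑ r, b r ≤ F - δ / 2 := by
    by_cases hclip : ∃ r, a r < -D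
    · obtain ⟨r, hr⟩ := hclip
      rw [← add_sum_erase _ _ (mem_univ r)]
      have h1 : b r = -D := max_eq_right hr.le
      have h2 : ∑ j ∈ univ.erase r, b j ≤ m * 2 :=
        (sum_le_card_nsmul _ _ 2 fun j _ => max_le (ha2 j) (by linarith)).trans_eq (by simp)
      linarith
    · push Not at hclip
      exact (le_of_eq (sum_congr rfl fun r _ => max_eq_left (hclip r))).trans hasum
  obtain ⟨t, ht, hte, htf⟩ := hcover b f (fun r => abs_le.2 ⟨le_max_right _ _,
    max_le (by linarith [ha2 r]) (by linarith)⟩) (fun l r => ⟨hf0 l r, by linarith [hfD l r]⟩)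
    hbsum
  have h1 : |Q₀ ⟨t, ht⟩| + CB ^ (2 / t.2.2) ≤ ∑ t, (|Q₀ t| + CB ^ (2 / t.1.2.2)) :=
    single_le_sum (f := fun t : T => |Q₀ t| + CB ^ (2 / t.1.2.2))
      (fun _ _ => by positivity) (mem_univ (⟨t, ht⟩ : T))
  have hη : 0 < t.2.2 := (hT t ht).2.2
  have hXt : 1 + ∑ t, (|Q₀ t| + CB ^ (2 / t.1.2.2)) ≤ X := (le_max_right _ _).trans hX
  obtain ⟨v, hv, hv0, hvx⟩ := hV ⟨t, ht⟩ X (by
    linarith [le_abs_self (Q₀ ⟨t, ht⟩), show 0 ≤ CB ^ (2 / t.2.2) by positivity])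
  refine ⟨β₂ ⟨v, hv0⟩, Or.inr ⟨⟨t, ht⟩, mem_univ _, ⟨v, hv0⟩, mem_subtype.2 hv, rfl⟩,
    hβ₂' _ ξ fun j hj => hvx _ (fun r => ?_) ?_⟩
  swap
  · refine LocalPlaces.Divides.mono (P := Pl) ((hdiv k _).2 fun v hv i => ?_) fun l r =>
      Pl.minExp_le ?_
    · show (U v *ᵥ back (crd fun i => j * ξ i)) i ∈ _
      rw [hback, show (fun i => j * ξ i) = j • ξ from rfl, mulVec_smul]
      exact Ideal.mul_mem_left _ _ (hk v hv i)
    · have h := htf l r
      simp only [hf] at h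
      rwa [le_div_iff₀ hlogX] at h
  refine (hMx _ r).trans ?_
  rw [show ∑ k, L (g r).1 (g r).2 k * (g r).1 ((j * ξ k : 𝓞 K) : K) =
      (g r).1 (j : K) * ∑ k, L (g r).1 (g r).2 k * (g r).1 (ξ k : K) by
    simp only [map_mul, mul_sum]
    exact sum_congr rfl fun k _ => by ring, norm_mul]
  have hΛ : Λ r ≤ X ^ (t.1 r - t.2.2) := by
    refine le_trans ?_ (Real.rpow_le_rpow_of_exponent_le hX1
      ((le_max_left (a r) (-D)).trans (hte r)))
    simp only [a]
    rw [Real.rpow_def_of_pos hX0, mul_div_cancel₀ _ hlogX.ne', Real.exp_log (hΛ0 r)]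
  have hφ : ‖(g r).1 (j : K)‖ ≤ X ^ (t.2.2 / 2) := by
    refine le_trans ((single_le_sum (f := fun a : 𝓞 K => ‖(g r).1 (a : K)‖)
      (fun _ _ => norm_nonneg _)
      hj).trans ((single_le_sum (f := fun φ : K →+* ℂ => ∑ a ∈ Ω, ‖φ (a : K)‖)
        (fun _ _ => sum_nonneg fun _ _ => norm_nonneg _) (mem_univ (g r).1)).trans
          (le_add_of_nonneg_left zero_le_one))) (?_ : CB ≤ _)
    have h2 := Real.rpow_le_rpow (by positivity) (show CB ^ (2 / t.2.2) ≤ X by
      linarith [abs_nonneg (Q₀ ⟨t, ht⟩)]) (half_pos hη).le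
    rwa [← Real.rpow_mul (by linarith), show 2 / t.2.2 * (t.2.2 / 2) = 1 by field_simp,
      Real.rpow_one] at h2
  refine (mul_le_mul hφ hΛ (norm_nonneg _) (by positivity)).trans_eq ?_
  rw [← Real.rpow_add hX0]
  ring_nf


/-- **The subspace theorem over a number field with finite places.** At the embeddings independent
forms with algebraic coefficients, at the primes of `S` independent forms with coefficients in the
field. -/
theorem finite_subspaces_numberField_places {n : ℕ} (hn : 1 ≤ n)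
    (L : (K →+* ℂ) → Matrix (Fin (n + 1)) (Fin (n + 1)) ℂ) (hL : ∀ φ, (L φ).det ≠ 0)
    (halg : ∀ φ i k, IsAlgebraic ℚ (L φ i k)) (S : Finset (HeightOneSpectrum (𝓞 K)))
    (M : HeightOneSpectrum (𝓞 K) → Matrix (Fin (n + 1)) (Fin (n + 1)) K)
    (hM : ∀ v ∈ S, (M v).det ≠ 0) {δ : ℝ} (hδ : 0 < δ) :
    ∃ W : Finset (Fin (n + 1) → K), (∀ β ∈ W, β ≠ 0) ∧ ∀ ξ : Fin (n + 1) → 𝓞 K, ξ ≠ 0 →
      (∏ φ, ∏ i, ‖∑ k, L φ i k * φ (ξ k : K)‖) *
          ∏ v ∈ S, ∏ i, HeightOneSpectrum.adicAbv K v (∑ k, M v i k * (ξ k : K)) <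
          house ξ ^ (-δ) →
        ∃ β ∈ W, ∑ k, β k * (ξ k : K) = 0 := by
  classical
  choose U C hU hC hUle using fun (v : S) (π : Equiv.Perm (Fin (n + 1))) =>
    exists_echelon_prime v.1 ((M v.1).submatrix π id) (by
      rw [det_permute]
      exact mul_ne_zero (by rcases Int.units_eq_one_or (Equiv.Perm.sign π) with h | h <;> simp [h])
        (hM v.1 v.2))
  set Uk : (S → Equiv.Perm (Fin (n + 1))) → HeightOneSpectrum (𝓞 K) →
      Matrix (Fin (n + 1)) (Fin (n + 1)) (𝓞 K) := fun κ v =>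
    if h : v ∈ S then U ⟨v, h⟩ (κ ⟨v, h⟩) else 1
  have hUk : ∀ κ v (h : v ∈ S), Uk κ v = U ⟨v, h⟩ (κ ⟨v, h⟩) := fun κ v h => dif_pos h
  choose W hW hWx using fun κ : S → Equiv.Perm (Fin (n + 1)) =>
    finite_subspaces_numberField_exponents hn L hL halg S (Uk κ)
      (fun v h => by rw [hUk κ v h]; exact hU ⟨v, h⟩ _) (half_pos hδ)
  have hC0 : ∀ v π, 0 ≤ C v π := fun v π => zero_le_one.trans (hC v π)
  set CC := ∏ v, ∏ π, C v π ^ (n + 1)
  have hCC : 1 ≤ CC := one_le_prod fun v _ => one_le_prod fun π _ => one_le_pow₀ (hC v π)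
  choose β₁ hβ₁ hβ₁' using fun ξ : Fin (n + 1) → 𝓞 K => exists_orth_field hn fun j => (ξ j : K)
  set β₂ := fun (p : (S → Equiv.Perm (Fin (n + 1))) × S × Fin (n + 1)) (j : Fin (n + 1)) =>
    (U p.2.1 (p.1 p.2.1) p.2.2 j : K)
  set X₀ := max 1 (CC ^ (2 / δ))
  refine ⟨((finite_house_le (K := K) (n + 1) X₀).toFinset.image β₁ ∪ univ.image β₂) ∪
    univ.biUnion W, fun β hβ => ?_, fun ξ hξ0 hξ => ?_⟩
  · rcases mem_union.1 hβ with h | h
    · rcases mem_union.1 h with h | h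
      · obtain ⟨y, -, rfl⟩ := mem_image.1 h
        exact hβ₁ y
      · obtain ⟨p, -, rfl⟩ := mem_image.1 h
        intro h0
        refine hU p.2.1 (p.1 p.2.1) ?_
        rw [det_eq_zero_of_row_eq_zero p.2.2 fun j =>
          RingOfIntegers.coe_eq_zero_iff.1 (congrFun h0 j)]
        exact Ideal.zero_mem _
    · obtain ⟨κ, -, hκ⟩ := mem_biUnion.1 h
      exact hW κ β hκ
  simp only [mem_union]
  rcases le_or_gt (house ξ) X₀ with h | hX
  · exact ⟨_, Or.inl (Or.inl (mem_image_of_mem β₁ ((finite_house_le _ _).mem_toFinset.2 h))),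
      hβ₁' ξ⟩
  have hH1 : 1 < house ξ := (le_max_left _ _).trans_lt hX
  set y : S → Fin (n + 1) → ℝ := fun v i =>
    HeightOneSpectrum.adicAbv K v.1 (∑ k, M v.1 i k * (ξ k : K))
  set κ : S → Equiv.Perm (Fin (n + 1)) := fun v => Tuple.sort (y v)
  by_cases hzero : ∃ v i, (U v (κ v) *ᵥ ξ) i = 0
  · obtain ⟨v, i, hvi⟩ := hzero
    refine ⟨_, Or.inl (Or.inr (mem_image_of_mem β₂ (mem_univ (κ, v, i)))), ?_⟩
    simpa [β₂, mulVec, dotProduct] using congrArg (fun y : 𝓞 K => (y : K)) hvi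
  push Not at hzero
  choose k hk hkabs using fun (v : S) i => exists_adicAbv_eq v.1 (hzero v i)
  set N : S → ℝ := fun v => Ideal.absNorm v.1.asIdeal
  have hN : ∀ v, 0 < N v := fun v => Nat.cast_pos.2 (Nat.pos_of_ne_zero fun h =>
    v.1.ne_bot (Ideal.absNorm_eq_zero_iff.1 h))
  set P := ∏ φ, ∏ i, ‖∑ k, L φ i k * φ (ξ k : K)‖
  obtain ⟨β, hβ, hβξ⟩ := hWx κ ξ hξ0 (fun v i => if h : v ∈ S then k ⟨v, h⟩ i else 0)
    (fun v hv i => by simpa [hUk κ v hv, dif_pos hv] using hk ⟨v, hv⟩ i) (by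
    have hle : (∏ v, ∏ i, N v ^ k v i)⁻¹ ≤ CC * ∏ v, ∏ i, y v i := by
      simp only [← prod_inv_distrib]
      refine (prod_le_prod (g := fun v => C v (κ v) ^ (n + 1) * ∏ i, y v i)
        (fun v _ => prod_nonneg fun i _ => inv_nonneg.2 (pow_nonneg (hN v).le _))
        fun v _ => ?_).trans ?_
      · rw [← Equiv.prod_comp (κ v) (y v), ← Fin.prod_const (n + 1) (C v (κ v)), ← prod_mul_distrib]
        refine prod_le_prod (fun i _ => inv_nonneg.2 (pow_nonneg (hN v).le _)) fun i _ => ?_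
        rw [← hkabs v i]
        exact hUle v (κ v) ξ (Tuple.monotone_sort (y v)) i
      · rw [prod_mul_distrib]
        refine mul_le_mul_of_nonneg_right (prod_le_prod (fun v _ => pow_nonneg (hC0 v _) _)
          fun v _ => ?_) (prod_nonneg fun v _ => prod_nonneg fun i _ => AbsoluteValue.nonneg _ _)
        rw [← mul_prod_erase univ (fun π => C v π ^ (n + 1)) (mem_univ (κ v))]
        exact le_mul_of_one_le_right (pow_nonneg (hC0 v _) _)
          (one_le_prod fun π _ => one_le_pow₀ (hC v π))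
    rw [← prod_coe_sort S] at hξ ⊢
    simp only [Subtype.coe_eta, coe_mem, dite_true]
    have hV : 0 < ∏ v, ∏ i, N v ^ k v i := prod_pos fun v _ => prod_pos fun i _ => pow_pos (hN v) _
    have hCX : CC ≤ house ξ ^ (δ / 2) := by
      have h := Real.rpow_le_rpow (by positivity) ((le_max_right _ _).trans hX.le) (half_pos hδ).le
      rwa [← Real.rpow_mul (by linarith), show 2 / δ * (δ / 2) = 1 by field_simp,
        Real.rpow_one] at h
    rw [mul_comm, ← div_lt_iff₀ hV, div_eq_mul_inv]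
    refine (mul_le_mul_of_nonneg_left hle (by positivity)).trans_lt ?_
    rw [mul_left_comm]
    refine (mul_lt_mul_of_pos_left hξ (by linarith)).trans_le ?_
    refine (mul_le_mul_of_nonneg_right hCX (Real.rpow_nonneg (by linarith) _)).trans_eq ?_
    rw [← Real.rpow_add (by linarith)]
    ring_nf)
  exact ⟨β, Or.inr (mem_biUnion.2 ⟨κ, mem_univ κ, hβ⟩), hβξ⟩

/-- **Schmidt's subspace theorem over a number field**, at the archimedean places. -/
theorem finite_subspaces_numberField {n : ℕ} (hn : 1 ≤ n)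
    (L : (K →+* ℂ) → Matrix (Fin (n + 1)) (Fin (n + 1)) ℂ) (hL : ∀ φ, (L φ).det ≠ 0)
    (halg : ∀ φ i k, IsAlgebraic ℚ (L φ i k)) {δ : ℝ} (hδ : 0 < δ) :
    ∃ V : Finset (Fin (n + 1) → K), (∀ β ∈ V, β ≠ 0) ∧ ∀ ξ : Fin (n + 1) → 𝓞 K, ξ ≠ 0 →
      ∏ φ, ∏ i, ‖∑ k, L φ i k * φ (ξ k : K)‖ < house ξ ^ (-δ) →
        ∃ β ∈ V, ∑ k, β k * (ξ k : K) = 0 := by
  obtain ⟨W, hW, h⟩ := finite_subspaces_numberField_places hn L hL halg ∅ (fun _ => 1)
    (fun v hv => absurd hv (notMem_empty v)) hδ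
  exact ⟨W, hW, fun ξ hξ hlt => h ξ hξ (by rwa [prod_empty, mul_one])⟩

end FA.Subspace

end
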