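import Fermat.Agent.Roth.Lemma
import Fermat.Agent.Subspace.Auxiliary
import Mathlib.LinearAlgebra.Matrix.DotProduct
import Mathlib.LinearAlgebra.Matrix.NonsingularInverse

/-!
# Roth's lemma on a product of hyperplanes

A polynomial homogeneous in each block whose derivatives of small order vanish on a product of
rational hyperplanes gives, by keeping one exponent of all but two of the variables of each block,
a polynomial in one variable per block with a high index at a rational point with large
denominators. This is excluded by Roth's lemma.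
-/

set_option autoImplicit false

noncomputable section

namespace FA.Subspace

open MvPolynomial Finset FA.Roth Matrix

variable {n m : ℕ}

/-- The points of the hyperplane over any ring are combinations of a basis. -/
theorem exists_combination {g : Fin n → Fin (n + 1) → ℤ} {v : Fin (n + 1) → ℤ} (hv : v ≠ 0)
    (hg : LinearIndependent ℚ fun j k => (g j k : ℚ)) (hgv : ∀ j, v ⬝ᵥ g j = 0)
    {S : Type*} [CommRing S] [Algebra ℚ S] (y : Fin (n + 1) → S)
    (hy : ∑ k, (v k : S) * y k = 0) :
    ∃ b : Fin n → S, ∀ k, y k = ∑ j, b j * (g j k : S) := by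
  set B : Matrix (Fin (n + 1)) (Fin (n + 1)) ℚ := Matrix.of
    (Fin.snoc (fun j k => (g j k : ℚ)) fun k => (v k : ℚ) : Fin (n + 1) → Fin (n + 1) → ℚ)
  have hgvQ : ∀ j, (fun k => (g j k : ℚ)) ⬝ᵥ (fun k => (v k : ℚ)) = 0 := fun j => by
    have h := hgv j
    rw [dotProduct_comm] at h
    simp only [dotProduct] at h ⊢
    exact_mod_cast h
  have hvv : (fun k => (v k : ℚ)) ⬝ᵥ (fun k => (v k : ℚ)) ≠ 0 := fun h =>
    hv (funext fun k => Int.cast_eq_zero.1 (congrFun (dotProduct_self_eq_zero.1 h) k))
  have hB : IsUnit B.det := by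
    refine (isUnit_iff_isUnit_det _).1 (linearIndependent_rows_iff_isUnit.1
      (linearIndependent_finSnoc.2 ⟨hg, fun hmem => hvv ?_⟩ :))
    refine (Submodule.span_le.2 ?_ hmem : (fun k => (v k : ℚ)) ∈
      LinearMap.ker ((dotProductBilin ℚ ℚ).flip fun k => (v k : ℚ)))
    rintro _ ⟨j, rfl⟩
    exact hgvQ j
  set f := algebraMap ℚ S
  set w := y ᵥ* (B⁻¹).map f
  have hw : w ᵥ* B.map f = y := by
    rw [vecMul_vecMul, ← Matrix.map_mul, nonsing_inv_mul _ hB, Matrix.map_one _ (map_zero f)
      (map_one f), vecMul_one]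
  have hyk : ∀ k, y k = (∑ j, w j.castSucc * (g j k : S)) + w (Fin.last n) * (v k : S) := by
    intro k
    rw [← hw]
    simp [vecMul, dotProduct, Fin.sum_univ_castSucc, B, f]
  have hlast : w (Fin.last n) = 0 := by
    have hgvS : ∀ j, ∑ k, (v k : S) * (g j k : S) = 0 := fun j => by
      simp only [← Int.cast_mul, ← Int.cast_sum]
      rw [show ∑ k, v k * g j k = 0 from hgv j, Int.cast_zero]
    have h : w (Fin.last n) * f ((fun k => (v k : ℚ)) ⬝ᵥ fun k => (v k : ℚ)) = 0 := by
      rw [← hy, dotProduct, map_sum]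
      simp only [hyk, mul_add, mul_sum, sum_add_distrib]
      rw [sum_comm]
      simp only [mul_left_comm ((v _ : ℤ) : S) (w _), ← mul_sum, hgvS, mul_zero, sum_const_zero,
        zero_add]
      simp [f, map_mul]
    exact ((isUnit_iff_ne_zero.2 hvv).map f).mul_left_eq_zero.1 h
  exact ⟨fun j => w j.castSucc, fun k => by rw [hyk, hlast, zero_mul, add_zero]⟩

/-- **Roth's lemma on a product of hyperplanes.** -/
theorem false_of_vanish {r : Fin m → ℕ} (hr : ∀ h, 0 < r h)
    {P : MvPolynomial (Fin m × Fin (n + 1)) ℤ} (hP : MultiHom r P) (hP0 : P ≠ 0)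
    (v : Fin m → Fin (n + 1) → ℤ) (i₀ i₁ : Fin m → Fin (n + 1)) (hne : ∀ h, i₁ h ≠ i₀ h)
    (hv : ∀ h, v h (i₀ h) ≠ 0) {θ δ σ : ℝ} (hδ : δ < θ) (hσ : SmallIndex ℚ m δ σ) {R : ℕ}
    (hR : ∀ h, r h ≤ R) (hratio : ∀ h h', h < h' → (r h : ℝ) ≤ σ * r h') {Q : ℝ} (hQ : 1 ≤ Q)
    (hden : ∀ h, Q ≤ ((((v h (i₁ h) : ℚ) / v h (i₀ h)).den : ℕ) : ℝ) ^ r h)
    (hlen : len P * 2 ^ ((m + 1) ^ 2 * R) ≤ Q ^ σ)
    (hvan : ∀ μ, weight (fun p : Fin m × Fin (n + 1) => r p.1) μ < θ →
      ∀ z : Fin m × Fin (n + 1) → MvPolynomial (Fin m × Fin (n + 1)) ℚ,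
        (∀ h, ∑ k, (v h k : MvPolynomial (Fin m × Fin (n + 1)) ℚ) * z (h, k) = 0) →
          aeval z (hasse μ P) = 0) : False := by
  classical
  set other : Fin m × Fin (n + 1) → Prop := fun p => p.2 ≠ i₀ p.1 ∧ p.2 ≠ i₁ p.1 with hother
  set x : Fin m → ℚ := fun h => -((v h (i₁ h) : ℚ) / v h (i₀ h)) with hx
  set key : (Fin m × Fin (n + 1) →₀ ℕ) → (Fin m × Fin (n + 1) →₀ ℕ) :=
    fun s => s.filter other with hkey
  set ex : (Fin m × Fin (n + 1) →₀ ℕ) → (Fin m →₀ ℕ) :=
    fun s => Finsupp.equivFunOnFinite.symm fun h => s (h, i₀ h) with hex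
  -- a minimal exponent of the other variables
  obtain ⟨κ, hκmem, hκmin⟩ := (P.support.image key).exists_minimal
    ((support_nonempty.2 hP0).image key)
  obtain ⟨s₀, hs₀, hs₀κ⟩ := mem_image.1 hκmem
  set F := P.support.filter (fun s => key s = κ) with hF
  set G : MvPolynomial (Fin m) ℤ := ∑ s ∈ F, monomial (ex s) (coeff s P) with hG
  have hinj : ∀ s ∈ F, ∀ t ∈ F, ex s = ex t → s = t := by
    intro s hs t ht e
    have hs' := mem_filter.1 hs
    have ht' := mem_filter.1 ht
    have hoth : ∀ h k, k ≠ i₁ h → s (h, k) = t (h, k) := fun h k hk => by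
      by_cases h0 : k = i₀ h
      · subst h0
        simpa [hex] using DFunLike.congr_fun e h
      · have := DFunLike.congr_fun (hs'.2.trans ht'.2.symm) (h, k)
        simpa [hkey, hother, h0, hk] using this
    ext ⟨h, k⟩
    by_cases hk : k = i₁ h
    · subst hk
      have h1 := (hP s (mem_support_iff.1 hs'.1) h).trans (hP t (mem_support_iff.1 ht'.1) h).symm
      rw [← add_sum_erase _ _ (mem_univ (i₁ h)), ← add_sum_erase _ _ (mem_univ (i₁ h)),
        sum_congr rfl fun k hk => hoth h k (ne_of_mem_erase hk)] at h1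
      exact Nat.add_right_cancel h1
    · exact hoth h k hk
  have hGcoeff : ∀ s ∈ F, coeff (ex s) G = coeff s P := fun s hs => by
    rw [hG, coeff_sum, sum_eq_single s (fun t ht hts => by
      rw [coeff_monomial, if_neg fun e => hts (hinj t ht s hs e)]) (fun h => absurd hs h),
      coeff_monomial, if_pos rfl]
  have hs₀F : s₀ ∈ F := mem_filter.2 ⟨hs₀, hs₀κ⟩
  have hG0 : G ≠ 0 := fun e => mem_support_iff.1 hs₀ (by rw [← hGcoeff s₀ hs₀F, e, coeff_zero])
  have hGbox : BoxDeg r G := by
    refine BoxDeg.sum fun s hs t ht h => ?_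
    rw [coeff_monomial] at ht
    split_ifs at ht with e
    · subst e
      simpa [hex] using hP.le (mem_support_iff.1 (mem_filter.1 hs).1) (h, i₀ h)
    · exact absurd rfl ht
  have hGlen : len G ≤ len P := by
    refine (len_sum_le _ _).trans ((sum_le_sum fun s _ => len_monomial_le _ _).trans ?_)
    exact sum_le_sum_of_subset_of_nonneg (filter_subset _ _) fun _ _ _ => abs_nonneg _
  have hxden : ∀ h, (x h).den = ((v h (i₁ h) : ℚ) / v h (i₀ h)).den := fun h => by
    rw [hx, Rat.neg_den]
  obtain ⟨ν, hν, hνw⟩ := hσ r x (fun h => (x h).den) R Q G hG0 hGbox hr hR hratio hQ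
    (fun h => heightLE_den _) (fun h => by rw [hxden]; exact hden h)
    (le_trans (mul_le_mul_of_nonneg_right hGlen (by positivity)) hlen)
  -- the point with polynomial coordinates
  set μ : Fin m × Fin (n + 1) →₀ ℕ :=
    Finsupp.equivFunOnFinite.symm fun p => if p.2 = i₀ p.1 then ν p.1 else 0 with hμ
  set T : Fin m → MvPolynomial (Fin m × Fin (n + 1)) ℚ := fun h => C (x h) -
    ∑ k ∈ (univ.erase (i₀ h)).erase (i₁ h), C ((v h k : ℚ) / v h (i₀ h)) * X (h, k) with hT
  set z : Fin m × Fin (n + 1) → MvPolynomial (Fin m × Fin (n + 1)) ℚ :=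
    fun p => if p.2 = i₀ p.1 then T p.1 else if p.2 = i₁ p.1 then 1 else X p with hz
  have hμw : weight (fun p : Fin m × Fin (n + 1) => r p.1) μ = weight r ν := by
    rw [weight, weight, Fintype.sum_prod_type]
    refine sum_congr rfl fun h _ => ?_
    rw [sum_eq_single (i₀ h) (fun k _ hk => by simp [hμ, hk]) (fun e => absurd (mem_univ _) e)]
    simp [hμ]
  have hzv : ∀ h, ∑ k, (v h k : MvPolynomial (Fin m × Fin (n + 1)) ℚ) * z (h, k) = 0 := by
    intro h
    rw [← add_sum_erase _ _ (mem_univ (i₀ h)),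
      ← add_sum_erase _ _ (mem_erase.2 ⟨hne h, mem_univ (i₁ h)⟩)]
    have hz' : ∀ k ∈ (univ.erase (i₀ h)).erase (i₁ h), z (h, k) = X (h, k) := fun k hk => by
      simp [hz, ne_of_mem_erase (mem_of_mem_erase hk), ne_of_mem_erase hk]
    rw [sum_congr rfl fun k hk => by rw [hz' k hk]]
    simp only [hz, if_pos, hne h, if_false, mul_one, hT, hx, mul_sub, mul_sum]
    have h0 : (v h (i₀ h) : ℚ) ≠ 0 := by exact_mod_cast hv h
    have hC : ∀ q : ℚ, (v h (i₀ h) : MvPolynomial (Fin m × Fin (n + 1)) ℚ) *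
        C (q / v h (i₀ h)) = C q := fun q => by
      rw [← map_intCast (C : ℚ →+* MvPolynomial (Fin m × Fin (n + 1)) ℚ), ← map_mul,
        mul_div_cancel₀ _ h0]
    simp only [map_neg, mul_neg, hC, ← mul_assoc]
    simp only [map_intCast]
    ring
  have h0 := hvan μ (by rw [hμw]; linarith) z hzv
  refine hν ?_
  rw [coeff_taylor, hasse_map, eval_map]
  -- its coefficient at the minimal exponent
  have hev : eval₂ (Int.castRingHom ℚ) x (hasse ν G) = coeff κ (aeval z (hasse μ P)) := by
    conv_rhs => rw [as_sum P, map_sum, map_sum, coeff_sum,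
      ← sum_filter_add_sum_filter_not _ (fun s => key s = κ)]
    have hterm : ∀ s ∈ P.support, coeff κ (aeval z (hasse μ (monomial s (coeff s P)))) =
        if key s = κ then ((∏ h, (s (h, i₀ h)).choose (ν h) : ℕ) : ℚ) * coeff s P *
          ∏ h, x h ^ (s (h, i₀ h) - ν h) else 0 := by
      intro s hs
      have hchoose : ∏ p, (s p).choose (μ p) = ∏ h, (s (h, i₀ h)).choose (ν h) := by
        rw [Fintype.prod_prod_type]
        refine prod_congr rfl fun h _ => ?_
        rw [prod_eq_single (i₀ h) (fun k _ hk => by simp [hμ, hk])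
          (fun e => absurd (mem_univ _) e)]
        simp [hμ]
      have hprod : ∏ p, z p ^ (s - μ) p =
          monomial (key s) 1 * ∏ h, T h ^ (s (h, i₀ h) - ν h) := by
        rw [Fintype.prod_prod_type, monomial_eq, map_one, one_mul, Finsupp.prod_fintype _ _ (fun _ => pow_zero _),
          Fintype.prod_prod_type, ← prod_mul_distrib]
        refine prod_congr rfl fun h _ => ?_
        rw [← mul_prod_erase univ _ (mem_univ (i₀ h)),
          ← mul_prod_erase univ (fun k => X (h, k) ^ key s (h, k)) (mem_univ (i₀ h))]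
        have h1 : key s (h, i₀ h) = 0 := by simp [hkey, hother]
        simp only [h1, pow_zero, one_mul, hz, if_pos, Finsupp.tsub_apply, hμ,
          Finsupp.coe_equivFunOnFinite_symm]
        rw [mul_comm]
        congr 1
        refine prod_congr rfl fun k hk => ?_
        rw [if_neg (ne_of_mem_erase hk), if_neg (ne_of_mem_erase hk), Nat.sub_zero]
        by_cases hk1 : k = i₁ h
        · subst hk1
          simp [hkey, hother]
        · simp [hkey, hother, ne_of_mem_erase hk, hk1]
      rw [hasse_monomial, aeval_monomial, Finsupp.prod_fintype _ _ (fun _ => pow_zero _), hchoose,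
        hprod, eq_intCast (algebraMap ℤ (MvPolynomial (Fin m × Fin (n + 1)) ℚ)),
        ← map_intCast (C : ℚ →+* MvPolynomial (Fin m × Fin (n + 1)) ℚ), coeff_C_mul,
        coeff_monomial_mul']
      split_ifs with hle heq heq
      · rw [heq, tsub_self, ← constantCoeff_eq, map_prod, one_mul]
        push_cast
        congr 1
        refine prod_congr rfl fun h _ => ?_
        simp [hT]
      · exact absurd ((le_antisymm hle (hκmin (mem_image_of_mem key hs) hle))) heq
      · exact absurd heq.le hle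
      · rw [mul_zero]
    rw [sum_congr rfl fun s hs => hterm s (mem_filter.1 hs).1, sum_congr rfl
      (s₂ := P.support.filter fun s => ¬key s = κ) fun s hs => hterm s (mem_filter.1 hs).1]
    rw [sum_congr rfl fun s hs => if_pos (mem_filter.1 hs).2, sum_congr rfl
      (s₂ := P.support.filter fun s => ¬key s = κ) fun s hs => if_neg (mem_filter.1 hs).2,
      sum_const_zero, add_zero, ← hF, hG, map_sum, eval₂_sum]
    refine sum_congr rfl fun s _ => ?_
    rw [hasse_monomial, eval₂_monomial, Finsupp.prod_fintype _ _ (fun _ => pow_zero _)]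
    simp [hex]
  rw [hev, h0, coeff_zero]

end FA.Subspace

end
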