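import Fermat.Agent.Roth.Parameters
import Fermat.Agent.Subspace.Index
import Fermat.Agent.Subspace.RothGeneral
import Fermat.Agent.Subspace.Setup

/-!
# The theorem on the next to last minimum

If `n` independent integer points in dimension `n + 1` make all of `n + 1` independent linear forms
with algebraic coefficients small, `|L i x| ≤ Q ^ (c i - η)`, and forms at finitely many places
divisible by powers of size `Q ^ f l i`, with `∑ c i = ∑ f l i`, then for large `Q` they span one of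
finitely many hyperplanes.
-/

set_option autoImplicit false

noncomputable section

namespace FA.Subspace

open Finset Matrix FA.Roth

variable {n : ℕ}

/-- The coefficients of a vector in the linear forms. -/
def formCoeff (L : Matrix (Fin (n + 1)) (Fin (n + 1)) ℝ) (u : Fin (n + 1) → ℤ)
    (i : Fin (n + 1)) : ℝ :=
  ∑ k, L⁻¹ k i * (u k : ℝ)

theorem sum_formCoeff_mul {L : Matrix (Fin (n + 1)) (Fin (n + 1)) ℝ} (hL : L.det ≠ 0)
    (u : Fin (n + 1) → ℤ) (x : Fin (n + 1) → ℝ) :
    ∑ i, formCoeff L u i * ∑ k, L i k * x k = ∑ k, (u k : ℝ) * x k := by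
  have h : L⁻¹ *ᵥ (L *ᵥ x) = x := by
    rw [mulVec_mulVec, nonsing_inv_mul _ (isUnit_iff_ne_zero.2 hL), one_mulVec]
  conv_rhs => rw [← h]
  simp only [formCoeff, mulVec, dotProduct, sum_mul]
  simp only [mul_sum]
  rw [sum_comm]
  exact sum_congr rfl fun k _ => sum_congr rfl fun i _ => sum_congr rfl fun l _ => by ring

/-- The coefficients of the normal vector of points with small forms are small. -/
theorem abs_formCoeff_cross_le {L : Matrix (Fin (n + 1)) (Fin (n + 1)) ℝ} (hL : L.det ≠ 0)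
    {c : Fin (n + 1) → ℝ} {η Q : ℝ} (hQ : 0 < Q)
    {g : Fin n → Fin (n + 1) → ℤ}
    (hg : ∀ j i, |∑ k, L i k * (g j k : ℝ)| ≤ Q ^ (c i - η)) (i : Fin (n + 1)) :
    |formCoeff L (cross g) i| * |L.det| ≤
      (n + 1).factorial * Q ^ ((∑ l, c l) - c i - n * η) := by
  classical
  set B : Matrix (Fin (n + 1)) (Fin (n + 1)) ℝ := Matrix.of
    (Fin.snoc (fun j k => (g j k : ℝ)) fun k => L⁻¹ k i : Fin (n + 1) → Fin (n + 1) → ℝ)
  have hB : formCoeff L (cross g) i = B.det := by
    rw [← cross_dotProduct, dotProduct]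
    refine sum_congr rfl fun k _ => ?_
    rw [mul_comm]
    congr 1
    exact (map_cross (Int.castRingHom ℝ) g k).symm
  have hlast : ∀ i', (B * Lᵀ) (Fin.last n) i' = if i' = i then 1 else 0 := fun i' => by
    have h := congrFun (congrFun (mul_nonsing_inv L (isUnit_iff_ne_zero.2 hL)) i') i
    rw [Matrix.mul_apply, Matrix.one_apply] at h
    rw [← h, Matrix.mul_apply]
    exact sum_congr rfl fun k _ => by simp [B, mul_comm]
  have hrows : ∀ (j : Fin n) i', |(B * Lᵀ) j.castSucc i'| ≤ Q ^ (c i' - η) := fun j i' => by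
    refine le_of_eq_of_le (congrArg abs ?_) (hg j i')
    rw [Matrix.mul_apply]
    exact sum_congr rfl fun k _ => by simp [B, mul_comm]
  rw [hB, ← abs_mul, ← det_transpose L, ← det_mul, ← det_transpose (B * Lᵀ), det_apply]
  refine (abs_sum_le_sum_abs _ _).trans ((sum_le_card_nsmul _ _ (Q ^ ((∑ l, c l) - c i - n * η))
    fun p _ => ?_).trans_eq (by simp [Fintype.card_perm]))
  rw [show |Equiv.Perm.sign p • ∏ q, (B * Lᵀ)ᵀ (p q) q| = |∏ q, (B * Lᵀ) q (p q)| by
    rcases Int.units_eq_one_or (Equiv.Perm.sign p) with h | h <;> simp [h, transpose_apply],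
    abs_prod, Fin.prod_univ_castSucc, hlast]
  split_ifs with hp
  · rw [abs_one, mul_one]
    refine (prod_le_prod (fun j _ => abs_nonneg _) fun j _ => hrows j _).trans_eq ?_
    rw [← Real.rpow_sum_of_pos hQ]
    congr 1
    have h := Equiv.sum_comp p c
    rw [Fin.sum_univ_castSucc, hp] at h
    rw [sum_sub_distrib, sum_const, card_univ, Fintype.card_fin, nsmul_eq_mul]
    linarith
  · rw [abs_zero, mul_zero]
    positivity

/-- The coefficients of a vector in unimodular forms. -/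
def localCoeff {R : Type*} [CommRing R] (U : Matrix (Fin (n + 1)) (Fin (n + 1)) R)
    (u : Fin (n + 1) → R) (i : Fin (n + 1)) : R :=
  ∑ k, U⁻¹ k i * u k

section Local

variable {R : Type*} [CommRing R] {U : Matrix (Fin (n + 1)) (Fin (n + 1)) R}

theorem sum_localCoeff_mul (hU : IsUnit U.det) (u x : Fin (n + 1) → R) :
    ∑ i, localCoeff U u i * (U *ᵥ x) i = u ⬝ᵥ x := by
  have h : U⁻¹ *ᵥ (U *ᵥ x) = x := by rw [mulVec_mulVec, nonsing_inv_mul _ hU, one_mulVec]
  conv_rhs => rw [← h]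
  simp only [localCoeff, mulVec, dotProduct, sum_mul]
  simp only [mul_sum]
  rw [sum_comm]
  exact sum_congr rfl fun k _ => sum_congr rfl fun i _ => sum_congr rfl fun l _ => by ring

theorem exists_localCoeff_ne_zero [CharZero R] (hU : IsUnit U.det) {u : Fin (n + 1) → ℤ}
    (hu : u ≠ 0) : ∃ i, localCoeff U (intVec R u) i ≠ 0 := by
  by_contra! h
  refine hu (funext fun k => Int.cast_injective (α := R) ?_)
  have h1 := sum_localCoeff_mul hU (intVec R u) (Pi.single k 1)
  simp only [h, zero_mul, sum_const_zero, dotProduct_single, mul_one] at h1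
  simpa [intVec] using h1.symm

/-- The coefficients of the normal vector of points with divisible forms are divisible. -/
theorem dvd_localCoeff_cross (hU : IsUnit U.det) {b : R} {e : Fin (n + 1) → ℕ}
    {g : Fin n → Fin (n + 1) → R} (hg : ∀ j i, b ^ e i ∣ (U *ᵥ g j) i) (i : Fin (n + 1)) :
    b ^ (∑ l ∈ univ.erase i, e l) ∣ localCoeff U (cross g) i := by
  classical
  set B : Matrix (Fin (n + 1)) (Fin (n + 1)) R := Matrix.of
    (Fin.snoc g fun k => U⁻¹ k i : Fin (n + 1) → Fin (n + 1) → R)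
  have hB : localCoeff U (cross g) i = B.det := by
    rw [← cross_dotProduct, dotProduct]
    exact sum_congr rfl fun k _ => mul_comm _ _
  have hlast : ∀ i', (B * Uᵀ) (Fin.last n) i' = if i' = i then 1 else 0 := fun i' => by
    have h := congrFun (congrFun (mul_nonsing_inv U hU) i') i
    rw [Matrix.mul_apply, Matrix.one_apply] at h
    rw [← h, Matrix.mul_apply]
    exact sum_congr rfl fun k _ => by simp [B, mul_comm]
  have hrows : ∀ (j : Fin n) i', b ^ e i' ∣ (B * Uᵀ) j.castSucc i' := fun j i' => by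
    refine (hg j i').trans (dvd_of_eq ?_)
    rw [Matrix.mul_apply]
    simp only [mulVec, dotProduct]
    exact sum_congr rfl fun k _ => by simp [B, mul_comm]
  rw [hB, ← (hU.dvd_mul_right (a := b ^ (∑ l ∈ univ.erase i, e l)) (b := B.det)),
    ← det_transpose U, ← det_mul, ← det_transpose (B * Uᵀ), det_apply]
  refine dvd_sum fun p _ => ?_
  rw [Units.smul_def, zsmul_eq_mul]
  refine Dvd.dvd.mul_left ?_ _
  simp only [transpose_apply]
  rw [Fin.prod_univ_castSucc, hlast]
  split_ifs with hp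
  · rw [mul_one, ← prod_pow_eq_pow_sum]
    have e' : univ.erase i = univ.image fun j : Fin n => p j.castSucc := by
      ext l
      simp only [mem_erase, mem_univ, and_true, mem_image, true_and]
      refine ⟨fun hl => ?_, ?_⟩
      · obtain ⟨j', hj'⟩ := p.surjective l
        obtain ⟨j, rfl⟩ := Fin.exists_castSucc_eq.2
          (show j' ≠ Fin.last n from fun e => hl (by rw [← hj', e, hp]))
        exact ⟨j, hj'⟩
      · rintro ⟨j, rfl⟩ e
        exact Fin.castSucc_ne_last j (p.injective (e.trans hp.symm))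
    rw [e', prod_image fun x _ y _ e => Fin.castSucc_injective _ (p.injective e)]
    exact prod_dvd_prod_of_dvd _ _ fun j _ => hrows j _
  · simp

end Local

/-- **The theorem on the next to last minimum**, with finitely many places. -/
theorem finite_penultimate_local (hn : 1 ≤ n) {s : ℕ} (Pl : LocalPlaces s (n + 1))
    (L : Matrix (Fin (n + 1)) (Fin (n + 1)) ℝ) (hL : L.det ≠ 0)
    (halg : ∀ i j, IsAlgebraic ℚ (L i j)) (c : Fin (n + 1) → ℝ) (f : Fin s → Fin (n + 1) → ℝ)
    (hf : ∀ l i, 0 ≤ f l i) (hc : ∑ i, c i = ∑ l, ∑ i, f l i) {η : ℝ} (hη : 0 < η) :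
    ∃ (V : Finset (Fin (n + 1) → ℤ)) (Q₀ : ℝ), ∀ Q, Q₀ ≤ Q → ∀ g : Fin n → Fin (n + 1) → ℤ,
      LinearIndependent ℚ (fun j k => (g j k : ℚ)) →
      (∀ j i, |∑ k, L i k * (g j k : ℝ)| ≤ Q ^ (c i - η)) →
      (∀ j, Pl.Divides (Pl.minExp f Q) (g j)) →
        ∃ v ∈ V, v ≠ 0 ∧ ∀ j, v ⬝ᵥ g j = 0 := by
  classical
  obtain ⟨α, μ, d, a, hmon, hα, hD, hind, hd, ha⟩ := exists_setup L hL halg
  set D := μ.natDegree
  choose Cl hCl1 hCl using fun i => exists_linear_lower hmon hα hD hind (fun k => a k i)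
  have halgi : ∀ l k i, IsAlgebraic ℤ ((Pl.mat l)⁻¹ k i) := fun l =>
    isAlgebraic_inv (Pl.isAlgebraic l) (Pl.isUnit_det l)
  choose αp μp dp ap hmonp hαp hDp hindp hdp hap using fun l =>
    exists_presentation (fun q : Fin (n + 1) × Fin (n + 1) => (Pl.mat l)⁻¹ q.1 q.2)
      fun q => halgi l q.1 q.2
  choose Cn Dn hCn1 hCn using fun l i =>
    exists_norm_bound (fun k => (Pl.mat l)⁻¹ k i) fun k => halgi l k i
  set Dp := ∑ l, ∑ i, Dn l i with hDp_def
  -- the finitely many normal vectors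
  set u : Finset (Fin (n + 1)) × (Fin s → Finset (Fin (n + 1))) → Fin (n + 1) → ℤ := fun J =>
    if h : ∃ u : Fin (n + 1) → ℤ, u ≠ 0 ∧ (∀ i ∈ J.1, formCoeff L u i = 0) ∧
      ∀ l, ∀ i ∈ J.2 l, localCoeff (Pl.mat l) (intVec _ u) i = 0 then h.choose else 0
  set FF := ∑ l, ∑ i, f l i with hFF
  have hFF0 : 0 ≤ FF := sum_nonneg fun l _ => sum_nonneg fun i _ => hf l i
  set Bf := FF + ∑ l, Real.log (Pl.base l : ℝ) with hBf_def
  have hBf : 0 ≤ Bf := add_nonneg hFF0 (sum_nonneg fun l _ => (Pl.log_base_pos l).le)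
  set Cv : ℝ := ∏ l, ∑ i, Cn l i with hCv
  have hCv0 : 0 ≤ Cv := prod_nonneg fun l _ => sum_nonneg fun i _ => zero_le_one.trans (hCn1 l i)
  set Bu := ∑ J, ∑ i, |formCoeff L (u J) i| with hBu
  set b := ((n : ℝ) - 1 / 2) * η with hb_def
  have hn' : (1 : ℝ) ≤ n := by exact_mod_cast hn
  have hb : 0 < b := mul_pos (by linarith) hη
  set C₁ := ((n + 1).factorial : ℝ) / |L.det| with hC₁
  set C₂ := max 1 ((∑ i, Cl i) * d * (C₁ * Cv)) with hC₂
  -- the second case is impossible for large `Q`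
  let p : ℝ → Prop := fun Q => Real.exp 1 ≤ Q ∧ ∃ (g : Fin n → Fin (n + 1) → ℤ)
    (v a : Fin (n + 1) → ℤ) (i₀ : Fin (n + 1)), LinearIndependent ℚ (fun j k => (g j k : ℚ)) ∧
      (∀ j i, |∑ k, L i k * (g j k : ℝ)| ≤ Q ^ (c i - η)) ∧ (∀ j, v ⬝ᵥ g j = 0) ∧
      (∀ j, Pl.Divides (Pl.minExp f Q) (g j)) ∧
      ∑ k, a k * v k = 1 ∧ v i₀ ≠ 0 ∧ Q ^ b ≤ C₂ * |(v i₀ : ℝ)| ^ (D + Dp)
  have hbound : ∃ B : ℝ, ∀ Q, p Q → Real.log Q < B := by
    by_contra hcon
    replace hcon : ∀ B : ℝ, ∃ Q, p Q ∧ B ≤ Real.log Q := fun B => by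
      by_contra h'
      exact hcon ⟨B, fun Q hQ => not_le.1 fun h => h' ⟨Q, hQ, h⟩⟩
    set cc := ∑ i, |c i| + η + 1 + (FF + Bf * s) with hcc
    have hcc1 : 1 ≤ cc :=
      le_add_of_le_of_nonneg (le_add_of_nonneg_left (by positivity)) (by positivity)
    set ε := η / (16 * cc) with hε_def
    have hε : 0 < ε := by positivity
    have hεc : 16 * cc * ε ≤ η := le_of_eq (by rw [hε_def]; field_simp)
    set μs : Option (Fin s) → Polynomial ℤ := fun o => o.elim μ μp with hμs
    set as : Option (Fin s) → Fin (n + 1) → Fin (n + 1) → Polynomial ℤ :=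
      fun o => o.elim a fun l k i => ap l (k, i) with has
    set Ds : ℕ := ∑ o, (μs o).natDegree
    set m := max 2 ⌈4 * (Ds : ℝ) * (n + 1) / ε ^ 2⌉₊ with hm_def
    have hm2 : 2 ≤ m := le_max_left _ _
    have hm0 : (0 : ℝ) < m := by exact_mod_cast (show 0 < m by omega)
    have hm : 4 * (Ds : ℝ) * (n + 1) ≤ ε ^ 2 * m := by
      have h := (Nat.le_ceil (4 * (Ds : ℝ) * (n + 1) / ε ^ 2)).trans
        (Nat.cast_le.2 (le_max_right 2 _))
      rw [div_le_iff₀ (by positivity), ← hm_def] at h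
      linarith
    set K := ⌈2 * (n : ℝ) / ε⌉₊
    have hK : 2 * (n : ℝ) < ε * (K + 1) := by
      have h := Nat.le_ceil (2 * (n : ℝ) / ε)
      rw [div_le_iff₀ hε] at h
      linarith
    set θ := ε * m / 2 with hθ
    have hθ0 : 0 < θ := by positivity
    set δ := min 1 (θ / 2)
    obtain ⟨σ, hσ0, hσ1, hσ⟩ := exists_smallIndex ℚ m δ (lt_min one_pos (half_pos hθ0))
      (min_le_left _ _)
    obtain ⟨C, hC1, hC⟩ := exists_auxiliary hn μs (fun o => by cases o <;> simp [μs, hmon, hmonp])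
      (fun o => by
        cases o with
        | none => exact hD
        | some l => exact hDp l) as hε hm2 hm
    set A : Matrix (Fin (n + 1)) (Fin (n + 1)) ℝ :=
      Matrix.of fun k i => Polynomial.aeval α (a k i) with hA
    have hAL : A * L = (d : ℝ) • (1 : Matrix (Fin (n + 1)) (Fin (n + 1)) ℝ) := by
      rw [show A = (d : ℝ) • L⁻¹ from Matrix.ext fun k i => (ha k i).symm, Matrix.smul_mul,
        nonsing_inv_mul _ (isUnit_iff_ne_zero.2 hL)]
    set Z : ℝ := 1 + n * K with hZ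
    set W := (1 + ∑ k, ∑ i, |A k i|) * (Z + ∑ i, ∑ k, |L i k|) with hW
    have hW1 : 1 ≤ W := one_le_mul_of_one_le_of_one_le
      (le_add_of_nonneg_right (by positivity))
      (le_add_of_le_of_nonneg (le_add_of_nonneg_right (by positivity)) (by positivity))
    set γ := b / (2 * (n * ((D + Dp : ℕ) : ℝ))) with hγ_def
    have hγ : 0 < γ := by
      have : (0 : ℝ) < ((D + Dp : ℕ) : ℝ) := by exact_mod_cast (show 0 < D + Dp by omega)
      positivity
    set M₁ := 2 * Real.log (C * W) / η + 1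
    set M₂ := 2 * Real.log C₂ / b
    set M₃ := (m * Real.log C + (m + 1) ^ 2 * Real.log 2) / (σ * γ)
    obtain ⟨Q, r, R, L₁, hR0, hL1, hML, hp, hLQ, hr, hrR, hratio, hlow, hhigh⟩ :=
      exists_parameters hcon m hε hσ0 hσ1 (max M₁ (max M₂ M₃))
    choose hQe g v aa i₀ hg hgb hgv hgd hbez hv0 hvQ using hp
    have hQ1 : ∀ h, 1 ≤ Q h := fun h => (Real.one_le_exp zero_le_one).trans (hQe h)
    have hlogQ : ∀ h, 1 ≤ Real.log (Q h) := fun h =>
      (Real.le_log_iff_exp_le (zero_lt_one.trans_le (hQ1 h))).2 (hQe h)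
    choose i₁ hi₁ hden using fun h => exists_large_den (hbez h) (hv0 h) hn
    set E := (R : ℝ) * L₁ with hE
    have hR' : (0 : ℝ) < R := by exact_mod_cast hR0
    have hE0 : 0 < E := mul_pos hR' (by linarith)
    have hS : ((∑ h, r h : ℕ) : ℝ) ≤ m * R := by
      have h : ∑ h, r h ≤ m * R := (sum_le_sum fun h _ => hrR h).trans (by simp)
      exact_mod_cast h
    obtain ⟨P, hP0, hPhom, hPlen, hPgood⟩ := hC r hr
    have hP1 : 0 < len P := zero_lt_one.trans_le (one_le_len hP0)
    have hlogP : Real.log (len P) ≤ ((∑ h, r h : ℕ) : ℝ) * Real.log C := by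
      rw [← Real.log_pow]
      exact Real.log_le_log hP1 hPlen
    have hsmall : len P * W ^ (∑ h, r h) * Real.exp (-(η * m * E / 2)) < 1 := by
      rw [← Real.exp_log (mul_pos hP1 (by positivity : 0 < W ^ (∑ h, r h))), ← Real.exp_add,
        Real.exp_lt_one_iff, Real.log_mul hP1.ne' (by positivity), Real.log_pow]
      have hl := Real.log_nonneg (one_le_mul_of_one_le_of_one_le hC1 hW1)
      have h1 : ((∑ h, r h : ℕ) : ℝ) * Real.log (C * W) ≤ m * R * Real.log (C * W) :=
        mul_le_mul_of_nonneg_right hS hl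
      have h2 : 2 * Real.log (C * W) / η + 1 ≤ L₁ := (le_max_left _ _).trans hML
      have h3 : Real.log (C * W) < L₁ * η / 2 := by
        have h : 2 * Real.log (C * W) / η < L₁ := by linarith
        rw [div_lt_iff₀ hη] at h
        linarith
      have h4 := mul_lt_mul_of_pos_left h3 (mul_pos hm0 hR')
      rw [Real.log_mul (by linarith) (by linarith)] at h1
      rw [Real.log_mul (by linarith) (by linarith)] at h4
      rw [hE]
      linarith
    have hγb : ∀ h, γ * Real.log (Q h) ≤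
        Real.log ((((v h (i₁ h) : ℚ) / v h (i₀ h)).den : ℕ) : ℝ) := by
      intro h
      have hv1 : (1 : ℝ) ≤ |(v h (i₀ h) : ℝ)| := by exact_mod_cast Int.one_le_abs (hv0 h)
      have h1 := Real.log_le_log (Real.rpow_pos_of_pos (zero_lt_one.trans_le (hQ1 h)) b) (hvQ h)
      rw [Real.log_rpow (zero_lt_one.trans_le (hQ1 h)),
        Real.log_mul (by positivity) (by positivity),
        Real.log_pow] at h1
      have h2 := Real.log_le_log (by linarith) (hden h)
      rw [Real.log_pow] at h2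
      have h3 : 2 * Real.log C₂ / b ≤ Real.log (Q h) :=
        ((le_max_left _ _).trans ((le_max_right _ _).trans hML)).trans (hLQ h)
      rw [div_le_iff₀ hb] at h3
      have hD' : (0 : ℝ) < ((D + Dp : ℕ) : ℝ) := by exact_mod_cast (show 0 < D + Dp by omega)
      have h4 := mul_le_mul_of_nonneg_left h2 hD'.le
      rw [hγ_def, div_mul_eq_mul_div, div_le_iff₀ (by positivity)]
      linarith
    have hlenQ : len P * 2 ^ ((m + 1) ^ 2 * R) ≤ Real.exp (γ * E) ^ σ := by
      rw [← Real.exp_mul, ← Real.exp_log (mul_pos hP1 (pow_pos two_pos _)), Real.exp_le_exp,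
        Real.log_mul hP1.ne' (by positivity), Real.log_pow]
      push_cast
      have h1 : ((∑ h, r h : ℕ) : ℝ) * Real.log C ≤ m * R * Real.log C :=
        mul_le_mul_of_nonneg_right hS (Real.log_nonneg hC1)
      have h2 : M₃ ≤ L₁ := (le_max_right _ _).trans ((le_max_right _ _).trans hML)
      rw [div_le_iff₀ (mul_pos hσ0 hγ)] at h2
      have h3 := mul_le_mul_of_nonneg_left h2 hR'.le
      rw [hE]
      push_cast at h1 hlogP
      linarith
    refine false_of_vanish hr hPhom hP0 v i₀ i₁ hi₁ hv0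
      (show δ < θ from (min_le_right _ _).trans_lt (half_lt_self hθ0)) hσ hrR hratio
      (Real.one_le_exp (by positivity)) (fun h => ?_) hlenQ fun μ' hμ' z hz => ?_
    · have hd0 : (0 : ℝ) < ((((v h (i₁ h) : ℚ) / v h (i₀ h)).den : ℕ) : ℝ) :=
        Nat.cast_pos.2 (Rat.den_pos _)
      rw [← Real.le_log_iff_exp_le (pow_pos hd0 _), Real.log_pow]
      have h1 := mul_le_mul_of_nonneg_left (hγb h) (Nat.cast_nonneg (α := ℝ) (r h))
      have h2 := mul_le_mul_of_nonneg_left (hlow h) hγ.le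
      rw [hE]
      linarith
    · have hv : ∀ h, v h ≠ 0 := fun h e => hv0 h (congrFun e _)
      choose bb hbb using fun h =>
        exists_combination (hv h) (hg h) (hgv h) (fun k => z (h, k)) (hz h)
      refine aeval_hasse_span_eq_zero hr hPhom g hK hε (fun a' μ'' hμ'' => ?_) hμ' z bb hbb
      refine aeval_hasse_eq_zero hr hPhom hd hAL Pl hf hc hη hε hBf hεc hQ1 hE0.le hlow hhigh
        (fun j i h => ⟨fun l => ?_, hPgood j i h none ℝ α hα⟩)
        (e := fun h => Pl.minExp f (Q h)) (fun h l i => Pl.le_minExp f (Q h) l i)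
        (fun h l i => (Pl.minExp_le_add hf (hQ1 h) l i).trans ?_) (fun h => ?_)
        (Z := Z) (le_add_of_nonneg_right (by positivity))
        (fun h i => ?_) hsmall hμ''
      · have h0 := hPgood j i h (some l) (Pl.ring l) (αp l) (hαp l)
        rw [show (Matrix.of fun k i => Polynomial.aeval (αp l) (as (some l) k i)) =
            (dp l : Pl.ring l) • (Pl.mat l)⁻¹ from Matrix.ext fun k i => (hap l (k, i)).symm,
          coeff_aeval_linForm_smul hPhom] at h0
        exact (mul_eq_zero.1 h0).resolve_left (pow_ne_zero _ (Nat.cast_ne_zero.2 (hdp l).ne'))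
      · rw [hBf_def, add_mul]
        refine add_le_add (mul_le_mul_of_nonneg_right ?_ (zero_le_one.trans (hlogQ h))) ?_
        · exact (single_le_sum (fun i _ => hf l i) (mem_univ i)).trans
            (single_le_sum (f := fun l => ∑ i, f l i)
              (fun l _ => sum_nonneg fun i _ => hf l i) (mem_univ l))
        · exact (single_le_sum (f := fun l => Real.log (Pl.base l : ℝ))
            (fun l _ => (Pl.log_base_pos l).le) (mem_univ l)).trans (le_mul_of_one_le_right
            (sum_nonneg fun l _ => (Pl.log_base_pos l).le) (hlogQ h))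
      · have hd' := LocalPlaces.Divides.sum (P := Pl) (t := univ) (fun j _ => hgd h j)
          (fun j => ((a' (h, j) : ℕ) : ℤ))
        convert hd' using 1
        funext k
        simp [Finset.sum_apply]
      push_cast
      simp only [mul_sum]
      rw [sum_comm]
      refine (abs_sum_le_sum_abs _ _).trans ((sum_le_card_nsmul _ _ (K * Q h ^ (c i - η))
        fun j _ => ?_).trans ?_)
      · rw [show ∑ k, L i k * (((a' (h, j) : ℕ) : ℝ) * (g h j k : ℝ)) =
          ((a' (h, j) : ℕ) : ℝ) * ∑ k, L i k * (g h j k : ℝ) by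
            rw [mul_sum]; exact sum_congr rfl fun k _ => by ring, abs_mul, Nat.abs_cast]
        exact mul_le_mul (Nat.cast_le.2 (Nat.lt_succ_iff.1 (a' (h, j)).isLt)) (hgb h j i)
          (abs_nonneg _) (Nat.cast_nonneg _)
      · rw [card_univ, Fintype.card_fin, nsmul_eq_mul, hZ, ← mul_assoc]
        exact mul_le_mul_of_nonneg_right (by linarith)
          (Real.rpow_nonneg (zero_le_one.trans (hQ1 h)) _)
  obtain ⟨B, hB⟩ := hbound
  refine ⟨univ.image u, max (max (Real.exp 1) (Real.exp B)) ((Bu + 1) ^ (2 / (3 * η))),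
    fun Q hQ g hg hgb hgd => ?_⟩
  have hQe : Real.exp 1 ≤ Q := (le_max_left _ _).trans ((le_max_left _ _).trans hQ)
  have hQ1 : 1 ≤ Q := (Real.one_le_exp zero_le_one).trans hQe
  have hQ0 : 0 < Q := by linarith
  have hw0 : cross g ≠ 0 := fun h => by
    refine cross_ne_zero hg (funext fun k => ?_)
    show cross (fun j i => Int.castRingHom ℚ (g j i)) k = 0
    rw [map_cross, h, Pi.zero_apply, map_zero]
  set J : Finset (Fin (n + 1)) × (Fin s → Finset (Fin (n + 1))) :=
    (univ.filter fun i => formCoeff L (cross g) i = 0,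
      fun l => univ.filter fun i => localCoeff (Pl.mat l) (intVec _ (cross g)) i = 0) with hJ
  have hex : ∃ u : Fin (n + 1) → ℤ, u ≠ 0 ∧ (∀ i ∈ J.1, formCoeff L u i = 0) ∧
      ∀ l, ∀ i ∈ J.2 l, localCoeff (Pl.mat l) (intVec _ u) i = 0 :=
    ⟨cross g, hw0, fun i hi => (mem_filter.1 hi).2, fun l i hi => (mem_filter.1 hi).2⟩
  have hu : u J = hex.choose := dif_pos hex
  have hil : ∀ l, ∃ i, i ∉ J.2 l ∧ ∀ i', i' ∉ J.2 l → f l i ≤ f l i' := fun l => by
    obtain ⟨i, hi⟩ := exists_localCoeff_ne_zero (Pl.isUnit_det l) hw0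
    obtain ⟨i', hi', hmin⟩ := exists_min_image (univ \ J.2 l) (f l)
      ⟨i, mem_sdiff.2 ⟨mem_univ i, fun h => hi (mem_filter.1 h).2⟩⟩
    exact ⟨i', (mem_sdiff.1 hi').2, fun j hj => hmin j (mem_sdiff.2 ⟨mem_univ j, hj⟩)⟩
  choose il hilJ hilmin using hil
  set Fm := ∑ l, f l (il l) with hFm
  set e := Pl.minExp f Q with he
  have hbase : ∀ l, (0 : ℝ) < Pl.base l := fun l => Nat.cast_pos.2 (Pl.base_pos l)
  by_cases hcase : ∀ i, i ∉ J.1 → c i ≤ Fm - η / 2
  · refine ⟨u J, mem_image_of_mem u (mem_univ J), hu ▸ hex.choose_spec.1, fun j => ?_⟩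
    by_contra hne
    have hdvd : ∏ l, (Pl.base l : ℤ) ^ e l (il l) ∣ u J ⬝ᵥ g j := by
      refine Fintype.prod_dvd_of_coprime (fun l l' hll => IsCoprime.pow
        (Int.isCoprime_iff_gcd_eq_one.2 (Pl.coprime hll))) fun l => Pl.dvd_int l _ _ ?_
      rw [show ((u J ⬝ᵥ g j : ℤ) : Pl.ring l) = intVec _ (u J) ⬝ᵥ intVec _ (g j) by
        simp [dotProduct, intVec], ← sum_localCoeff_mul (Pl.isUnit_det l)]
      refine dvd_sum fun i _ => ?_
      by_cases hi : i ∈ J.2 l
      · rw [show localCoeff (Pl.mat l) (intVec _ (u J)) i = 0 from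
          hu ▸ hex.choose_spec.2.2 l i hi, zero_mul]
        exact dvd_zero _
      · exact ((pow_dvd_pow _ (Pl.minExp_mono hQ1 (hilmin l i hi))).trans
          (hgd j l i)).mul_left _
    have h1 : Q ^ Fm ≤ |∑ i, formCoeff L (u J) i * ∑ k, L i k * (g j k : ℝ)| := by
      rw [sum_formCoeff_mul hL]
      have h := Int.le_of_dvd (abs_pos.2 hne) ((dvd_abs _ _).2 hdvd)
      refine le_trans ?_ (show ((∏ l, (Pl.base l : ℤ) ^ e l (il l) : ℤ) : ℝ) ≤
        |∑ k, (u J k : ℝ) * (g j k : ℝ)| by exact_mod_cast h)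
      push_cast
      rw [← Real.exp_log (prod_pos fun l _ => pow_pos (hbase l) _), Real.rpow_def_of_pos hQ0,
        Real.exp_le_exp, Real.log_prod fun l _ => (pow_pos (hbase l) _).ne', hFm, mul_sum]
      refine sum_le_sum fun l _ => ?_
      rw [Real.log_pow, mul_comm]
      exact Pl.le_minExp f Q l (il l)
    have h2 : |∑ i, formCoeff L (u J) i * ∑ k, L i k * (g j k : ℝ)| ≤
        Bu * Q ^ (Fm - 3 * η / 2) := by
      refine (abs_sum_le_sum_abs _ _).trans ((sum_le_sum (g := fun i =>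
        |formCoeff L (u J) i| * Q ^ (Fm - 3 * η / 2)) fun i _ => ?_).trans ?_)
      · rw [abs_mul]
        by_cases hi : i ∈ J.1
        · rw [show formCoeff L (u J) i = 0 from hu ▸ hex.choose_spec.2.1 i hi]
          simp
        · exact mul_le_mul_of_nonneg_left ((hgb j i).trans
            (Real.rpow_le_rpow_of_exponent_le hQ1 (by linarith [hcase i hi]))) (abs_nonneg _)
      · rw [← sum_mul]
        exact mul_le_mul_of_nonneg_right (single_le_sum (f := fun J => ∑ i, |formCoeff L (u J) i|)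
          (fun _ _ => sum_nonneg fun _ _ => abs_nonneg _) (mem_univ J)) (by positivity)
    have hBu0 : 0 ≤ Bu := by positivity
    have h3 : Bu + 1 ≤ Q ^ (3 * η / 2) := by
      have h := Real.rpow_le_rpow (Real.rpow_nonneg (by linarith) _)
        ((le_max_right _ _).trans hQ) (show 0 ≤ 3 * η / 2 by linarith)
      rwa [← Real.rpow_mul (by linarith), show 2 / (3 * η) * (3 * η / 2) = 1 by field_simp,
        Real.rpow_one] at h
    have h4 := h1.trans h2
    rw [Real.rpow_sub hQ0, ← mul_div_assoc, le_div_iff₀ (by positivity), mul_comm] at h4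
    exact absurd (le_of_mul_le_mul_right h4 (Real.rpow_pos_of_pos hQ0 _)) (by linarith)
  · push Not at hcase
    obtain ⟨i, hi, hci⟩ := hcase
    obtain ⟨k, v, av, hk, hwv, hav⟩ := exists_primitive_vector hw0
    obtain ⟨i₀, -, hmax⟩ := exists_max_image univ (fun l => |v l|) univ_nonempty
    have hv0 : v i₀ ≠ 0 := fun e => by
      refine one_ne_zero (α := ℤ) (hav.symm.trans (sum_eq_zero fun l _ => ?_))
      rw [abs_nonpos_iff.1 ((hmax l (mem_univ l)).trans_eq (by rw [e, abs_zero])), mul_zero]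
    have hgv : ∀ j, v ⬝ᵥ g j = 0 := fun j => by
      have h := cross_dotProduct_self g j
      rw [show cross g = k • v from funext hwv, smul_dotProduct, smul_eq_mul] at h
      exact (mul_eq_zero.1 h).resolve_left hk
    have hMv : formCoeff L (cross g) i = (k : ℝ) * formCoeff L v i := by
      simp only [formCoeff, mul_sum, hwv]
      push_cast
      exact sum_congr rfl fun l _ => by ring
    have hMl : ∀ l i', localCoeff (Pl.mat l) (intVec _ (cross g)) i' =
        (k : Pl.ring l) * localCoeff (Pl.mat l) (intVec _ v) i' := by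
      intro l i'
      simp only [localCoeff, intVec, mul_sum, hwv, Int.cast_mul]
      exact sum_congr rfl fun q _ => by ring
    have hne : formCoeff L v i ≠ 0 := fun e =>
      hi (mem_filter.2 ⟨mem_univ i, by rw [hMv, e, mul_zero]⟩)
    have hnel : ∀ l, localCoeff (Pl.mat l) (intVec _ v) (il l) ≠ 0 := fun l e =>
      hilJ l (mem_filter.2 ⟨mem_univ _, by rw [hMl, e, mul_zero]⟩)
    have hU : (1 : ℝ) ≤ |(v i₀ : ℝ)| := by exact_mod_cast Int.one_le_abs hv0
    have hvl : ∀ l, |(v l : ℝ)| ≤ |(v i₀ : ℝ)| := fun l => by exact_mod_cast hmax l (mem_univ l)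
    -- the divisibility at the places
    choose z hz0 hzle hzdvd using fun l => hCn l (il l) v |(v i₀ : ℝ)| hU hvl (by
      convert hnel l using 1
      exact sum_congr rfl fun q _ => mul_comm _ _)
    have hk' : Q ^ (FF - Fm) ≤ |(k : ℝ)| * (Cv * |(v i₀ : ℝ)| ^ Dp) := by
      have hdvd : ∏ l, (Pl.base l : ℤ) ^ (∑ q ∈ univ.erase (il l), e l q) ∣ k * ∏ l, z l := by
        refine Fintype.prod_dvd_of_coprime (fun l l' hll => IsCoprime.pow
          (Int.isCoprime_iff_gcd_eq_one.2 (Pl.coprime hll))) fun l => ?_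
        refine (Pl.dvd_int l _ _ ?_).trans (mul_dvd_mul_left k (dvd_prod_of_mem z (mem_univ l)))
        have h := dvd_localCoeff_cross (Pl.isUnit_det l) (g := fun j => intVec _ (g j))
          (fun j q => hgd j l q) (il l)
        rw [show cross (fun j => intVec (Pl.ring l) (g j)) = intVec (Pl.ring l) (cross g) from
          funext fun q => map_cross (Int.castRingHom (Pl.ring l)) g q, hMl] at h
        rw [Int.cast_mul]
        refine h.trans (mul_dvd_mul_left _ ?_)
        convert hzdvd l using 1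
        exact sum_congr rfl fun q _ => mul_comm _ _
      have h := Int.le_of_dvd (abs_pos.2 (mul_ne_zero hk (prod_ne_zero_iff.2 fun l _ => hz0 l)))
        ((dvd_abs _ _).2 hdvd)
      rw [abs_mul, abs_prod] at h
      refine le_trans ?_ (le_trans (show ((∏ l, (Pl.base l : ℤ) ^ (∑ q ∈ univ.erase (il l), e l q) :
        ℤ) : ℝ) ≤ ((|k| * ∏ l, |z l| : ℤ) : ℝ) from Int.cast_le.2 h) ?_)
      · push_cast
        rw [← Real.exp_log (prod_pos fun l _ => pow_pos (hbase l) _), Real.rpow_def_of_pos hQ0,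
          Real.exp_le_exp, Real.log_prod fun l _ => (pow_pos (hbase l) _).ne', hFm, hFF,
          ← sum_sub_distrib, mul_sum]
        refine sum_le_sum fun l _ => ?_
        rw [Real.log_pow, Nat.cast_sum, sum_mul, ← sum_erase_eq_sub (mem_univ (il l)), mul_sum]
        refine sum_le_sum fun q _ => ?_
        rw [mul_comm]
        exact Pl.le_minExp f Q l q
      · push_cast
        refine mul_le_mul_of_nonneg_left ((prod_le_prod (g := fun l : Fin s =>
          (∑ q, Cn l q) * |(v i₀ : ℝ)| ^ ∑ q, Dn l q) (fun _ _ => abs_nonneg _) fun l _ => ?_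
          ).trans_eq ?_) (abs_nonneg _)
        · exact (hzle l).trans (mul_le_mul
            (single_le_sum (fun q _ => zero_le_one.trans (hCn1 l q)) (mem_univ (il l)))
            (pow_le_pow_right₀ hU (single_le_sum (f := Dn l) (fun _ _ => Nat.zero_le _)
              (mem_univ (il l)))) (by positivity)
            (sum_nonneg fun q _ => zero_le_one.trans (hCn1 l q)))
        · rw [prod_mul_distrib, prod_pow_eq_pow_sum]
    have hlin : ∑ l, (v l : ℝ) * Polynomial.aeval α (a l i) = d * formCoeff L v i := by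
      rw [formCoeff, mul_sum]
      exact sum_congr rfl fun l _ => by rw [← ha]; ring
    have hlow := hCl i v |(v i₀ : ℝ)| hU hvl
      (by rw [hlin]; exact mul_ne_zero (by positivity) hne)
    rw [hlin, abs_mul, Nat.abs_cast] at hlow
    have hup : |formCoeff L v i| ≤ C₁ * Cv * |(v i₀ : ℝ)| ^ Dp * Q ^ (-b) := by
      have h := abs_formCoeff_cross_le hL hQ0 hgb i
      rw [hMv, abs_mul, hc] at h
      rw [hC₁, mul_assoc, mul_assoc, div_mul_eq_mul_div, le_div_iff₀ (abs_pos.2 hL),
        ← mul_assoc Cv]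
      refine le_of_mul_le_mul_right ?_ (Real.rpow_pos_of_pos hQ0 (FF - Fm))
      calc |formCoeff L v i| * |L.det| * Q ^ (FF - Fm)
          ≤ |formCoeff L v i| * |L.det| * (|(k : ℝ)| * (Cv * |(v i₀ : ℝ)| ^ Dp)) :=
            mul_le_mul_of_nonneg_left hk' (by positivity)
        _ = |(k : ℝ)| * |formCoeff L v i| * |L.det| * (Cv * |(v i₀ : ℝ)| ^ Dp) := by ring
        _ ≤ (n + 1).factorial * Q ^ (FF - c i - n * η) * (Cv * |(v i₀ : ℝ)| ^ Dp) :=
            mul_le_mul_of_nonneg_right h (mul_nonneg hCv0 (by positivity))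
        _ ≤ (n + 1).factorial * (Q ^ (-b) * Q ^ (FF - Fm)) * (Cv * |(v i₀ : ℝ)| ^ Dp) := by
            refine mul_le_mul_of_nonneg_right (mul_le_mul_of_nonneg_left ?_ (by positivity))
              (mul_nonneg hCv0 (by positivity))
            rw [← Real.rpow_add hQ0]
            refine Real.rpow_le_rpow_of_exponent_le hQ1 ?_
            rw [hb_def]
            linarith
        _ = _ := by ring
    have hpQ : p Q := by
      refine ⟨hQe, g, v, av, i₀, hg, hgb, hgv, hgd, hav, hv0, ?_⟩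
      have hCi : Cl i ≤ ∑ l, Cl l :=
        single_le_sum (fun l _ => zero_le_one.trans (hCl1 l)) (mem_univ i)
      have h : 1 ≤ C₂ * |(v i₀ : ℝ)| ^ (D + Dp) * Q ^ (-b) := by
        refine hlow.trans ((mul_le_mul_of_nonneg_left (mul_le_mul_of_nonneg_left hup
          (Nat.cast_nonneg d)) (mul_nonneg (zero_le_one.trans (hCl1 i))
          (pow_nonneg (abs_nonneg _) _))).trans ?_)
        rw [show Cl i * |(v i₀ : ℝ)| ^ D *
            ((d : ℝ) * (C₁ * Cv * |(v i₀ : ℝ)| ^ Dp * Q ^ (-b))) =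
          Cl i * d * (C₁ * Cv) * (|(v i₀ : ℝ)| ^ (D + Dp) * Q ^ (-b)) by rw [pow_add]; ring,
          mul_assoc C₂]
        refine mul_le_mul_of_nonneg_right (le_trans ?_ (le_max_right _ _)) (by positivity)
        exact mul_le_mul_of_nonneg_right (mul_le_mul_of_nonneg_right hCi (Nat.cast_nonneg d))
          (by positivity)
      rwa [Real.rpow_neg hQ0.le, ← div_eq_mul_inv, one_le_div (by positivity)] at h
    have h := hB Q hpQ
    rw [Real.log_lt_iff_lt_exp hQ0] at h
    exact absurd ((le_max_right _ _).trans ((le_max_left _ _).trans hQ)) (not_le.2 h)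

/-- **The theorem on the next to last minimum**, with integer forms at finitely many places. -/
theorem finite_penultimate_places (hn : 1 ≤ n) {s : ℕ} (Pl : Places s (n + 1))
    (L : Matrix (Fin (n + 1)) (Fin (n + 1)) ℝ) (hL : L.det ≠ 0)
    (halg : ∀ i j, IsAlgebraic ℚ (L i j)) (c : Fin (n + 1) → ℝ) (f : Fin s → Fin (n + 1) → ℝ)
    (hf : ∀ l i, 0 ≤ f l i) (hc : ∑ i, c i = ∑ l, ∑ i, f l i) {η : ℝ} (hη : 0 < η) :
    ∃ (V : Finset (Fin (n + 1) → ℤ)) (Q₀ : ℝ), ∀ Q, Q₀ ≤ Q → ∀ g : Fin n → Fin (n + 1) → ℤ,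
      LinearIndependent ℚ (fun j k => (g j k : ℚ)) →
      (∀ j i, |∑ k, L i k * (g j k : ℝ)| ≤ Q ^ (c i - η)) →
      (∀ j, Pl.Divides (Pl.minExp f Q) (g j)) →
        ∃ v ∈ V, v ≠ 0 ∧ ∀ j, v ⬝ᵥ g j = 0 :=
  finite_penultimate_local hn Pl.toLocal L hL halg c f hf hc hη

/-- **The theorem on the next to last minimum.** -/
theorem finite_penultimate (hn : 1 ≤ n) (L : Matrix (Fin (n + 1)) (Fin (n + 1)) ℝ)
    (hL : L.det ≠ 0) (halg : ∀ i j, IsAlgebraic ℚ (L i j)) (c : Fin (n + 1) → ℝ)
    (hc : ∑ i, c i = 0) {η : ℝ} (hη : 0 < η) :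
    ∃ (V : Finset (Fin (n + 1) → ℤ)) (Q₀ : ℝ), ∀ Q, Q₀ ≤ Q → ∀ g : Fin n → Fin (n + 1) → ℤ,
      LinearIndependent ℚ (fun j k => (g j k : ℚ)) →
      (∀ j i, |∑ k, L i k * (g j k : ℝ)| ≤ Q ^ (c i - η)) →
        ∃ v ∈ V, v ≠ 0 ∧ ∀ j, v ⬝ᵥ g j = 0 := by
  obtain ⟨V, Q₀, h⟩ := finite_penultimate_places hn (Places.none (n + 1)) L hL halg c
    Fin.elim0 (fun l => l.elim0) (by simp [hc]) hη
  exact ⟨V, Q₀, fun Q hQ g hg hgb => h Q hQ g hg hgb fun j l => l.elim0⟩

end FA.Subspace

end
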