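import Fermat.Agent.Perfect.SuccessiveMinima
import Fermat.Agent.Subspace.Penultimate

/-!
# The next to last minimum with variable exponents

Exponents from a bounded range, those at infinity with a sum below that of those at the finite
places, are rounded to a finite grid, so the theorem on the next to last minimum holds uniformly in
them.
-/

set_option autoImplicit false
set_option linter.style.haveILetI false

noncomputable section

namespace FA.Subspace

open Finset Matrix FA.Perfect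

variable {n : ℕ}

theorem linearIndependent_rat_of_real {ι : Type*} [Fintype ι] {m : ℕ} {g : ι → Fin m → ℤ}
    (hg : LinearIndependent ℝ (castVec ∘ g)) :
    LinearIndependent ℚ fun j k => (g j k : ℚ) := by
  rw [Fintype.linearIndependent_iff] at hg ⊢
  intro a ha i
  have h := hg (fun j => (a j : ℝ)) ?_ i
  · exact Rat.cast_eq_zero.1 h
  · funext k
    have h1 := congrArg (fun x : ℚ => (x : ℝ)) (congrFun ha k)
    simpa [Finset.sum_apply, castVec] using h1

/-- Bounded exponents with a negative sum lie below one of finitely many. -/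
theorem exists_grid (n : ℕ) (B : ℝ) {γ : ℝ} (hγ : 0 < γ) :
    ∃ T : Finset ((Fin (n + 1) → ℝ) × ℝ), (∀ t ∈ T, ∑ i, t.1 i = 0 ∧ 0 < t.2) ∧
      ∀ e : Fin (n + 1) → ℝ, (∀ i, |e i| ≤ B) → ∑ i, e i ≤ -γ →
        ∃ t ∈ T, ∀ i, e i ≤ t.1 i - t.2 := by
  classical
  set h := γ / (2 * (n + 1)) with hh_def
  have hh : 0 < h := by positivity
  set R : ℤ := ⌈|B| / h⌉ + 1
  set F : (Fin (n + 1) → ℤ) → (Fin (n + 1) → ℝ) × ℝ :=
    fun t => (fun i => h * t i - (∑ l, h * t l) / (n + 1), -((∑ l, h * t l) / (n + 1)))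
  refine ⟨((Fintype.piFinset fun _ : Fin (n + 1) => Finset.Icc (-R) R).image F).filter
    fun t => 0 < t.2, fun t ht => ?_, fun e he hsum => ?_⟩
  · obtain ⟨t', -, rfl⟩ := mem_image.1 (mem_filter.1 ht).1
    refine ⟨?_, (mem_filter.1 ht).2⟩
    simp only [F, sum_sub_distrib, sum_const, card_univ, Fintype.card_fin, nsmul_eq_mul]
    push_cast
    field_simp
    ring
  set t : Fin (n + 1) → ℤ := fun i => ⌈e i / h⌉
  have hlo : ∀ i, e i ≤ h * t i := fun i => by
    have := Int.le_ceil (e i / h)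
    rwa [div_le_iff₀ hh, mul_comm] at this
  have hhi : ∀ i, h * t i ≤ e i + h := fun i => by
    have := (Int.ceil_lt_add_one (e i / h)).le
    rw [← sub_le_iff_le_add, le_div_iff₀ hh] at this
    linarith
  have ht : t ∈ Fintype.piFinset fun _ : Fin (n + 1) => Finset.Icc (-R) R :=
    Fintype.mem_piFinset.2 fun i => by
    have h1 : |e i / h| ≤ |B| / h := by
      rw [abs_div, abs_of_pos hh]
      exact div_le_div_of_nonneg_right ((he i).trans (le_abs_self B)) hh.le
    rw [abs_le] at h1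
    rw [Finset.mem_Icc]
    refine ⟨?_, (Int.ceil_mono h1.2).trans (le_add_of_nonneg_right zero_le_one)⟩
    have h2 := Int.le_ceil (e i / h)
    have h3 := Int.le_ceil (|B| / h)
    have h4 : ((-R : ℤ) : ℝ) ≤ ((⌈e i / h⌉ : ℤ) : ℝ) := by
      simp only [R]
      push_cast
      linarith
    exact_mod_cast h4
  have hη : 0 < (F t).2 := by
    have h1 : ∑ l, h * t l ≤ -γ + (n + 1) * h := by
      refine (sum_le_sum fun l _ => hhi l).trans ?_
      rw [sum_add_distrib, sum_const, card_univ, Fintype.card_fin, nsmul_eq_mul]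
      push_cast
      linarith
    have h2 : ((n : ℝ) + 1) * h = γ / 2 := by rw [hh_def]; field_simp
    simp only [F]
    rw [neg_pos, div_lt_iff₀ (by positivity), zero_mul]
    linarith
  refine ⟨F t, mem_filter.2 ⟨mem_image_of_mem F ht, hη⟩, fun i => ?_⟩
  simp only [F]
  linarith [hlo i]

/-- Bounded exponents, those at infinity with a sum below that of the others, lie below one of
finitely many. -/
theorem exists_grid_places (n s : ℕ) (B : ℝ) {γ : ℝ} (hγ : 0 < γ) :
    ∃ T : Finset ((Fin (n + 1) → ℝ) × (Fin s → Fin (n + 1) → ℝ) × ℝ),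
      (∀ t ∈ T, (∀ l i, 0 ≤ t.2.1 l i) ∧ ∑ i, t.1 i = ∑ l, ∑ i, t.2.1 l i ∧ 0 < t.2.2) ∧
      ∀ (e : Fin (n + 1) → ℝ) (f : Fin s → Fin (n + 1) → ℝ), (∀ i, |e i| ≤ B) →
        (∀ l i, 0 ≤ f l i ∧ f l i ≤ B) → ∑ i, e i ≤ (∑ l, ∑ i, f l i) - γ →
        ∃ t ∈ T, (∀ i, e i ≤ t.1 i - t.2.2) ∧ ∀ l i, t.2.1 l i ≤ f l i := by
  classical
  set h := γ / (2 * (s * (n + 1) + 1)) with hh_def
  have hh : 0 < h := by positivity
  set N : ℝ := n + 1 with hN_def
  have hN : 1 ≤ N := le_add_of_nonneg_left (Nat.cast_nonneg n)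
  set G : Finset (Fin s → Fin (n + 1) → ℕ) :=
    Fintype.piFinset fun _ => Fintype.piFinset fun _ => range (⌊|B| / h⌋₊ + 1)
  obtain ⟨T, hT, hcover⟩ := exists_grid n (|B| + s * N * |B|) (half_pos hγ)
  refine ⟨(T ×ˢ G).image fun t => (fun i => t.1.1 i + (∑ l, ∑ i, h * (t.2 l i : ℕ)) / N,
    fun l i => h * (t.2 l i : ℕ), t.1.2), fun t ht => ?_, fun e f he hf hsum => ?_⟩
  · obtain ⟨t', ht', rfl⟩ := mem_image.1 ht
    obtain ⟨h1, h2⟩ := hT _ (mem_product.1 ht').1
    refine ⟨fun l i => by positivity, ?_, h2⟩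
    simp only [sum_add_distrib, h1, sum_const, card_univ, Fintype.card_fin, nsmul_eq_mul, hN_def]
    push_cast
    field_simp
    ring
  set F : Fin s → Fin (n + 1) → ℕ := fun l i => ⌊f l i / h⌋₊ with hF_def
  have hF1 : ∀ l i, h * F l i ≤ f l i := fun l i => by
    have := Nat.floor_le (div_nonneg (hf l i).1 hh.le)
    rwa [le_div_iff₀ hh, mul_comm] at this
  have hF2 : ∀ l i, f l i ≤ h * F l i + h := fun l i => by
    have := (Nat.lt_floor_add_one (f l i / h)).le
    rw [div_le_iff₀ hh] at this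
    linarith
  have hFG : F ∈ G := Fintype.mem_piFinset.2 fun l => Fintype.mem_piFinset.2 fun i =>
    mem_range.2 (Nat.lt_succ_of_le
      (Nat.floor_le_floor (div_le_div_of_nonneg_right ((hf l i).2.trans (le_abs_self B)) hh.le)))
  set S := ∑ l, ∑ i, h * (F l i : ℕ) with hS_def
  have hS0 : 0 ≤ S := sum_nonneg fun _ _ => sum_nonneg fun _ _ => by positivity
  have hS1 : ∑ l, ∑ i, f l i ≤ S + s * N * h := by
    refine (sum_le_sum fun l _ => sum_le_sum fun i _ => hF2 l i).trans_eq ?_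
    simp only [sum_add_distrib, sum_const, card_univ, Fintype.card_fin, nsmul_eq_mul, hN_def, S]
    push_cast
    ring
  have hS2 : S ≤ s * N * |B| := by
    refine (sum_le_sum fun l _ => sum_le_sum fun i _ =>
      (hF1 l i).trans ((hf l i).2.trans (le_abs_self B))).trans_eq ?_
    simp only [sum_const, card_univ, Fintype.card_fin, nsmul_eq_mul, hN_def]
    push_cast
    ring
  have hsN : s * N * h ≤ γ / 2 := by
    rw [hh_def, hN_def, mul_div_assoc', div_le_iff₀ (by positivity)]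
    linarith [show γ / 2 * (2 * ((s : ℝ) * ((n : ℝ) + 1) + 1)) =
      (s : ℝ) * ((n : ℝ) + 1) * γ + γ by ring]
  have hSN : S / N ≤ s * N * |B| := (div_le_self hS0 hN).trans hS2
  obtain ⟨t, ht, hte⟩ := hcover (fun i => e i - S / N) (fun i => by
    refine (abs_sub _ _).trans (add_le_add ((he i).trans (le_abs_self B)) ?_)
    rwa [abs_of_nonneg (div_nonneg hS0 (zero_le_one.trans hN))]) (by
    have h1 : ((n + 1 : ℕ) : ℝ) * (S / N) = S := by
      rw [hN_def]
      push_cast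
      field_simp
    rw [sum_sub_distrib, sum_const, card_univ, Fintype.card_fin, nsmul_eq_mul, h1]
    linarith)
  exact ⟨_, mem_image_of_mem _ (mk_mem_product ht hFG), fun i => by linarith [hte i], hF1⟩

/-- **The theorem on the next to last minimum with exponents in a bounded range.** -/
theorem finite_penultimate_range_local (hn : 1 ≤ n) {s : ℕ} (Pl : LocalPlaces s (n + 1))
    (L : Matrix (Fin (n + 1)) (Fin (n + 1)) ℝ) (hL : L.det ≠ 0)
    (halg : ∀ i j, IsAlgebraic ℚ (L i j)) (B : ℝ) {γ : ℝ} (hγ : 0 < γ) :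
    ∃ (V : Finset (Fin (n + 1) → ℤ)) (Q₀ : ℝ), ∀ Q, Q₀ ≤ Q → ∀ g : Fin n → Fin (n + 1) → ℤ,
      LinearIndependent ℝ (castVec ∘ g) →
      ∀ (e : Fin (n + 1) → ℝ) (f : Fin s → Fin (n + 1) → ℝ),
        (∀ i, |e i| ≤ B) → (∀ l i, 0 ≤ f l i ∧ f l i ≤ B) →
        ∑ i, e i ≤ (∑ l, ∑ i, f l i) - γ → (∀ j i, |∑ k, L i k * (g j k : ℝ)| ≤ Q ^ e i) →
        (∀ j, Pl.Divides (Pl.minExp f Q) (g j)) →
          ∃ v ∈ V, v ≠ 0 ∧ ∀ j, v ⬝ᵥ g j = 0 := by
  classical
  obtain ⟨T, hT, hcover⟩ := exists_grid_places n s B hγ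
  choose V Q₀ hV using fun t : T =>
    finite_penultimate_local hn Pl L hL halg t.1.1 t.1.2.1 (hT _ t.2).1 (hT _ t.2).2.1
      (hT _ t.2).2.2
  refine ⟨univ.biUnion V, max 1 (1 + ∑ t, |Q₀ t|), fun Q hQ g hg e f he hf hsum hb hd => ?_⟩
  obtain ⟨t, ht, hte, htf⟩ := hcover e f he hf hsum
  have hQ1 : 1 ≤ Q := (le_max_left _ _).trans hQ
  have h1 : |Q₀ ⟨t, ht⟩| ≤ ∑ t, |Q₀ t| :=
    single_le_sum (f := fun t => |Q₀ t|) (fun _ _ => abs_nonneg _) (mem_univ _)
  obtain ⟨v, hv, hv0, hvg⟩ := hV ⟨t, ht⟩ Q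
    (by linarith [le_abs_self (Q₀ ⟨t, ht⟩), (le_max_right _ _).trans hQ])
    g (linearIndependent_rat_of_real hg)
    (fun j i => (hb j i).trans (Real.rpow_le_rpow_of_exponent_le hQ1 (hte i)))
    (fun j => LocalPlaces.Divides.mono (P := Pl) (hd j) fun l i => Pl.minExp_le
      ((mul_le_mul_of_nonneg_right (htf l i) (Real.log_nonneg hQ1)).trans (Pl.le_minExp f Q l i)))
  exact ⟨v, mem_biUnion.2 ⟨_, mem_univ _, hv⟩, hv0, hvg⟩

end FA.Subspace

end
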