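import Fermat.Agent.Subspace.Compound
import Fermat.Agent.Subspace.Minima
import Fermat.Agent.Subspace.Rounding
import Fermat.Agent.Subspace.Places

/-!
# The parametric subspace theorem

A point at which all forms are small lies in the span of the minima before a gap. The compound
forms bring the gap before the last minimum, Davenport's lemma equalises the others, and the
theorem on the next to last minimum leaves finitely many possibilities for this span. The integer
points are those of the lattice of the divisibility conditions at finitely many places.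
-/

set_option autoImplicit false
set_option linter.style.haveILetI false

noncomputable section

namespace FA.Subspace

open Finset Matrix FA.Perfect

variable {n : ℕ}

/-- The forms divided by their scales. -/
def scaled {m : ℕ} (L : Matrix (Fin m) (Fin m) ℝ) (s : Fin m → ℝ) : Matrix (Fin m) (Fin m) ℝ :=
  diagonal s * L

theorem scaled_mulVec {m : ℕ} (L : Matrix (Fin m) (Fin m) ℝ) (s x : Fin m → ℝ) (i : Fin m) :
    (scaled L s *ᵥ x) i = s i * (L *ᵥ x) i := by
  rw [scaled, ← mulVec_mulVec, mulVec_diagonal]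

/-- A non-zero integer point is not too short. -/
theorem one_le_mul_size {L : Matrix (Fin (n + 1)) (Fin (n + 1)) ℝ} (hL : L.det ≠ 0)
    {s : Fin (n + 1) → ℝ} {S : ℝ} (hs : ∀ i, 0 < s i) (hsS : ∀ i, (s i)⁻¹ ≤ S)
    {y : Fin (n + 1) → ℤ} (hy : y ≠ 0) :
    1 ≤ (∑ k, ∑ i, |L⁻¹ k i|) * S * size (scaled L s) y := by
  have hS : 0 ≤ S := (inv_nonneg.2 (hs 0).le).trans (hsS 0)
  obtain ⟨k, hk⟩ := Function.ne_iff.1 hy
  have h1 : (1 : ℝ) ≤ |(y k : ℝ)| := by exact_mod_cast Int.one_le_abs hk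
  refine h1.trans ?_
  have h2 : castVec y = L⁻¹ *ᵥ (L *ᵥ castVec y) := by
    rw [mulVec_mulVec, nonsing_inv_mul _ (isUnit_iff_ne_zero.2 hL), one_mulVec]
  have h3 : ∀ i, |(L *ᵥ castVec y) i| ≤ S * size (scaled L s) y := by
    intro i
    have h := abs_le_size (scaled L s) y i
    rw [scaled_mulVec, abs_mul, abs_of_pos (hs i)] at h
    calc |(L *ᵥ castVec y) i| = (s i)⁻¹ * (s i * |(L *ᵥ castVec y) i|) := by
          rw [← mul_assoc, inv_mul_cancel₀ (hs i).ne', one_mul]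
      _ ≤ S * size (scaled L s) y := mul_le_mul (hsS i) h
          (mul_nonneg (hs i).le (abs_nonneg _)) hS
  rw [show (y k : ℝ) = ∑ i, L⁻¹ k i * (L *ᵥ castVec y) i from congrFun h2 k]
  refine (abs_sum_le_sum_abs _ _).trans ?_
  rw [mul_assoc]
  refine (sum_le_sum (g := fun i => |L⁻¹ k i| * (S * size (scaled L s) y)) fun i _ => ?_).trans ?_
  · rw [abs_mul]
    exact mul_le_mul_of_nonneg_left (h3 i) (abs_nonneg _)
  · rw [← sum_mul]
    exact mul_le_mul_of_nonneg_right (single_le_sum (f := fun k => ∑ i, |L⁻¹ k i|)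
      (fun _ _ => sum_nonneg fun _ _ => abs_nonneg _) (mem_univ k))
      (mul_nonneg hS (size_nonneg _ _))

/-- The determinant of vectors bounded by numbers. -/
theorem abs_det_le_prod {p : ℕ} {A : Matrix (Fin p) (Fin p) ℝ} {b : Fin p → ℝ}
    (h : ∀ i j, |A i j| ≤ b i) : |A.det| ≤ p.factorial * ∏ i, b i := by
  rw [← det_transpose, det_apply]
  refine (abs_sum_le_sum_abs _ _).trans ((sum_le_card_nsmul _ _ (∏ i, b i) fun σ _ => ?_).trans_eq
    (by simp [Fintype.card_perm]))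
  rw [show |Equiv.Perm.sign σ • ∏ q, Aᵀ (σ q) q| = |∏ q, A q (σ q)| by
    rcases Int.units_eq_one_or (Equiv.Perm.sign σ) with h | h <;> simp [h, transpose_apply],
    abs_prod]
  exact prod_le_prod (fun i _ => abs_nonneg _) fun i _ => h i (σ i)

/-- The size of a product of `p` vectors in the scaled compound forms. -/
theorem size_wedge_le {p q : ℕ} (e : Fin (q + 1) ≃ (Fin p ↪o Fin (n + 1)))
    (L : Matrix (Fin (n + 1)) (Fin (n + 1)) ℝ) (s : Fin (n + 1) → ℝ)
    (u : Fin p → Fin (n + 1) → ℤ) :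
    size (scaled (compound e L) fun σ => ∏ j, s (e σ j)) (wedge e u) ≤
      ((q + 1) * p.factorial) * ∏ i, size (scaled L s) (u i) := by
  rw [mul_assoc]
  refine size_le fun σ => ?_
  have hc : castVec (wedge e u) = wedge e fun i => castVec (u i) :=
    funext fun σ => map_wedge (Int.castRingHom ℝ) e u σ
  rw [scaled_mulVec, hc, compound_mulVec_wedge, wedge, ← det_mul_row]
  refine abs_det_le_prod fun i j => ?_
  simp only [Matrix.of_apply]
  rw [← scaled_mulVec]
  exact abs_le_size _ _ _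

theorem monotone_first_le {k p : ℕ} (hn : n + 1 = (k + 1) + (p + 1))
    (τ : Fin (p + 1) ↪o Fin (n + 1)) (i : Fin (p + 1)) : (τ i : ℕ) ≤ k + 1 + i := by
  have h := card_le_card_of_injOn (s := Finset.Ioi i) (t := Finset.Ioi (τ i)) τ
    (fun x hx => by simpa using hx) τ.injective.injOn
  rw [Fin.card_Ioi, Fin.card_Ioi] at h
  have := i.isLt
  have := (τ i).isLt
  omega

theorem le_monotone_first {p : ℕ} (τ : Fin (p + 1) ↪o Fin (n + 1)) (i : Fin (p + 1)) :
    (τ 0 : ℕ) + i ≤ τ i := by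
  have h := card_le_card_of_injOn (s := Finset.Ico 0 i) (t := Finset.Ico (τ 0) (τ i)) τ
    (fun x hx => by simpa using hx) τ.injective.injOn
  rw [Fin.card_Ico, Fin.card_Ico] at h
  have h2 : (τ 0 : ℕ) ≤ τ i := Fin.le_def.1 (τ.monotone (Fin.zero_le i))
  simp at h
  omega

theorem castVec_mulVec {m : ℕ} (T : Matrix (Fin m) (Fin m) ℤ) (y : Fin m → ℤ) :
    castVec (T *ᵥ y) = T.map (Int.castRingHom ℝ) *ᵥ castVec y :=
  funext fun i => RingHom.map_mulVec (Int.castRingHom ℝ) T y i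

/-- The size in forms composed with an integer matrix. -/
theorem size_mul_map {m : ℕ} (M : Matrix (Fin (m + 1)) (Fin (m + 1)) ℝ)
    (T : Matrix (Fin (m + 1)) (Fin (m + 1)) ℤ) (y : Fin (m + 1) → ℤ) :
    size (M * T.map (Int.castRingHom ℝ)) y = size M (T *ᵥ y) := by
  simp only [size, castVec_mulVec, mulVec_mulVec]

theorem abs_det_map {m : ℕ} (T : Matrix (Fin m) (Fin m) ℤ) :
    |(T.map (Int.castRingHom ℝ)).det| = (T.det.natAbs : ℝ) := by
  rw [← RingHom.mapMatrix_apply, ← RingHom.map_det, Nat.cast_natAbs, Int.cast_abs]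
  rfl

theorem linearIndependent_mulVec {ι : Type*} {m : ℕ} {T : Matrix (Fin m) (Fin m) ℤ}
    (hT : T.det ≠ 0) {y : ι → Fin m → ℤ} (hy : LinearIndependent ℝ (castVec ∘ y)) :
    LinearIndependent ℝ (castVec ∘ fun j => T *ᵥ y j) := by
  have h : IsUnit (T.map (Int.castRingHom ℝ)).det := by
    rw [← RingHom.mapMatrix_apply, ← RingHom.map_det, isUnit_iff_ne_zero]
    exact Int.cast_ne_zero.2 hT
  rw [show (castVec ∘ fun j => T *ᵥ y j) =
    (T.map (Int.castRingHom ℝ)).mulVecLin ∘ (castVec ∘ y) from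
      funext fun j => castVec_mulVec T (y j)]
  exact hy.map' _ (LinearMap.ker_eq_bot.2 (FA.Reduction.mulVec_injective_of_isUnit_det h))

/-- The product of the least powers of size `Q ^ f l i`. -/
theorem vol_minExp_bounds {s N : ℕ} (Pl : LocalPlaces s N) {f : Fin s → Fin N → ℝ}
    (hf : ∀ l i, 0 ≤ f l i) {Q : ℝ} (hQ : 1 ≤ Q) :
    Q ^ (∑ l, ∑ i, f l i) ≤ Pl.vol (Pl.minExp f Q) ∧
      (Pl.vol (Pl.minExp f Q) : ℝ) ≤
        Real.exp (∑ l, ∑ _i : Fin N, Real.log (Pl.base l : ℝ)) * Q ^ (∑ l, ∑ i, f l i) := by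
  rw [← Real.exp_log (Nat.cast_pos.2 (Pl.vol_pos (Pl.minExp f Q)) : (0 : ℝ) < _),
    Real.rpow_def_of_pos (zero_lt_one.trans_le hQ), ← Real.exp_add, Real.exp_le_exp,
    Real.exp_le_exp, Pl.log_vol]
  simp only [mul_sum, ← sum_add_distrib]
  refine ⟨sum_le_sum fun l _ => sum_le_sum fun i _ => ?_,
    sum_le_sum fun l _ => sum_le_sum fun i _ => ?_⟩
  · rw [mul_comm]
    exact Pl.le_minExp f Q l i
  · rw [add_comm, mul_comm (Real.log Q)]
    exact Pl.minExp_le_add hf hQ l i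

/-- The determinant of scaled forms on the lattice of the divisibility conditions. -/
theorem det_scaled_lattice {m s : ℕ} (Pl : LocalPlaces s m) {f : Fin s → Fin m → ℝ}
    (hf : ∀ l i, 0 ≤ f l i) {Q : ℝ} (hQ : 1 ≤ Q) (L : Matrix (Fin m) (Fin m) ℝ)
    {t : Fin m → ℝ} (ht : ∏ i, t i = Q ^ (-∑ l, ∑ i, f l i))
    {T : Matrix (Fin m) (Fin m) ℤ} (hT : T.det.natAbs = Pl.vol (Pl.minExp f Q)) :
    |L.det| ≤ |(scaled L t * T.map (Int.castRingHom ℝ)).det| ∧
      |(scaled L t * T.map (Int.castRingHom ℝ)).det| ≤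
        |L.det| * Real.exp (∑ l, ∑ _i : Fin m, Real.log (Pl.base l : ℝ)) := by
  have hQ0 : 0 < Q := zero_lt_one.trans_le hQ
  have hP : (0 : ℝ) < Q ^ (∑ l, ∑ i, f l i) := Real.rpow_pos_of_pos hQ0 _
  obtain ⟨h1, h2⟩ := vol_minExp_bounds Pl hf hQ
  rw [det_mul, scaled, det_mul, det_diagonal, ht, abs_mul, abs_mul, abs_det_map, hT,
    Real.rpow_neg hQ0.le, abs_inv, abs_of_pos hP, mul_comm _ |L.det|, mul_assoc, inv_mul_eq_div]
  exact ⟨le_mul_of_one_le_right (abs_nonneg _) ((one_le_div hP).2 h1),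
    mul_le_mul_of_nonneg_left ((div_le_iff₀ hP).2 h2) (abs_nonneg _)⟩

/-- The normal vector of the span of the minima before a gap from that of their products. -/
theorem exists_normal {k p C : ℕ} (e : Fin C ≃ (Fin (p + 1) ↪o Fin (n + 1))) (τ₀ : Fin C)
    (hτ₀ : ∀ i, (e τ₀ i : ℕ) = k + 1 + i) {v : Fin C → ℤ} (hv : v ≠ 0) :
    ∃ nv : Fin (n + 1) → ℤ, nv ≠ 0 ∧ ∀ w : Fin (n + 1) → Fin (n + 1) → ℤ,
      LinearIndependent ℝ (castVec ∘ w) →
      (∀ τ, τ ≠ τ₀ → v ⬝ᵥ wedge e (fun i => w (e τ i)) = 0) → ∀ x : Fin (n + 1) → ℤ,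
        castVec x ∈ Submodule.span ℝ ((castVec ∘ w) '' {l | (l : ℕ) < k + 1}) → nv ⬝ᵥ x = 0 := by
  classical
  obtain ⟨τ₁, hτ₁⟩ := Function.ne_iff.1 hv
  set u : Fin (p + 1) → Fin (n + 1) → ℤ := fun i => Pi.single (e τ₁ i) 1 with hu
  set nv : Fin (n + 1) → ℤ :=
    fun l => v ⬝ᵥ wedge e (Function.update u 0 (Pi.single l 1)) with hnv
  have hcast : ∀ (l : Fin (n + 1)) (i : Fin (p + 1)), castVec (Function.update u 0
      (Pi.single l 1) i) = Function.update (fun i => castVec (u i)) 0 (Pi.single l 1) i := by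
    intro l i
    funext m
    by_cases hi : i = 0
    · subst hi
      simp only [Function.update_self, castVec]
      rcases eq_or_ne m l with rfl | h <;> simp [*]
    · simp [hi, castVec]
  have hdot : ∀ (a : Fin (p + 1) → Fin (n + 1) → ℤ),
      ((v ⬝ᵥ wedge e a : ℤ) : ℝ) = castVec v ⬝ᵥ wedge e fun i => castVec (a i) := fun a => by
    simp only [dotProduct, Int.cast_sum, Int.cast_mul]
    exact sum_congr rfl fun σ _ => congrArg _ (map_wedge (Int.castRingHom ℝ) e a σ)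
  refine ⟨nv, fun h => hτ₁ ?_, fun w hw hvw x hx => ?_⟩
  · have h1 : nv (e τ₁ 0) = 0 := congrFun h _
    simp only [hnv] at h1
    rw [show Function.update u 0 (Pi.single (e τ₁ 0) 1) = u from Function.update_eq_self 0 u] at h1
    have h2 := hdot u
    have hu' : (fun i => castVec (u i)) = fun i => Pi.single (e τ₁ i) (1 : ℝ) := by
      funext i m
      rcases eq_or_ne m (e τ₁ i) with rfl | h <;> simp [castVec, *]
    rw [h1, hu', wedge_stdVec, dotProduct_single, mul_one] at h2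
    exact Int.cast_eq_zero.1 (h2.symm.trans Int.cast_zero)
  · have h : ((nv ⬝ᵥ x : ℤ) : ℝ) = 0 := by
      have h1 : ((nv ⬝ᵥ x : ℤ) : ℝ) = ∑ l, castVec x l *
          (castVec v ⬝ᵥ wedge e (Function.update (fun i => castVec (u i)) 0 (Pi.single l 1))) := by
        have h2 : ∀ l, (nv l : ℝ) = castVec v ⬝ᵥ
            wedge e (Function.update (fun i => castVec (u i)) 0 (Pi.single l 1)) := fun l => by
          simp only [hnv, hdot, hcast]
        simp only [← h2]
        simp only [dotProduct, Int.cast_sum, Int.cast_mul, castVec]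
        exact sum_congr rfl fun l _ => mul_comm _ _
      rw [h1, sum_mul_dot_wedge]
      refine dot_wedge_eq_zero e hw τ₀ (fun τ hτ => ?_) 0 ?_
      · show castVec v ⬝ᵥ wedge e (fun i => castVec (w (e τ i))) = 0
        rw [← hdot, hvw τ hτ, Int.cast_zero]
      · rw [Function.update_self]
        refine Submodule.span_mono ?_ hx
        rintro _ ⟨l, hl, rfl⟩
        refine ⟨l, fun j hjl => ?_, rfl⟩
        have := hτ₀ j
        rw [hjl] at this
        have hl' : (l : ℕ) < k + 1 := hl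
        omega
    exact_mod_cast h

/-- **The span of the minima before a gap.** -/
theorem finite_gap_local {sP : ℕ} (Pl : LocalPlaces sP (n + 1))
    (L : Matrix (Fin (n + 1)) (Fin (n + 1)) ℝ) (hL : L.det ≠ 0)
    (halg : ∀ i j, IsAlgebraic ℚ (L i j)) (c : Fin (n + 1) → ℝ) (f : Fin sP → Fin (n + 1) → ℝ)
    (hf : ∀ l i, 0 ≤ f l i) (hc : ∑ i, c i = ∑ l, ∑ i, f l i) {γ : ℝ}
    (hγ : 0 < γ) {K₀ : ℝ} (hK₀0 : 0 < K₀) {k p : ℕ} (hn : n + 1 = (k + 1) + (p + 1)) :
    ∃ (V : Finset (Fin (n + 1) → ℤ)) (Q₀ : ℝ), ∀ Q, Q₀ ≤ Q →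
      ∀ w : Fin (n + 1) → Fin (n + 1) → ℤ, LinearIndependent ℝ (castVec ∘ w) →
        Monotone (fun l => size (scaled L fun i => Q ^ (-c i)) (w l)) →
        (∀ l, 0 < size (scaled L fun i => Q ^ (-c i)) (w l)) →
        (∀ l, Pl.Divides (Pl.minExp f Q) (w l)) →
        ∏ j, size (scaled L fun i => Q ^ (-c i)) (w j) ≤ K₀ →
        size (scaled L fun i => Q ^ (-c i)) (w ⟨k, by omega⟩) * Q ^ γ ≤
          size (scaled L fun i => Q ^ (-c i)) (w ⟨k + 1, by omega⟩) →
        ∃ v ∈ V, v ≠ 0 ∧ ∀ x : Fin (n + 1) → ℤ,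
          castVec x ∈ Submodule.span ℝ ((castVec ∘ w) '' {l | (l : ℕ) < k + 1}) →
            v ⬝ᵥ x = 0 := by
  classical
  -- the indices of the products
  obtain ⟨q, hq⟩ : ∃ q, Fintype.card (Set.powersetCard (Fin (n + 1)) (p + 1)) = q + 1 + 1 := by
    haveI := Set.powersetCard.nontrivial' (α := Fin (n + 1)) (n := p + 1) (by omega)
      (by rw [Nat.card_eq_fintype_card, Fintype.card_fin]; omega)
    have h := Fintype.one_lt_card (α := Set.powersetCard (Fin (n + 1)) (p + 1))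
    exact ⟨Fintype.card (Set.powersetCard (Fin (n + 1)) (p + 1)) - 2, by omega⟩
  set e : Fin (q + 1 + 1) ≃ (Fin (p + 1) ↪o Fin (n + 1)) :=
    (Fintype.equivFinOfCardEq hq).symm.trans Set.powersetCard.ofFinEmbEquiv.symm
  set τ₀ : Fin (q + 1 + 1) := e.symm (OrderEmbedding.ofStrictMono
    (fun i : Fin (p + 1) => (⟨k + 1 + i, by omega⟩ : Fin (n + 1)))
    fun i j hij => by simp only [Fin.mk_lt_mk]; omega)
  have hτ₀ : ∀ i, (e τ₀ i : ℕ) = k + 1 + i := fun i => by simp [τ₀]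
  have hfirst : ∀ τ, τ ≠ τ₀ → (e τ 0 : ℕ) ≤ k := by
    intro τ hτ
    by_contra hlt
    refine hτ (e.injective (DFunLike.ext _ _ fun i => Fin.ext ?_))
    have := monotone_first_le hn (e τ) i
    have := le_monotone_first (e τ) i
    rw [hτ₀]
    omega
  obtain ⟨mult, hmult⟩ := exists_multiplicity e
  set L' := compound e L with hL'_def
  have hL' : L'.det ≠ 0 := det_compound_ne_zero e hL
  obtain ⟨Kd, hKd1, hKd⟩ := exists_equalized q
  -- the places on the products
  set Pl' := Pl.compound e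
  set f' : Fin sP → Fin (q + 1 + 1) → ℝ := fun l σ => ∑ j, f l (e σ j) with hf'_def
  have hf' : ∀ l σ, 0 ≤ f' l σ := fun l σ => sum_nonneg fun j _ => hf l _
  have hmsum : ∀ a : Fin (n + 1) → ℝ, ∑ σ, ∑ j, a (e σ j) = mult * ∑ i, a i := fun a => by
    refine Real.exp_injective ?_
    rw [Real.exp_sum, Real.exp_nat_mul, Real.exp_sum, ← hmult fun i => Real.exp (a i)]
    exact prod_congr rfl fun σ _ => Real.exp_sum _ _
  have hF' : ∑ l, ∑ σ, f' l σ = mult * ∑ l, ∑ i, f l i := by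
    simp only [hf'_def, hmsum, mul_sum]
  set Kv := Real.exp (∑ l, ∑ _σ : Fin (q + 1 + 1), Real.log (Pl'.base l : ℝ))
  have hKv : 0 < Kv := Real.exp_pos _
  -- constants
  set Kp : ℝ := ((q + 1 : ℕ) + 1) * (p + 1).factorial with hKp
  set c₀ := |L'.det| / (Kp ^ (q + 1) * K₀ ^ mult) with hc₀_def
  have hKp0 : 0 < Kp := by positivity
  have hc₀ : 0 < c₀ := div_pos (abs_pos.2 hL') (by positivity)
  set bc := ((p : ℝ) + 1) * ∑ i, |c i| with hbc
  have hbc0 : 0 ≤ bc := by positivity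
  set KL := ∑ σ, ∑ τ, |L'⁻¹ σ τ| with hKL
  set K₂ := Kd * (minimaConst (q + 1) * (|L'.det| * Kv)) with hK₂
  set K₅ := K₂ * (Kp / c₀) with hK₅
  set KE := max 1 (max KL (K₂ * (max 1 KL) ^ (q + 1)))
  have hKE : 1 ≤ KE := le_max_left _ _
  set FF := ∑ l, ∑ i, f l i with hFF
  have hFF0 : 0 ≤ FF := sum_nonneg fun l _ => sum_nonneg fun i _ => hf l i
  set B := bc + Real.log KE + (q + 1) * bc + bc + (p + 1) * FF
  obtain ⟨V', Q₁, hV'⟩ := finite_penultimate_range_local (n := q + 1) (Nat.le_add_left 1 q) Pl'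
    L' hL' (isAlgebraic_compound e halg) B (half_pos hγ)
  choose nv hnv0 hnv using fun v : {v : Fin (q + 1 + 1) → ℤ // v ≠ 0} =>
    exists_normal (k := k) e τ₀ hτ₀ v.2
  set nv' : (Fin (q + 1 + 1) → ℤ) → Fin (n + 1) → ℤ :=
    fun v => if h : v = 0 then 0 else nv ⟨v, h⟩
  refine ⟨V'.image nv', max (max Q₁ (Real.exp 1))
    (max (Real.exp (2 * Real.log (max 1 K₅) / γ)) ((1 + Kd * Kp / c₀ + Kp / c₀) ^ γ⁻¹)),
    fun Q hQ w hw hwmono hwpos hwd hprod hgap => ?_⟩
  have hQe : Real.exp 1 ≤ Q := (le_max_right _ _).trans ((le_max_left _ _).trans hQ)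
  have hQ1 : 1 ≤ Q := (Real.one_le_exp zero_le_one).trans hQe
  have hQ0 : 0 < Q := zero_lt_one.trans_le hQ1
  have hlogQ : 1 ≤ Real.log Q := (Real.le_log_iff_exp_le hQ0).2 hQe
  set s := fun i => Q ^ (-c i) with hs_def
  have hs : ∀ i, 0 < s i := fun i => Real.rpow_pos_of_pos hQ0 _
  have hsprod : ∏ i, s i = Q ^ (-FF) := by
    simp only [hs_def]
    rw [← Real.rpow_sum_of_pos hQ0, sum_neg_distrib, hc]
  set s' : Fin (q + 1 + 1) → ℝ := fun σ => ∏ j, s (e σ j) with hs'_def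
  have hs' : ∀ σ, 0 < s' σ := fun σ => prod_pos fun j _ => hs _
  have hs'prod : ∏ σ, s' σ = Q ^ (-∑ l, ∑ σ, f' l σ) := by
    rw [hmult, hsprod, ← Real.rpow_mul_natCast hQ0.le, hF', neg_mul, mul_comm]
  have hlogs : ∀ σ, |Real.log (s' σ)| ≤ bc * Real.log Q := by
    intro σ
    simp only [hs'_def, hs_def]
    rw [← Real.rpow_sum_of_pos hQ0, Real.log_rpow hQ0, abs_mul,
      abs_of_pos (show (0 : ℝ) < Real.log Q by linarith)]
    refine mul_le_mul_of_nonneg_right ((abs_sum_le_sum_abs _ _).trans ?_)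
      (show (0 : ℝ) ≤ Real.log Q by linarith)
    refine (sum_le_card_nsmul _ _ (∑ i, |c i|) fun j _ => ?_).trans_eq (by simp [hbc])
    rw [abs_neg]
    exact single_le_sum (f := fun i => |c i|) (fun _ _ => abs_nonneg _) (mem_univ _)
  set M := scaled L s with hM
  -- the lattice of the products
  obtain ⟨T', hT'det, hT'div, hT'mem⟩ := Pl'.exists_basis (Pl'.minExp f' Q)
  have hT'0 : T'.det ≠ 0 := fun h => (Pl'.vol_pos (Pl'.minExp f' Q)).ne'
    (by rw [← hT'det, h, Int.natAbs_zero])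
  set M' := scaled L' s' * T'.map (Int.castRingHom ℝ) with hM'
  obtain ⟨hdetlow, hdethigh⟩ := det_scaled_lattice Pl' hf' hQ1 L' hs'prod hT'det
  have hdetM' : M'.det ≠ 0 := fun h => by
    rw [← hM', h, abs_zero] at hdetlow
    exact hL' (abs_nonpos_iff.1 hdetlow)
  obtain ⟨z, hz, hzdet', hzprod⟩ := exists_minimal (M := M') hdetM'
  have hzdet := hdetlow.trans hzdet'
  replace hzprod := hzprod.trans (mul_le_mul_of_nonneg_left hdethigh
    (zero_le_one.trans (one_le_minimaConst _)))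
  -- the products of the minima
  set lam := fun l => size M (w l) with hlam
  have hlam0 : ∀ l, 0 < lam l := hwpos
  set Λ : Fin (q + 1 + 1) → ℝ := fun τ => ∏ i, lam (e τ i) with hΛ
  have hΛ0 : ∀ τ, 0 < Λ τ := fun τ => prod_pos fun i _ => hlam0 _
  have hΛgap : ∀ τ, τ ≠ τ₀ → Λ τ * Q ^ γ ≤ Λ τ₀ := by
    intro τ hτ
    simp only [hΛ, Fin.prod_univ_succ]
    rw [mul_right_comm]
    refine mul_le_mul (le_trans ?_ (hgap.trans_eq (congrArg lam (Fin.ext (by simp [hτ₀])))))
      (prod_le_prod (fun i _ => (hlam0 _).le) fun i _ => hwmono (Fin.le_def.2 ?_))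
      (prod_nonneg fun i _ => (hlam0 _).le) (hlam0 _).le
    · exact mul_le_mul_of_nonneg_right (hwmono (Fin.le_def.2 (hfirst τ hτ))) (by positivity)
    · rw [hτ₀]
      exact monotone_first_le hn (e τ) i.succ
  set g₀ : Fin (q + 1 + 1) → Fin (q + 1 + 1) → ℤ := fun τ => wedge e fun i => w (e τ i) with hg₀
  have hgmem : ∀ τ, ∃ y, T' *ᵥ y = g₀ τ := fun τ => hT'mem _ (LocalPlaces.Divides.mono (P := Pl')
    (Pl.divides_wedge e fun i => hwd (e τ i)) fun l σ => Pl'.minExp_le (by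
      simp only [hf'_def]
      push_cast
      rw [sum_mul, sum_mul]
      exact sum_le_sum fun j _ => Pl.le_minExp f Q l _))
  choose g hg using hgmem
  have hgsize : ∀ τ, size M' (g τ) ≤ Kp * Λ τ := fun τ => by
    rw [hM', size_mul_map, hg]
    exact size_wedge_le e L s _
  have hgLI : LinearIndependent ℝ (castVec ∘ g) := by
    have h : castVec ∘ g₀ = fun τ => wedge e fun i => (castVec ∘ w) (e τ i) :=
      funext fun τ => funext fun σ => map_wedge (Int.castRingHom ℝ) e _ σ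
    refine LinearIndependent.of_comp (T'.map (Int.castRingHom ℝ)).mulVecLin ?_
    rw [show (T'.map (Int.castRingHom ℝ)).mulVecLin ∘ (castVec ∘ g) = castVec ∘ g₀ from
      funext fun τ => (castVec_mulVec T' (g τ)).symm.trans (congrArg castVec (hg τ)), h]
    exact wedge_linearIndependent e hw
  have hgLI' : LinearIndependent ℝ (castVec ∘ fun j : Fin (q + 1) => g (τ₀.succAbove j)) :=
    hgLI.comp _ Fin.succAbove_right_injective
  set lst := Fin.last (q + 1)
  set pen := (Fin.last q).castSucc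
  set ν := fun j => size M' (z j) with hν
  have hν0 : ∀ j, 0 < ν j := hz.2.2.1
  have hpen : ν pen * Q ^ γ ≤ Kp * Λ τ₀ := by
    have hb : ∀ j : Fin (q + 1), size M' (g (τ₀.succAbove j)) ≤ Kp * Λ τ₀ / Q ^ γ := fun j => by
      rw [le_div_iff₀ (by positivity)]
      refine (mul_le_mul_of_nonneg_right (hgsize _) (by positivity)).trans ?_
      rw [mul_assoc]
      exact mul_le_mul_of_nonneg_left (hΛgap _ (Fin.succAbove_ne τ₀ j)) hKp0.le
    have h := hz.size_le_of_li hgLI' (k := pen) (by simp [pen]) hb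
    rwa [le_div_iff₀ (by positivity)] at h
  have hlast : c₀ * Λ τ₀ ≤ ν lst := by
    have h1 := hz.prod_le (Nat.le_succ _) hgLI'
    have h2 : ∏ j : Fin (q + 1), size M' (g (τ₀.succAbove j)) ≤
        Kp ^ (q + 1) * (K₀ ^ mult / Λ τ₀) := by
      refine (prod_le_prod (fun j _ => size_nonneg _ _) fun j _ => hgsize _).trans ?_
      rw [prod_mul_distrib, prod_const, card_univ, Fintype.card_fin]
      refine mul_le_mul_of_nonneg_left ?_ (by positivity)
      rw [le_div_iff₀ (hΛ0 _), mul_comm, ← Fin.prod_univ_succAbove Λ τ₀, hmult]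
      exact pow_le_pow_left₀ (prod_nonneg fun l _ => (hlam0 l).le) hprod _
    have h3 : |L'.det| ≤ (Kp ^ (q + 1) * (K₀ ^ mult / Λ τ₀)) * ν lst := by
      refine hzdet.trans ?_
      rw [Fin.prod_univ_castSucc]
      exact mul_le_mul_of_nonneg_right (h1.trans h2) (hν0 lst).le
    rw [hc₀_def, div_mul_eq_mul_div, div_le_iff₀ (by positivity)]
    refine (mul_le_mul_of_nonneg_right h3 (hΛ0 τ₀).le).trans_eq ?_
    have := (hΛ0 τ₀).ne'
    field_simp
  have hQγ : 1 + Kd * Kp / c₀ + Kp / c₀ ≤ Q ^ γ := by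
    have h := Real.rpow_le_rpow (Real.rpow_nonneg (by positivity) _)
      (((le_max_right _ _).trans (le_max_right _ _)).trans hQ) hγ.le
    rwa [← Real.rpow_mul (by positivity), inv_mul_cancel₀ hγ.ne', Real.rpow_one] at h
  have hratio : ν pen * Q ^ γ ≤ Kp / c₀ * ν lst := by
    refine hpen.trans ?_
    rw [div_mul_eq_mul_div, le_div_iff₀ hc₀]
    linarith [mul_le_mul_of_nonneg_left hlast hKp0.le]
  have hgap' : Kd * ν pen < ν lst := by
    have h1 : Kd * Kp / c₀ < Q ^ γ := by linarith [div_pos hKp0 hc₀]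
    refine lt_of_mul_lt_mul_right ?_ (Real.rpow_nonneg hQ0.le γ)
    calc Kd * ν pen * Q ^ γ ≤ Kd * (Kp / c₀ * ν lst) := by
          rw [mul_assoc]; exact mul_le_mul_of_nonneg_left hratio (by linarith)
      _ = Kd * Kp / c₀ * ν lst := by ring
      _ < ν lst * Q ^ γ := by rw [mul_comm (ν lst)]; exact mul_lt_mul_of_pos_right h1 (hν0 lst)
  obtain ⟨b, y, hy, hyT, hyb, hbb, hbprod⟩ := hKd M' z hdetM' hz hzdet' hgap'
  -- the exponents
  have hb0 : ∀ i, 0 < b i := fun i => (hν0 0).trans_le (hbb i).1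
  set ex := fun σ => Real.log (b σ / s' σ) / Real.log Q with hex
  have hν0low : 1 ≤ max 1 KL * Q ^ bc * ν 0 := by
    simp only [hν, hM', size_mul_map]
    refine (one_le_mul_size hL' hs' (S := Q ^ bc) (fun σ => ?_) (fun e => ?_)).trans
      (mul_le_mul_of_nonneg_right (mul_le_mul_of_nonneg_right (le_max_right _ _) (by positivity))
        (size_nonneg _ _))
    swap
    · have h := hν0 0
      simp only [hν, hM', size_mul_map, e] at h
      simp [size, castVec, mulVec, dotProduct] at h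
    rw [← Real.log_le_log_iff (inv_pos.2 (hs' σ)) (by positivity), Real.log_inv,
      Real.log_rpow hQ0]
    exact (neg_le_abs _).trans (hlogs σ)
  have hKLpos : 0 < max 1 KL := zero_lt_one.trans_le (le_max_left _ _)
  have hlog0 : -(Real.log KE + bc * Real.log Q) ≤ Real.log (ν 0) := by
    have h := Real.log_nonneg hν0low
    rw [Real.log_mul (by positivity) (hν0 0).ne', Real.log_mul hKLpos.ne' (by positivity),
      Real.log_rpow hQ0] at h
    have h2 : Real.log (max 1 KL) ≤ Real.log KE :=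
      Real.log_le_log hKLpos (max_le hKE ((le_max_left _ _).trans (le_max_right _ _)))
    linarith
  have hbup : ∀ σ, b σ * (ν 0) ^ (q + 1) ≤ K₂ := fun σ => by
    refine (mul_le_mul_of_nonneg_right (hbb σ).2 (pow_nonneg (hν0 0).le _)).trans ?_
    rw [hK₂, mul_assoc]
    refine mul_le_mul_of_nonneg_left (le_trans ?_ hzprod) (by linarith)
    rw [Fin.prod_univ_castSucc, mul_comm]
    refine mul_le_mul_of_nonneg_right ?_ (hν0 lst).le
    refine (le_of_eq (by simp)).trans (prod_le_prod (s := univ) (f := fun _ : Fin (q + 1) => ν 0)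
      (fun _ _ => (hν0 0).le) fun j _ => hz.2.1 (Fin.zero_le _))
  have hlogb : ∀ σ, -(Real.log KE + bc * Real.log Q) ≤ Real.log (b σ) ∧
      Real.log (b σ) ≤ Real.log KE + (q + 1) * bc * Real.log Q := by
    intro σ
    refine ⟨hlog0.trans (Real.log_le_log (hν0 0) (hbb σ).1), ?_⟩
    have h1 : b σ ≤ KE * (Q ^ bc) ^ (q + 1) := by
      refine le_trans ?_ (mul_le_mul_of_nonneg_right ((le_max_right _ _).trans (le_max_right _ _))
        (by positivity))
      have h2 := mul_le_mul_of_nonneg_right (hbup σ)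
        (show 0 ≤ (max 1 KL * Q ^ bc) ^ (q + 1) by positivity)
      rw [mul_assoc K₂, ← mul_pow]
      refine le_trans ?_ h2
      rw [mul_assoc, ← mul_pow, mul_comm (ν 0)]
      exact le_mul_of_one_le_right (hb0 σ).le (one_le_pow₀ hν0low)
    refine (Real.log_le_log (hb0 σ) h1).trans_eq ?_
    rw [Real.log_mul (by positivity) (by positivity), Real.log_pow, Real.log_rpow hQ0]
    push_cast
    ring
  have hexB : ∀ σ, |ex σ| ≤ B := by
    intro σ
    simp only [hex]
    rw [Real.log_div (hb0 σ).ne' (hs' σ).ne', abs_div, abs_of_pos (by linarith : 0 < Real.log Q),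
      div_le_iff₀ (by linarith)]
    have h1 := abs_le.1 (hlogs σ)
    have h3 := mul_le_mul_of_nonneg_left hlogQ (Real.log_nonneg hKE)
    have h4 : 0 ≤ ((q : ℝ) + 1) * bc * Real.log Q := by positivity
    have h5 : 0 ≤ bc * Real.log Q := by positivity
    have h6 := hlogb σ
    simp only [B, add_mul]
    rw [abs_le]
    have h7 : 0 ≤ ((p : ℝ) + 1) * FF * Real.log Q := by positivity
    exact ⟨by linarith [h6.1, h1.2], by linarith [h6.2, h1.1]⟩
  have hfB : ∀ l σ, 0 ≤ f' l σ ∧ f' l σ ≤ B := fun l σ => ⟨hf' l σ, by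
    refine (sum_le_card_nsmul _ _ FF fun j _ => ?_).trans ?_
    · exact (single_le_sum (fun i _ => hf l i) (mem_univ _)).trans
        (single_le_sum (f := fun l => ∑ i, f l i)
          (fun l _ => sum_nonneg fun i _ => hf l i) (mem_univ l))
    · rw [card_univ, Fintype.card_fin, nsmul_eq_mul]
      push_cast
      simp only [B]
      linarith [Real.log_nonneg hKE, mul_nonneg (show (0 : ℝ) ≤ q + 1 by positivity) hbc0]⟩
  have hexsum : ∑ σ, ex σ ≤ (∑ l, ∑ σ, f' l σ) - γ / 2 := by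
    simp only [hex]
    rw [← sum_div, div_le_iff₀ (by linarith), ← Real.log_prod fun σ _ =>
      (div_pos (hb0 σ) (hs' σ)).ne', prod_div_distrib,
      Real.log_div (prod_pos fun i _ => hb0 i).ne' (prod_pos fun i _ => hs' i).ne',
      hs'prod, Real.log_rpow hQ0]
    have h1 : (∏ i, b i) * Q ^ γ ≤ K₅ := by
      refine le_of_mul_le_mul_right ?_ (hν0 lst)
      calc (∏ i, b i) * Q ^ γ * ν lst = (∏ i, b i) * ν lst * Q ^ γ := by ring
        _ ≤ Kd * (∏ j, ν j) * ν pen * Q ^ γ :=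
            mul_le_mul_of_nonneg_right hbprod (by positivity)
        _ = Kd * (∏ j, ν j) * (ν pen * Q ^ γ) := by ring
        _ ≤ Kd * (minimaConst (q + 1) * (|L'.det| * Kv)) * (Kp / c₀ * ν lst) :=
            mul_le_mul (mul_le_mul_of_nonneg_left hzprod (by linarith)) hratio
              (mul_nonneg (hν0 pen).le (by positivity))
              (mul_nonneg (by linarith) (le_trans (prod_nonneg fun j _ => (hν0 j).le) hzprod))
        _ = K₅ * ν lst := by rw [hK₅, hK₂]; ring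
    have h2 := Real.log_le_log (mul_pos (prod_pos fun i _ => hb0 i) (by positivity))
      (h1.trans (le_max_right 1 K₅))
    rw [Real.log_mul (prod_pos fun i _ => hb0 i).ne' (by positivity), Real.log_rpow hQ0] at h2
    have h3 : 2 * Real.log (max 1 K₅) / γ ≤ Real.log Q :=
      (Real.le_log_iff_exp_le hQ0).2 (((le_max_left _ _).trans (le_max_right _ _)).trans hQ)
    rw [div_le_iff₀ hγ] at h3
    linarith
  obtain ⟨v, hvV, hv0, hvy⟩ := hV' Q (((le_max_left _ _).trans (le_max_left _ _)).trans hQ)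
    (fun j => T' *ᵥ y j) (linearIndependent_mulVec hT'0 hy) ex f' hexB hfB hexsum (fun j σ => by
      have h := hyb j σ
      rw [hM', ← mulVec_mulVec, ← castVec_mulVec, scaled_mulVec, abs_mul, abs_of_pos (hs' σ),
        mul_comm, ← le_div_iff₀ (hs' σ)] at h
      refine h.trans_eq ?_
      simp only [hex]
      rw [Real.rpow_def_of_pos hQ0, mul_div_cancel₀ _ (by linarith), Real.exp_log
        (div_pos (hb0 σ) (hs' σ))]) fun j => hT'div (y j)
  -- the hyperplane
  set T := Submodule.span ℝ ((castVec ∘ z) '' {l | l < lst})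
  have hT : Submodule.span ℝ (Set.range (castVec ∘ y)) = T := by
    refine Submodule.eq_of_le_of_finrank_le
      (Submodule.span_le.2 (by rintro _ ⟨j, rfl⟩; exact hyT j)) ?_
    rw [finrank_span_eq_card hy, Fintype.card_fin]
    have e' : (castVec ∘ z) '' {l | l < lst} = ↑((Finset.Iio lst).image (castVec ∘ z)) := by
      ext a
      simp
    have e'' : T = Submodule.span ℝ ↑((Finset.Iio lst).image (castVec ∘ z)) :=
      congrArg (Submodule.span ℝ) e'
    refine (LinearEquiv.ofEq _ _ e'').finrank_eq.trans_le ?_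
    exact (finrank_span_finset_le_card _).trans (card_image_le.trans_eq (by simp [lst]))
  have hgT : ∀ τ, τ ≠ τ₀ → v ⬝ᵥ g₀ τ = 0 := by
    intro τ hτ
    have hmem : castVec (g τ) ∈ T := by
      by_contra hnot
      have h1 := hz.2.2.2 lst (g τ) hnot
      have h2 : size M' (g τ) * Q ^ γ ≤ Kp * Λ τ₀ :=
        (mul_le_mul_of_nonneg_right (hgsize τ) (by positivity)).trans (by
          rw [mul_assoc]; exact mul_le_mul_of_nonneg_left (hΛgap τ hτ) hKp0.le)
      have h3 : c₀ * Λ τ₀ * Q ^ γ ≤ Kp * Λ τ₀ :=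
        (mul_le_mul_of_nonneg_right (hlast.trans h1) (by positivity)).trans h2
      have h4 : Q ^ γ ≤ Kp / c₀ := by
        rw [le_div_iff₀ hc₀]
        refine le_of_mul_le_mul_right ?_ (hΛ0 τ₀)
        linarith
      have h5 : 0 ≤ Kd * Kp / c₀ := by positivity
      linarith
    rw [← hT] at hmem
    have h : castVec v ⬝ᵥ castVec (g₀ τ) = 0 := by
      rw [← hg, castVec_mulVec]
      refine (Submodule.span_le.2 ?_ hmem : castVec (g τ) ∈ LinearMap.ker
        ((dotProductBilin ℝ ℝ (castVec v)).comp (T'.map (Int.castRingHom ℝ)).mulVecLin))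
      rintro _ ⟨j, rfl⟩
      have := hvy j
      show castVec v ⬝ᵥ (T'.map (Int.castRingHom ℝ) *ᵥ castVec (y j)) = 0
      rw [← castVec_mulVec]
      simp only [dotProduct, castVec] at this ⊢
      exact_mod_cast this
    simp only [dotProduct, castVec] at h ⊢
    exact_mod_cast h
  refine ⟨nv' v, mem_image_of_mem nv' hvV, ?_, fun x hx => ?_⟩
  · simp only [nv', dif_neg hv0]
    exact hnv0 ⟨v, hv0⟩
  · simp only [nv', dif_neg hv0]
    exact hnv ⟨v, hv0⟩ w hw hgT x hx

/-- **The common hyperplane of the small points**, with finitely many places: the integer points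
with small forms and divisible forms at the places lie on one of finitely many rational
hyperplanes, that through the minima before a gap. -/
theorem finite_common_hyperplane_local {sP : ℕ} (Pl : LocalPlaces sP (n + 1))
    (L : Matrix (Fin (n + 1)) (Fin (n + 1)) ℝ) (hL : L.det ≠ 0)
    (halg : ∀ i j, IsAlgebraic ℚ (L i j)) (c : Fin (n + 1) → ℝ) (f : Fin sP → Fin (n + 1) → ℝ)
    (hf : ∀ l i, 0 ≤ f l i) (hc : ∑ i, c i = ∑ l, ∑ i, f l i) {η : ℝ} (hη : 0 < η) :
    ∃ (V : Finset (Fin (n + 1) → ℤ)) (Q₀ : ℝ), ∀ Q, Q₀ ≤ Q → ∃ v ∈ V, v ≠ 0 ∧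
      ∀ x : Fin (n + 1) → ℤ, (∀ i, |∑ k, L i k * (x k : ℝ)| ≤ Q ^ (c i - η)) →
        Pl.Divides (Pl.minExp f Q) x → v ⬝ᵥ x = 0 := by
  classical
  set γ := η / (2 * (n + 1)) with hγ_def
  have hγ : 0 < γ := by positivity
  set Kv := Real.exp (∑ l, ∑ _i : Fin (n + 1), Real.log (Pl.base l : ℝ))
  choose V Q₀ hV using fun k : Fin n =>
    finite_gap_local Pl L hL halg c f hf hc hγ (K₀ := minimaConst n * (|L.det| * Kv))
      (mul_pos (zero_lt_one.trans_le (one_le_minimaConst n))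
        (mul_pos (abs_pos.2 hL) (Real.exp_pos _)))
      (k := k) (p := n - k - 1) (by omega)
  set b₀ := min 1 |L.det| with hb₀
  have hb₀0 : 0 < b₀ := lt_min one_pos (abs_pos.2 hL)
  refine ⟨insert (Pi.single 0 1) (univ.biUnion V), max (max 1 (1 + ∑ k, |Q₀ k|))
    (((2 * (n + 1) : ℝ) / b₀) ^ (2 / η)), fun Q hQ => ?_⟩
  have hQ1 : 1 ≤ Q := (le_max_left _ _).trans ((le_max_left _ _).trans hQ)
  have hQ0 : 0 < Q := zero_lt_one.trans_le hQ1
  have hQk : ∀ k, Q₀ k ≤ Q := fun k => by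
    have h1 : |Q₀ k| ≤ ∑ k, |Q₀ k| :=
      single_le_sum (f := fun k => |Q₀ k|) (fun _ _ => abs_nonneg _) (mem_univ k)
    linarith [le_abs_self (Q₀ k), ((le_max_right _ _).trans ((le_max_left _ _).trans hQ) :
      1 + ∑ k, |Q₀ k| ≤ Q)]
  set s := fun i => Q ^ (-c i) with hs_def
  obtain ⟨T, hTdet, hTdiv, hTmem⟩ := Pl.exists_basis (Pl.minExp f Q)
  have hT0 : T.det ≠ 0 := fun h => (Pl.vol_pos (Pl.minExp f Q)).ne'
    (by rw [← hTdet, h, Int.natAbs_zero])
  set M := scaled L s * T.map (Int.castRingHom ℝ) with hM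
  have hsM : ∀ y, size M y = size (scaled L s) (T *ᵥ y) := size_mul_map _ T
  obtain ⟨hdlow, hdhigh⟩ := det_scaled_lattice Pl hf hQ1 L (t := s) (by
    simp only [hs_def]
    rw [← Real.rpow_sum_of_pos hQ0, sum_neg_distrib, hc]) hTdet
  obtain ⟨w, hw, hwdet', hwprod'⟩ := exists_minimal (M := M) fun h => hL (abs_nonpos_iff.1 (by
    rwa [← hM, h, abs_zero] at hdlow))
  have hwdet := hdlow.trans hwdet'
  have hwprod := hwprod'.trans (mul_le_mul_of_nonneg_left hdhigh
    (zero_le_one.trans (one_le_minimaConst _)))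
  set B := ((n : ℝ) + 1) * Q ^ (-η) with hB
  have hsize : ∀ y : Fin (n + 1) → ℤ,
      (∀ i, |∑ k, L i k * (((T *ᵥ y) k : ℤ) : ℝ)| ≤ Q ^ (c i - η)) → size M y ≤ B := fun y hx =>
    (hsM y).trans_le <| size_le fun i => by
      rw [scaled_mulVec, abs_mul, abs_of_pos (Real.rpow_pos_of_pos hQ0 _)]
      refine (mul_le_mul_of_nonneg_left (hx i) (Real.rpow_nonneg hQ0.le _)).trans_eq ?_
      rw [← Real.rpow_add hQ0]
      ring_nf
  have hQη : 2 * ((n : ℝ) + 1) / b₀ ≤ Q ^ (η / 2) := by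
    have h := Real.rpow_le_rpow (Real.rpow_nonneg (by positivity) _)
      ((le_max_right _ _).trans hQ) (half_pos hη).le
    rwa [← Real.rpow_mul (by positivity), show 2 / η * (η / 2) = 1 by field_simp,
      Real.rpow_one] at h
  rw [div_le_iff₀ hb₀0] at hQη
  have hBs : B * Q ^ (η / 2) ≤ b₀ / 2 := by
    have hP : Q ^ (-η) * Q ^ (η / 2) * Q ^ (η / 2) = 1 := by
      rw [← Real.rpow_add hQ0, ← Real.rpow_add hQ0]
      ring_nf
      exact Real.rpow_zero Q
    refine le_of_mul_le_mul_right ?_ (by positivity : (0 : ℝ) < Q ^ (η / 2))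
    rw [hB, mul_assoc, mul_assoc, ← mul_assoc (Q ^ (-η)), hP, mul_one]
    linarith
  have hQh : 1 ≤ Q ^ (η / 2) := Real.one_le_rpow hQ1 (half_pos hη).le
  have hlast : b₀ ≤ size M (w (Fin.last n)) := by
    by_contra hlt
    rw [not_le] at hlt
    have h1 : ∏ k, size M (w k) < b₀ := by
      rw [Fin.prod_univ_castSucc]
      refine lt_of_le_of_lt (mul_le_of_le_one_left (size_nonneg _ _) (prod_le_one
        (fun k _ => size_nonneg _ _) fun k _ => ?_)) hlt
      exact ((hw.2.1 (Fin.le_last _)).trans hlt.le).trans (min_le_left _ _)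
    linarith [min_le_right 1 |L.det|]
  set S := univ.filter fun l => size M (w l) ≤ B with hS
  have hmem : ∀ x, size M x ≤ B →
      castVec x ∈ Submodule.span ℝ ((castVec ∘ w) '' {l | l ∈ S}) := fun x hx => by
    set bw := basisOfLinearIndependentOfCardEqFinrank hw.1 (by simp)
    have hbw : ⇑bw = castVec ∘ w := coe_basisOfLinearIndependentOfCardEqFinrank _ _
    rcases (bw.repr (castVec x)).support.eq_empty_or_nonempty with he | hne
    · rw [show castVec x = 0 from bw.repr.map_eq_zero_iff.1 (Finsupp.support_eq_empty.1 he)]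
      exact Submodule.zero_mem _
    set J := (bw.repr (castVec x)).support.max' hne
    have hJ : size M (w J) ≤ size M x := hw.2.2.2 J x (by
      rw [← hbw, bw.mem_span_image]
      exact fun h => lt_irrefl J (h (max'_mem _ hne)))
    rw [← hbw, bw.mem_span_image]
    exact fun l hl => mem_filter.2 ⟨mem_univ l, ((hw.2.1 (le_max' _ l hl)).trans hJ).trans hx⟩
  rcases S.eq_empty_or_nonempty with he | hSne
  · refine ⟨Pi.single 0 1, mem_insert_self _ _, fun h => by simpa using congrFun h 0,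
      fun x hx hxd => ?_⟩
    obtain ⟨y, rfl⟩ := hTmem x hxd
    have h : castVec y = 0 := by simpa [he] using hmem y (hsize y hx)
    have h0 : y = 0 := funext fun i => by simpa [castVec] using congrFun h i
    rw [h0, mulVec_zero, dotProduct_zero]
  set k₀ := S.max' hSne
  have hk₀ : size M (w k₀) ≤ B := (mem_filter.1 (max'_mem S hSne)).2
  have hk₀n : (k₀ : ℕ) < n := by
    by_contra h
    have h1 : k₀ = Fin.last n := Fin.ext (by have := k₀.isLt; simp; omega)
    rw [h1] at hk₀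
    have h2 := mul_le_mul_of_nonneg_right (hlast.trans hk₀) (zero_le_one.trans hQh)
    have h3 := le_mul_of_one_le_right hb₀0.le hQh
    linarith
  obtain ⟨k, hk, hkgap⟩ : ∃ k : Fin n, (k₀ : ℕ) ≤ k ∧
      size M (w k.castSucc) * Q ^ γ ≤ size M (w k.succ) := by
    by_contra! hno
    have hstep : ∀ j, ∀ hj : (k₀ : ℕ) + j ≤ n,
        size M (w ⟨(k₀ : ℕ) + j, by omega⟩) ≤ B * (Q ^ γ) ^ j := by
      intro j
      induction j with
      | zero => intro _; rw [pow_zero, mul_one]; exact hk₀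
      | succ j ih =>
        intro hj
        have h1 := (hno ⟨(k₀ : ℕ) + j, by omega⟩ (Nat.le_add_right _ _)).le
        refine h1.trans ((mul_le_mul_of_nonneg_right (ih (by omega)) (by positivity)).trans_eq ?_)
        rw [pow_succ, mul_assoc]
    have h := hstep (n - k₀) (by omega)
    have e : (⟨(k₀ : ℕ) + (n - k₀), by omega⟩ : Fin (n + 1)) = Fin.last n :=
      Fin.ext (by simp; omega)
    rw [e] at h
    have h2 : (Q ^ γ) ^ (n - (k₀ : ℕ)) ≤ Q ^ (η / 2) := by
      rw [← Real.rpow_mul_natCast hQ0.le]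
      refine Real.rpow_le_rpow_of_exponent_le hQ1 ?_
      have h3 : ((n - (k₀ : ℕ) : ℕ) : ℝ) ≤ (n : ℝ) + 1 :=
        le_trans (Nat.cast_le.2 (Nat.sub_le _ _)) (by linarith)
      refine (mul_le_mul_of_nonneg_left h3 hγ.le).trans_eq ?_
      rw [hγ_def]
      field_simp
    have := hlast.trans (h.trans (mul_le_mul_of_nonneg_left h2
      (show (0 : ℝ) ≤ B by positivity)))
    linarith
  simp only [hsM] at hwprod hkgap
  obtain ⟨v, hv, hv0, hvx⟩ := hV k Q (hQk k) (fun l => T *ᵥ w l)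
    (linearIndependent_mulVec hT0 hw.1)
    (fun a b h => by
      show size (scaled L s) (T *ᵥ w a) ≤ size (scaled L s) (T *ᵥ w b)
      rw [← hsM, ← hsM]
      exact hw.2.1 h)
    (fun l => hsM (w l) ▸ hw.2.2.1 l) (fun l => hTdiv (w l)) hwprod hkgap
  refine ⟨v, mem_insert_of_mem (mem_biUnion.2 ⟨k, mem_univ k, hv⟩), hv0, fun x hx hxd => ?_⟩
  obtain ⟨y, rfl⟩ := hTmem x hxd
  refine hvx (T *ᵥ y) ?_
  have h := Submodule.apply_mem_span_image_of_mem_span (T.map (Int.castRingHom ℝ)).mulVecLin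
    (Submodule.span_mono (Set.image_mono fun l hl =>
      Nat.lt_succ_of_le ((Fin.le_def.1 (le_max' S l hl)).trans hk)) (hmem y (hsize y hx)))
  rw [← Set.image_comp] at h
  rw [show (castVec ∘ fun l => T *ᵥ w l) =
    (T.map (Int.castRingHom ℝ)).mulVecLin ∘ (castVec ∘ w) from
      funext fun l => castVec_mulVec T (w l), castVec_mulVec]
  exact h

/-- **The parametric subspace theorem**, with forms at finitely many places. -/
theorem finite_parametric_local {sP : ℕ} (Pl : LocalPlaces sP (n + 1))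
    (L : Matrix (Fin (n + 1)) (Fin (n + 1)) ℝ) (hL : L.det ≠ 0)
    (halg : ∀ i j, IsAlgebraic ℚ (L i j)) (c : Fin (n + 1) → ℝ) (f : Fin sP → Fin (n + 1) → ℝ)
    (hf : ∀ l i, 0 ≤ f l i) (hc : ∑ i, c i = ∑ l, ∑ i, f l i) {η : ℝ} (hη : 0 < η) :
    ∃ (V : Finset (Fin (n + 1) → ℤ)) (Q₀ : ℝ), ∀ Q, Q₀ ≤ Q → ∀ x : Fin (n + 1) → ℤ, x ≠ 0 →
      (∀ i, |∑ k, L i k * (x k : ℝ)| ≤ Q ^ (c i - η)) → Pl.Divides (Pl.minExp f Q) x →
        ∃ v ∈ V, v ≠ 0 ∧ v ⬝ᵥ x = 0 := by
  obtain ⟨V, Q₀, h⟩ := finite_common_hyperplane_local Pl L hL halg c f hf hc hη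
  refine ⟨V, Q₀, fun Q hQ x _ hx hxd => ?_⟩
  obtain ⟨v, hv, hv0, hvx⟩ := h Q hQ
  exact ⟨v, hv, hv0, hvx x hx hxd⟩

/-- **The parametric subspace theorem**, with integer forms at finitely many places. -/
theorem finite_parametric_places {sP : ℕ} (Pl : Places sP (n + 1))
    (L : Matrix (Fin (n + 1)) (Fin (n + 1)) ℝ) (hL : L.det ≠ 0)
    (halg : ∀ i j, IsAlgebraic ℚ (L i j)) (c : Fin (n + 1) → ℝ) (f : Fin sP → Fin (n + 1) → ℝ)
    (hf : ∀ l i, 0 ≤ f l i) (hc : ∑ i, c i = ∑ l, ∑ i, f l i) {η : ℝ} (hη : 0 < η) :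
    ∃ (V : Finset (Fin (n + 1) → ℤ)) (Q₀ : ℝ), ∀ Q, Q₀ ≤ Q → ∀ x : Fin (n + 1) → ℤ, x ≠ 0 →
      (∀ i, |∑ k, L i k * (x k : ℝ)| ≤ Q ^ (c i - η)) → Pl.Divides (Pl.minExp f Q) x →
        ∃ v ∈ V, v ≠ 0 ∧ v ⬝ᵥ x = 0 :=
  finite_parametric_local Pl.toLocal L hL halg c f hf hc hη

/-- **The parametric subspace theorem.** -/
theorem finite_parametric (L : Matrix (Fin (n + 1)) (Fin (n + 1)) ℝ) (hL : L.det ≠ 0)
    (halg : ∀ i j, IsAlgebraic ℚ (L i j)) (c : Fin (n + 1) → ℝ) (hc : ∑ i, c i = 0) {η : ℝ}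
    (hη : 0 < η) :
    ∃ (V : Finset (Fin (n + 1) → ℤ)) (Q₀ : ℝ), ∀ Q, Q₀ ≤ Q → ∀ x : Fin (n + 1) → ℤ, x ≠ 0 →
      (∀ i, |∑ k, L i k * (x k : ℝ)| ≤ Q ^ (c i - η)) → ∃ v ∈ V, v ≠ 0 ∧ v ⬝ᵥ x = 0 := by
  obtain ⟨V, Q₀, h⟩ := finite_parametric_places (Places.none (n + 1)) L hL halg c
    Fin.elim0 (fun l => l.elim0) (by simp [hc]) hη
  exact ⟨V, Q₀, fun Q hQ x hx0 hx => h Q hQ x hx0 hx fun l => l.elim0⟩

end FA.Subspace

end
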