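import Fermat.Agent.Subspace.Main
import Mathlib.Algebra.GCDMonoid.Finset
import Mathlib.Data.Nat.Factorization.Basic
import Mathlib.NumberTheory.Padics.PadicVal.Basic

/-!
# The unit equation in several variables over the rationals

For a vanishing sum of integers without common factor and with all prime factors in `S` the forms
omitting the largest term at infinity, and a term prime to `p` at `p`, give by the subspace theorem
one of finitely many linear relations. A relation with fewer terms makes some terms proportional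
with finitely many ratios, and induction on the number of terms gives finiteness
(van der Poorten and Schlickewei, Evertse).
-/

set_option autoImplicit false

noncomputable section

namespace FA.Subspace

open Finset Matrix FA.Perfect

/-- All prime factors of the numerator and the denominator lie in `S`. -/
def IsSUnitQ (S : Finset ℕ) (x : ℚ) : Prop :=
  x ≠ 0 ∧ ∀ p : ℕ, p.Prime → p ∉ S → padicValRat p x = 0

namespace IsSUnitQ

variable {S S' : Finset ℕ} {x y : ℚ}

theorem mono (hS : S ⊆ S') (h : IsSUnitQ S x) : IsSUnitQ S' x :=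
  ⟨h.1, fun p hp hpS => h.2 p hp fun e => hpS (hS e)⟩

theorem mul (hx : IsSUnitQ S x) (hy : IsSUnitQ S y) : IsSUnitQ S (x * y) :=
  ⟨mul_ne_zero hx.1 hy.1, fun p hp hpS => by
    haveI : Fact p.Prime := ⟨hp⟩
    rw [padicValRat.mul hx.1 hy.1, hx.2 p hp hpS, hy.2 p hp hpS, add_zero]⟩

theorem div (hx : IsSUnitQ S x) (hy : IsSUnitQ S y) : IsSUnitQ S (x / y) :=
  ⟨div_ne_zero hx.1 hy.1, fun p hp hpS => by
    haveI : Fact p.Prime := ⟨hp⟩
    rw [padicValRat.div hx.1 hy.1, hx.2 p hp hpS, hy.2 p hp hpS, sub_zero]⟩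

end IsSUnitQ

/-- The primes of a rational. -/
def primesOf (x : ℚ) : Finset ℕ := x.num.natAbs.primeFactors ∪ x.den.primeFactors

theorem isSUnitQ_of_primesOf {S : Finset ℕ} {x : ℚ} (hx : x ≠ 0) (h : primesOf x ⊆ S) :
    IsSUnitQ S x := by
  refine ⟨hx, fun p hp hpS => ?_⟩
  haveI : Fact p.Prime := ⟨hp⟩
  rw [padicValRat, padicValInt, padicValNat.eq_zero_of_not_dvd fun e => hpS (h (mem_union_left _
    (Nat.mem_primeFactors.2 ⟨hp, e, Int.natAbs_ne_zero.2 (Rat.num_ne_zero.2 hx)⟩))),
    padicValNat.eq_zero_of_not_dvd fun e => hpS (h (mem_union_right _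
      (Nat.mem_primeFactors.2 ⟨hp, e, x.den_nz⟩)))]
  simp

theorem IsSUnitQ.primesOf_subset {S : Finset ℕ} {x : ℚ} (h : IsSUnitQ S x) :
    primesOf x ⊆ S := by
  intro p hp
  by_contra hpS
  have hp' : p.Prime := by
    rcases mem_union.1 hp with h' | h' <;> exact (Nat.mem_primeFactors.1 h').1
  have hv := h.2 p hp' hpS
  rw [padicValRat, padicValInt] at hv
  haveI : Fact p.Prime := ⟨hp'⟩
  rcases mem_union.1 hp with h' | h' <;> obtain ⟨-, hd, hne⟩ := Nat.mem_primeFactors.1 h'
  · have hden : ¬p ∣ x.den := fun e => hp'.ne_one (Nat.dvd_one.1 (x.reduced ▸ Nat.dvd_gcd hd e))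
    rw [padicValNat.eq_zero_of_not_dvd hden] at hv
    have := one_le_padicValNat_of_dvd hne hd
    omega
  · have hnum : ¬p ∣ x.num.natAbs :=
      fun e => hp'.ne_one (Nat.dvd_one.1 (x.reduced ▸ Nat.dvd_gcd e hd))
    rw [padicValNat.eq_zero_of_not_dvd hnum] at hv
    have := one_le_padicValNat_of_dvd hne hd
    omega

/-- The product of the prime powers of a number supported in `S`. -/
theorem prod_pow_factorization {S : Finset ℕ} {a : ℕ} (ha : a ≠ 0) (hS : a.primeFactors ⊆ S) :
    ∏ p ∈ S, p ^ a.factorization p = a := by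
  conv_rhs => rw [← Nat.prod_factorization_pow_eq_self ha]
  exact (Finsupp.prod_of_support_subset _ (by rwa [Nat.support_factorization]) _
    (fun p _ => pow_zero p)).symm

/-- The coordinates, omitting the `k`-th, of the vector `x` completed to sum zero. -/
def omitForm (N : ℕ) (k : Fin (N + 1)) : Matrix (Fin N) (Fin N) ℤ :=
  Matrix.of fun j => Fin.lastCases (fun _ : Fin N => (-1 : ℤ)) (fun a => Pi.single a 1)
    (k.succAbove j)

theorem omitForm_mulVec {N : ℕ} (k : Fin (N + 1)) {z : Fin (N + 1) → ℤ} (hz : ∑ i, z i = 0)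
    (j : Fin N) : (omitForm N k *ᵥ (z ∘ Fin.castSucc)) j = z (k.succAbove j) := by
  simp only [mulVec, dotProduct, omitForm, Matrix.of_apply, Function.comp_apply]
  induction k.succAbove j using Fin.lastCases with
  | last =>
    simp only [Fin.lastCases_last, neg_one_mul, sum_neg_distrib]
    rw [Fin.sum_univ_castSucc] at hz
    linarith
  | cast a => simp [Pi.single_apply]

theorem isUnit_det_omitForm {N : ℕ} (k : Fin (N + 1)) : IsUnit (omitForm N k).det := by
  rw [← isUnit_iff_isUnit_det, ← mulVec_surjective_iff_isUnit]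
  intro y
  refine ⟨(Fin.insertNth (α := fun _ => ℤ) k (-∑ j, y j) y) ∘ Fin.castSucc, funext fun j => ?_⟩
  rw [omitForm_mulVec k (by rw [Fin.sum_univ_succAbove _ k]; simp), Fin.insertNth_apply_succAbove]

/-- **Finitely many relations** between the terms of vanishing sums of `S`-integers. -/
theorem exists_relations_int {N : ℕ} (hN : 2 ≤ N) {S : Finset ℕ} (hS : ∀ p ∈ S, p.Prime) :
    ∃ W : Finset (Fin (N + 1) → ℤ), (∀ w ∈ W, w ≠ 0 ∧ w (Fin.last N) = 0) ∧
      ∀ z : Fin (N + 1) → ℤ, (∀ i, z i ≠ 0) → (∀ i, (z i).natAbs.primeFactors ⊆ S) →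
        univ.gcd z = 1 → ∑ i, z i = 0 → ∃ w ∈ W, w ⬝ᵥ z = 0 := by
  classical
  obtain ⟨m, rfl⟩ : ∃ m, N = m + 1 := ⟨N - 1, by omega⟩
  set P : Fin S.card → ℕ := fun l => S.equivFin.symm l
  have hP : ∀ l, P l ∈ S := fun l => (S.equivFin.symm l).2
  let Pl : (Fin S.card → Fin (m + 1 + 1)) → Places S.card (m + 1) := fun κ =>
    { base := P
      two_le := fun l => (hS _ (hP l)).two_le
      coprime := fun l l' h => (Nat.coprime_primes (hS _ (hP l)) (hS _ (hP l'))).2
        fun e => h (S.equivFin.symm.injective (Subtype.ext e))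
      mat := fun l => omitForm (m + 1) (κ l)
      isUnit_det := fun l => isUnit_det_omitForm (κ l) }
  choose V hV hVx using fun t : Fin (m + 1 + 1) × (Fin S.card → Fin (m + 1 + 1)) =>
    finite_subspaces_places (n := m) (by omega) (Pl t.2)
      ((omitForm (m + 1) t.1).map (Int.castRingHom ℝ)) (by
        rw [← RingHom.mapMatrix_apply, ← RingHom.map_det]
        exact Int.cast_ne_zero.2 (isUnit_det_omitForm t.1).ne_zero)
      (fun i j => isAlgebraic_int _) (δ := 1 / 2) (by norm_num)
  let ext : (Fin (m + 1) → ℤ) → Fin (m + 1 + 1) → ℤ := fun v => Fin.snoc v 0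
  let sign : (Fin (m + 1 + 1) → ℤ) → Fin (m + 1) → ℤ :=
    fun z => Pi.single 0 (z ⟨1, by omega⟩) - Pi.single ⟨1, by omega⟩ (z 0)
  refine ⟨((univ.biUnion V ∪ (Fintype.piFinset fun _ => Finset.Icc (-1 : ℤ) 1).image sign).filter
    (fun v => v ≠ 0)).image ext, fun w hw => ?_, fun z hz0 hzS hgcd hsum => ?_⟩
  · obtain ⟨v, hv, rfl⟩ := mem_image.1 hw
    refine ⟨fun e => (mem_filter.1 hv).2 (funext fun a => ?_), by simp [ext]⟩
    simpa [ext] using congrFun e a.castSucc
  suffices h : ∃ v ∈ univ.biUnion V ∪ (Fintype.piFinset fun _ => Finset.Icc (-1 : ℤ) 1).image sign,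
      v ≠ 0 ∧ v ⬝ᵥ (z ∘ Fin.castSucc) = 0 by
    obtain ⟨v, hv, hv0, hvz⟩ := h
    refine ⟨ext v, mem_image_of_mem ext (mem_filter.2 ⟨hv, hv0⟩), ?_⟩
    simp only [dotProduct, ext, Fin.sum_univ_castSucc (n := m + 1), Fin.snoc_castSucc,
      Fin.snoc_last, zero_mul, add_zero]
    exact hvz
  obtain ⟨k, -, hk⟩ := exists_max_image univ (fun i => |z i|) univ_nonempty
  by_cases h1 : |z k| ≤ 1
  · refine ⟨sign z, mem_union_right _ (mem_image_of_mem sign (Fintype.mem_piFinset.2 fun i => ?_)),
      fun e => hz0 ⟨1, by omega⟩ ?_, ?_⟩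
    · rw [Finset.mem_Icc, ← abs_le]
      exact (hk i (mem_univ i)).trans h1
    · simpa [sign, Pi.single_eq_of_ne (show (0 : Fin (m + 1)) ≠ ⟨1, by omega⟩ by simp [Fin.ext_iff])]
        using congrFun e 0
    · simp only [sign, sub_dotProduct, single_dotProduct, Function.comp_apply]
      rw [show Fin.castSucc (0 : Fin (m + 1)) = 0 from rfl,
        show Fin.castSucc (⟨1, by omega⟩ : Fin (m + 1)) = ⟨1, by omega⟩ from rfl]
      ring
  rw [not_le] at h1
  -- an index prime to each prime of `S`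
  have hex : ∀ l, ∃ i, ¬P l ∣ (z i).natAbs := fun l => by
    by_contra! h
    have h' : (P l : ℤ) ∣ univ.gcd z := Finset.dvd_gcd fun i _ => Int.natCast_dvd.2 (h i)
    rw [hgcd] at h'
    exact (hS _ (hP l)).not_dvd_one (by exact_mod_cast h')
  choose κ hκ using hex
  set x := z ∘ Fin.castSucc with hx
  set e : Fin S.card → Fin (m + 1) → ℕ :=
    fun l j => (z ((κ l).succAbove j)).natAbs.factorization (P l)
  have hvol : ((Pl κ).vol e : ℝ) = ∏ i, |(z i : ℝ)| := by
    have h : (Pl κ).vol e = ∏ i, (z i).natAbs := by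
      rw [show ∏ i, (z i).natAbs = ∏ i, ∏ p ∈ S, p ^ (z i).natAbs.factorization p from
        prod_congr rfl fun i _ =>
          (prod_pow_factorization (Int.natAbs_ne_zero.2 (hz0 i)) (hzS i)).symm, prod_comm,
        Places.vol, ← prod_coe_sort S, ← Equiv.prod_comp S.equivFin.symm]
      refine prod_congr rfl fun l _ => ?_
      rw [prod_pow_eq_pow_sum, Fin.sum_univ_succAbove _ (κ l),
        Nat.factorization_eq_zero_of_not_dvd (hκ l), zero_add]
    rw [h, Nat.cast_prod]
    exact prod_congr rfl fun i _ => by rw [Nat.cast_natAbs, Int.cast_abs]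
  obtain ⟨v, hv, hvx⟩ := hVx (k, κ) x (fun h => hz0 0 (by simpa [x] using congrFun h 0)) e
    (fun l j => by
      show (P l : ℤ) ^ e l j ∣ (omitForm (m + 1) (κ l) *ᵥ x) j
      rw [omitForm_mulVec _ hsum, ← Nat.cast_pow, Int.natCast_dvd]
      exact Nat.ordProj_dvd _ _) (by
    have hform : ∀ j, ∑ a, (omitForm (m + 1) k).map (Int.castRingHom ℝ) j a * (x a : ℝ) =
        (z (k.succAbove j) : ℝ) := fun j => by
      rw [← omitForm_mulVec k hsum j]
      simp [mulVec, dotProduct, x]
    simp only [hform]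
    rw [hvol, Fin.prod_univ_succAbove (fun i => |(z i : ℝ)|) k, mul_assoc,
      mul_left_comm]
    refine lt_mul_of_one_lt_right (prod_pos fun j _ => abs_pos.2 (Int.cast_ne_zero.2 (hz0 _))) ?_
    have hX0 : 0 < ‖castVec x‖ := norm_pos_iff.2 fun h => hz0 0 (by
      simpa [x, castVec] using congrFun h 0)
    have hk1 : (1 : ℝ) < |(z k : ℝ)| := by exact_mod_cast h1
    have hXk : ‖castVec x‖ ≤ |(z k : ℝ)| := (pi_norm_le_iff_of_nonneg (abs_nonneg _)).2 fun a => by
      rw [Real.norm_eq_abs]
      simp only [castVec, x, Function.comp_apply]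
      exact_mod_cast hk a.castSucc (mem_univ _)
    rw [Real.rpow_neg hX0.le, ← div_eq_mul_inv, one_lt_div (by positivity)]
    refine (Real.rpow_le_rpow hX0.le hXk (by norm_num)).trans_lt ?_
    conv_rhs => rw [← Real.rpow_one |(z k : ℝ)|]
    exact Real.rpow_lt_rpow_of_exponent_lt hk1 (by norm_num))
  exact ⟨v, mem_union_left _ (mem_biUnion.2 ⟨_, mem_univ _, hv⟩), hV _ v hv, hvx⟩

/-- The relations for vanishing sums of `S`-units. -/
theorem exists_relations {ι : Type*} [Fintype ι] (h3 : 3 ≤ Fintype.card ι) (S : Finset ℕ) :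
    ∃ W : Finset (ι → ℤ), (∀ w ∈ W, w ≠ 0 ∧ ∃ i, w i = 0) ∧
      ∀ z : ι → ℚ, (∀ i, IsSUnitQ S (z i)) → ∑ i, z i = 0 →
        ∃ w ∈ W, ∑ i, (w i : ℚ) * z i = 0 := by
  classical
  obtain ⟨N, hN⟩ : ∃ N, Fintype.card ι = N + 1 := ⟨Fintype.card ι - 1, by omega⟩
  set σ : ι ≃ Fin (N + 1) := Fintype.equivFinOfCardEq hN
  obtain ⟨W, hW, hWz⟩ := exists_relations_int (N := N) (by omega)
    (S := S.filter Nat.Prime) fun p hp => (mem_filter.1 hp).2
  refine ⟨W.image fun w => w ∘ σ, fun w hw => ?_, fun z hz hsum => ?_⟩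
  · obtain ⟨w', hw', rfl⟩ := mem_image.1 hw
    exact ⟨fun e => (hW w' hw').1 (funext fun i => by simpa using congrFun e (σ.symm i)),
      σ.symm (Fin.last N), by simp [(hW w' hw').2]⟩
  set u := fun i => z (σ.symm i) with hu
  set D := ∏ i, (u i).den with hD
  have hD0 : D ≠ 0 := prod_ne_zero_iff.2 fun i _ => (u i).den_nz
  have hint : ∀ i, ∃ y : ℤ, (y : ℚ) = D * u i := fun i => by
    obtain ⟨t, ht⟩ : (u i).den ∣ D := dvd_prod_of_mem (fun i => (u i).den) (mem_univ i)
    refine ⟨t * (u i).num, ?_⟩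
    rw [ht]
    push_cast
    linear_combination (-(t : ℚ)) * (u i).mul_den_eq_num
  choose y hy using hint
  obtain ⟨g, hg, hg1⟩ := Finset.extract_gcd y (univ_nonempty (α := Fin (N + 1)))
  set G := univ.gcd y
  have hu0 : ∀ i, u i ≠ 0 := fun i => (hz _).1
  have hy0 : ∀ i, y i ≠ 0 := fun i e => mul_ne_zero (Nat.cast_ne_zero.2 hD0) (hu0 i)
    (by rw [← hy i, e, Int.cast_zero])
  have hG : G ≠ 0 := fun e => hy0 0 (by rw [hg 0 (mem_univ _), e, zero_mul])
  have hgu : ∀ i, (G : ℚ) * g i = D * u i := fun i => by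
    rw [← Int.cast_mul, ← hg i (mem_univ i), hy]
  obtain ⟨w, hw, hwg⟩ := hWz g (fun i e => hy0 i (by rw [hg i (mem_univ i), e, mul_zero]))
    (fun i p hp => by
      obtain ⟨hp', hd, -⟩ := Nat.mem_primeFactors.1 hp
      refine mem_filter.2 ⟨?_, hp'⟩
      have h1 : p ∣ (y i).natAbs := hd.trans (Int.natAbs_dvd_natAbs.2
        ⟨G, by rw [hg i (mem_univ i), mul_comm]⟩)
      have h2 : (y i).natAbs * (u i).den = D * (u i).num.natAbs := by
        have h : y i * (u i).den = (D : ℤ) * (u i).num := by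
          have h := (u i).mul_den_eq_num
          have : ((y i * (u i).den : ℤ) : ℚ) = (((D : ℤ) * (u i).num : ℤ) : ℚ) := by
            push_cast
            rw [hy i, mul_assoc, h]
          exact_mod_cast this
        simpa [Int.natAbs_mul] using congrArg Int.natAbs h
      rcases (Nat.Prime.dvd_mul hp').1 (h2 ▸ h1.mul_right (u i).den) with h | h
      · obtain ⟨q, -, hq⟩ := (hp'.prime.dvd_finset_prod_iff fun i => (u i).den).1 h
        exact (hz _).primesOf_subset (mem_union_right _
          (Nat.mem_primeFactors.2 ⟨hp', hq, (u q).den_nz⟩))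
      · exact (hz _).primesOf_subset (mem_union_left _ (Nat.mem_primeFactors.2
          ⟨hp', h, Int.natAbs_ne_zero.2 (Rat.num_ne_zero.2 (hu0 i))⟩)))
    hg1 (by
      have h : (G : ℚ) * ((∑ i, g i : ℤ) : ℚ) = 0 := by
        push_cast
        simp only [mul_sum, hgu]
        rw [← mul_sum, Equiv.sum_comp σ.symm z, hsum, mul_zero]
      exact_mod_cast (mul_eq_zero.1 h).resolve_left (Int.cast_ne_zero.2 hG))
  refine ⟨w ∘ σ, mem_image_of_mem _ hw, ?_⟩
  have h : (D : ℚ) * ∑ i, (w i : ℚ) * u i = G * ((w ⬝ᵥ g : ℤ) : ℚ) := by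
    simp only [dotProduct, Int.cast_sum, Int.cast_mul, mul_sum]
    exact sum_congr rfl fun i _ => by linear_combination (-(w i : ℚ)) * hgu i
  rw [hwg, Int.cast_zero, mul_zero, ← Equiv.sum_comp σ] at h
  simpa [u, hD0] using h

/-- Vanishing sums of `S`-units, none of whose proper part vanishes, with the term `i₀` one. -/
def unitSums (S : Finset ℕ) {ι : Type*} [Fintype ι] (i₀ : ι) : Set (ι → ℚ) :=
  {z | (∀ i, IsSUnitQ S (z i)) ∧ ∑ i, z i = 0 ∧
    (∀ T : Finset ι, T.Nonempty → ∑ i ∈ T, z i = 0 → T = univ) ∧ z i₀ = 1}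

/-- **The unit equation in several variables.** -/
theorem finite_unitSums (c : ℕ) : ∀ (S : Finset ℕ) {ι : Type} [Fintype ι],
    Fintype.card ι = c → ∀ i₀ : ι, (unitSums S i₀).Finite := by
  classical
  induction c using Nat.strong_induction_on with
  | _ c ih =>
    intro S ι _ hc i₀
    rcases le_or_gt c 2 with h2 | h3
    · refine (Set.Finite.pi fun _ : ι => (Set.toFinite ({1, -1} : Set ℚ))).subset
        fun z hz i _ => ?_
      obtain ⟨hu, hsum, -, h1⟩ := hz
      by_cases hi : i = i₀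
      · simp [hi, h1]
      · rw [← add_sum_erase _ _ (mem_univ i₀), h1,
          show univ.erase i₀ = {i} from (eq_of_subset_of_card_le
            (singleton_subset_iff.2 (mem_erase.2 ⟨hi, mem_univ i⟩)) (by
              rw [card_erase_of_mem (mem_univ i₀), card_univ, card_singleton]; omega)).symm,
          sum_singleton] at hsum
        exact Or.inr (by
          rw [Set.mem_singleton_iff]
          linarith)
    obtain ⟨W, hW, hWz⟩ := exists_relations (ι := ι) (by omega) S
    suffices h : ∀ w ∈ W, ∀ J ⊆ univ.filter (fun i => w i ≠ 0), J.Nonempty →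
        ({z | z ∈ unitSums S i₀ ∧ ∑ i ∈ J, (w i : ℚ) * z i = 0 ∧
          ∀ T ⊆ J, T.Nonempty → ∑ i ∈ T, (w i : ℚ) * z i = 0 → T = J} : Set (ι → ℚ)).Finite by
      refine (W.finite_toSet.biUnion fun w hw =>
        ((univ.filter fun i => w i ≠ 0).powerset.filter Finset.Nonempty).finite_toSet.biUnion
          fun J hJ => h w hw J (mem_powerset.1 (mem_filter.1 hJ).1) (mem_filter.1 hJ).2).subset
        fun z hz => ?_
      obtain ⟨w, hw, hwz⟩ := hWz z hz.1 hz.2.1
      set Js := (univ.filter fun i => w i ≠ 0).powerset.filter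
        fun J => J.Nonempty ∧ ∑ i ∈ J, (w i : ℚ) * z i = 0
      obtain ⟨J, hJ, hmin⟩ := exists_min_image Js card ⟨univ.filter fun i => w i ≠ 0,
        mem_filter.2 ⟨mem_powerset.2 Subset.rfl, by
          obtain ⟨i, hi⟩ := Function.ne_iff.1 (hW w hw).1
          exact ⟨⟨i, mem_filter.2 ⟨mem_univ i, hi⟩⟩, by
            refine (sum_filter_of_ne (p := fun i => w i ≠ 0) fun i _ hne e => hne ?_).trans hwz
            rw [e, Int.cast_zero, zero_mul]⟩⟩⟩
      obtain ⟨hJsub, hJne, hJ0⟩ := mem_filter.1 hJ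
      simp only [Set.mem_iUnion, exists_prop]
      refine ⟨w, hw, J, mem_filter.2 ⟨hJsub, hJne⟩, hz, hJ0, fun T hT hTne hT0 => ?_⟩
      exact eq_of_subset_of_card_le hT (hmin T (mem_filter.2
        ⟨mem_powerset.2 (hT.trans (mem_powerset.1 hJsub)), hTne, hT0⟩))
    intro w hw J hJ hJne
    obtain ⟨j₀, hj₀⟩ := hJne
    have hwJ : ∀ i ∈ J, w i ≠ 0 := fun i hi => (mem_filter.1 (hJ hi)).2
    obtain ⟨i₁, hi₁⟩ := (hW w hw).2
    have hJi₁ : i₁ ∉ J := fun h => hwJ i₁ h hi₁
    have hJc : J.card < c := hc ▸ card_lt_card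
      (ssubset_univ_iff.2 fun e => hJi₁ (e ▸ mem_univ i₁))
    set S₁ := S ∪ univ.biUnion fun i => primesOf (w i : ℚ)
    have hA := ih J.card hJc S₁ (ι := J) (Fintype.card_coe J) ⟨j₀, hj₀⟩
    -- the ratios within `J`
    set ratio : (J → ℚ) → ι → ℚ := fun u i =>
      if h : i ∈ J then u ⟨i, h⟩ * w j₀ / w i else 0
    set A := hA.toFinset.image ratio
    set K := insert j₀ Jᶜ with hK_def
    have hKcard : K.card = c - J.card + 1 := by
      rw [hK_def, card_insert_of_notMem (by simp [hj₀]), card_compl, hc]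
    suffices h : ∀ r ∈ A, ({z | z ∈ unitSums S i₀ ∧ (∀ i ∈ J, z i = r i * z j₀) ∧
        2 ≤ J.card} : Set (ι → ℚ)).Finite by
      refine (A.finite_toSet.biUnion h).subset fun z hz => ?_
      obtain ⟨hz, hJ0, hJmin⟩ := hz
      have hne : ∀ i ∈ J, (w i : ℚ) * z i ≠ 0 := fun i hi =>
        mul_ne_zero (Int.cast_ne_zero.2 (hwJ i hi)) (hz.1 i).1
      have h2 : 2 ≤ J.card := by
        by_contra hlt
        obtain ⟨j, rfl⟩ := card_eq_one.1 (show J.card = 1 by
          have := card_pos.2 ⟨j₀, hj₀⟩; omega)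
        exact hne j (mem_singleton_self j) (by simpa using hJ0)
      set u : J → ℚ := fun i => (w i : ℚ) * z i / (w j₀ * z j₀)
      have hu : u ∈ unitSums S₁ (⟨j₀, hj₀⟩ : J) := by
        have hunit : ∀ i ∈ J, IsSUnitQ S₁ ((w i : ℚ) * z i) := fun i hi =>
          (isSUnitQ_of_primesOf (Int.cast_ne_zero.2 (hwJ i hi)) (subset_union_right.trans'
            (subset_biUnion_of_mem (fun i => primesOf (w i : ℚ)) (mem_univ i)))).mul
            ((hz.1 i).mono subset_union_left)
        refine ⟨fun i => (hunit i i.2).div (hunit j₀ hj₀), ?_, fun T hT hT0 => ?_,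
          div_self (hne j₀ hj₀)⟩
        · simp only [u, ← sum_div]
          rw [sum_coe_sort J fun i => (w i : ℚ) * z i, hJ0, zero_div]
        · simp only [u, ← sum_div, div_eq_zero_iff, hne j₀ hj₀, or_false] at hT0
          have h := hJmin (T.map (Function.Embedding.subtype _)) (fun i hi => by
            obtain ⟨a, -, rfl⟩ := mem_map.1 hi
            exact a.2) hT.map (by rw [sum_map]; exact hT0)
          exact eq_univ_of_card _ (by
            rw [← card_map (Function.Embedding.subtype _), h, Fintype.card_coe])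
      simp only [Set.mem_iUnion, exists_prop]
      refine ⟨ratio u, mem_image_of_mem _ (hA.mem_toFinset.2 hu), hz, fun i hi => ?_, h2⟩
      simp only [ratio, u, dif_pos hi]
      have := (hz.1 j₀).1
      have := hwJ j₀ hj₀
      have := hwJ i hi
      field_simp
    intro r _
    rcases lt_or_ge J.card 2 with hlt | hge
    · exact Set.Finite.subset (Set.finite_empty) fun z hz => absurd hz.2.2 (not_le.2 hlt)
    set R := ∑ i ∈ J, r i
    set S₂ := S ∪ primesOf R
    have hjK : j₀ ∈ K := mem_insert_self _ _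
    have hB := ih K.card (by rw [hKcard]; have := card_le_univ J; omega) S₂ (ι := K)
      (Fintype.card_coe K) ⟨j₀, hjK⟩
    set F : (K → ℚ) → ι → ℚ := fun v =>
      let y : ι → ℚ := fun i => if h : i ∈ J then r i * v ⟨j₀, hjK⟩ / R
        else v ⟨i, mem_insert_of_mem (mem_compl.2 h)⟩
      fun i => y i / y i₀
    refine (hB.image F).subset fun z hz => ?_
    obtain ⟨⟨hunit, hsum, hnd, h1⟩, hr, -⟩ := hz
    have hz0 : z j₀ ≠ 0 := (hunit j₀).1
    have hsumJ : ∑ i ∈ J, z i = R * z j₀ := by
      rw [sum_mul]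
      exact sum_congr rfl hr
    have hR : R ≠ 0 := fun e => hJi₁ (by
      rw [hnd J ⟨j₀, hj₀⟩ (by rw [hsumJ, e, zero_mul])]
      exact mem_univ i₁)
    set y : ι → ℚ := fun i => if i = j₀ then R * z j₀ else z i with hy
    have hy0 : ∀ i ∈ K, IsSUnitQ S₂ (y i) := fun i _ => by
      simp only [hy]
      split_ifs
      · exact (isSUnitQ_of_primesOf hR subset_union_right).mul
          ((hunit j₀).mono subset_union_left)
      · exact (hunit i).mono subset_union_left
    have hysum : ∀ T ⊆ Jᶜ, ∑ i ∈ T, y i = ∑ i ∈ T, z i := fun T hT =>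
      sum_congr rfl fun i hi => if_neg fun (e : i = j₀) => mem_compl.1 (hT hi) (e ▸ hj₀)
    have hfull : ∀ T ⊆ K, j₀ ∈ T → ∑ i ∈ T, y i = ∑ i ∈ J ∪ T.erase j₀, z i := fun T hT hj => by
      have hsub : T.erase j₀ ⊆ Jᶜ := fun i hi =>
        (mem_insert.1 (hT (mem_of_mem_erase hi))).resolve_left (ne_of_mem_erase hi)
      rw [sum_union (disjoint_left.2 fun i hi hi' => mem_compl.1 (hsub hi') hi),
        ← add_sum_erase _ _ hj, hysum _ hsub, hsumJ]
      simp [hy]
    have hKerase : K.erase j₀ = Jᶜ := erase_insert (by simp [hj₀])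
    set v : K → ℚ := fun i => y i / y j₀
    have hv : v ∈ unitSums S₂ (⟨j₀, hjK⟩ : K) := by
      refine ⟨fun i => (hy0 i i.2).div (hy0 j₀ hjK), ?_, fun T hT hT0 => ?_,
        div_self (hy0 j₀ hjK).1⟩
      · simp only [v, ← sum_div]
        rw [sum_coe_sort K y, hfull K Subset.rfl hjK, hKerase, union_compl, hsum, zero_div]
      · simp only [v, ← sum_div, div_eq_zero_iff, (hy0 j₀ hjK).1, or_false] at hT0
        set T' := T.map (Function.Embedding.subtype (· ∈ K)) with hT'
        have hT0' : ∑ i ∈ T', y i = 0 := by rw [hT', sum_map]; exact hT0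
        have hTK : T' ⊆ K := fun i hi => by
          obtain ⟨a, -, rfl⟩ := mem_map.1 hi
          exact a.2
        by_cases hj : j₀ ∈ T'
        · rw [hfull T' hTK hj] at hT0'
          have h := hnd _ ⟨j₀, mem_union_left _ hj₀⟩ hT0'
          refine eq_univ_of_forall fun a => ?_
          have ha := h ▸ mem_univ (a : ι)
          rw [← mem_map' (Function.Embedding.subtype (· ∈ K))]
          rcases mem_union.1 ha with ha | ha
          · rcases mem_insert.1 a.2 with e | e
            · show (a : ι) ∈ T'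
              rw [e]; exact hj
            · exact absurd ha (mem_compl.1 e)
          · exact mem_of_mem_erase ha
        · have hsub : T' ⊆ Jᶜ := fun i hi =>
            (mem_insert.1 (hTK hi)).resolve_left fun e => hj (e ▸ hi)
          rw [hysum T' hsub] at hT0'
          have h := hnd T' (hT.map) hT0'
          exact absurd (hsub (h ▸ mem_univ j₀)) (by simp [hj₀])
    refine ⟨v, hv, funext fun i => ?_⟩
    have hyi : ∀ i, (if h : i ∈ J then r i * v ⟨j₀, hjK⟩ / R
        else v ⟨i, mem_insert_of_mem (mem_compl.2 h)⟩) = z i / (R * z j₀) := fun i => by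
      have hyj : y j₀ = R * z j₀ := if_pos rfl
      split_ifs with h
      · simp only [v, div_self (hy0 j₀ hjK).1, hr i h]
        field_simp
      · simp only [v, hyj]
        rw [show y i = z i from if_neg fun (e : i = j₀) => h (e ▸ hj₀)]
    simp only [F, hyi]
    rw [div_div_div_cancel_right₀ (mul_ne_zero hR hz0), h1, div_one]

/-- **The unit equation**: finitely many nondegenerate solutions. -/
theorem finite_unit_equation_multi (S : Finset ℕ) {n : ℕ} (a : Fin n → ℚ) (ha : ∀ i, a i ≠ 0) :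
    {u : Fin n → ℚ | (∀ i, IsSUnitQ S (u i)) ∧ ∑ i, a i * u i = 1 ∧
      ∀ T : Finset (Fin n), T.Nonempty → ∑ i ∈ T, a i * u i ≠ 0}.Finite := by
  classical
  set S' := S ∪ univ.biUnion fun i => primesOf (a i)
  refine ((finite_unitSums (n + 1) S' (ι := Fin (n + 1)) (Fintype.card_fin _) 0).image
    fun z i => -z i.succ / a i).subset fun u hu => ?_
  obtain ⟨hu, hsum, hnd⟩ := hu
  refine ⟨Fin.cons 1 fun i => -(a i * u i), ⟨fun i => ?_, ?_, fun T hT hT0 => ?_, by simp⟩,
    funext fun i => by simp [neg_div, neg_neg, ha i]⟩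
  · induction i using Fin.cases with
    | zero => exact ⟨by simp, fun p _ _ => by simp⟩
    | succ i =>
      have h := (isSUnitQ_of_primesOf (neg_ne_zero.2 (ha i))
        (show primesOf (-a i) ⊆ S' from subset_union_right.trans' (subset_trans
          (by simp [primesOf]) (subset_biUnion_of_mem (fun i => primesOf (a i)) (mem_univ i))))).mul
        ((hu i).mono subset_union_left)
      simpa using h
  · simp [Fin.sum_univ_succ, sum_neg_distrib, hsum]
  · set T' := univ.filter fun i : Fin n => Fin.succ i ∈ T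
    have hsum' : ∑ i ∈ T, (Fin.cons 1 fun i => -(a i * u i) : Fin (n + 1) → ℚ) i =
        (if (0 : Fin (n + 1)) ∈ T then 1 else 0) - ∑ i ∈ T', a i * u i := by
      rw [← univ_inter T, ← sum_ite_mem, Fin.sum_univ_succ]
      simp only [univ_inter, Fin.cons_zero, Fin.cons_succ, T', sum_filter, sub_eq_add_neg,
        ← sum_neg_distrib]
      congr 1
      exact sum_congr rfl fun i _ => by split_ifs <;> simp
    rw [hsum'] at hT0
    by_cases h0 : (0 : Fin (n + 1)) ∈ T
    · rw [if_pos h0, sub_eq_zero] at hT0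
      have hcompl : ∑ i ∈ T'ᶜ, a i * u i = 0 := by
        have := sum_add_sum_compl T' fun i => a i * u i
        linarith
      have hemp : T'ᶜ = ∅ := not_nonempty_iff_eq_empty.1 fun h => hnd _ h hcompl
      refine eq_univ_of_forall fun i => ?_
      induction i using Fin.cases with
      | zero => exact h0
      | succ i =>
        by_contra hi
        exact eq_empty_iff_forall_notMem.1 hemp i (mem_compl.2 fun h => hi (mem_filter.1 h).2)
    · rw [if_neg h0, zero_sub, neg_eq_zero] at hT0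
      obtain ⟨i, hi⟩ := hT
      induction i using Fin.cases with
      | zero => exact absurd hi h0
      | succ i => exact absurd hT0 (hnd T' ⟨i, mem_filter.2 ⟨mem_univ i, hi⟩⟩)

end FA.Subspace

end
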