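import Fermat.Agent.DigitComplexity.Repetitions
import Fermat.Agent.Subspace.UnitEquation
import Mathlib.Algebra.Polynomial.Div
import Mathlib.RingTheory.Adjoin.Basic

/-!
# Power sums

A sum `∑ c t * t ^ n` over positive rationals with integral values near the algebraic multiple of
another one, up to an exponentially small error, agrees infinitely often with a power sum (the
subspace theorem with places). So an integral quotient of power sums, or an integral root, is a
power sum (Corvaja and Zannier; the Hadamard quotient theorem of van der Poorten, Pisot's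
conjecture on roots, for positive rational roots).
-/

set_option autoImplicit false

noncomputable section

namespace FA.Subspace

open Finset Filter Matrix Topology FA.Perfect

/-- The geometric sequences with positive rational ratio. -/
def geometricSeqs : Submonoid (ℕ → ℚ) where
  carrier := {f | ∃ t : ℚ, 0 < t ∧ f = fun n => t ^ n}
  one_mem' := ⟨1, one_pos, funext fun n => (one_pow n).symm⟩
  mul_mem' := by
    rintro _ _ ⟨t, ht, rfl⟩ ⟨t', ht', rfl⟩
    exact ⟨t * t', mul_pos ht ht', funext fun n => (mul_pow t t' n).symm⟩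

/-- The algebra of the power sums with positive rational roots and rational coefficients. -/
def powerSums : Subalgebra ℚ (ℕ → ℚ) := Algebra.adjoin ℚ (geometricSeqs : Set (ℕ → ℚ))

theorem geo_mem {t : ℚ} (ht : 0 < t) : (fun n => t ^ n) ∈ powerSums :=
  Algebra.subset_adjoin ⟨t, ht, rfl⟩

theorem mem_powerSums_of {T : Finset ℚ} (hT : ∀ t ∈ T, 0 < t) (c : ℚ → ℚ) :
    (fun n => ∑ t ∈ T, c t * t ^ n) ∈ powerSums := by
  rw [show (fun n => ∑ t ∈ T, c t * t ^ n) = ∑ t ∈ T, c t • fun n : ℕ => t ^ n from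
    funext fun n => by simp [Finset.sum_apply]]
  exact sum_mem fun t ht => powerSums.smul_mem (geo_mem (hT t ht)) _

/-- The terms of a power sum. -/
theorem exists_terms {f : ℕ → ℚ} (hf : f ∈ powerSums) :
    ∃ T : Finset ℚ, (∀ t ∈ T, 0 < t) ∧
      ∃ c : ℚ → ℚ, (∀ t ∈ T, c t ≠ 0) ∧ ∀ n, f n = ∑ t ∈ T, c t * t ^ n := by
  classical
  have hf' : f ∈ Subalgebra.toSubmodule powerSums := hf
  rw [powerSums, Algebra.adjoin_eq_span, Submonoid.closure_eq,
    show (geometricSeqs : Set (ℕ → ℚ)) =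
      Set.range fun t : {t : ℚ // 0 < t} => fun n : ℕ => (t : ℚ) ^ n from
      Set.ext fun g => ⟨fun ⟨t, ht, e⟩ => ⟨⟨t, ht⟩, e.symm⟩, fun ⟨t, e⟩ => ⟨t, t.2, e.symm⟩⟩,
    Finsupp.mem_span_range_iff_exists_finsupp] at hf'
  obtain ⟨c, rfl⟩ := hf'
  refine ⟨c.support.map (Function.Embedding.subtype _), fun t ht => ?_,
    fun t => if h : 0 < t then c ⟨t, h⟩ else 0, fun t ht => ?_, fun n => ?_⟩
  · obtain ⟨a, -, rfl⟩ := mem_map.1 ht
    exact a.2
  · obtain ⟨a, ha, rfl⟩ := mem_map.1 ht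
    simpa [a.2] using Finsupp.mem_support_iff.1 ha
  · rw [sum_map, Finsupp.sum, Finset.sum_apply]
    exact sum_congr rfl fun a _ => by simp [a.2]

/-- The largest root dominates. -/
theorem exists_dominant {f : ℕ → ℚ} (hf : f ∈ powerSums) (hne : f ≠ 0) :
    ∃ b c : ℚ, ∃ ε ∈ powerSums, 0 < b ∧ c ≠ 0 ∧ (∀ n, f n = c * b ^ n * (1 + ε n)) ∧
      ∃ K θ : ℝ, 0 ≤ θ ∧ θ < 1 ∧ ∀ n, |(ε n : ℝ)| ≤ K * θ ^ n := by
  classical
  obtain ⟨T, hT, c, hc, hf⟩ := exists_terms hf
  have hTne : T.Nonempty := nonempty_iff_ne_empty.2 fun h =>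
    hne (funext fun n => by simp [hf, h])
  set b := T.max' hTne
  have hbT : b ∈ T := max'_mem T hTne
  have hb := hT b hbT
  set T' := (T.erase b).image (· / b)
  have hT' : ∀ t ∈ T', 0 < t ∧ t < 1 := fun t ht => by
    obtain ⟨s, hs, rfl⟩ := mem_image.1 ht
    exact ⟨div_pos (hT s (mem_of_mem_erase hs)) hb, (div_lt_one hb).2
      (lt_of_le_of_ne (le_max' T s (mem_of_mem_erase hs)) (ne_of_mem_erase hs))⟩
  set e := fun t => c (t * b) / c b
  have hinj : Set.InjOn (· / b) (T.erase b : Set ℚ) := fun s _ s' _ h =>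
    (div_left_inj' hb.ne').1 h
  refine ⟨b, c b, _, mem_powerSums_of (fun t ht => (hT' t ht).1) e, hb, hc b hbT, fun n => ?_, ?_⟩
  · rw [hf n, ← add_sum_erase _ _ hbT, sum_image hinj, mul_add, mul_one, mul_sum]
    refine congrArg₂ _ rfl (sum_congr rfl fun s _ => ?_)
    have := hc b hbT
    simp only [e, div_mul_cancel₀ _ hb.ne', div_pow]
    have := pow_ne_zero n hb.ne'
    field_simp
  · obtain ⟨θ, hθ0, hθ1, hθ⟩ : ∃ θ : ℝ, 0 ≤ θ ∧ θ < 1 ∧ ∀ t ∈ T', (t : ℝ) ≤ θ := by
      rcases T'.eq_empty_or_nonempty with h | h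
      · exact ⟨0, le_rfl, one_pos, by simp [h]⟩
      · exact ⟨((T'.max' h : ℚ) : ℝ), by exact_mod_cast (hT' _ (max'_mem T' h)).1.le,
          by exact_mod_cast (hT' _ (max'_mem T' h)).2, fun t ht => by exact_mod_cast le_max' T' t ht⟩
    refine ⟨∑ t ∈ T', |(e t : ℝ)|, θ, hθ0, hθ1, fun n => ?_⟩
    push_cast
    refine (abs_sum_le_sum_abs _ _).trans ?_
    rw [sum_mul]
    refine sum_le_sum fun t ht => ?_
    rw [abs_mul, abs_pow, abs_of_pos (Rat.cast_pos.2 (hT' t ht).1 : (0 : ℝ) < t)]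
    exact mul_le_mul_of_nonneg_left (pow_le_pow_left₀ (Rat.cast_nonneg.2 (hT' t ht).1.le)
      (hθ t ht) n) (abs_nonneg _)

/-- A non-zero power sum has finitely many zeros. -/
theorem eq_zero_of_infinite {f : ℕ → ℚ} (hf : f ∈ powerSums) (h : {n | f n = 0}.Infinite) :
    f = 0 := by
  by_contra hne
  obtain ⟨b, c, ε, -, hb, hc, hfe, K, θ, hθ0, hθ1, hε⟩ := exists_dominant hf hne
  have ht : Tendsto (fun n : ℕ => K * θ ^ n) atTop (𝓝 0) := by
    simpa using (tendsto_pow_atTop_nhds_zero_of_lt_one hθ0 hθ1).const_mul K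
  obtain ⟨N, hN⟩ := eventually_atTop.1 (ht.eventually_lt_const (one_pos : (0 : ℝ) < 1))
  obtain ⟨n, hn, hNn⟩ := h.exists_gt N
  rw [Set.mem_ofPred_eq, hfe, mul_eq_zero] at hn
  have h1 : (ε n : ℝ) = -1 := by
    have := hn.resolve_left (mul_ne_zero hc (pow_ne_zero n hb.ne'))
    exact_mod_cast (show ε n = -1 by linarith)
  have h2 := hε n
  rw [h1, abs_neg, abs_one] at h2
  linarith [hN n hNn.le]

/-- A power sum grows at most geometrically. -/
theorem abs_le_geometric {f : ℕ → ℚ} (hf : f ∈ powerSums) :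
    ∃ K a : ℝ, 0 ≤ K ∧ 0 < a ∧ ∀ n, |(f n : ℝ)| ≤ K * a ^ n := by
  obtain ⟨T, hT, c, -, hf⟩ := exists_terms hf
  have ha : ∀ t ∈ T, (t : ℝ) ≤ 1 + ∑ s ∈ T, |(s : ℝ)| := fun t ht => by
    have := single_le_sum (f := fun s : ℚ => |(s : ℝ)|) (fun _ _ => abs_nonneg _) ht
    linarith [le_abs_self (t : ℝ)]
  refine ⟨∑ t ∈ T, |(c t : ℝ)|, 1 + ∑ s ∈ T, |(s : ℝ)|, by positivity, by positivity, fun n => ?_⟩
  rw [hf n]
  push_cast
  refine (abs_sum_le_sum_abs _ _).trans ?_
  rw [sum_mul]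
  refine sum_le_sum fun t ht => ?_
  rw [abs_mul, abs_pow, abs_of_pos (Rat.cast_pos.2 (hT t ht) : (0 : ℝ) < t)]
  exact mul_le_mul_of_nonneg_left (pow_le_pow_left₀ (Rat.cast_nonneg.2 (hT t ht).le) (ha t ht) n)
    (abs_nonneg _)

/-- **Integers near a power sum follow a power sum.** -/
theorem exists_powerSum_of_approx {P : ℕ → ℚ} (hP : P ∈ powerSums) {α : ℝ}
    (hα : IsAlgebraic ℚ α) {K ρ : ℝ} (hρ0 : 0 < ρ) (hρ1 : ρ < 1) {E : Set ℕ} (hE : E.Infinite)
    (z : ℕ → ℤ) (hz : ∀ n ∈ E, |(z n : ℝ) - α * P n| ≤ K * ρ ^ n) :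
    ∃ Q ∈ powerSums, {n ∈ E | (z n : ℚ) = Q n}.Infinite := by
  classical
  obtain ⟨T₀, hT₀, c₀, -, hP⟩ := exists_terms hP
  set T := insert 1 T₀
  have hT : ∀ t ∈ T, 0 < t := fun t ht => (mem_insert.1 ht).elim (fun e => e ▸ one_pos) (hT₀ t)
  set m := T.card with hm_def
  have hm : 1 ≤ m := card_pos.2 ⟨1, mem_insert_self _ _⟩
  set τ : Fin m → ℚ := fun i => T.equivFin.symm i
  have hτ : ∀ i, 0 < τ i := fun i => hT _ (T.equivFin.symm i).2
  have hτinj : Function.Injective τ := fun i j h => T.equivFin.symm.injective (Subtype.ext h)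
  set e : Fin m → ℚ := fun i => if τ i ∈ T₀ then c₀ (τ i) else 0
  have hPe : ∀ n, P n = ∑ i, e i * τ i ^ n := fun n => by
    calc P n = ∑ t ∈ T₀, c₀ t * t ^ n := hP n
      _ = ∑ t ∈ T, (if t ∈ T₀ then c₀ t else 0) * t ^ n := by
          simp only [ite_mul, zero_mul]
          rw [sum_ite_mem, inter_eq_right.2 (subset_insert _ _)]
      _ = _ := by
          rw [← sum_coe_sort T, ← Equiv.sum_comp T.equivFin.symm]
  set D : ℕ := ∏ i, (τ i).den
  have hD : 0 < D := prod_pos fun i _ => Rat.den_pos _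
  have hint : ∀ i, ∃ U : ℕ, (U : ℚ) = D * τ i := fun i => by
    obtain ⟨t, ht⟩ : (τ i).den ∣ D := dvd_prod_of_mem (fun i => (τ i).den) (mem_univ i)
    refine ⟨t * (τ i).num.natAbs, ?_⟩
    rw [ht, Nat.cast_mul, Nat.cast_natAbs, abs_of_pos (Rat.num_pos.2 (hτ i))]
    push_cast
    linear_combination (-(t : ℚ)) * (τ i).mul_den_eq_num
  choose U hU using hint
  set base : Fin (m + 1) → ℕ := Fin.cons D U
  have hbase : ∀ a, 0 < base a := fun a => by
    induction a using Fin.cases with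
    | zero => exact hD
    | succ i =>
      have h : (0 : ℚ) < U i := by rw [hU]; exact mul_pos (Nat.cast_pos.2 hD) (hτ i)
      exact_mod_cast h
  set S := univ.biUnion fun a => (base a).primeFactors
  have hS : ∀ p ∈ S, p.Prime := fun p hp => by
    obtain ⟨a, -, h⟩ := mem_biUnion.1 hp
    exact (Nat.mem_primeFactors.1 h).1
  set P' : Fin S.card → ℕ := fun l => S.equivFin.symm l
  let Pl : Places S.card (m + 1) :=
    { base := P'
      two_le := fun l => (hS _ (S.equivFin.symm l).2).two_le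
      coprime := fun l l' h => (Nat.coprime_primes (hS _ (S.equivFin.symm l).2)
        (hS _ (S.equivFin.symm l').2)).2 fun e => h (S.equivFin.symm.injective (Subtype.ext e))
      mat := fun _ => 1
      isUnit_det := fun _ => by simp }
  set L : Matrix (Fin (m + 1)) (Fin (m + 1)) ℝ :=
    (1 : Matrix (Fin (m + 1)) (Fin (m + 1)) ℝ).updateRow 0
      (Fin.cons (1 : ℝ) fun i => -(α * e i))
  set x : ℕ → Fin (m + 1) → ℤ := fun n =>
    Fin.cons (z n * (D : ℤ) ^ n) fun i => ((U i : ℤ)) ^ n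
  set ex : ℕ → Fin S.card → Fin (m + 1) → ℕ := fun n l a => n * (base a).factorization (P' l)
  have hvol : ∀ n, (Pl.vol (ex n) : ℝ) = ∏ a, (base a : ℝ) ^ n := fun n => by
    have h : Pl.vol (ex n) = ∏ a, base a ^ n := by
      rw [show ∏ a, base a ^ n = ∏ a, ∏ p ∈ S, p ^ (n * (base a).factorization p) from
        prod_congr rfl fun a _ => by
          conv_lhs => rw [← prod_pow_factorization (hbase a).ne'
            (subset_biUnion_of_mem (fun a => (base a).primeFactors) (mem_univ a)), ← prod_pow]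
          exact prod_congr rfl fun p _ => by rw [← pow_mul, mul_comm],
        Finset.prod_comm, Places.vol, ← prod_coe_sort S, ← Equiv.prod_comp S.equivFin.symm]
      exact prod_congr rfl fun l _ => (prod_pow_eq_pow_sum _ _ _).symm
    rw [h]
    push_cast
    rfl
  -- the sizes
  obtain ⟨K₁, a₁, hK₁, ha₁, hPa⟩ := abs_le_geometric (mem_powerSums_of hT₀ c₀)
  set G : ℝ := (1 + a₁) * ((D : ℝ) + ∑ i, (U i : ℝ) + 1)
  have hG : 1 ≤ G := one_le_mul_of_one_le_of_one_le (le_add_of_nonneg_right ha₁.le)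
    (le_add_of_nonneg_left (by positivity))
  set K' := max K 1
  have hK' : 1 ≤ K' := le_max_right _ _
  set W := K' + |α| * K₁ + 1
  have hW : 1 ≤ W := le_add_of_nonneg_left (by positivity)
  have hlρ : 0 < -Real.log ρ := neg_pos.2 (Real.log_neg hρ0 hρ1)
  set δ := -Real.log ρ / (2 * (Real.log G + 1))
  have hlG : 0 ≤ Real.log G := Real.log_nonneg hG
  have hδ : 0 < δ := by positivity
  obtain ⟨N₀, hN₀⟩ := exists_nat_gt (2 * (δ * Real.log W + Real.log K') / -Real.log ρ)
  have hE' : {n ∈ E | N₀ ≤ n}.Infinite := fun hfin => hE ((hfin.union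
    (Set.finite_Iio N₀)).subset fun n hn => (le_or_gt N₀ n).imp (fun h => ⟨hn, h⟩) id)
  obtain ⟨v, hv, hvE⟩ := DigitComplexity.exists_infinite_hyperplane hm Pl (L := L)
    (fun h0 => by
      obtain ⟨y, hy, hy0⟩ := exists_mulVec_eq_zero_iff.2 h0
      have hs : ∀ i : Fin m, y i.succ = 0 := fun i => by
        simpa [L, mulVec, dotProduct, Matrix.one_apply, Fin.succ_ne_zero] using congrFun hy0 i.succ
      refine hy (funext fun a => ?_)
      induction a using Fin.cases with
      | zero => simpa [L, mulVec, dotProduct, Fin.sum_univ_succ, hs] using congrFun hy0 0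
      | succ i => exact hs i)
    (fun a b => by
      induction a using Fin.cases with
      | zero =>
        induction b using Fin.cases with
        | zero => simp [L, isAlgebraic_one]
        | succ i =>
          simpa [L] using (hα.mul (isAlgebraic_algebraMap (A := ℝ) (e i))).neg
      | succ i =>
        simp only [L, updateRow_ne (Fin.succ_ne_zero i), Matrix.one_apply]
        split_ifs
        · exact isAlgebraic_one
        · exact isAlgebraic_zero)
    hδ hE' x ex
    (fun n _ h => (pow_pos (hbase (Fin.succ ⟨0, hm⟩)) n).ne' (by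
      have h' := congrFun h (Fin.succ ⟨0, hm⟩)
      simp only [x, Fin.cons_succ, Pi.zero_apply] at h'
      simp only [base, Fin.cons_succ]
      exact_mod_cast h'))
    (fun n _ l a => by
      show (P' l : ℤ) ^ ex n l a ∣ ((1 : Matrix (Fin (m + 1)) (Fin (m + 1)) ℤ) *ᵥ x n) a
      rw [one_mulVec]
      refine dvd_trans ?_ (show ((base a : ℤ)) ^ n ∣ x n a by
        induction a using Fin.cases with
        | zero => exact ⟨z n, by simp [x, base, mul_comm]⟩
        | succ i => simp [x, base])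
      simp only [ex]
      rw [mul_comm, pow_mul, ← Nat.cast_pow]
      exact pow_dvd_pow_of_dvd (Int.natCast_dvd_natCast.2 (Nat.ordProj_dvd _ _)) n)
    fun n hn => by
      have hn' := hz n hn.1
      set X := ‖castVec (x n)‖
      have hX0 : 0 < X := norm_pos_iff.2 fun h =>
        pow_ne_zero n (Int.natCast_ne_zero.2 (hbase (Fin.succ ⟨0, hm⟩)).ne')
          (Int.cast_eq_zero.1 (congrFun h (Fin.succ ⟨0, hm⟩)))
      have hXW : X ≤ W * G ^ n := (pi_norm_le_iff_of_nonneg (by positivity)).2 fun a => by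
        rw [Real.norm_eq_abs]
        induction a using Fin.cases with
        | zero =>
          simp only [castVec, x, Fin.cons_zero, Int.cast_mul, Int.cast_pow, Int.cast_natCast,
            abs_mul, abs_pow, Nat.abs_cast, G, mul_pow]
          rw [← mul_assoc]
          refine mul_le_mul ?_ (pow_le_pow_left₀ (Nat.cast_nonneg D)
            (le_add_of_le_of_nonneg (le_add_of_nonneg_right (by positivity)) zero_le_one) n)
            (by positivity) (by positivity)
          have h1 : |(z n : ℝ)| ≤ K * ρ ^ n + |α| * |(P n : ℝ)| := by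
            have h := abs_sub_abs_le_abs_sub (z n : ℝ) (α * P n)
            rw [abs_mul] at h
            linarith
          have h2 : |(P n : ℝ)| ≤ K₁ * (1 + a₁) ^ n := by
            rw [hP n]
            exact (hPa n).trans (mul_le_mul_of_nonneg_left
              (pow_le_pow_left₀ ha₁.le (le_add_of_nonneg_left zero_le_one) n) hK₁)
          have h3 : K * ρ ^ n ≤ K' * (1 + a₁) ^ n :=
            (mul_le_mul_of_nonneg_right (le_max_left K 1) (by positivity)).trans
              (mul_le_mul_of_nonneg_left (pow_le_pow_left₀ hρ0.le (by linarith) n) (by positivity))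
          have h4 := mul_le_mul_of_nonneg_left h2 (abs_nonneg α)
          have h5 : 0 ≤ (1 + a₁) ^ n := by positivity
          simp only [W, add_mul]
          linarith
        | succ i =>
          simp only [castVec, x, Fin.cons_succ, Int.cast_pow, Int.cast_natCast, abs_pow,
            Nat.abs_cast]
          refine le_trans (pow_le_pow_left₀ (Nat.cast_nonneg _) (le_trans ?_
            (le_mul_of_one_le_left (by positivity) (le_add_of_nonneg_right ha₁.le))) n)
            (le_mul_of_one_le_left (by positivity) hW)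
          exact le_add_of_le_of_nonneg (le_add_of_nonneg_of_le (Nat.cast_nonneg D)
            (single_le_sum (f := fun i => (U i : ℝ)) (fun _ _ => Nat.cast_nonneg _) (mem_univ i)))
            zero_le_one
      have hx : ∀ i : Fin m, ∑ c, L i.succ c * (x n c : ℝ) = (U i : ℝ) ^ n := fun i => by
        simp [L, x, Matrix.one_apply, Fin.succ_ne_zero]
      have hx0 : ∑ c, L 0 c * (x n c : ℝ) = (D : ℝ) ^ n * ((z n : ℝ) - α * P n) := by
        simp only [L, updateRow_self, Fin.sum_univ_succ, Fin.cons_zero, Fin.cons_succ, x, hPe n]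
        push_cast
        rw [mul_sub, mul_sum, mul_sum, one_mul, sub_eq_add_neg, ← sum_neg_distrib]
        refine congrArg₂ _ (mul_comm _ _) (sum_congr rfl fun i _ => ?_)
        rw [show (U i : ℝ) = D * τ i by exact_mod_cast congrArg (fun q : ℚ => (q : ℝ)) (hU i),
          mul_pow]
        ring
      rw [hvol, Fin.prod_univ_succ, hx0, Fin.prod_univ_succ]
      simp only [hx, base, Fin.cons_zero, Fin.cons_succ, abs_mul, abs_pow, Nat.abs_cast]
      rw [mul_assoc, mul_assoc]
      refine mul_lt_mul_of_pos_left ?_ (pow_pos (Nat.cast_pos.2 hD) n)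
      rw [mul_comm]
      refine mul_lt_mul_of_pos_left (lt_of_le_of_lt (hn'.trans (mul_le_mul_of_nonneg_right
        (le_max_left K 1) (by positivity))) ?_) (prod_pos fun i _ => pow_pos (Nat.cast_pos.2
          (hbase i.succ)) n)
      have hlt := hN₀.trans_le (Nat.cast_le.2 hn.2)
      rw [div_lt_iff₀ hlρ] at hlt
      have h1 := Real.log_le_log hX0 hXW
      rw [Real.log_mul (by positivity) (by positivity), Real.log_pow] at h1
      have h2 := mul_le_mul_of_nonneg_left h1 hδ.le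
      have h3 : δ * Real.log G * n ≤ -Real.log ρ / 2 * n := by
        refine mul_le_mul_of_nonneg_right ?_ (Nat.cast_nonneg n)
        rw [div_mul_eq_mul_div, div_le_iff₀ (by positivity)]
        linarith
      rw [← Real.log_lt_log_iff (by positivity) (Real.rpow_pos_of_pos hX0 _), Real.log_rpow hX0,
        Real.log_mul (by positivity) (by positivity), Real.log_pow]
      linarith
  -- read off the power sum
  have hrel : ∀ n ∈ {n ∈ {n ∈ E | N₀ ≤ n} | v ⬝ᵥ x n = 0},
      (v 0 : ℚ) * (z n : ℚ) + ∑ i, (v i.succ : ℚ) * τ i ^ n = 0 := fun n hn => by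
    have h := hn.2
    simp only [dotProduct, Fin.sum_univ_succ, x, Fin.cons_zero, Fin.cons_succ] at h
    have h' : (v 0 : ℚ) * ((z n : ℚ) * (D : ℚ) ^ n) + ∑ i, (v i.succ : ℚ) * (U i : ℚ) ^ n = 0 := by
      exact_mod_cast h
    refine (mul_eq_zero.1 (?_ : (D : ℚ) ^ n * _ = 0)).resolve_left
      (pow_ne_zero n (Nat.cast_ne_zero.2 hD.ne'))
    rw [← h', mul_add, mul_sum]
    simp only [hU, mul_pow]
    refine congrArg₂ _ (by ring) (sum_congr rfl fun i _ => by ring)
  have hgen : ∀ w : Fin m → ℚ, (fun n => ∑ i, w i * τ i ^ n) ∈ powerSums := fun w => by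
    rw [show (fun n => ∑ i, w i * τ i ^ n) = ∑ i, w i • fun n : ℕ => τ i ^ n from
      funext fun n => by simp [Finset.sum_apply]]
    exact sum_mem fun i _ => powerSums.smul_mem (geo_mem (hτ i)) _
  have hv0 : v 0 ≠ 0 := fun h0 => by
    have hzero : (fun n => ∑ i, (v i.succ : ℚ) * τ i ^ n) = 0 :=
      eq_zero_of_infinite (hgen _) (hvE.mono fun n hn => by simpa [h0] using hrel n hn)
    have hV : (Matrix.vandermonde τ)ᵀ *ᵥ (fun i => (v i.succ : ℚ)) = 0 := funext fun j => by
      simpa [mulVec, dotProduct, vandermonde_apply, mul_comm] using congrFun hzero (j : ℕ)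
    have h := eq_zero_of_mulVec_eq_zero (by
      rw [det_transpose]; exact det_vandermonde_ne_zero_iff.2 hτinj) hV
    refine hv (funext fun a => ?_)
    induction a using Fin.cases with
    | zero => exact h0
    | succ i => exact Int.cast_eq_zero.1 (congrFun h i)
  refine ⟨fun n => ∑ i, (-(v i.succ : ℚ) / v 0) * τ i ^ n, hgen _,
    hvE.mono fun n hn => ⟨hn.1.1, ?_⟩⟩
  have h := hrel n hn
  have h0 : (v 0 : ℚ) ≠ 0 := Int.cast_ne_zero.2 hv0
  rw [← mul_right_inj' h0, mul_sum, eq_neg_of_add_eq_zero_left h, ← sum_neg_distrib]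
  exact sum_congr rfl fun i _ => by field_simp

/-- **The Hadamard quotient theorem** for positive rational roots. -/
theorem exists_quotient {G H : ℕ → ℚ} (hG : G ∈ powerSums) (hH : H ∈ powerSums)
    (hinf : {n | H n ≠ 0 ∧ ∃ k : ℤ, G n = H n * k}.Infinite) :
    ∃ P ∈ powerSums, ∀ n, G n = H n * P n := by
  have hH0 : H ≠ 0 := fun e => hinf ((Set.finite_empty).subset fun n hn => absurd (by simp [e]) hn.1)
  choose! z hz using fun n (hn : n ∈ {n | H n ≠ 0 ∧ ∃ k : ℤ, G n = H n * k}) => hn.2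
  obtain ⟨b, c, ε, hεm, hb, hc, hHe, K, θ, hθ0, hθ1, hε⟩ := exists_dominant hH hH0
  obtain ⟨K₁, a, hK₁, ha, hGa⟩ := abs_le_geometric hG
  have hbR : (0 : ℝ) < b := Rat.cast_pos.2 hb
  have hcR : (c : ℝ) ≠ 0 := Rat.cast_ne_zero.2 hc
  obtain ⟨ρ', hρ', hρ'1, hθρ⟩ : ∃ ρ' : ℝ, 0 < ρ' ∧ ρ' < 1 ∧ θ ≤ ρ' :=
    ⟨max θ (1 / 2), lt_max_of_lt_right (by norm_num), max_lt hθ1 (by norm_num), le_max_left _ _⟩
  obtain ⟨J, hJ⟩ := exists_pow_lt_of_lt_one (show 0 < (b : ℝ) / a by positivity) hρ'1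
  set ρ := a * ρ' ^ J / b
  have hρ0 : 0 < ρ := by positivity
  have hρ1 : ρ < 1 := by
    simp only [ρ]
    rw [div_lt_one hbR]
    rw [lt_div_iff₀ ha] at hJ
    linarith
  have hev : ∀ᶠ n in atTop, K * θ ^ n < 1 / 2 := by
    refine Tendsto.eventually_lt_const (v := 0) (by norm_num) ?_
    simpa using (tendsto_pow_atTop_nhds_zero_of_lt_one hθ0 hθ1).const_mul K
  obtain ⟨N, hN⟩ := eventually_atTop.1 hev
  set E := {n | (H n ≠ 0 ∧ ∃ k : ℤ, G n = H n * k) ∧ N ≤ n}
  have hE : E.Infinite := fun hfin => hinf ((hfin.union (Set.finite_Iio N)).subset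
    fun n hn => (le_or_gt N n).imp (fun h => ⟨hn, h⟩) id)
  set P₀ : ℕ → ℚ := (c⁻¹ • fun n => b⁻¹ ^ n) * G * ∑ i ∈ range J, (-ε) ^ i
  have hP₀ : P₀ ∈ powerSums := mul_mem (mul_mem (powerSums.smul_mem (geo_mem (inv_pos.2 hb)) _) hG)
    (sum_mem fun i _ => pow_mem (neg_mem hεm) i)
  obtain ⟨Q, hQ, hQE⟩ := exists_powerSum_of_approx hP₀ (α := 1) isAlgebraic_one
    (K := K₁ * |K| ^ J * 2 / |(c : ℝ)|) hρ0 hρ1 hE z fun n hn => by
      have hεn : |(ε n : ℝ)| ≤ |K| * θ ^ n :=
        (hε n).trans (mul_le_mul_of_nonneg_right (le_abs_self K) (by positivity))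
      have hhalf : |(ε n : ℝ)| ≤ 1 / 2 := (hε n).trans (hN n hn.2).le
      have h1 : (1 : ℝ) / 2 ≤ |1 + (ε n : ℝ)| := by
        have := neg_abs_le (ε n : ℝ)
        exact le_trans (by linarith) (le_abs_self _)
      have hne : (1 : ℝ) + ε n ≠ 0 := fun e => by rw [e, abs_zero] at h1; linarith
      have hz' : (z n : ℝ) = G n / ((c : ℝ) * b ^ n * (1 + ε n)) := by
        rw [eq_div_iff (by positivity)]
        have h := congrArg (fun q : ℚ => (q : ℝ)) (hz n hn.1)
        rw [hHe] at h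
        push_cast at h
        linarith
      have hP : (P₀ n : ℝ) = G n / ((c : ℝ) * b ^ n) * ∑ i ∈ range J, (-(ε n : ℝ)) ^ i := by
        simp only [P₀, Pi.mul_apply, Pi.smul_apply, smul_eq_mul, Finset.sum_apply, Pi.pow_apply,
          Pi.neg_apply]
        push_cast
        rw [inv_pow, div_eq_mul_inv, mul_inv]
        ring
      have hgeo := geom_sum_mul (-(ε n : ℝ)) J
      rw [one_mul, hP, hz', show G n / ((c : ℝ) * b ^ n * (1 + ε n)) -
          G n / ((c : ℝ) * b ^ n) * ∑ i ∈ range J, (-(ε n : ℝ)) ^ i =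
          G n / ((c : ℝ) * b ^ n) * ((-(ε n : ℝ)) ^ J / (1 + ε n)) by
        field_simp
        linear_combination (G n : ℝ) * hgeo]
      rw [abs_mul, abs_div, abs_div, abs_mul, abs_pow, abs_pow, abs_neg, abs_of_pos hbR]
      calc |(G n : ℝ)| / (|(c : ℝ)| * (b : ℝ) ^ n) * (|(ε n : ℝ)| ^ J / |1 + (ε n : ℝ)|)
          ≤ K₁ * a ^ n / (|(c : ℝ)| * (b : ℝ) ^ n) * ((|K| * ρ' ^ n) ^ J / (1 / 2)) := by
            refine mul_le_mul (div_le_div_of_nonneg_right (hGa n) (by positivity))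
              (div_le_div₀ (by positivity) (pow_le_pow_left₀ (abs_nonneg _) (hεn.trans
                (mul_le_mul_of_nonneg_left (pow_le_pow_left₀ hθ0 hθρ n) (abs_nonneg K))) J)
                (by norm_num) h1) (by positivity) (by positivity)
        _ = K₁ * |K| ^ J * 2 / |(c : ℝ)| * ρ ^ n := by
            simp only [ρ, div_pow, mul_pow, ← pow_mul, mul_comm J n]
            field_simp
  refine ⟨Q, hQ, fun n => sub_eq_zero.1 (congrFun (eq_zero_of_infinite (f := G - H * Q)
    (sub_mem hG (mul_mem hH hQ)) (hQE.mono fun n hn => ?_)) n)⟩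
  show G n - H n * Q n = 0
  rw [hz n hn.1.1, hn.2, sub_self]

/-- Truncated binomial series of exponent `1 / d`. -/
theorem exists_root_poly {d : ℕ} (hd : 0 < d) : ∀ J : ℕ,
    ∃ Q R : Polynomial ℚ, Q.coeff 0 = 1 ∧
      Q ^ d - (1 + Polynomial.X) = Polynomial.X ^ (J + 1) * R := by
  intro J
  induction J with
  | zero =>
    refine ⟨1, -1, by simp, ?_⟩
    rw [one_pow]; ring
  | succ J ih =>
    obtain ⟨Q, R, h0, h⟩ := ih
    set q := Polynomial.C (-R.coeff 0 / d) * Polynomial.X ^ (J + 1)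
    have hq0 : q.coeff 0 = 0 := by simp [q]
    obtain ⟨R', hR'⟩ : Polynomial.X ^ (J + 2) ∣ (Q + q) ^ d - (1 + Polynomial.X) := by
      obtain ⟨k, hk⟩ := (Polynomial.X ^ d : Polynomial (Polynomial ℚ)).binomExpansion Q q
      simp only [Polynomial.eval_pow, Polynomial.eval_X, Polynomial.derivative_X_pow,
        Polynomial.eval_mul, Polynomial.eval_C] at hk
      rw [hk, show Q ^ d + (d : Polynomial ℚ) * Q ^ (d - 1) * q + k * q ^ 2 -
          (1 + Polynomial.X) = (Q ^ d - (1 + Polynomial.X)) +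
            ((d : Polynomial ℚ) * Q ^ (d - 1) * q) + k * q ^ 2 by ring, h]
      refine dvd_add ?_ ⟨k * Polynomial.C (-R.coeff 0 / d) ^ 2 * Polynomial.X ^ J, by
        simp only [q]; ring⟩
      rw [show Polynomial.X ^ (J + 1) * R + (d : Polynomial ℚ) * Q ^ (d - 1) * q =
        Polynomial.X ^ (J + 1) * (R + (d : Polynomial ℚ) * Q ^ (d - 1) *
          Polynomial.C (-R.coeff 0 / d)) by simp only [q]; ring, pow_succ _ (J + 1)]
      refine mul_dvd_mul_left _ (Polynomial.X_dvd_iff.2 ?_)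
      simp only [Polynomial.coeff_add, Polynomial.mul_coeff_zero, Polynomial.coeff_natCast_ite,
        if_true, Polynomial.coeff_C_zero, Polynomial.coeff_zero_eq_eval_zero (Q ^ (d - 1)),
        Polynomial.eval_pow, ← Polynomial.coeff_zero_eq_eval_zero Q, h0, one_pow]
      have : (d : ℚ) ≠ 0 := Nat.cast_ne_zero.2 hd.ne'
      field_simp
      ring
    exact ⟨Q + q, R', by simp [h0, hq0], hR'⟩

theorem abs_eval_le (p : Polynomial ℚ) {e : ℚ} (he : |(e : ℝ)| ≤ 1) :
    |((p.eval e : ℚ) : ℝ)| ≤ ∑ i ∈ p.support, |(p.coeff i : ℝ)| := by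
  rw [Polynomial.eval_eq_sum, Polynomial.sum_def]
  push_cast
  refine (abs_sum_le_sum_abs _ _).trans (sum_le_sum fun i _ => ?_)
  rw [abs_mul, abs_pow]
  exact mul_le_of_le_one_right (abs_nonneg _) (pow_le_one₀ (abs_nonneg _) he)

theorem comp_shift_mem {G : ℕ → ℚ} (hG : G ∈ powerSums) (d r : ℕ) :
    (fun k => G (r + d * k)) ∈ powerSums := by
  obtain ⟨T, hT, c, -, hG⟩ := exists_terms hG
  rw [show (fun k => G (r + d * k)) = ∑ t ∈ T, (c t * t ^ r) • fun k : ℕ => (t ^ d) ^ k from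
    funext fun k => by simp [hG, Finset.sum_apply, pow_add, pow_mul, mul_assoc]]
  exact sum_mem fun t ht => powerSums.smul_mem (geo_mem (pow_pos (hT t ht) d)) _

/-- The roots for a positive leading coefficient. -/
theorem exists_root_aux {d : ℕ} (hd : 0 < d) {G ε : ℕ → ℚ} (hG : G ∈ powerSums)
    (hεm : ε ∈ powerSums) {b c : ℚ} (hb : 0 < b) (hc : 0 < c)
    (hGe : ∀ k, G k = c * (b ^ d) ^ k * (1 + ε k)) {K θ : ℝ} (hθ0 : 0 ≤ θ) (hθ1 : θ < 1)
    (hε : ∀ k, |(ε k : ℝ)| ≤ K * θ ^ k) (hinf : {k | ∃ z : ℤ, G k = (z : ℚ) ^ d}.Infinite) :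
    ∃ P ∈ powerSums, ∀ k, G k = P k ^ d := by
  choose! z hz using fun k (hk : k ∈ {k | ∃ z : ℤ, G k = (z : ℚ) ^ d}) => hk
  have hbR : (0 : ℝ) < b := Rat.cast_pos.2 hb
  have hcR : (0 : ℝ) < c := Rat.cast_pos.2 hc
  set A := (c : ℝ) ^ ((d : ℝ)⁻¹)
  have hA : A ^ d = c := Real.rpow_inv_natCast_pow hcR.le hd.ne'
  have hA0 : 0 < A := Real.rpow_pos_of_pos hcR _
  have hAalg : IsAlgebraic ℚ A := IsAlgebraic.of_pow hd (by rw [hA]; exact isAlgebraic_algebraMap c)
  obtain ⟨ρ', hρ', hρ'1, hθρ⟩ : ∃ ρ' : ℝ, 0 < ρ' ∧ ρ' < 1 ∧ θ ≤ ρ' :=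
    ⟨max θ (1 / 2), lt_max_of_lt_right (by norm_num), max_lt hθ1 (by norm_num), le_max_left _ _⟩
  obtain ⟨J, hJ⟩ := exists_pow_lt_of_lt_one (inv_pos.2 hbR) hρ'1
  set ρ := (b : ℝ) * ρ' ^ (J + 1)
  have hρ0 : 0 < ρ := by positivity
  have hρ1 : ρ < 1 := by
    calc ρ ≤ (b : ℝ) * ρ' ^ J := mul_le_mul_of_nonneg_left
          (pow_le_pow_of_le_one hρ'.le hρ'1.le (Nat.le_succ J)) hbR.le
      _ < (b : ℝ) * (b : ℝ)⁻¹ := mul_lt_mul_of_pos_left hJ hbR
      _ = 1 := mul_inv_cancel₀ hbR.ne'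
  obtain ⟨Qp, Rp, hQ0, hQR⟩ := exists_root_poly hd J
  obtain ⟨Q', hQ'⟩ : Polynomial.X ∣ Qp - 1 := Polynomial.X_dvd_iff.2 (by simp [hQ0])
  set R₀ := ∑ i ∈ Rp.support, |(Rp.coeff i : ℝ)|
  set R₁ := ∑ i ∈ Q'.support, |(Q'.coeff i : ℝ)|
  set W := ((2 : ℝ) ^ d) * R₀ * |K| ^ (J + 1)
  have ht : Tendsto (fun k : ℕ => max |K| (|K| * R₁) * ρ' ^ k) atTop (𝓝 0) := by
    simpa using (tendsto_pow_atTop_nhds_zero_of_lt_one hρ'.le hρ'1).const_mul (max |K| (|K| * R₁))
  obtain ⟨N, hN⟩ := eventually_atTop.1 (ht.eventually_lt_const (show (0 : ℝ) < 1 / 2 by norm_num))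
  set E := {k | (∃ z : ℤ, G k = (z : ℚ) ^ d) ∧ N ≤ k}
  have hE : E.Infinite := fun hfin => hinf ((hfin.union (Set.finite_Iio N)).subset
    fun k hk => (le_or_gt N k).imp (fun h => ⟨hk, h⟩) id)
  have hQm : (fun k => Qp.eval (ε k)) ∈ powerSums := by
    rw [show (fun k => Qp.eval (ε k)) = ∑ i ∈ Qp.support, Qp.coeff i • ε ^ i from funext fun k => by
      rw [Polynomial.eval_eq_sum, Polynomial.sum_def, Finset.sum_apply]
      simp]
    exact sum_mem fun i _ => powerSums.smul_mem (pow_mem hεm i) _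
  set P₀ : ℕ → ℚ := (fun k => b ^ k) * fun k => Qp.eval (ε k)
  obtain ⟨Q, hQ, hQE⟩ := exists_powerSum_of_approx (P := P₀) (mul_mem (geo_mem hb) hQm) hAalg
    (K := A * W) hρ0 hρ1 hE (fun k => |z k|) fun k hk => by
      have hεk : |(ε k : ℝ)| ≤ |K| * ρ' ^ k := (hε k).trans (mul_le_mul (le_abs_self K)
        (pow_le_pow_left₀ hθ0 hθρ k) (by positivity) (abs_nonneg K))
      have hNk := hN k hk.2
      have hhalf : |(ε k : ℝ)| ≤ 1 / 2 := hεk.trans ((mul_le_mul_of_nonneg_right
        (le_max_left _ (|K| * R₁)) (by positivity)).trans hNk.le)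
      set Y : ℝ := ((Qp.eval (ε k) : ℚ) : ℝ)
      set u : ℝ := |(z k : ℝ)| / (A * (b : ℝ) ^ k)
      have hu0 : 0 ≤ u := by positivity
      have hud : u ^ d = 1 + ε k := by
        have h := congrArg (fun q : ℚ => (q : ℝ)) ((hGe k).symm.trans (hz k hk.1))
        push_cast at h
        simp only [u]
        rw [div_pow, ← abs_pow, ← h, mul_pow, hA, ← pow_mul (b : ℝ) k d, mul_comm k d, pow_mul,
          abs_of_pos (mul_pos (by positivity) (by linarith [neg_abs_le (ε k : ℝ)]))]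
        field_simp
      have hY : |Y ^ d - u ^ d| ≤ |(ε k : ℝ)| ^ (J + 1) * R₀ := by
        have h := congrArg (fun p => ((Polynomial.eval (ε k) p : ℚ) : ℝ)) hQR
        simp only [Polynomial.eval_sub, Polynomial.eval_pow, Polynomial.eval_add,
          Polynomial.eval_one, Polynomial.eval_X, Polynomial.eval_mul] at h
        push_cast at h
        rw [hud, show Y ^ d - (1 + (ε k : ℝ)) = _ from h, abs_mul, abs_pow]
        refine mul_le_mul_of_nonneg_left ?_ (by positivity)
        exact abs_eval_le Rp (hhalf.trans (by norm_num))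
      have hu : (1 : ℝ) / 2 ≤ u := by
        by_contra! hlt
        have := (pow_le_of_le_one hu0 (hlt.le.trans (by norm_num)) hd.ne').trans_lt hlt
        rw [hud] at this
        linarith [neg_abs_le (ε k : ℝ)]
      have hp : 0 ≤ |K| * ρ' ^ k := by positivity
      have hsmall : |(ε k : ℝ)| ^ (J + 1) * R₀ * 2 ^ d ≤ W * ρ' ^ (k * (J + 1)) := by
        simp only [W]
        rw [pow_mul, mul_assoc ((2 : ℝ) ^ d * R₀), ← mul_pow]
        refine le_of_le_of_eq (mul_le_mul_of_nonneg_right (mul_le_mul_of_nonneg_right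
          (pow_le_pow_left₀ (abs_nonneg _) hεk _) (by positivity)) (by positivity)) ?_
        ring
      have hYpos : 0 ≤ Y := by
        have h := congrArg (fun p => ((Polynomial.eval (ε k) p : ℚ) : ℝ)) hQ'
        simp only [Polynomial.eval_sub, Polynomial.eval_one, Polynomial.eval_X,
          Polynomial.eval_mul] at h
        push_cast at h
        have hs : |(ε k : ℝ) * ((Q'.eval (ε k) : ℚ) : ℝ)| ≤ 1 / 2 := by
          rw [abs_mul]
          refine (mul_le_mul hεk (abs_eval_le Q' (hhalf.trans (by norm_num))) (abs_nonneg _)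
            (by positivity)).trans (le_trans ?_ hNk.le)
          rw [mul_right_comm]
          exact mul_le_mul_of_nonneg_right (le_max_right _ _) (by positivity)
        linarith [(abs_le.1 hs).1]
      have hdiff : |u - Y| * (1 / 2) ^ (d - 1) ≤ |Y ^ d - u ^ d| := by
        rw [abs_sub_comm (Y ^ d), ← geom_sum₂_mul u Y d, abs_mul, mul_comm]
        refine mul_le_mul_of_nonneg_right ?_ (abs_nonneg _)
        rw [abs_of_nonneg (sum_nonneg fun i _ => by positivity)]
        refine le_trans ?_ (single_le_sum (f := fun i => u ^ i * Y ^ (d - 1 - i))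
          (fun i _ => by positivity) (mem_range.2 (show d - 1 < d by omega)))
        rw [Nat.sub_self, pow_zero, mul_one]
        exact pow_le_pow_left₀ (by norm_num) hu _
      push_cast
      rw [show |(z k : ℝ)| = A * (b : ℝ) ^ k * u by simp only [u]; field_simp,
        show A * (P₀ k : ℝ) = A * (b : ℝ) ^ k * Y by simp [P₀, Y, mul_assoc], ← mul_sub,
        abs_mul, abs_of_pos (by positivity : (0 : ℝ) < A * (b : ℝ) ^ k),
        show A * W * ρ ^ k = A * (b : ℝ) ^ k * (W * ρ' ^ (k * (J + 1))) by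
          simp only [ρ, mul_pow, ← pow_mul, mul_comm k (J + 1)]; ring]
      refine mul_le_mul_of_nonneg_left (le_trans ?_ hsmall) (by positivity)
      have h2 : (1 : ℝ) ≤ (1 / 2) ^ (d - 1) * 2 ^ d := by
        rw [show d = d - 1 + 1 by omega, Nat.add_sub_cancel, pow_succ (2 : ℝ), ← mul_assoc,
          ← mul_pow]
        norm_num
      calc |u - Y| ≤ |u - Y| * ((1 / 2) ^ (d - 1) * 2 ^ d) :=
            le_mul_of_one_le_right (abs_nonneg _) h2
        _ = |u - Y| * (1 / 2) ^ (d - 1) * 2 ^ d := by ring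
        _ ≤ _ := mul_le_mul_of_nonneg_right (hdiff.trans hY) (by positivity)
  refine ⟨Q, hQ, fun k => sub_eq_zero.1 (congrFun (eq_zero_of_infinite (f := G - Q ^ d)
    (sub_mem hG (pow_mem hQ d)) (hQE.mono fun k hk => ?_)) k)⟩
  have hG0 : 0 ≤ G k := by
    have h1 : (0 : ℝ) ≤ 1 + ε k := by
      have h2 := (hε k).trans ((mul_le_mul (le_abs_self K) (pow_le_pow_left₀ hθ0 hθρ k)
        (by positivity) (abs_nonneg K)).trans ((mul_le_mul_of_nonneg_right
        (le_max_left _ (|K| * R₁)) (by positivity)).trans (hN k hk.1.2).le))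
      linarith [neg_abs_le (ε k : ℝ)]
    have h3 : (0 : ℚ) ≤ 1 + ε k := by exact_mod_cast h1
    rw [hGe k]
    positivity
  show G k - Q k ^ d = 0
  rw [← hk.2, Int.cast_abs, ← abs_pow, ← hz k hk.1.1, abs_of_nonneg hG0, sub_self]

/-- **Pisot's root conjecture** along a progression. -/
theorem exists_root_progression {d : ℕ} (hd : 0 < d) {G : ℕ → ℚ} (hG : G ∈ powerSums) (r : ℕ)
    (hinf : {k | ∃ z : ℤ, G (r + d * k) = (z : ℚ) ^ d}.Infinite) :
    ∃ P ∈ powerSums, ∀ k, G (r + d * k) = P k ^ d := by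
  rcases eq_or_ne G 0 with rfl | hne
  · exact ⟨0, zero_mem _, fun k => by simp [zero_pow hd.ne']⟩
  obtain ⟨b, c, ε, hεm, hb, hc, hGe, K, θ, hθ0, hθ1, hε⟩ := exists_dominant hG hne
  have hGr : ∀ k, G (r + d * k) = c * b ^ r * (b ^ d) ^ k * (1 + ε (r + d * k)) := fun k => by
    rw [hGe, pow_add, pow_mul]; ring
  have hεr : ∀ k, |(ε (r + d * k) : ℝ)| ≤ K * θ ^ r * (θ ^ d) ^ k := fun k =>
    (hε _).trans_eq (by rw [pow_add, pow_mul, mul_assoc])
  have hθd : θ ^ d < 1 := pow_lt_one₀ hθ0 hθ1 hd.ne'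
  rcases hc.lt_or_gt with hcn | hcp
  · rcases Nat.even_or_odd d with hev | hodd
    · -- negative and a power of even exponent
      have ht : Tendsto (fun n : ℕ => K * θ ^ n) atTop (𝓝 0) := by
        simpa using (tendsto_pow_atTop_nhds_zero_of_lt_one hθ0 hθ1).const_mul K
      obtain ⟨N, hN⟩ := eventually_atTop.1 (ht.eventually_lt_const (one_pos : (0 : ℝ) < 1))
      obtain ⟨k, ⟨z, hz⟩, hk⟩ := hinf.exists_gt N
      have hNk : N ≤ r + d * k := hk.le.trans (le_add_left (Nat.le_mul_of_pos_left k hd))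
      have h1 : (0 : ℚ) < 1 + ε (r + d * k) := by
        have : (0 : ℝ) < 1 + ε (r + d * k) := by
          linarith [neg_abs_le (ε (r + d * k) : ℝ), hε (r + d * k), hN _ hNk]
        exact_mod_cast this
      have h2 : G (r + d * k) < 0 := by
        rw [hGe]
        exact mul_neg_of_neg_of_pos (mul_neg_of_neg_of_pos hcn (by positivity)) h1
      exact absurd (hz ▸ hev.pow_nonneg (z : ℚ)) (not_le.2 h2)
    · obtain ⟨P, hP, hPG⟩ := exists_root_aux hd (G := fun k => -G (r + d * k))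
        (neg_mem (comp_shift_mem hG d r)) (comp_shift_mem hεm d r) hb (c := -c * b ^ r)
        (mul_pos (neg_pos.2 hcn) (pow_pos hb r)) (fun k => by rw [hGr]; ring)
        (pow_nonneg hθ0 d) hθd hεr
        (hinf.mono fun k hk => hk.elim fun z hz => ⟨-z, by rw [Int.cast_neg, hodd.neg_pow, hz]⟩)
      exact ⟨-P, neg_mem hP, fun k => by
        rw [Pi.neg_apply, hodd.neg_pow, ← hPG k, neg_neg]⟩
  · exact exists_root_aux hd (comp_shift_mem hG d r) (comp_shift_mem hεm d r) hb
      (mul_pos hcp (pow_pos hb r)) hGr (pow_nonneg hθ0 d) hθd hεr hinf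

/-- **Pisot's root conjecture** for positive rational roots. -/
theorem exists_root {d : ℕ} (hd : 0 < d) {G : ℕ → ℚ} (hG : G ∈ powerSums)
    (hinf : {n | ∃ z : ℤ, G n = (z : ℚ) ^ d}.Infinite) :
    ∃ r < d, ∃ P ∈ powerSums, ∀ k, G (r + d * k) = P k ^ d := by
  obtain ⟨r, hr, hrinf⟩ :
      ∃ r < d, {k | ∃ z : ℤ, G (r + d * k) = (z : ℚ) ^ d}.Infinite := by
    by_contra! h
    have hfin : (⋃ r ∈ Set.Iio d,
        (fun k => r + d * k) '' {k | ∃ z : ℤ, G (r + d * k) = (z : ℚ) ^ d}).Finite :=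
      (Set.finite_Iio d).biUnion fun r hr => (h r hr).image _
    refine hinf (hfin.subset fun n hn =>
      Set.mem_iUnion₂.2 ⟨n % d, Nat.mod_lt n hd, n / d, ?_, Nat.mod_add_div n d⟩)
    rwa [Set.mem_ofPred_eq, Nat.mod_add_div]
  exact ⟨r, hr, exists_root_progression hd hG r hrinf⟩

end FA.Subspace

end
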