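import Mathlib.Analysis.SpecificLimits.Basic
import Mathlib.LinearAlgebra.Matrix.Charpoly.Minpoly
import Mathlib.NumberTheory.NumberField.Basic
import Mathlib.NumberTheory.Padics.RingHoms
import Mathlib.Algebra.Algebra.ZMod
import Mathlib.Algebra.Field.ZMod
import Mathlib.LinearAlgebra.FreeModule.IdealQuotient
import Mathlib.RingTheory.DedekindDomain.AdicValuation
import Mathlib.RingTheory.DedekindDomain.Factorization
import Mathlib.RingTheory.Ideal.Norm.AbsNorm
import Mathlib.RingTheory.Polynomial.GaussLemma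

/-!
# Coordinates at a prime of a number field

For a prime `P` over `p` with ramification index `e` and residues a space with basis `ω b`, the
numbers `π ^ a * ω b`, `a < e`, give coordinates in `ℤ_p`: an integer lies in `P ^ k` iff the
coordinate at `(a, b)` is divisible by `p ^ ((k + (e - 1 - a)) / e)`, whose product over all
`(a, b)` is `N(P) ^ k`. These coordinates have algebraic values, multiplication acting by matrices
with algebraic entries.
-/

set_option autoImplicit false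
set_option linter.style.haveILetI false

noncomputable section

namespace FA.Subspace

open Finset Matrix NumberField IsDedekindDomain WithZero

/-- The exponents of the conditions at the coordinates for the power `k`. -/
def stepExp (e : ℕ) (k : ℕ) (a : Fin e) : ℕ := (k + (e - 1 - (a : ℕ))) / e

theorem sum_div_range {e : ℕ} (he : 0 < e) (k : ℕ) : ∑ a ∈ range e, (k + a) / e = k := by
  induction k with
  | zero => exact sum_eq_zero fun a ha => by simp [Nat.div_eq_of_lt (mem_range.1 ha)]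
  | succ k ih =>
    have h : ∑ a ∈ range e, (k + 1 + a) / e + k / e = ∑ a ∈ range (e + 1), (k + a) / e := by
      rw [sum_range_succ']
      simp [add_comm, add_left_comm, add_assoc]
    rw [sum_range_succ, ih, Nat.add_div_right _ he] at h
    omega

theorem sum_stepExp {e : ℕ} (he : 0 < e) (k : ℕ) : ∑ a : Fin e, stepExp e k a = k := by
  simp only [stepExp, ← Fin.sum_univ_eq_sum_range fun a => (k + (e - 1 - a)) / e]
  rw [Fin.sum_univ_eq_sum_range fun a => (k + (e - 1 - a)) / e,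
    sum_range_reflect (fun a => (k + a) / e) e, sum_div_range he]

theorem le_mul_stepExp_add {e : ℕ} (k : ℕ) (a : Fin e) : k ≤ e * stepExp e k a + a := by
  have h := a.isLt
  have h1 := Nat.div_add_mod (k + (e - 1 - (a : ℕ))) e
  have h2 := Nat.mod_lt (k + (e - 1 - (a : ℕ))) (show 0 < e by omega)
  simp only [stepExp]
  omega

theorem stepExp_mul {e : ℕ} (m : ℕ) (a : Fin e) : stepExp e (e * m) a = m := by
  have h := a.isLt
  rw [stepExp, Nat.mul_add_div (by omega), Nat.div_eq_of_lt (by omega), add_zero]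

theorem exists_padic_limit {p : ℕ} [Fact p.Prime] (u : ℕ → ℤ)
    (h : ∀ m, (p : ℤ) ^ m ∣ u (m + 1) - u m) :
    ∃ y : ℤ_[p], ∀ m, (p : ℤ_[p]) ^ m ∣ y - (u m : ℤ_[p]) := by
  have hp : (1 : ℝ) < p := by exact_mod_cast (Fact.out : p.Prime).one_lt
  have hstep : ∀ m n, m ≤ n → (p : ℤ) ^ m ∣ u n - u m := by
    intro m n hmn
    induction n, hmn using Nat.le_induction with
    | base => simp
    | succ n hmn ih =>
      rw [← sub_add_sub_cancel (u (n + 1)) (u n) (u m)]
      exact dvd_add ((pow_dvd_pow _ hmn).trans (h n)) ih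
  have hdist : ∀ m n, m ≤ n →
      dist ((u n : ℤ_[p])) (u m : ℤ_[p]) ≤ (p : ℝ) ^ (-(m : ℤ)) := fun m n hmn => by
    rw [dist_eq_norm, ← Int.cast_sub, PadicInt.norm_int_le_pow_iff_dvd]
    exact_mod_cast hstep m n hmn
  obtain ⟨y, hy⟩ := cauchySeq_tendsto_of_complete (cauchySeq_of_le_geometric ((p : ℝ)⁻¹) 1
    (inv_lt_one_of_one_lt₀ hp) (f := fun m => (u m : ℤ_[p])) fun m => by
      rw [dist_comm]
      simpa [_root_.zpow_neg] using hdist m (m + 1) m.le_succ)
  refine ⟨y, fun m => Ideal.mem_span_singleton.1 ((PadicInt.norm_le_pow_iff_mem_span_pow _ _).1 ?_)⟩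
  refine le_of_tendsto ((hy.sub tendsto_const_nhds).norm) ?_
  filter_upwards [Filter.eventually_ge_atTop m] with n hn
  rw [← dist_eq_norm]
  exact hdist m n hn

theorem eq_of_forall_pow_dvd {p : ℕ} [Fact p.Prime] {y y' : ℤ_[p]}
    (h : ∀ m, (p : ℤ_[p]) ^ m ∣ y - y') : y = y' :=
  PadicInt.ext_of_toZModPow.1 fun m => by
    rw [← sub_eq_zero, ← map_sub, ← RingHom.mem_ker, PadicInt.ker_toZModPow,
      Ideal.mem_span_singleton]
    exact h m

variable {K : Type*} [Field K] [NumberField K]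

/-- An element of a given exact order generates its power of `P` modulo the next. -/
theorem exists_mul_sub_mem (v : HeightOneSpectrum (𝓞 K)) {j : ℕ} {a y : 𝓞 K}
    (ha : v.intValuation a = exp (-(j : ℤ))) (hy : y ∈ v.asIdeal ^ j) :
    ∃ t, y - a * t ∈ v.asIdeal ^ (j + 1) := by
  haveI := v.isPrime
  have hn : a ∉ v.asIdeal ^ (j + 1) := fun h => by
    rw [← v.intValuation_le_pow_iff_mem, ha, exp_le_exp] at h
    omega
  obtain ⟨t, r, hr, he⟩ := Ideal.exists_mul_add_mem_pow_succ v.ne_bot a y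
    ((v.intValuation_le_pow_iff_mem _ _).1 ha.le) hn hy
  exact ⟨t, by rwa [← he, add_sub_cancel_left]⟩

/-- **The coordinates at a prime.** The numbers `e`, `f`, the elements and their properties. -/
theorem exists_prime_coordinates (v : HeightOneSpectrum (𝓞 K)) {p : ℕ} [hp : Fact p.Prime]
    (hpv : (p : 𝓞 K) ∈ v.asIdeal) :
    ∃ (e f : ℕ) (β : Fin e × Fin f → 𝓞 K), 0 < e ∧ 0 < f ∧
      v.intValuation (p : 𝓞 K) = exp (-(e : ℤ)) ∧ Ideal.absNorm v.asIdeal = p ^ f ∧
      (∀ k x, ∃ c : Fin e × Fin f → ℤ, x - ∑ i, (c i : 𝓞 K) * β i ∈ v.asIdeal ^ k) ∧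
      ∀ k (c : Fin e × Fin f → ℤ), ∑ i, (c i : 𝓞 K) * β i ∈ v.asIdeal ^ k ↔
        ∀ i, (p : ℤ) ^ stepExp e k i.1 ∣ c i := by
  classical
  haveI := v.isPrime
  haveI : v.asIdeal.IsMaximal := v.isMaximal
  -- the ramification index
  have hp0 : (p : 𝓞 K) ≠ 0 := Nat.cast_ne_zero.2 hp.out.ne_zero
  obtain ⟨e, he⟩ : ∃ e : ℕ, v.intValuation (p : 𝓞 K) = exp (-(e : ℤ)) :=
    ⟨_, v.intValuation_if_neg hp0⟩
  have he0 : 0 < e := Nat.pos_of_ne_zero fun h => by
    have h1 := (v.intValuation_lt_one_iff_mem _).2 hpv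
    simp [he, h] at h1
  -- the residues
  let F := 𝓞 K ⧸ v.asIdeal
  haveI : Finite F := Ideal.finiteQuotientOfFreeOfNeBot _ v.ne_bot
  haveI : CharP F p := by
    rw [CharP.charP_iff_prime_eq_zero hp.out, ← map_natCast (Ideal.Quotient.mk v.asIdeal),
      Ideal.Quotient.eq_zero_iff_mem]
    exact hpv
  letI : Algebra (ZMod p) F := ZMod.algebra F p
  haveI : Module.Finite (ZMod p) F := Module.Finite.of_finite
  set f := Module.finrank (ZMod p) F
  set bF := Module.finBasis (ZMod p) F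
  choose ω hω using fun b : Fin f => Ideal.Quotient.mk_surjective (bF b)
  obtain ⟨π, hπ⟩ := v.intValuation_exists_uniformizer
  have hf : Ideal.absNorm v.asIdeal = p ^ f := by
    rw [Ideal.absNorm_apply, Submodule.cardQuot_apply,
      Module.natCard_eq_pow_finrank (K := ZMod p), Nat.card_zmod]
  have hf0 : 0 < f := Module.finrank_pos
  set β : Fin e × Fin f → 𝓞 K := fun i => π ^ (i.1 : ℕ) * ω i.2
  have hres : ∀ t : 𝓞 K, ∃ c : Fin f → ℤ, t - ∑ b, (c b : 𝓞 K) * ω b ∈ v.asIdeal := by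
    intro t
    refine ⟨fun b => ((bF.repr (Ideal.Quotient.mk _ t) b).val : ℤ), ?_⟩
    rw [← Ideal.Quotient.eq]
    conv_lhs => rw [← bF.sum_repr (Ideal.Quotient.mk _ t)]
    rw [map_sum]
    refine sum_congr rfl fun b _ => ?_
    rw [map_mul, hω, Algebra.smul_def, map_intCast, Int.cast_natCast]
    congr 1
    rw [← map_natCast (algebraMap (ZMod p) F), ZMod.natCast_zmod_val]
  -- existence
  have hex : ∀ k x, ∃ c : Fin e × Fin f → ℤ,
      x - ∑ i, (c i : 𝓞 K) * β i ∈ v.asIdeal ^ k := by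
    intro k x
    induction k with
    | zero => exact ⟨0, by simp⟩
    | succ k ih =>
      obtain ⟨c, hc⟩ := ih
      set r : Fin e := ⟨k % e, Nat.mod_lt k he0⟩
      have ha : v.intValuation ((p : 𝓞 K) ^ (k / e) * π ^ (r : ℕ)) = exp (-(k : ℤ)) := by
        rw [map_mul, map_pow, map_pow, he, hπ, ← exp_nsmul, ← exp_nsmul, ← exp_add]
        congr 1
        have h := Nat.div_add_mod k e
        have h' : ((e : ℤ) * (k / e : ℕ)) + (k % e : ℕ) = k := by exact_mod_cast h
        simp only [nsmul_eq_mul, r]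
        linarith
      obtain ⟨t, ht⟩ := exists_mul_sub_mem v ha hc
      obtain ⟨d, hd⟩ := hres t
      refine ⟨fun i => c i + if i.1 = r then (p : ℤ) ^ (k / e) * d i.2 else 0, ?_⟩
      have hsum : ∑ i, ((c i + if i.1 = r then (p : ℤ) ^ (k / e) * d i.2 else 0 : ℤ) : 𝓞 K) * β i =
          ∑ i, (c i : 𝓞 K) * β i +
            (p : 𝓞 K) ^ (k / e) * π ^ (r : ℕ) * ∑ b, (d b : 𝓞 K) * ω b := by
        rw [show ∑ i, ((c i + if i.1 = r then (p : ℤ) ^ (k / e) * d i.2 else 0 : ℤ) : 𝓞 K) * β i =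
            ∑ i, (c i : 𝓞 K) * β i +
              ∑ i, ((if i.1 = r then (p : ℤ) ^ (k / e) * d i.2 else 0 : ℤ) : 𝓞 K) * β i by
          rw [← sum_add_distrib]
          exact sum_congr rfl fun i _ => by rw [Int.cast_add, add_mul]]
        congr 1
        rw [Fintype.sum_prod_type, mul_sum]
        refine Eq.trans (sum_eq_single r (fun a _ ha' => sum_eq_zero fun b _ => ?_)
          fun h => absurd (mem_univ r) h) (sum_congr rfl fun b _ => ?_)
        · rw [if_neg ha', Int.cast_zero, zero_mul]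
        · rw [if_pos rfl]
          simp only [β]
          push_cast
          ring
      rw [hsum]
      have h : x - (∑ i, (c i : 𝓞 K) * β i +
            (p : 𝓞 K) ^ (k / e) * π ^ (r : ℕ) * ∑ b, (d b : 𝓞 K) * ω b) =
          (x - ∑ i, (c i : 𝓞 K) * β i - (p : 𝓞 K) ^ (k / e) * π ^ (r : ℕ) * t) +
            (p : 𝓞 K) ^ (k / e) * π ^ (r : ℕ) * (t - ∑ b, (d b : 𝓞 K) * ω b) := by ring
      rw [h]
      refine Ideal.add_mem _ ht ?_
      rw [pow_succ]
      exact Ideal.mul_mem_mul ((v.intValuation_le_pow_iff_mem _ _).1 ha.le) hd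
  -- uniqueness by counting
  have hback : ∀ k (c : Fin e × Fin f → ℤ), (∀ i, (p : ℤ) ^ stepExp e k i.1 ∣ c i) →
      ∑ i, (c i : 𝓞 K) * β i ∈ v.asIdeal ^ k := by
    intro k c h
    refine Ideal.sum_mem _ fun i _ => ?_
    obtain ⟨d, hd⟩ := h i
    rw [hd]
    push_cast
    simp only [β]
    rw [show ((p : 𝓞 K) ^ stepExp e k i.1 * (d : 𝓞 K)) * (π ^ (i.1 : ℕ) * ω i.2) =
      (p : 𝓞 K) ^ stepExp e k i.1 * π ^ (i.1 : ℕ) * ((d : 𝓞 K) * ω i.2) by ring]
    refine Ideal.mul_mem_right _ _ ((v.intValuation_le_pow_iff_mem _ _).1 ?_)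
    rw [map_mul, map_pow, map_pow, he, hπ, ← exp_nsmul, ← exp_nsmul, ← exp_add, exp_le_exp]
    have h1 := le_mul_stepExp_add k i.1
    simp only [nsmul_eq_mul]
    push_cast
    have h2 : (k : ℤ) ≤ (e : ℤ) * stepExp e k i.1 + (i.1 : ℕ) := by exact_mod_cast h1
    linarith
  refine ⟨e, f, β, he0, hf0, he, hf, hex, fun k c => ⟨fun hmem => ?_, hback k c⟩⟩
  let D := ∀ i : Fin e × Fin f, ZMod (p ^ stepExp e k i.1)
  let Φ : D → 𝓞 K ⧸ v.asIdeal ^ k := fun z =>
    Ideal.Quotient.mk _ (∑ i, (((z i).val : ℤ) : 𝓞 K) * β i)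
  have hval : ∀ c : Fin e × Fin f → ℤ, Φ (fun i => (c i : ZMod (p ^ stepExp e k i.1))) =
      Ideal.Quotient.mk _ (∑ i, (c i : 𝓞 K) * β i) := fun c => by
    refine Ideal.Quotient.eq.2 ?_
    rw [← sum_sub_distrib]
    refine (congrArg (· ∈ v.asIdeal ^ k) (sum_congr rfl fun i _ => ?_)).mp
      (hback k (fun i => ((c i : ZMod (p ^ stepExp e k i.1)).val : ℤ) - c i) fun i => ?_)
    · push_cast
      ring
    · haveI : NeZero (p ^ stepExp e k i.1) := ⟨pow_ne_zero _ hp.out.ne_zero⟩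
      rw [← Nat.cast_pow, ← ZMod.intCast_eq_intCast_iff_dvd_sub, Int.cast_natCast,
        ZMod.natCast_zmod_val]
  have hsurj : Function.Surjective Φ := fun q => by
    obtain ⟨x, rfl⟩ := Ideal.Quotient.mk_surjective q
    obtain ⟨c, hc⟩ := hex k x
    exact ⟨_, (hval c).trans (Ideal.Quotient.eq.2 hc).symm⟩
  haveI : ∀ i : Fin e × Fin f, NeZero (p ^ stepExp e k i.1) :=
    fun i => ⟨pow_ne_zero _ hp.out.ne_zero⟩
  have hcard : Nat.card D = Nat.card (𝓞 K ⧸ v.asIdeal ^ k) := by
    rw [← Submodule.cardQuot_apply, ← Ideal.absNorm_apply, map_pow, hf, Nat.card_pi,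
      Fintype.prod_prod_type]
    simp only [Nat.card_zmod, prod_const, card_univ, Fintype.card_fin, prod_pow,
      prod_pow_eq_pow_sum, sum_stepExp he0, ← pow_mul, ← sum_mul]
    rw [mul_comm]
  have hinj := (Function.Surjective.bijective_of_nat_card_le hsurj hcard.le).1
  intro i
  have h0 : Φ (fun i => (c i : ZMod (p ^ stepExp e k i.1))) =
      Φ (fun i => ((0 : ℤ) : ZMod (p ^ stepExp e k i.1))) := by
    rw [hval, hval fun _ => 0]
    refine Ideal.Quotient.eq.2 ?_
    simpa using hmem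
  have h1 := congrFun (hinj h0) i
  rw [Int.cast_zero, ZMod.intCast_zmod_eq_zero_iff_dvd] at h1
  exact_mod_cast h1

end FA.Subspace

end
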