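import Fermat.Agent.Subspace.ExponentialGrowth
import Mathlib.Algebra.LinearRecurrence
import Mathlib.Analysis.Complex.Polynomial.Basic
import Mathlib.FieldTheory.AlgebraicClosure
import Mathlib.GroupTheory.OrderOfElement

/-!
# The closed form of a linear recurrence sequence

Over an algebraically closed field of characteristic zero a solution of a linear recurrence is
from some point on an exponential polynomial with roots among those of the characteristic
polynomial: each factor `σ - a` of the recurrence in the shift `σ` is removed by solving the first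
order equation for polynomials. On the progressions of a difference divisible by the orders of the
roots of unity among the quotients of the roots it is nondegenerate.
-/

set_option autoImplicit false
set_option linter.style.haveILetI false

noncomputable section

namespace FA.Subspace

open Finset Polynomial Filter

variable {F : Type*} [Field F]

/-- The shift of sequences. -/
def shiftSeq (F : Type*) [Field F] : Module.End F (ℕ → F) where
  toFun u n := u (n + 1)
  map_add' _ _ := rfl
  map_smul' _ _ := rfl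

theorem shiftSeq_pow_apply (i : ℕ) (u : ℕ → F) (n : ℕ) :
    (shiftSeq F ^ i) u n = u (n + i) := by
  induction i generalizing n with
  | zero => rfl
  | succ i ih =>
    rw [pow_succ', Module.End.mul_apply, show shiftSeq F ((shiftSeq F ^ i) u) n =
      (shiftSeq F ^ i) u (n + 1) from rfl, ih, add_right_comm, add_assoc]

theorem aeval_charPoly_eq_zero (E : LinearRecurrence F) {u : ℕ → F} (hu : E.IsSolution u) :
    aeval (shiftSeq F) E.charPoly u = 0 := by
  funext n
  simp only [LinearRecurrence.charPoly, map_sub, map_sum, aeval_monomial, LinearMap.sub_apply,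
    LinearMap.sum_apply, Module.End.mul_apply, Module.algebraMap_end_apply, Pi.sub_apply,
    Finset.sum_apply, Pi.smul_apply, shiftSeq_pow_apply, smul_eq_mul, one_mul, Pi.zero_apply]
  rw [hu n, sub_self]

/-- The difference equation for polynomials. -/
theorem exists_poly_diff [CharZero F] (a : F) {b : F} (hb : b ≠ 0) (P : F[X]) :
    ∃ Q : F[X], C b * taylor 1 Q - C a * Q = P := by
  suffices h : ∀ d, ∀ P : F[X], P.degree < (d : ℕ) →
      ∃ Q : F[X], C b * taylor 1 Q - C a * Q = P from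
    h (P.natDegree + 1) P (degree_le_natDegree.trans_lt (by exact_mod_cast Nat.lt_succ_self _))
  intro d
  induction d with
  | zero =>
    intro P hP
    exact ⟨0, by rw [degree_lt_iff_coeff_zero] at hP; ext n; simp [hP n (Nat.zero_le n)]⟩
  | succ d ih =>
    intro P hP
    -- a polynomial whose image has degree at most `d` and coefficient `1` there
    obtain ⟨Q₀, hdeg, hlead⟩ : ∃ Q₀ : F[X], (C b * taylor 1 Q₀ - C a * Q₀).degree ≤ (d : ℕ) ∧
        (C b * taylor 1 Q₀ - C a * Q₀).coeff d = 1 := by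
      rcases ne_or_eq b a with hba | rfl
      · refine ⟨C (b - a)⁻¹ * X ^ d, ?_, ?_⟩
        · rw [degree_le_iff_coeff_zero]
          intro m hm
          have hdm : d < m := by exact_mod_cast hm
          rw [coeff_sub, coeff_C_mul, coeff_C_mul, coeff_eq_zero_of_natDegree_lt,
            coeff_eq_zero_of_natDegree_lt, mul_zero, mul_zero, sub_zero]
          · exact (natDegree_C_mul_X_pow_le _ _).trans_lt hdm
          · rw [natDegree_taylor]
            exact (natDegree_C_mul_X_pow_le _ _).trans_lt hdm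
        · have hne : (b - a)⁻¹ ≠ 0 := inv_ne_zero (sub_ne_zero.2 hba)
          have hnat : (C (b - a)⁻¹ * X ^ d).natDegree = d := natDegree_C_mul_X_pow d _ hne
          have h : (taylor (1 : F) (C (b - a)⁻¹ * X ^ d)).coeff d = (b - a)⁻¹ := by
            have h := coeff_taylor_natDegree (r := (1 : F)) (f := C (b - a)⁻¹ * X ^ d)
            rwa [hnat, leadingCoeff_C_mul_X_pow] at h
          rw [coeff_sub, coeff_C_mul, coeff_C_mul, h, coeff_C_mul, coeff_X_pow_self, mul_one,
            ← sub_mul, mul_inv_cancel₀ (sub_ne_zero.2 hba)]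
      · refine ⟨C (b * (d + 1))⁻¹ * X ^ (d + 1), ?_⟩
        have h : C b * taylor 1 (C (b * (d + 1))⁻¹ * X ^ (d + 1)) -
            C b * (C (b * (d + 1))⁻¹ * X ^ (d + 1)) =
            C ((d + 1 : F)⁻¹) * ((X + 1) ^ (d + 1) - X ^ (d + 1)) := by
          rw [taylor_mul, taylor_C, taylor_pow, taylor_X, C_1, ← mul_sub, ← mul_sub, ← mul_assoc,
            ← C_mul]
          congr 2
          field_simp
        simp only [h]
        refine ⟨?_, ?_⟩
        · rw [degree_le_iff_coeff_zero]
          intro m hm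
          have hdm : d + 1 ≤ m := by exact_mod_cast hm
          rw [coeff_C_mul, coeff_sub, coeff_X_add_one_pow, coeff_X_pow]
          rcases hdm.eq_or_lt with rfl | h'
          · simp
          · rw [Nat.choose_eq_zero_of_lt h', if_neg h'.ne']
            simp
        · rw [coeff_C_mul, coeff_sub, coeff_X_add_one_pow, coeff_X_pow,
            if_neg (Nat.lt_succ_self d).ne, sub_zero, Nat.choose_succ_self_right]
          push_cast
          exact inv_mul_cancel₀ (by exact_mod_cast Nat.succ_ne_zero d)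
    obtain ⟨Q₁, hQ₁⟩ := ih (P - C (P.coeff d) * (C b * taylor 1 Q₀ - C a * Q₀)) (by
      rw [degree_lt_iff_coeff_zero] at hP ⊢
      intro m hm
      rw [coeff_sub, coeff_C_mul]
      rcases hm.eq_or_lt with rfl | hlt
      · rw [hlead, mul_one, sub_self]
      · rw [hP m hlt, (degree_le_iff_coeff_zero _ _).1 hdeg m (by exact_mod_cast hlt), mul_zero,
          sub_zero])
    refine ⟨C (P.coeff d) * Q₀ + Q₁, ?_⟩
    rw [map_add, taylor_mul, taylor_C]
    linear_combination hQ₁

/-- The sequences that eventually are exponential polynomials with the given roots. -/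
def expPolySeqs (R : Finset F) : Submodule F (ℕ → F) where
  carrier := {u | ∃ P : F → F[X], ∀ᶠ n : ℕ in atTop, u n = ∑ a ∈ R, (P a).eval (n : F) * a ^ n}
  zero_mem' := ⟨0, Eventually.of_forall fun n => by simp⟩
  add_mem' := fun {u v} ⟨P, hP⟩ ⟨Q, hQ⟩ => ⟨P + Q, by
    filter_upwards [hP, hQ] with n h h'
    simp [h, h', add_mul, sum_add_distrib]⟩
  smul_mem' := fun c u ⟨P, hP⟩ => ⟨fun a => C c * P a, by
    filter_upwards [hP] with n h
    simp [h, mul_sum, mul_assoc]⟩

theorem mem_of_shift_sub_mem [CharZero F] {R : Finset F} (hR : ∀ b ∈ R, b ≠ 0) {a : F}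
    (ha : a ≠ 0 → a ∈ R) {u : ℕ → F}
    (h : (shiftSeq F - algebraMap F _ a) u ∈ expPolySeqs R) : u ∈ expPolySeqs R := by
  classical
  obtain ⟨P, hP⟩ := h
  choose Q hQ using fun b : R => exists_poly_diff a (hR b b.2) (P b)
  set Q' : F → F[X] := fun b => if h : b ∈ R then Q ⟨b, h⟩ else 0
  set v : ℕ → F := fun n => u n - ∑ b ∈ R, (Q' b).eval (n : F) * b ^ n
  have hw : (fun n : ℕ => ∑ b ∈ R, (Q' b).eval (n : F) * b ^ n) ∈ expPolySeqs R :=
    ⟨Q', Eventually.of_forall fun _ => rfl⟩
  suffices hv : v ∈ expPolySeqs R by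
    have : u = v + fun n : ℕ => ∑ b ∈ R, (Q' b).eval (n : F) * b ^ n := funext fun n => by simp [v]
    exact this ▸ Submodule.add_mem _ hv hw
  obtain ⟨N, hN⟩ := eventually_atTop.1 hP
  have hstep : ∀ n, N ≤ n → v (n + 1) = a * v n := fun n hn => by
    have h1 : u (n + 1) - a * u n = ∑ b ∈ R, (P b).eval (n : F) * b ^ n := hN n hn
    have h2 : ∑ b ∈ R, (P b).eval (n : F) * b ^ n =
        ∑ b ∈ R, (Q' b).eval ((n + 1 : ℕ) : F) * b ^ (n + 1) -
          a * ∑ b ∈ R, (Q' b).eval (n : F) * b ^ n := by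
      rw [mul_sum, ← sum_sub_distrib]
      refine sum_congr rfl fun b hb => ?_
      simp only [Q', dif_pos hb]
      conv_lhs => rw [← hQ ⟨b, hb⟩]
      simp only [eval_sub, eval_mul, eval_C, taylor_eval, Nat.cast_succ, pow_succ]
      ring
    simp only [v]
    linear_combination h1 + h2
  have hgeom : ∀ k, v (N + k) = a ^ k * v N := fun k => by
    induction k with
    | zero => simp
    | succ k ih => rw [← add_assoc, hstep _ (Nat.le_add_right N k), ih, pow_succ]; ring
  rcases eq_or_ne a 0 with rfl | ha0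
  · refine ⟨0, (eventually_gt_atTop N).mono fun n hn => ?_⟩
    obtain ⟨k, rfl⟩ := Nat.exists_eq_add_of_lt hn
    rw [add_assoc, hgeom, zero_pow (Nat.succ_ne_zero k)]
    simp
  · refine ⟨fun b => if b = a then C (v N / a ^ N) else 0,
      (eventually_ge_atTop N).mono fun n hn => ?_⟩
    obtain ⟨k, rfl⟩ := Nat.exists_eq_add_of_le hn
    rw [hgeom, sum_eq_single_of_mem a (ha ha0) fun b _ hb => by simp [hb]]
    simp only [if_true, eval_C, pow_add]
    field_simp

/-- **The closed form of a solution of a linear recurrence.** -/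
theorem exists_closed_form [CharZero F] [IsAlgClosed F] (E : LinearRecurrence F) {u : ℕ → F}
    (hu : E.IsSolution u) :
    ∃ (R : Finset F) (P : F → F[X]), (∀ a ∈ R, a ≠ 0 ∧ E.charPoly.IsRoot a ∧ P a ≠ 0) ∧
      ∀ᶠ n : ℕ in atTop, u n = ∑ a ∈ R, (P a).eval (n : F) * a ^ n := by
  classical
  set R := E.charPoly.roots.toFinset.filter (· ≠ 0)
  have key : ∀ (s : Multiset F), (∀ a ∈ s, a ∈ E.charPoly.roots) → ∀ v : ℕ → F,
      aeval (shiftSeq F) (s.map fun a => X - C a).prod v = 0 → v ∈ expPolySeqs R := by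
    intro s
    induction s using Multiset.induction with
    | empty =>
      intro _ v hv
      rw [Multiset.map_zero, Multiset.prod_zero, map_one] at hv
      rw [show v = 0 from hv]
      exact zero_mem _
    | cons a s ih =>
      intro hs v hv
      rw [Multiset.map_cons, Multiset.prod_cons, mul_comm, map_mul, Module.End.mul_apply, map_sub,
        aeval_X, aeval_C] at hv
      exact mem_of_shift_sub_mem (fun b hb => (mem_filter.1 hb).2)
        (fun ha => mem_filter.2 ⟨Multiset.mem_toFinset.2 (hs a (Multiset.mem_cons_self a s)), ha⟩)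
        (ih (fun b hb => hs b (Multiset.mem_cons_of_mem hb)) _ hv)
  obtain ⟨P, hP⟩ := key E.charPoly.roots (fun _ h => h) u (by
    rw [← (IsAlgClosed.splits E.charPoly).eq_prod_roots_of_monic E.charPoly_monic]
    exact aeval_charPoly_eq_zero E hu)
  refine ⟨R.filter fun a => P a ≠ 0, P, fun a ha => ?_, hP.mono fun n hn => hn.trans ?_⟩
  · obtain ⟨haR, hPa⟩ := mem_filter.1 ha
    obtain ⟨hroot, ha0⟩ := mem_filter.1 haR
    exact ⟨ha0, (mem_roots'.1 (Multiset.mem_toFinset.1 hroot)).2, hPa⟩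
  · refine (sum_filter_of_ne fun a _ hne => ?_).symm
    exact fun e => hne (by rw [e, eval_zero, zero_mul])

/-- **The closed form with algebraic data.** -/
theorem exists_closed_form_algebraic (E : LinearRecurrence ℂ)
    (hE : ∀ i, IsAlgebraic ℚ (E.coeffs i)) {u : ℕ → ℂ} (hu : E.IsSolution u)
    (hinit : ∀ i : Fin E.order, IsAlgebraic ℚ (u i)) :
    ∃ (R : Finset ℂ) (P : ℂ → ℂ[X]), (∀ a ∈ R, a ≠ 0 ∧ E.charPoly.IsRoot a ∧ P a ≠ 0 ∧
        IsAlgebraic ℚ a ∧ ∀ j, IsAlgebraic ℚ ((P a).coeff j)) ∧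
      ∀ᶠ n : ℕ in atTop, u n = ∑ a ∈ R, (P a).eval (n : ℂ) * a ^ n := by
  classical
  set A := algebraicClosure ℚ ℂ
  haveI : IsAlgClosed A := (algebraicClosure.isAlgClosure ℚ ℂ).isAlgClosed
  set E' : LinearRecurrence A :=
    ⟨E.order, fun i => ⟨E.coeffs i, mem_algebraicClosure_iff.2 (hE i)⟩⟩
  set v : ℕ → A := E'.mkSol fun i => ⟨u i, mem_algebraicClosure_iff.2 (hinit i)⟩
  set ι := algebraMap A ℂ
  have hι : Function.Injective ι := ι.injective
  have huv : ∀ n, u n = ι (v n) := by
    have hsol : E.IsSolution fun n => ι (v n) := fun n => by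
      show ι (v (n + E'.order)) = _
      rw [show v (n + E'.order) = _ from E'.is_sol_mkSol _ n, map_sum]
      exact sum_congr rfl fun i _ => map_mul ι _ _
    intro n
    rw [E.eq_mk_of_is_sol_of_eq_init hsol (init := fun i => u i) (fun i => by
      show ι (v i) = u i
      exact congrArg ι (E'.mkSol_eq_init _ i)) n]
    exact E.eq_mk_of_is_sol_of_eq_init hu (fun _ => rfl) n
  obtain ⟨R, P, hR, hP⟩ := exists_closed_form E' (E'.is_sol_mkSol _ : E'.IsSolution v)
  set P' : ℂ → ℂ[X] := fun a => if h : IsAlgebraic ℚ a then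
    (P ⟨a, mem_algebraicClosure_iff.2 h⟩).map ι else 0
  have hP' : ∀ a : A, P' (ι a) = (P a).map ι := fun a => by
    simp only [P', dif_pos (mem_algebraicClosure_iff.1 a.2 : IsAlgebraic ℚ (ι a))]
    rfl
  refine ⟨R.image ι, P', fun a ha => ?_, hP.mono fun n hn => ?_⟩
  · obtain ⟨b, hb, rfl⟩ := mem_image.1 ha
    obtain ⟨h0, hroot, hne⟩ := hR b hb
    refine ⟨(map_ne_zero ι).2 h0, ?_, by rw [hP']; exact (Polynomial.map_ne_zero_iff hι).2 hne,
      mem_algebraicClosure_iff.1 b.2, fun j => ?_⟩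
    · have h := hroot.map (f := ι)
      rwa [show E'.charPoly.map ι = E.charPoly by
        simp [LinearRecurrence.charPoly, Polynomial.map_sub, Polynomial.map_sum, E', ι]] at h
    · rw [hP', coeff_map]
      exact mem_algebraicClosure_iff.1 ((P b).coeff j).2
  · rw [huv, show v n = _ from hn, sum_image hι.injOn, map_sum]
    exact sum_congr rfl fun a _ => by rw [hP', map_mul, map_pow, Polynomial.eval_natCast_map]

/-- **Nondegenerate on progressions.** -/
theorem exists_progressions (R : Finset ℂ) (P : ℂ → ℂ[X])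
    (hR : ∀ a ∈ R, a ≠ 0 ∧ IsAlgebraic ℚ a ∧ ∀ j, IsAlgebraic ℚ ((P a).coeff j)) :
    ∃ N, 0 < N ∧ ∀ r : ℕ, ∃ (T : Finset ℂ) (Q : ℂ → ℂ[X]),
      (∀ b ∈ T, b ≠ 0 ∧ IsAlgebraic ℚ b ∧ (∃ a ∈ R, a ^ N = b) ∧ Q b ≠ 0 ∧
        ∀ j, IsAlgebraic ℚ ((Q b).coeff j)) ∧
      (∀ b ∈ T, ∀ b' ∈ T, b ≠ b' → ∀ m : ℕ, 0 < m → b ^ m ≠ b' ^ m) ∧
      ∀ k : ℕ, ∑ a ∈ R, (P a).eval ((r + N * k : ℕ) : ℂ) * a ^ (r + N * k) =
        ∑ b ∈ T, (Q b).eval (k : ℂ) * b ^ k := by
  classical
  set N := ∏ p ∈ R ×ˢ R, if IsOfFinOrder (p.1 / p.2) then orderOf (p.1 / p.2) else 1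
  have hN : 0 < N := prod_pos fun p _ => by
    split_ifs with h
    exacts [h.orderOf_pos, one_pos]
  refine ⟨N, hN, fun r => ?_⟩
  set Q : ℂ → ℂ[X] := fun b => ∑ a ∈ R with a ^ N = b,
    C (a ^ r) * (P a).comp (C (r : ℂ) + C (N : ℂ) * X)
  refine ⟨(R.image (· ^ N)).filter fun b => Q b ≠ 0, Q, fun b hb => ?_,
    fun b hb b' hb' hne m hm h => hne ?_, fun k => ?_⟩
  · obtain ⟨hb, hQ⟩ := mem_filter.1 hb
    obtain ⟨a, ha, rfl⟩ := mem_image.1 hb
    refine ⟨pow_ne_zero N (hR a ha).1, (hR a ha).2.1.pow N, ⟨a, ha, rfl⟩, hQ, ?_⟩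
    set A := (algebraicClosure ℚ ℂ).toSubalgebra
    have hlift : ∀ c : ℂ, IsAlgebraic ℚ c → C c ∈ lifts A.val.toRingHom := fun c hc =>
      ⟨C ⟨c, mem_algebraicClosure_iff.2 hc⟩, by simp⟩
    have hmem : Q (a ^ N) ∈ lifts A.val.toRingHom := by
      refine sum_mem fun a' ha' => ?_
      obtain ⟨ha', -⟩ := mem_filter.1 ha'
      obtain ⟨p, hp⟩ : P a' ∈ lifts A.val.toRingHom := (lifts_iff_coeff_lifts _).2 fun j =>
        ⟨⟨_, mem_algebraicClosure_iff.2 ((hR a' ha').2.2 j)⟩, rfl⟩
      refine mul_mem (hlift _ ((hR a' ha').2.1.pow r))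
        ⟨p.comp (C (r : A) + C (N : A) * X), ?_⟩
      rw [coe_mapRingHom, map_comp, ← coe_mapRingHom, hp]
      simp
    intro j
    obtain ⟨c, hc⟩ := (lifts_iff_coeff_lifts _).1 hmem j
    rw [← hc]
    exact mem_algebraicClosure_iff.1 c.2
  · obtain ⟨hb, -⟩ := mem_filter.1 hb
    obtain ⟨hb', -⟩ := mem_filter.1 hb'
    obtain ⟨a, ha, rfl⟩ := mem_image.1 hb
    obtain ⟨a', ha', rfl⟩ := mem_image.1 hb'
    have hfin : IsOfFinOrder (a / a') := isOfFinOrder_iff_pow_eq_one.2 ⟨N * m, Nat.mul_pos hN hm,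
      by rw [div_pow, pow_mul, pow_mul, h, div_self (pow_ne_zero _ (pow_ne_zero _ (hR a' ha').1))]⟩
    have hdvd : orderOf (a / a') ∣ N := by
      have h := dvd_prod_of_mem (fun p : ℂ × ℂ =>
        if IsOfFinOrder (p.1 / p.2) then orderOf (p.1 / p.2) else 1) (mk_mem_product ha ha')
      rwa [if_pos hfin] at h
    have h1 := orderOf_dvd_iff_pow_eq_one.1 hdvd
    rwa [div_pow, div_eq_one_iff_eq (pow_ne_zero N (hR a' ha').1)] at h1
  · rw [sum_filter_of_ne (p := fun b => Q b ≠ 0)
        fun b _ hne e => hne (by rw [e, eval_zero, zero_mul]),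
      ← sum_fiberwise_of_maps_to (g := (· ^ N)) fun a ha => mem_image_of_mem _ ha]
    refine sum_congr rfl fun b _ => ?_
    simp only [Q, eval_finsetSum, sum_mul]
    refine sum_congr rfl fun a ha => ?_
    rw [← (mem_filter.1 ha).2]
    simp only [eval_mul, eval_C, eval_comp, eval_add, eval_X, Nat.cast_add, Nat.cast_mul,
      pow_add, pow_mul]
    ring

end FA.Subspace

end
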