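import Fermat.Agent.Subspace.UnitEquation

/-!
# Sums of `S`-units are not small

A sum `∑ a i * x i` of integers with all prime factors in `S` and without vanishing subsum has
absolute value at least `C * X ^ (1 - ε)` for the largest `X` of them: the forms omitting the
largest term put a vector violating this on finitely many hyperplanes, a relation makes two terms
proportional with finitely many ratios, and induction on the number of terms finishes (Evertse).
-/

set_option autoImplicit false

noncomputable section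

namespace FA.Subspace

open Finset Matrix FA.Perfect

/-- The conclusion for the coefficients `a`. -/
def SumBound (S : Finset ℕ) (ε : ℝ) {n : ℕ} (a : Fin n → ℚ) : Prop :=
  ∃ C : ℝ, 0 < C ∧ ∀ x : Fin n → ℤ, (∀ i, IsSUnitQ S (x i : ℚ)) →
    (∀ T : Finset (Fin n), T.Nonempty → ∑ i ∈ T, a i * x i ≠ 0) →
      C * ‖castVec x‖ ^ (1 - ε) ≤ |((∑ i, a i * x i : ℚ) : ℝ)|

/-- A small sum lies on one of finitely many hyperplanes. -/
theorem exists_hyperplanes_of_small (S : Finset ℕ) {ε : ℝ} (hε : 0 < ε) {n : ℕ}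
    {a : Fin (n + 2) → ℚ} (ha : ∀ i, a i ≠ 0) :
    ∃ V : Finset (Fin (n + 2) → ℤ), (∀ v ∈ V, v ≠ 0) ∧
      ∀ x : Fin (n + 2) → ℤ, (∀ i, IsSUnitQ S (x i : ℚ)) →
        |((∑ i, a i * x i : ℚ) : ℝ)| < ‖castVec x‖ ^ (1 - ε) → ∃ v ∈ V, v ⬝ᵥ x = 0 := by
  classical
  set S₀ := S.filter Nat.Prime
  set P : Fin S₀.card → ℕ := fun l => S₀.equivFin.symm l
  have hP : ∀ l, (P l).Prime := fun l => (mem_filter.1 (S₀.equivFin.symm l).2).2
  let Pl : Places S₀.card (n + 2) :=
    { base := P
      two_le := fun l => (hP l).two_le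
      coprime := fun l l' h => (Nat.coprime_primes (hP l) (hP l')).2
        fun e => h (S₀.equivFin.symm.injective (Subtype.ext e))
      mat := fun _ => 1
      isUnit_det := fun _ => by simp }
  set L : Fin (n + 2) → Matrix (Fin (n + 2)) (Fin (n + 2)) ℝ := fun k =>
    (1 : Matrix (Fin (n + 2)) (Fin (n + 2)) ℝ).updateRow k fun i => (a i : ℝ)
  choose V hV hVx using fun k => finite_subspaces_places (n := n + 1) (by omega) Pl (L k)
    (fun h0 => by
      obtain ⟨y, hy, hy0⟩ := exists_mulVec_eq_zero_iff.2 h0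
      have hj : ∀ j, j ≠ k → y j = 0 := fun j hj => by
        simpa [L, mulVec, dotProduct, updateRow_ne hj, Matrix.one_apply] using congrFun hy0 j
      refine hy (funext fun j => ?_)
      rcases eq_or_ne j k with rfl | hjk
      · have h := congrFun hy0 j
        simp only [L, mulVec, dotProduct, updateRow_self] at h
        rw [sum_eq_single j (fun i _ hi => by simp [hj i hi]) (fun h => absurd (mem_univ j) h)] at h
        simpa [ha j] using h
      · exact hj j hjk)
    (fun i j => by
      rcases eq_or_ne i k with rfl | hik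
      · simpa [L] using isAlgebraic_algebraMap (A := ℝ) (a j)
      · simp only [L, updateRow_ne hik, Matrix.one_apply]
        split_ifs
        · exact isAlgebraic_one
        · exact isAlgebraic_zero)
    (δ := ε) hε
  refine ⟨univ.biUnion V, fun v hv => by
    obtain ⟨k, -, hk⟩ := mem_biUnion.1 hv
    exact hV k v hk, fun x hx hlt => ?_⟩
  have hx0 : ∀ i, x i ≠ 0 := fun i => Int.cast_ne_zero.1 (hx i).1
  have hxS : ∀ i, (x i).natAbs.primeFactors ⊆ S₀ := fun i p hp =>
    mem_filter.2 ⟨(hx i).primesOf_subset (mem_union_left _ (by simpa using hp)),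
      (Nat.mem_primeFactors.1 hp).1⟩
  obtain ⟨k, -, hk⟩ := exists_max_image univ (fun i => |x i|) univ_nonempty
  set e : Fin S₀.card → Fin (n + 2) → ℕ := fun l i => (x i).natAbs.factorization (P l)
  have hvol : (Pl.vol e : ℝ) = ∏ i, |(x i : ℝ)| := by
    have h : Pl.vol e = ∏ i, (x i).natAbs := by
      rw [show ∏ i, (x i).natAbs = ∏ i, ∏ p ∈ S₀, p ^ (x i).natAbs.factorization p from
        prod_congr rfl fun i _ =>
          (prod_pow_factorization (Int.natAbs_ne_zero.2 (hx0 i)) (hxS i)).symm, Finset.prod_comm,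
        Places.vol, ← prod_coe_sort S₀, ← Equiv.prod_comp S₀.equivFin.symm]
      exact prod_congr rfl fun l _ => (prod_pow_eq_pow_sum _ _ _).symm
    rw [h, Nat.cast_prod]
    exact prod_congr rfl fun i _ => by rw [Nat.cast_natAbs, Int.cast_abs]
  obtain ⟨v, hv, hvx⟩ := hVx k x (fun h => hx0 k (congrFun h k)) e
    (fun l i => by
      show (P l : ℤ) ^ e l i ∣ ((1 : Matrix (Fin (n + 2)) (Fin (n + 2)) ℤ) *ᵥ x) i
      rw [one_mulVec, ← Nat.cast_pow, Int.natCast_dvd]
      exact Nat.ordProj_dvd _ _) (by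
    have hform : ∀ i, i ≠ k → |∑ j, L k i j * (x j : ℝ)| = |(x i : ℝ)| := fun i hi => by
      simp [L, updateRow_ne hi, Matrix.one_apply]
    have hk' : ∑ j, L k k j * (x j : ℝ) = ((∑ i, a i * x i : ℚ) : ℝ) := by
      simp [L]
    rw [hvol, Fin.prod_univ_succAbove _ k, Fin.prod_univ_succAbove (fun i => |(x i : ℝ)|) k, hk',
      prod_congr rfl fun j _ => hform _ (Fin.succAbove_ne k j), mul_right_comm]
    refine mul_lt_mul_of_pos_right ?_
      (prod_pos fun j _ => abs_pos.2 (Int.cast_ne_zero.2 (hx0 _)))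
    have hX : ‖castVec x‖ = |(x k : ℝ)| := le_antisymm
      ((pi_norm_le_iff_of_nonneg (abs_nonneg _)).2 fun i => by
        rw [Real.norm_eq_abs]
        show |(x i : ℝ)| ≤ _
        exact_mod_cast hk i (mem_univ i))
      (norm_le_pi_norm (castVec x) k)
    have hX0 : 0 < |(x k : ℝ)| := abs_pos.2 (Int.cast_ne_zero.2 (hx0 k))
    rw [hX, sub_eq_add_neg, Real.rpow_add hX0, Real.rpow_one] at hlt
    rw [hX]
    exact hlt)
  exact ⟨v, mem_biUnion.2 ⟨k, mem_univ k, hv⟩, hvx⟩

/-- Two coordinates on a hyperplane have one of finitely many ratios. -/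
theorem exists_ratios (S : Finset ℕ) {n : ℕ} {v : Fin n → ℤ} (hv : v ≠ 0) :
    ∃ R : Finset ℚ, ∀ x : Fin n → ℤ, (∀ i, IsSUnitQ S (x i : ℚ)) → v ⬝ᵥ x = 0 →
      ∃ i j, i ≠ j ∧ ∃ r ∈ R, (x j : ℚ) = r * x i := by
  classical
  set S' := S ∪ univ.biUnion fun i => primesOf (v i : ℚ)
  set U : Set ℚ := ⋃ B ∈ (univ : Finset (Finset (Fin n))), ⋃ i : B, ⋃ j : B,
    (fun z : B → ℚ => z j * (v i : ℚ) / v j) '' unitSums S' i
  have hU : U.Finite := (univ : Finset (Finset (Fin n))).finite_toSet.biUnion fun B _ =>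
    Set.finite_iUnion fun i => Set.finite_iUnion fun j => (finite_unitSums _ S' rfl i).image _
  refine ⟨hU.toFinset, fun x hx hvx => ?_⟩
  set t : Fin n → ℚ := fun i => (v i : ℚ) * x i
  set A := univ.filter fun i => v i ≠ 0
  have hA : A.Nonempty := by
    obtain ⟨i, hi⟩ := Function.ne_iff.1 hv
    exact ⟨i, mem_filter.2 ⟨mem_univ i, hi⟩⟩
  have htA : ∑ i ∈ A, t i = 0 := by
    rw [show ∑ i ∈ A, t i = ∑ i, t i from sum_filter_of_ne fun i _ h e => h (by simp [t, e])]
    exact (show ((v ⬝ᵥ x : ℤ) : ℚ) = ∑ i, t i by simp [dotProduct, t]).symm.trans (by simp [hvx])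
  -- a vanishing part without vanishing proper part
  obtain ⟨B, hB, hBmin⟩ := exists_min_image (A.powerset.filter fun B =>
    B.Nonempty ∧ ∑ i ∈ B, t i = 0) Finset.card ⟨A, mem_filter.2 ⟨mem_powerset_self A, hA, htA⟩⟩
  obtain ⟨hBA, hBne, hB0⟩ := mem_filter.1 hB
  rw [mem_powerset] at hBA
  have hu : ∀ i ∈ B, IsSUnitQ S' (t i) := fun i hi =>
    (isSUnitQ_of_primesOf (Int.cast_ne_zero.2 (mem_filter.1 (hBA hi)).2)
      ((subset_biUnion_of_mem (fun i => primesOf (v i : ℚ)) (mem_univ i)).trans
        subset_union_right)).mul ((hx i).mono subset_union_left)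
  obtain ⟨i, hi⟩ := hBne
  obtain ⟨j, hj, hji⟩ : ∃ j ∈ B, j ≠ i := by
    by_contra! h
    rw [sum_eq_single_of_mem i hi fun j hj hji => absurd (h j hj) hji] at hB0
    exact (hu i hi).1 hB0
  refine ⟨i, j, hji.symm, (x j : ℚ) / x i, hU.mem_toFinset.2 ?_, (div_mul_cancel₀ _ (hx i).1).symm⟩
  simp only [U, Set.mem_iUnion]
  refine ⟨B, mem_univ B, ⟨i, hi⟩, ⟨j, hj⟩, fun l => t l / t i,
    ⟨fun l => (hu l l.2).div (hu i hi), ?_, fun T hT h0 => ?_, div_self (hu i hi).1⟩, ?_⟩
  · rw [← sum_div, sum_coe_sort B t, hB0, zero_div]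
  · rw [← sum_div, div_eq_zero_iff, or_iff_left (hu i hi).1] at h0
    have hsub : T.map (Function.Embedding.subtype (· ∈ B)) ⊆ B := fun l hl => by
      obtain ⟨b, -, rfl⟩ := mem_map.1 hl
      exact b.2
    have hle := hBmin (T.map (Function.Embedding.subtype (· ∈ B))) (mem_filter.2
      ⟨mem_powerset.2 (hsub.trans hBA), hT.map, by rw [sum_map]; exact h0⟩)
    rw [card_map] at hle
    exact eq_univ_of_card T (le_antisymm (card_le_univ T) (by simpa using hle))
  · show t j / t i * (v i : ℚ) / v j = x j / x i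
    have := (hu i hi).1
    have := Int.cast_ne_zero (α := ℚ).2 (mem_filter.1 (hBA hi)).2
    have := Int.cast_ne_zero (α := ℚ).2 (mem_filter.1 (hBA hj)).2
    have := (hx i).1
    simp only [t]
    field_simp

/-- **Evertse's lower bound.** -/
theorem sumBound (S : Finset ℕ) {ε : ℝ} (hε : 0 < ε) (hε1 : ε < 1) :
    ∀ (n : ℕ) (a : Fin n → ℚ), SumBound S ε a
  | 0, a => ⟨1, one_pos, fun x _ _ => by
      rw [show castVec x = 0 from Subsingleton.elim _ _, norm_zero,
        Real.zero_rpow (show 1 - ε ≠ 0 by linarith), mul_zero]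
      exact abs_nonneg _⟩
  | 1, a => by
      rcases eq_or_ne (a 0) 0 with h | h
      · exact ⟨1, one_pos, fun x _ hT => absurd (by simp [h]) (hT univ univ_nonempty)⟩
      refine ⟨|(a 0 : ℝ)|, abs_pos.2 (Rat.cast_ne_zero.2 h), fun x hx _ => ?_⟩
      have hX : ‖castVec x‖ = |(x 0 : ℝ)| := le_antisymm
        ((pi_norm_le_iff_of_nonneg (abs_nonneg _)).2 fun i => by
          rw [Subsingleton.elim i 0, Real.norm_eq_abs]; exact le_rfl)
        (norm_le_pi_norm (castVec x) 0)
      have h1 : (1 : ℝ) ≤ |(x 0 : ℝ)| := by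
        exact_mod_cast Int.one_le_abs (Int.cast_ne_zero.1 (hx 0).1)
      rw [hX, Fin.sum_univ_one]
      push_cast
      rw [abs_mul]
      refine mul_le_mul_of_nonneg_left ?_ (abs_nonneg _)
      conv_rhs => rw [← Real.rpow_one |(x 0 : ℝ)|]
      exact Real.rpow_le_rpow_of_exponent_le h1 (by linarith)
  | n + 2, a => by
      classical
      by_cases ha : ∀ i, a i ≠ 0
      swap
      · push Not at ha
        obtain ⟨i, hi⟩ := ha
        exact ⟨1, one_pos, fun x _ hT => absurd (by simp [hi]) (hT {i} (singleton_nonempty i))⟩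
      obtain ⟨V, hV, hVx⟩ := exists_hyperplanes_of_small S hε ha
      choose! R hR using fun v (hv : v ∈ V) => exists_ratios S (hV v hv)
      set a' : Fin (n + 2) → Fin (n + 2) → ℚ → Fin (n + 1) → ℚ := fun i j r l =>
        a (j.succAbove l) + if j.succAbove l = i then a j * r else 0
      choose C hC0 hC using fun i j r => sumBound S hε hε1 (n + 1) (a' i j r)
      set I : Finset (Fin (n + 2) × Fin (n + 2) × ℚ) := univ ×ˢ univ ×ˢ V.biUnion R
      set Cs := insert (1 : ℝ) (I.image fun p => C p.1 p.2.1 p.2.2 / (1 + |(p.2.2 : ℝ)|))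
      have hpos : ∀ c ∈ Cs, 0 < c := fun c hc => by
        rcases mem_insert.1 hc with rfl | h
        · exact one_pos
        · obtain ⟨p, -, rfl⟩ := mem_image.1 h
          have := hC0 p.1 p.2.1 p.2.2
          positivity
      have hne : Cs.Nonempty := insert_nonempty _ _
      refine ⟨Cs.min' hne, hpos _ (min'_mem _ _), fun x hx hT => ?_⟩
      set X := ‖castVec x‖
      have hXnn : 0 ≤ X ^ (1 - ε) := by positivity
      rcases le_or_gt (X ^ (1 - ε)) |((∑ i, a i * x i : ℚ) : ℝ)| with hbig | hsmall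
      · exact le_trans (mul_le_of_le_one_left hXnn (min'_le _ _ (mem_insert_self _ _))) hbig
      obtain ⟨v, hv, hvx⟩ := hVx x hx hsmall
      obtain ⟨i, j, hij, r, hr, hxr⟩ := hR v hv x hx hvx
      set y : Fin (n + 1) → ℤ := fun l => x (j.succAbove l)
      obtain ⟨l₀, hl₀⟩ := Fin.exists_succAbove_eq hij
      have hsum : ∀ T : Finset (Fin (n + 1)), ∑ l ∈ T, a' i j r l * y l =
          ∑ m ∈ T.map j.succAboveEmb, a m * x m + if l₀ ∈ T then a j * x j else 0 := fun T => by
        simp only [a', y, add_mul, sum_add_distrib, ite_mul, zero_mul, sum_map,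
          Fin.coe_succAboveEmb]
        refine congrArg₂ _ rfl ?_
        simp only [← hl₀, Fin.succAbove_right_inj, sum_ite_eq']
        rw [hl₀, hxr, mul_assoc]
      have hjT : ∀ T : Finset (Fin (n + 1)), j ∉ T.map j.succAboveEmb := fun T h => by
        obtain ⟨l, -, hl⟩ := mem_map.1 h
        exact Fin.succAbove_ne j l hl
      have hT' : ∀ T : Finset (Fin (n + 1)), T.Nonempty → ∑ l ∈ T, a' i j r l * y l ≠ 0 :=
        fun T hTne => by
          rw [hsum]
          split_ifs
          · rw [add_comm, ← sum_insert (f := fun m => a m * (x m : ℚ)) (hjT T)]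
            exact hT _ (insert_nonempty _ _)
          · rw [add_zero]
            exact hT _ hTne.map
      have h1 := hC i j r y (fun l => hx _) hT'
      have htot : ∑ l, a' i j r l * y l = ∑ m, a m * x m := by
        rw [hsum, if_pos (mem_univ _), Fin.sum_univ_succAbove (fun m => a m * (x m : ℚ)) j,
          sum_map, add_comm]
        rfl
      rw [htot] at h1
      refine le_trans ?_ h1
      have hr0 : (0 : ℝ) < 1 + |(r : ℝ)| := by positivity
      have hXY : X ≤ (1 + |(r : ℝ)|) * ‖castVec y‖ :=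
        (pi_norm_le_iff_of_nonneg (by positivity)).2 fun m => by
          rcases eq_or_ne m j with rfl | hm
          · have h2 : (x m : ℝ) = r * (y l₀ : ℝ) := by
              have := congrArg (fun q : ℚ => (q : ℝ)) hxr
              push_cast at this
              rw [this, ← hl₀]
            rw [Real.norm_eq_abs]
            show |(x m : ℝ)| ≤ _
            rw [h2, abs_mul]
            refine mul_le_mul (le_add_of_nonneg_left zero_le_one) ?_ (abs_nonneg _) hr0.le
            exact norm_le_pi_norm (castVec y) l₀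
          · obtain ⟨l, rfl⟩ := Fin.exists_succAbove_eq hm
            exact (norm_le_pi_norm (castVec y) l).trans
              (le_mul_of_one_le_left (norm_nonneg _) (le_add_of_nonneg_right (abs_nonneg _)))
      calc Cs.min' hne * X ^ (1 - ε)
          ≤ C i j r / (1 + |(r : ℝ)|) * ((1 + |(r : ℝ)|) * ‖castVec y‖ ^ (1 - ε)) := by
            refine mul_le_mul (min'_le _ _ (mem_insert_of_mem (mem_image.2
              ⟨(i, j, r), mem_product.2 ⟨mem_univ i, mem_product.2 ⟨mem_univ j,
                mem_biUnion.2 ⟨v, hv, hr⟩⟩⟩, rfl⟩))) ?_ hXnn (div_nonneg (hC0 i j r).le hr0.le)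
            refine (Real.rpow_le_rpow (norm_nonneg _) hXY (by linarith)).trans ?_
            rw [Real.mul_rpow hr0.le (norm_nonneg _)]
            refine mul_le_mul_of_nonneg_right ?_ (by positivity)
            conv_rhs => rw [← Real.rpow_one (1 + |(r : ℝ)|)]
            exact Real.rpow_le_rpow_of_exponent_le (le_add_of_nonneg_right (abs_nonneg _))
              (by linarith)
        _ = C i j r * ‖castVec y‖ ^ (1 - ε) := by field_simp

end FA.Subspace

end
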